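/-
PROGRAM DS (S48), part G1, AREA F — THE FUNCTION FIELD `F1(M)` OF `Γ₁(M)` (ruling R1 of G1 DEAL #1,
captain helper210).  Definitions only.

The `ℚ`-model is the one in which the standard cusp `∞` is rational: `F1Q M ⊆ ℚ((q))` is generated
over `ℚ` by

* the series `j(q^d)`, `d ∣ M` (Prelude `divisorExpansions M`, i.e. the generators of the function
  field of `Γ₀(M)`), and
* the series `gq M b`, `b ∈ (ℤ/M)ˣ`: the `q`-expansion of `g_b := EE_b · E₄² / Δ`, where `EE_b` is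
  the normalised weight-4 partial Eisenstein series
      `EE_b(τ) = c · ∑_{(m,n) ∈ ℤ², m ≡ ±b (M)} (mτ + n)⁻⁴ = ∑_{n ≥ 1} (∑_{c ∣ n, c ≡ ±b (M)} (n/c)³) qⁿ`.
  `g_b` is holomorphic on `ℍ`, `Γ₁(M)`-invariant, and `g_b ∘ γ = g_{b·d⁻¹}` for `γ ∈ Γ₀(M)` with
  lower right entry `d`; `gq M b ∈ ℤ((q))` with leading term `q^(b₀-1)`, `b₀` the representative
  of `±b` in `[1, M/2]`, leading coefficient `1` (or `2` if `M ≤ 2`).

`F1 M := laurentBaseChange ℚ̄ (F1Q M)`, so that the Prelude's generic `arithmeticRingAut (F1Q M)`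
(coefficientwise Galois action) and `Place ℚ̄ (F1 M)` apply, and `modularFunctionFieldBar M ≤ F1 M`.
-/
import Mathlib
import Fermat.Prelude.Def_ModularCurve_X0
import Fermat.Prelude.Def_ModularCurve_LaurentCoeff
import Fermat.Prelude.Def_ModularCurve_ArithmeticGalois

set_option autoImplicit false

noncomputable section

open ModularCurve

namespace Fermat.Agent.S48.G1.F1

/-- `ℚ̄`. -/
abbrev Qb : Type := AlgebraicClosure ℚ

/-- The `q`-series of the normalised weight-4 partial Eisenstein series attached to `±b`: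
`∑_{n ≥ 1} (∑_{c ∣ n, c ≡ ±b (M)} (n/c)³) qⁿ`. -/
def eeSeries (M : ℕ) (b : ZMod M) : PowerSeries ℤ :=
  PowerSeries.mk fun n =>
    ∑ c ∈ n.divisors, if ((c : ℕ) : ZMod M) = b ∨ ((c : ℕ) : ZMod M) = -b
      then (((n / c : ℕ) : ℤ)) ^ 3 else 0

theorem coeff_eeSeries (M : ℕ) (b : ZMod M) (n : ℕ) :
    PowerSeries.coeff n (eeSeries M b) =
      ∑ c ∈ n.divisors, if ((c : ℕ) : ZMod M) = b ∨ ((c : ℕ) : ZMod M) = -b
        then (((n / c : ℕ) : ℤ)) ^ 3 else 0 := by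
  rw [eeSeries, PowerSeries.coeff_mk]

theorem eeSeries_neg (M : ℕ) (b : ZMod M) : eeSeries M (-b) = eeSeries M b := by
  ext n
  rw [coeff_eeSeries, coeff_eeSeries]
  refine Finset.sum_congr rfl fun c _ => ?_
  rw [neg_neg]
  simp only [or_comm]

/-- `q · g_b` as an integral power series: `EE_b · E₄² · (Δ/q)⁻¹`. -/
def gNum (M : ℕ) (b : ZMod M) : PowerSeries ℤ :=
  eeSeries M b * eisenstein4 ^ 2 * dedekindEtaUnitInv

/-- The `q`-expansion of `g_b = EE_b · E₄² / Δ`, a Laurent series with integer coefficients. -/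
def gq (M : ℕ) (b : ZMod M) : LaurentSeries ℚ :=
  HahnSeries.single (-1 : ℤ) 1 *
    HahnSeries.ofPowerSeries ℤ ℚ ((gNum M b).map (Int.castRingHom ℚ))

theorem gq_neg (M : ℕ) (b : ZMod M) : gq M (-b) = gq M b := by
  rw [gq, gq, gNum, gNum, eeSeries_neg]

/-- The third family of generators: the `gq M b`, `b ∈ (ℤ/M)ˣ`. -/
def eisExpansions (M : ℕ) : Set (LaurentSeries ℚ) :=
  {x | ∃ b : (ZMod M)ˣ, x = gq M (b : ZMod M)}

theorem mem_eisExpansions (M : ℕ) (b : (ZMod M)ˣ) : gq M (b : ZMod M) ∈ eisExpansions M :=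
  ⟨b, rfl⟩

/-- The generators of `F1Q M`: the `j(q^d)`, `d ∣ M`, and the `gq M b`, `b ∈ (ℤ/M)ˣ`. -/
def gens1Q (M : ℕ) : Set (LaurentSeries ℚ) := divisorExpansions M ∪ eisExpansions M

/-- **The function field of `Γ₁(M)` over `ℚ`** (the model with the cusp `∞` rational). -/
def F1Q (M : ℕ) : IntermediateField ℚ (LaurentSeries ℚ) :=
  IntermediateField.adjoin ℚ (gens1Q M)

theorem gq_mem_F1Q (M : ℕ) (b : (ZMod M)ˣ) : gq M (b : ZMod M) ∈ F1Q M :=
  IntermediateField.subset_adjoin ℚ _ (Or.inr (mem_eisExpansions M b))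

theorem jqd_mem_F1Q (M : ℕ) {d : ℕ} [NeZero d] (hd : d ∣ M) : qExpand ℚ d jq ∈ F1Q M :=
  IntermediateField.subset_adjoin ℚ _ (Or.inl (mem_divisorExpansions M hd))

/-- The function field of `Γ₀(M)` is contained in that of `Γ₁(M)`. -/
theorem full_le_F1Q (M : ℕ) : modularFunctionFieldFull M ≤ F1Q M :=
  IntermediateField.adjoin.mono ℚ _ _ Set.subset_union_left

/-- **The function field of `Γ₁(M)` over `ℚ̄`**, inside `ℚ̄((q))`. -/
abbrev F1 (M : ℕ) : IntermediateField Qb (LaurentSeries Qb) :=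
  laurentBaseChange Qb (F1Q M)

/-- The generators of `F1 M` over `ℚ̄`. -/
def gens1 (M : ℕ) : Set (LaurentSeries Qb) := ⇑(coeffEmb Qb) '' gens1Q M

/-- The coordinate ring: the `ℚ̄`-subalgebra of `F1 M` generated by the generators. -/
def A01 (M : ℕ) : Subalgebra Qb (F1 M) :=
  (Algebra.adjoin Qb (gens1 M)).comap (F1 M).val

/-- The coefficientwise action of `Gal(ℚ̄/ℚ)` on `F1 M`. -/
def galF1 (M : ℕ) (σ : Qb ≃ₐ[ℚ] Qb) : F1 M ≃+* F1 M :=
  arithmeticRingAut (F1Q M) σ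

@[simp]
theorem coe_galF1 (M : ℕ) (σ : Qb ≃ₐ[ℚ] Qb) (x : F1 M) :
    ((galF1 M σ x : F1 M) : LaurentSeries Qb)
      = coeffMap (σ : Qb →+* Qb) (x : LaurentSeries Qb) :=
  rfl

theorem modularFunctionFieldBar_le_F1 (M : ℕ) : modularFunctionFieldBar M ≤ F1 M := by
  refine IntermediateField.adjoin.mono Qb _ _ ?_
  rintro _ ⟨x, hx, rfl⟩
  exact ⟨x, full_le_F1Q M hx, rfl⟩

end Fermat.Agent.S48.G1.F1
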