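/-
PROGRAM DS (S48) / G1 / AREA F, row F.3 (helper71): the GENERIC induced automorphism.

Setting: `A` a commutative ring with fraction field `F`, `θ : A →+* H` an injective ring
homomorphism into a commutative ring `H` (for G1: `A = A01 M`, `F = F1 M`, `H = HolH`,
`θ = theta1`), and a ring endomorphism `c` of `H` preserving the image of `θ`
(for G1: `c = compSL γ`, `γ ∈ Γ₀(M)`).

* `liftA hθ c hc : A →+* A` with `θ (liftA a) = c (θ a)`;
* `liftF hθ c hc hinj : F →+* F` extending it, with the composition and identity laws, and the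
  ring automorphism `liftEquiv` attached to a mutually inverse pair;
* `ringHom_ext_of_le_adjoin` : two ring homomorphisms out of `K(S)` agreeing on `K` and on `S`
  are equal;  `comm_of_gens` : a `K`-linear endomorphism permuting `S` commutes with a
  semilinear endomorphism fixing `S` pointwise (diamonds commute with the coefficientwise
  Galois action).

Mathlib only.
-/
import Mathlib

set_option autoImplicit false

namespace Fermat.Agent.S48.G1.DiaGen

section Lift

variable {A F H : Type*} [CommRing A] [Field F] [Algebra A F] [IsFractionRing A F] [CommRing H]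

/-- The ring endomorphism `c` of `H` preserves the image of `θ`. -/
def Preserves (θ : A →+* H) (c : H →+* H) : Prop := ∀ a : A, ∃ a' : A, θ a' = c (θ a)

variable {θ : A →+* H}

/-- Underlying function of `liftA`. -/
noncomputable def liftFun (c : H →+* H) (hc : Preserves θ c) (a : A) : A := (hc a).choose

theorem theta_liftFun (c : H →+* H) (hc : Preserves θ c) (a : A) :
    θ (liftFun c hc a) = c (θ a) := (hc a).choose_spec

/-- The ring endomorphism of `A` induced by `c`: `θ (liftA a) = c (θ a)`. -/
noncomputable def liftA (hθ : Function.Injective θ) (c : H →+* H) (hc : Preserves θ c) :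
    A →+* A where
  toFun := liftFun c hc
  map_one' := hθ (by rw [theta_liftFun, map_one, map_one])
  map_mul' x y := hθ (by
    rw [theta_liftFun, map_mul, map_mul, map_mul, theta_liftFun, theta_liftFun])
  map_zero' := hθ (by rw [theta_liftFun, map_zero, map_zero])
  map_add' x y := hθ (by
    rw [theta_liftFun, map_add, map_add, map_add, theta_liftFun, theta_liftFun])

theorem theta_liftA (hθ : Function.Injective θ) (c : H →+* H) (hc : Preserves θ c) (a : A) :
    θ (liftA hθ c hc a) = c (θ a) := theta_liftFun c hc a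

/-- `liftA` is characterised by `θ (liftA a) = c (θ a)`. -/
theorem liftA_eq (hθ : Function.Injective θ) (c : H →+* H) (hc : Preserves θ c) {a a' : A}
    (h : θ a' = c (θ a)) : liftA hθ c hc a = a' :=
  hθ (by rw [theta_liftA, h])

theorem liftA_injective (hθ : Function.Injective θ) (c : H →+* H) (hc : Preserves θ c)
    (hinj : Function.Injective c) : Function.Injective (liftA hθ c hc) := by
  intro x y h
  apply hθ
  apply hinj
  rw [← theta_liftA hθ c hc, ← theta_liftA hθ c hc, h]

theorem liftA_comp (hθ : Function.Injective θ) {c₁ c₂ c₃ : H →+* H} (hc₁ : Preserves θ c₁)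
    (hc₂ : Preserves θ c₂) (hc₃ : Preserves θ c₃) (h : ∀ a : A, c₁ (c₂ (θ a)) = c₃ (θ a))
    (a : A) : liftA hθ c₁ hc₁ (liftA hθ c₂ hc₂ a) = liftA hθ c₃ hc₃ a :=
  hθ (by rw [theta_liftA, theta_liftA, theta_liftA, h])

theorem liftA_id (hθ : Function.Injective θ) {c : H →+* H} (hc : Preserves θ c)
    (h : ∀ a : A, c (θ a) = θ a) (a : A) : liftA hθ c hc a = a :=
  hθ (by rw [theta_liftA, h])

/-- `liftA` depends only on the restriction of `c` to the image of `θ`. -/
theorem liftA_congr (hθ : Function.Injective θ) {c c' : H →+* H} (hc : Preserves θ c)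
    (hc' : Preserves θ c') (h : ∀ a : A, c (θ a) = c' (θ a)) (a : A) :
    liftA hθ c hc a = liftA hθ c' hc' a :=
  hθ (by rw [theta_liftA, theta_liftA, h])

variable (F) in
/-- The ring endomorphism of the fraction field `F` of `A` induced by `c`. -/
noncomputable def liftF (hθ : Function.Injective θ) (c : H →+* H) (hc : Preserves θ c)
    (hinj : Function.Injective c) : F →+* F :=
  IsFractionRing.lift (g := (algebraMap A F).comp (liftA hθ c hc))
    ((IsFractionRing.injective A F).comp (liftA_injective hθ c hc hinj))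

theorem liftF_algebraMap (hθ : Function.Injective θ) (c : H →+* H) (hc : Preserves θ c)
    (hinj : Function.Injective c) (a : A) :
    liftF F hθ c hc hinj (algebraMap A F a) = algebraMap A F (liftA hθ c hc a) :=
  IsFractionRing.lift_algebraMap _ a

/-- Two ring homomorphisms out of the fraction field agreeing on `A` are equal. -/
theorem ringHom_ext_frac {R : Type*} [Semiring R] {φ ψ : F →+* R}
    (h : ∀ a : A, φ (algebraMap A F a) = ψ (algebraMap A F a)) : φ = ψ :=
  IsLocalization.ringHom_ext (nonZeroDivisors A) (RingHom.ext h)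

theorem liftF_comp (hθ : Function.Injective θ) {c₁ c₂ c₃ : H →+* H} (hc₁ : Preserves θ c₁)
    (hc₂ : Preserves θ c₂) (hc₃ : Preserves θ c₃) (h₁ : Function.Injective c₁)
    (h₂ : Function.Injective c₂) (h₃ : Function.Injective c₃)
    (h : ∀ a : A, c₁ (c₂ (θ a)) = c₃ (θ a)) (x : F) :
    liftF F hθ c₁ hc₁ h₁ (liftF F hθ c₂ hc₂ h₂ x) = liftF F hθ c₃ hc₃ h₃ x := by
  have key : (liftF F hθ c₁ hc₁ h₁).comp (liftF F hθ c₂ hc₂ h₂) = liftF F hθ c₃ hc₃ h₃ := by
    refine ringHom_ext_frac (A := A) fun a => ?_
    rw [RingHom.comp_apply, liftF_algebraMap, liftF_algebraMap, liftF_algebraMap,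
      liftA_comp hθ hc₁ hc₂ hc₃ h]
  exact congrArg (fun φ : F →+* F => φ x) key

theorem liftF_id (hθ : Function.Injective θ) {c : H →+* H} (hc : Preserves θ c)
    (hinj : Function.Injective c) (h : ∀ a : A, c (θ a) = θ a) (x : F) :
    liftF F hθ c hc hinj x = x := by
  have key : liftF F hθ c hc hinj = RingHom.id F := by
    refine ringHom_ext_frac (A := A) fun a => ?_
    rw [liftF_algebraMap, liftA_id hθ hc h, RingHom.id_apply]
  exact congrArg (fun φ : F →+* F => φ x) key

theorem liftF_congr (hθ : Function.Injective θ) {c c' : H →+* H} (hc : Preserves θ c)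
    (hc' : Preserves θ c') (hinj : Function.Injective c) (hinj' : Function.Injective c')
    (h : ∀ a : A, c (θ a) = c' (θ a)) (x : F) :
    liftF F hθ c hc hinj x = liftF F hθ c' hc' hinj' x := by
  have key : liftF F hθ c hc hinj = liftF F hθ c' hc' hinj' := by
    refine ringHom_ext_frac (A := A) fun a => ?_
    rw [liftF_algebraMap, liftF_algebraMap, liftA_congr hθ hc hc' h]
  exact congrArg (fun φ : F →+* F => φ x) key

variable (F) in
/-- The ring automorphism of `F` induced by a pair `c`, `c'` of endomorphisms of `H` preserving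
the image of `θ` and mutually inverse on it. -/
noncomputable def liftEquiv (hθ : Function.Injective θ) (c c' : H →+* H) (hc : Preserves θ c)
    (hc' : Preserves θ c') (hinj : Function.Injective c) (hinj' : Function.Injective c')
    (h : ∀ a : A, c (c' (θ a)) = θ a) (h' : ∀ a : A, c' (c (θ a)) = θ a) : F ≃+* F :=
  RingEquiv.ofRingHom (liftF F hθ c hc hinj) (liftF F hθ c' hc' hinj')
    (RingHom.ext fun x => by
      have hid : Preserves θ (RingHom.id H) := fun a => ⟨a, rfl⟩
      rw [RingHom.comp_apply, liftF_comp hθ hc hc' hid hinj hinj' Function.injective_id h,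
        liftF_id hθ hid Function.injective_id (fun _ => rfl), RingHom.id_apply])
    (RingHom.ext fun x => by
      have hid : Preserves θ (RingHom.id H) := fun a => ⟨a, rfl⟩
      rw [RingHom.comp_apply, liftF_comp hθ hc' hc hid hinj' hinj Function.injective_id h',
        liftF_id hθ hid Function.injective_id (fun _ => rfl), RingHom.id_apply])

theorem liftEquiv_apply (hθ : Function.Injective θ) (c c' : H →+* H) (hc : Preserves θ c)
    (hc' : Preserves θ c') (hinj : Function.Injective c) (hinj' : Function.Injective c')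
    (h : ∀ a : A, c (c' (θ a)) = θ a) (h' : ∀ a : A, c' (c (θ a)) = θ a) (x : F) :
    liftEquiv F hθ c c' hc hc' hinj hinj' h h' x = liftF F hθ c hc hinj x := rfl

theorem liftEquiv_symm_apply (hθ : Function.Injective θ) (c c' : H →+* H) (hc : Preserves θ c)
    (hc' : Preserves θ c') (hinj : Function.Injective c) (hinj' : Function.Injective c')
    (h : ∀ a : A, c (c' (θ a)) = θ a) (h' : ∀ a : A, c' (c (θ a)) = θ a) (x : F) :
    (liftEquiv F hθ c c' hc hc' hinj hinj' h h').symm x = liftF F hθ c' hc' hinj' x := rfl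

end Lift

section Ext

variable {K E R : Type*} [Field K] [Field E] [Algebra K E] [DivisionRing R]

/-- Two ring homomorphisms out of `K(S)` agreeing on `K` and on `S` are equal. -/
theorem ringHom_ext_adjoin (S : Set E) (φ ψ : ↥(IntermediateField.adjoin K S) →+* R)
    (hK : ∀ c : K, φ (algebraMap K _ c) = ψ (algebraMap K _ c))
    (hS : ∀ (s : E) (hs : s ∈ S), φ ⟨s, IntermediateField.subset_adjoin K S hs⟩ =
      ψ ⟨s, IntermediateField.subset_adjoin K S hs⟩) : φ = ψ := by
  refine RingHom.ext fun x => ?_
  obtain ⟨x, hx⟩ := x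
  induction hx using IntermediateField.adjoin_induction with
  | mem x hx => exact hS x hx
  | algebraMap c => exact hK c
  | add x y hx hy ihx ihy =>
    have e : (⟨x + y, add_mem hx hy⟩ : ↥(IntermediateField.adjoin K S)) = ⟨x, hx⟩ + ⟨y, hy⟩ := rfl
    rw [e, map_add, map_add, ihx, ihy]
  | inv x hx ihx =>
    have e : (⟨x⁻¹, inv_mem hx⟩ : ↥(IntermediateField.adjoin K S)) = (⟨x, hx⟩)⁻¹ := rfl
    rw [e, map_inv₀, map_inv₀, ihx]
  | mul x y hx hy ihx ihy =>
    have e : (⟨x * y, mul_mem hx hy⟩ : ↥(IntermediateField.adjoin K S)) = ⟨x, hx⟩ * ⟨y, hy⟩ := rfl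
    rw [e, map_mul, map_mul, ihx, ihy]

/-- Two ring homomorphisms out of an intermediate field `F'` generated by `S` over `K`, agreeing
on `K` and on `S`, are equal. -/
theorem ringHom_ext_of_le_adjoin (S : Set E) (F' : IntermediateField K E) (hS : S ⊆ F')
    (hle : F' ≤ IntermediateField.adjoin K S) (φ ψ : ↥F' →+* R)
    (hK : ∀ c : K, φ (algebraMap K F' c) = ψ (algebraMap K F' c))
    (hgen : ∀ (s : E) (hs : s ∈ S), φ ⟨s, hS hs⟩ = ψ ⟨s, hS hs⟩) : φ = ψ := by
  obtain rfl : F' = IntermediateField.adjoin K S :=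
    le_antisymm hle (IntermediateField.adjoin_le_iff.mpr hS)
  exact ringHom_ext_adjoin S φ ψ hK hgen

/-- A `K`-linear ring endomorphism `D` permuting the generators commutes with a `τ`-semilinear
ring endomorphism `G` fixing the generators. -/
theorem comm_of_gens (S : Set E) (F' : IntermediateField K E) (hS : S ⊆ F')
    (hle : F' ≤ IntermediateField.adjoin K S) (D G : ↥F' →+* ↥F') (τ : K →+* K)
    (hD : ∀ c : K, D (algebraMap K F' c) = algebraMap K F' c)
    (hG : ∀ c : K, G (algebraMap K F' c) = algebraMap K F' (τ c))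
    (hGS : ∀ (s : E) (hs : s ∈ S), G ⟨s, hS hs⟩ = ⟨s, hS hs⟩)
    (hDS : ∀ (s : E) (hs : s ∈ S), ∃ (s' : E) (hs' : s' ∈ S), D ⟨s, hS hs⟩ = ⟨s', hS hs'⟩)
    (x : ↥F') : D (G x) = G (D x) := by
  have key : D.comp G = G.comp D := by
    refine ringHom_ext_of_le_adjoin S F' hS hle _ _ ?_ ?_
    · intro c
      rw [RingHom.comp_apply, RingHom.comp_apply, hG, hD, hD, hG]
    · intro s hs
      obtain ⟨s', hs', h⟩ := hDS s hs
      rw [RingHom.comp_apply, RingHom.comp_apply, hGS s hs, h, hGS s' hs']
  exact congrArg (fun φ : ↥F' →+* ↥F' => φ x) key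

end Ext

end Fermat.Agent.S48.G1.DiaGen
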