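/-
PROGRAM DS (S48) / G1 / AREA F, row F.3 (helper71): THE DIAMOND AUTOMORPHISMS `diaF1 M u` OF `F1 M`
— definition and all FORMAL properties.

`IsDia M u D` : the `ℚ̄`-algebra automorphism `D` of `F1 M` fixes the generators `j(q^d)` (`d ∣ M`)
and sends the generator `g_b` (`q`-expansion `gq M b`) to `g_{b u⁻¹}`.  Since the generators
generate `F1 M` as a field over `ℚ̄`, there is AT MOST ONE such `D` (`IsDia.unique`), and

  `diaF1 M u : F1 M ≃ₐ[ℚ̄] F1 M`  :=  that automorphism (junk value `refl` if there is none).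

EXISTENCE is the only analytic input (`⟨u⟩ f = f ∘ γ_u`, `γ_u ∈ Γ₀(M)` with lower right entry
`≡ u`; file `F1/Dia.lean`, from `theta1` and the `Γ₀(M)`-law of the `g_b`).  Everything below is
formal; the statements marked UNCONDITIONAL hold whether or not the automorphism exists:

* `diaF1_one`, `diaF1_neg_one` (UNCONDITIONAL): `⟨1⟩ = ⟨-1⟩ = id`;
* `diaF1_mul`, `diaF1_inv` (given existence): `⟨u v⟩ = ⟨u⟩ ⟨v⟩`, `⟨u⁻¹⟩ = ⟨u⟩⁻¹`;
* `diaF1_galF1` (UNCONDITIONAL): `⟨u⟩` commutes with the coefficientwise Galois action;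
* `diaF1_mem_adjoin`, `diaF1_mem_A01` (UNCONDITIONAL): `⟨u⟩` preserves the coordinate ring
  `A01 M` (the only diamond input of the ES congruence, helper209 #4767);
* `diaF1_jElt`, `diaF1_gElt` (given existence): the values on the generators.
-/
import Mathlib
import Fermat.Agent.S48.G1.F1.Defs
import Fermat.Agent.S48.G1.F1.DiaGen
import Fermat.Agent.S24.DegreeGen

set_option autoImplicit false

noncomputable section

open ModularCurve

namespace Fermat.Agent.S48.G1.F1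

/-- `D` is a diamond automorphism of `F1 M` for `u`: it fixes the `j(q^d)`, `d ∣ M`, and sends
the element with `q`-expansion `gq M b` to the element with `q`-expansion `gq M (b u⁻¹)`. -/
def IsDia (M : ℕ) (u : (ZMod M)ˣ) (D : F1 M ≃ₐ[Qb] F1 M) : Prop :=
  (∀ x : F1 M, (x : LaurentSeries Qb) ∈ ⇑(coeffEmb Qb) '' divisorExpansions M → D x = x) ∧
  ∀ (b : (ZMod M)ˣ) (x : F1 M), (x : LaurentSeries Qb) = coeffEmb Qb (gq M (b : ZMod M)) →
    ((D x : F1 M) : LaurentSeries Qb) = coeffEmb Qb (gq M ((b * u⁻¹ : (ZMod M)ˣ) : ZMod M))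

namespace Dia

/-- The generators lie in `F1 M`. -/
theorem gens1_subset (M : ℕ) : gens1 M ⊆ (F1 M : Set (LaurentSeries Qb)) := by
  rintro _ ⟨x, hx, rfl⟩
  exact coeffEmb_mem_laurentBaseChange Qb (IntermediateField.subset_adjoin ℚ _ hx)

/-- `F1 M` is generated over `ℚ̄` by the generators. -/
theorem F1_le_adjoin (M : ℕ) : F1 M ≤ IntermediateField.adjoin Qb (gens1 M) :=
  (Fermat.Agent.S24.DegreeGen.laurentBaseChange_adjoin Qb (gens1Q M)).le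

theorem mem_gens1_cases {M : ℕ} {s : LaurentSeries Qb} (hs : s ∈ gens1 M) :
    s ∈ ⇑(coeffEmb Qb) '' divisorExpansions M ∨
      ∃ b : (ZMod M)ˣ, s = coeffEmb Qb (gq M (b : ZMod M)) := by
  obtain ⟨x, hx | ⟨b, rfl⟩, rfl⟩ := hs
  · exact Or.inl ⟨x, hx, rfl⟩
  · exact Or.inr ⟨b, rfl⟩

theorem jSeries_mem_gens1 (M : ℕ) {d : ℕ} [NeZero d] (hd : d ∣ M) :
    coeffEmb Qb (qExpand ℚ d jq) ∈ gens1 M :=
  ⟨_, Or.inl (mem_divisorExpansions M hd), rfl⟩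

theorem gSeries_mem_gens1 (M : ℕ) (b : (ZMod M)ˣ) : coeffEmb Qb (gq M (b : ZMod M)) ∈ gens1 M :=
  ⟨_, Or.inr (mem_eisExpansions M b), rfl⟩

/-- The element `j(q^d)` of `F1 M`. -/
def jElt (M : ℕ) (d : ℕ) [NeZero d] (hd : d ∣ M) : F1 M :=
  ⟨coeffEmb Qb (qExpand ℚ d jq), gens1_subset M (jSeries_mem_gens1 M hd)⟩

/-- The element `g_b` of `F1 M` (`q`-expansion `gq M b`). -/
def gElt (M : ℕ) (b : (ZMod M)ˣ) : F1 M :=
  ⟨coeffEmb Qb (gq M (b : ZMod M)), gens1_subset M (gSeries_mem_gens1 M b)⟩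

@[simp] theorem coe_jElt (M : ℕ) (d : ℕ) [NeZero d] (hd : d ∣ M) :
    ((jElt M d hd : F1 M) : LaurentSeries Qb) = coeffEmb Qb (qExpand ℚ d jq) := rfl

@[simp] theorem coe_gElt (M : ℕ) (b : (ZMod M)ˣ) :
    ((gElt M b : F1 M) : LaurentSeries Qb) = coeffEmb Qb (gq M (b : ZMod M)) := rfl

theorem gElt_neg (M : ℕ) (b : (ZMod M)ˣ) : gElt M (-b) = gElt M b := by
  apply Subtype.ext
  rw [coe_gElt, coe_gElt, Units.val_neg, gq_neg]

theorem coe_jElt_mem (M : ℕ) (d : ℕ) [NeZero d] (hd : d ∣ M) :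
    ((jElt M d hd : F1 M) : LaurentSeries Qb) ∈ ⇑(coeffEmb Qb) '' divisorExpansions M :=
  ⟨_, mem_divisorExpansions M hd, rfl⟩

end Dia

open Dia

/-! ### Uniqueness and the group law -/

theorem IsDia.apply_jElt {M : ℕ} {u : (ZMod M)ˣ} {D : F1 M ≃ₐ[Qb] F1 M} (h : IsDia M u D)
    (d : ℕ) [NeZero d] (hd : d ∣ M) : D (jElt M d hd) = jElt M d hd :=
  h.1 _ (coe_jElt_mem M d hd)

theorem IsDia.apply_gElt {M : ℕ} {u : (ZMod M)ˣ} {D : F1 M ≃ₐ[Qb] F1 M} (h : IsDia M u D)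
    (b : (ZMod M)ˣ) : D (gElt M b) = gElt M (b * u⁻¹) :=
  Subtype.ext (h.2 b _ rfl)

/-- There is at most one diamond automorphism for `u`. -/
theorem IsDia.unique {M : ℕ} {u : (ZMod M)ˣ} {D D' : F1 M ≃ₐ[Qb] F1 M} (h : IsDia M u D)
    (h' : IsDia M u D') : D = D' := by
  have key : ((D : F1 M ≃+* F1 M) : F1 M →+* F1 M) = ((D' : F1 M ≃+* F1 M) : F1 M →+* F1 M) := by
    refine DiaGen.ringHom_ext_of_le_adjoin (gens1 M) (F1 M) (gens1_subset M) (F1_le_adjoin M)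
      _ _ ?_ ?_
    · intro c
      show D (algebraMap Qb (F1 M) c) = D' (algebraMap Qb (F1 M) c)
      rw [D.commutes, D'.commutes]
    · intro s hs
      show D ⟨s, _⟩ = D' ⟨s, _⟩
      rcases mem_gens1_cases hs with h1 | ⟨b, rfl⟩
      · rw [h.1 _ h1, h'.1 _ h1]
      · apply Subtype.ext
        rw [h.2 b _ rfl, h'.2 b _ rfl]
  exact AlgEquiv.ext fun x => congrArg (fun φ : F1 M →+* F1 M => φ x) key

theorem isDia_one (M : ℕ) : IsDia M 1 (AlgEquiv.refl : F1 M ≃ₐ[Qb] F1 M) := by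
  refine ⟨fun x _ => rfl, fun b x hx => ?_⟩
  rw [inv_one, mul_one]
  exact hx

theorem isDia_neg_one (M : ℕ) : IsDia M (-1) (AlgEquiv.refl : F1 M ≃ₐ[Qb] F1 M) := by
  refine ⟨fun x _ => rfl, fun b x hx => ?_⟩
  have e : (b * (-1 : (ZMod M)ˣ)⁻¹ : (ZMod M)ˣ) = -b := by
    rw [inv_neg, inv_one, mul_neg, mul_one]
  rw [e, Units.val_neg, gq_neg]
  exact hx

theorem IsDia.mul {M : ℕ} {u v : (ZMod M)ˣ} {D D' : F1 M ≃ₐ[Qb] F1 M} (h : IsDia M u D)
    (h' : IsDia M v D') : IsDia M (u * v) (D * D') := by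
  refine ⟨fun x hx => ?_, fun b x hx => ?_⟩
  · show D (D' x) = x
    rw [h'.1 x hx, h.1 x hx]
  · show ((D (D' x) : F1 M) : LaurentSeries Qb) = _
    have h1 := h'.2 b x hx
    have h2 := h.2 (b * v⁻¹) (D' x) h1
    rw [h2, mul_inv_rev, mul_assoc]

theorem IsDia.symm {M : ℕ} {u : (ZMod M)ˣ} {D : F1 M ≃ₐ[Qb] F1 M} (h : IsDia M u D) :
    IsDia M u⁻¹ D.symm := by
  refine ⟨fun x hx => ?_, fun b x hx => ?_⟩
  · rw [AlgEquiv.symm_apply_eq]
    exact (h.1 x hx).symm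
  · have hx' : x = gElt M b := Subtype.ext hx
    have h1 : D (gElt M (b * u)) = gElt M b := by
      rw [h.apply_gElt, mul_assoc, mul_inv_cancel, mul_one]
    have h2 : D.symm x = gElt M (b * u) := by
      rw [AlgEquiv.symm_apply_eq, h1, hx']
    rw [h2, inv_inv]
    rfl

/-! ### The diamond automorphisms -/

open Classical in
/-- **The diamond automorphism `⟨u⟩` of `F1 M`**: the unique `ℚ̄`-algebra automorphism fixing
the `j(q^d)` and sending `g_b` to `g_{b u⁻¹}` (`refl` if there is none). -/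
def diaF1 (M : ℕ) (u : (ZMod M)ˣ) : F1 M ≃ₐ[Qb] F1 M :=
  if h : ∃ D : F1 M ≃ₐ[Qb] F1 M, IsDia M u D then h.choose else AlgEquiv.refl

theorem isDia_diaF1 {M : ℕ} {u : (ZMod M)ˣ} (h : ∃ D : F1 M ≃ₐ[Qb] F1 M, IsDia M u D) :
    IsDia M u (diaF1 M u) := by
  unfold diaF1
  rw [dif_pos h]
  exact h.choose_spec

theorem diaF1_eq {M : ℕ} {u : (ZMod M)ˣ} {D : F1 M ≃ₐ[Qb] F1 M} (h : IsDia M u D) :
    diaF1 M u = D :=
  (isDia_diaF1 ⟨D, h⟩).unique h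

theorem diaF1_eq_refl_of_not {M : ℕ} {u : (ZMod M)ˣ}
    (h : ¬ ∃ D : F1 M ≃ₐ[Qb] F1 M, IsDia M u D) : diaF1 M u = AlgEquiv.refl := by
  unfold diaF1
  rw [dif_neg h]

/-- `⟨1⟩ = id` (unconditional). -/
theorem diaF1_one (M : ℕ) : diaF1 M 1 = AlgEquiv.refl := diaF1_eq (isDia_one M)

/-- `⟨-1⟩ = id` (unconditional). -/
theorem diaF1_neg_one (M : ℕ) : diaF1 M (-1) = AlgEquiv.refl := diaF1_eq (isDia_neg_one M)

theorem diaF1_one_apply (M : ℕ) (x : F1 M) : diaF1 M 1 x = x := by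
  rw [diaF1_one]
  rfl

theorem diaF1_neg_one_apply (M : ℕ) (x : F1 M) : diaF1 M (-1) x = x := by
  rw [diaF1_neg_one]
  rfl

theorem diaF1_mul {M : ℕ} {u v : (ZMod M)ˣ} (hu : ∃ D : F1 M ≃ₐ[Qb] F1 M, IsDia M u D)
    (hv : ∃ D : F1 M ≃ₐ[Qb] F1 M, IsDia M v D) :
    diaF1 M (u * v) = diaF1 M u * diaF1 M v :=
  diaF1_eq ((isDia_diaF1 hu).mul (isDia_diaF1 hv))

theorem diaF1_mul_apply {M : ℕ} {u v : (ZMod M)ˣ} (hu : ∃ D : F1 M ≃ₐ[Qb] F1 M, IsDia M u D)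
    (hv : ∃ D : F1 M ≃ₐ[Qb] F1 M, IsDia M v D) (x : F1 M) :
    diaF1 M (u * v) x = diaF1 M u (diaF1 M v x) := by
  rw [diaF1_mul hu hv]
  rfl

theorem diaF1_inv {M : ℕ} {u : (ZMod M)ˣ} (hu : ∃ D : F1 M ≃ₐ[Qb] F1 M, IsDia M u D) :
    diaF1 M u⁻¹ = (diaF1 M u).symm :=
  diaF1_eq (isDia_diaF1 hu).symm

theorem diaF1_jElt {M : ℕ} {u : (ZMod M)ˣ} (hu : ∃ D : F1 M ≃ₐ[Qb] F1 M, IsDia M u D)
    (d : ℕ) [NeZero d] (hd : d ∣ M) : diaF1 M u (jElt M d hd) = jElt M d hd :=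
  (isDia_diaF1 hu).apply_jElt d hd

theorem diaF1_gElt {M : ℕ} {u : (ZMod M)ˣ} (hu : ∃ D : F1 M ≃ₐ[Qb] F1 M, IsDia M u D)
    (b : (ZMod M)ˣ) : diaF1 M u (gElt M b) = gElt M (b * u⁻¹) :=
  (isDia_diaF1 hu).apply_gElt b

/-- `⟨u⟩` maps generators to generators (unconditional). -/
theorem diaF1_gens (M : ℕ) (u : (ZMod M)ˣ) (s : LaurentSeries Qb) (hs : s ∈ gens1 M) :
    ∃ (s' : LaurentSeries Qb) (hs' : s' ∈ gens1 M),
      diaF1 M u ⟨s, gens1_subset M hs⟩ = ⟨s', gens1_subset M hs'⟩ := by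
  by_cases hu : ∃ D : F1 M ≃ₐ[Qb] F1 M, IsDia M u D
  · have hD := isDia_diaF1 hu
    rcases mem_gens1_cases hs with h1 | ⟨b, rfl⟩
    · exact ⟨s, hs, hD.1 _ h1⟩
    · exact ⟨_, gSeries_mem_gens1 M (b * u⁻¹), Subtype.ext (hD.2 b _ rfl)⟩
  · refine ⟨s, hs, ?_⟩
    rw [diaF1_eq_refl_of_not hu]
    rfl

/-- **DiaGal1** (unconditional): the diamonds commute with the coefficientwise Galois action. -/
theorem diaF1_galF1 (M : ℕ) (u : (ZMod M)ˣ) (σ : Qb ≃ₐ[ℚ] Qb) (x : F1 M) :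
    diaF1 M u (galF1 M σ x) = galF1 M σ (diaF1 M u x) := by
  refine DiaGen.comm_of_gens (gens1 M) (F1 M) (gens1_subset M) (F1_le_adjoin M)
    ((diaF1 M u : F1 M ≃+* F1 M) : F1 M →+* F1 M) ((galF1 M σ : F1 M ≃+* F1 M) : F1 M →+* F1 M)
    (σ : Qb →+* Qb) ?_ ?_ ?_ ?_ x
  · intro c
    exact (diaF1 M u).commutes c
  · intro c
    exact arithmeticRingAut_algebraMap (F1Q M) σ c
  · rintro _ ⟨z, hz, rfl⟩
    exact Subtype.ext (coeffMap_coeffEmb σ z)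
  · intro s hs
    exact diaF1_gens M u s hs

/-- `⟨u⟩` preserves the `ℚ̄`-algebra generated by the generators (unconditional). -/
theorem diaF1_mem_adjoin (M : ℕ) (u : (ZMod M)ˣ) (x : F1 M)
    (hx : (x : LaurentSeries Qb) ∈ Algebra.adjoin Qb (gens1 M)) :
    ((diaF1 M u x : F1 M) : LaurentSeries Qb) ∈ Algebra.adjoin Qb (gens1 M) := by
  have hle : Algebra.adjoin Qb (gens1 M) ≤ (F1 M).toSubalgebra :=
    Algebra.adjoin_le (gens1_subset M)
  have key : ∀ (y : LaurentSeries Qb) (hy : y ∈ Algebra.adjoin Qb (gens1 M)),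
      ((diaF1 M u ⟨y, hle hy⟩ : F1 M) : LaurentSeries Qb) ∈ Algebra.adjoin Qb (gens1 M) := by
    intro y hy
    induction hy using Algebra.adjoin_induction with
    | mem y hy =>
      obtain ⟨s', hs', h⟩ := diaF1_gens M u y hy
      have h' : diaF1 M u ⟨y, hle (Algebra.subset_adjoin hy)⟩ = ⟨s', gens1_subset M hs'⟩ := h
      rw [h']
      exact Algebra.subset_adjoin hs'
    | algebraMap c =>
      have e : (⟨algebraMap Qb (LaurentSeries Qb) c,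
          hle (Subalgebra.algebraMap_mem _ c)⟩ : F1 M) = algebraMap Qb (F1 M) c := rfl
      rw [e, (diaF1 M u).commutes]
      exact Subalgebra.algebraMap_mem _ c
    | add a b ha hb iha ihb =>
      have e : (⟨a + b, hle (add_mem ha hb)⟩ : F1 M) = ⟨a, hle ha⟩ + ⟨b, hle hb⟩ := rfl
      rw [e, map_add]
      exact add_mem iha ihb
    | mul a b ha hb iha ihb =>
      have e : (⟨a * b, hle (mul_mem ha hb)⟩ : F1 M) = ⟨a, hle ha⟩ * ⟨b, hle hb⟩ := rfl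
      rw [e, map_mul]
      exact mul_mem iha ihb
  exact key _ hx

/-- `⟨u⟩` preserves the coordinate ring `A01 M` (unconditional). -/
theorem diaF1_mem_A01 (M : ℕ) (u : (ZMod M)ˣ) {x : F1 M} (hx : x ∈ A01 M) :
    diaF1 M u x ∈ A01 M :=
  diaF1_mem_adjoin M u x hx

end Fermat.Agent.S48.G1.F1
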