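import Mathlib
import Fermat.Agent.S48.G1.F1.Defs
import Fermat.Agent.S48.Sep1
import Fermat.Agent.S24.QBridge
import Fermat.Agent.S24.Theta
import Fermat.Agent.S24.HolH

/-!
# The analytic generators `g_b` of the function field `F1(M)` (G1, area F, row F.1 (a)+(b))

`gFun M b = EE_b · E₄² / Δ`, where `EE_b = Sep1.uHat M b` is the normalised weight-4 partial
Eisenstein series (sum over `m ≡ ±b mod M`).  It is holomorphic on `ℍ`, has the formal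
`q`-expansion `gq M b` of `F1/Defs.lean` (for `b ≠ 0`), and `gFun M b ∘ γ = gFun M (b * a_γ)` for
`γ ∈ Γ₀(M)` with upper left entry `a_γ`.
-/

set_option autoImplicit false

noncomputable section

open UpperHalfPlane ModularCurve HahnSeries ModularForm CongruenceSubgroup
open scoped MatrixGroups Manifold

namespace Fermat.Agent.S48.G1.F1.GHol

open Fermat.Agent.S48.Sep1 Fermat.Agent.S24.QBridge Fermat.Agent.S24.Theta Fermat.Agent.S24.HolH
open Fermat.Agent.S48.G1.F1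

local notation "𝕢" => Function.Periodic.qParam

/-- The analytic generator `g_b = EE_b · E₄² / Δ`. -/
def gFun (M : ℕ) (b : ZMod M) : ℍ → ℂ :=
  fun τ => uHat M b τ * E₄ τ ^ 2 / ModularForm.discriminant τ

theorem gFun_apply (M : ℕ) (b : ZMod M) (τ : ℍ) :
    gFun M b τ = uHat M b τ * E₄ τ ^ 2 / ModularForm.discriminant τ := rfl

theorem gFun_mdiff (M : ℕ) (b : ZMod M) : MDifferentiable 𝓘(ℂ) 𝓘(ℂ) (gFun M b) := by
  have h : MDifferentiable 𝓘(ℂ) 𝓘(ℂ)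
      ((uHat M b * (⇑E₄ : ℍ → ℂ) ^ 2) / (ModularForm.discriminant : ℍ → ℂ)) :=
    ((uHat_mdifferentiable M b).mul (E₄.holo'.pow 2)).div CuspForm.discriminant.holo'
      discriminant_ne_zero
  exact h

/-- `g_b` as an element of `HolH`. -/
def gHol (M : ℕ) (b : ZMod M) : HolH := ⟨gFun M b, gFun_mdiff M b⟩

@[simp] theorem gHol_apply (M : ℕ) (b : ZMod M) (τ : ℍ) :
    (gHol M b : ℍ → ℂ) τ = gFun M b τ := rfl

/-! ### The `q`-expansion -/

/-- The coefficients of `eeSeries` are the `aSep` of `Sep1`. -/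
theorem coeff_eeSeries_eq_aSep (M : ℕ) (b : ZMod M) (n : ℕ) :
    ((PowerSeries.coeff n (eeSeries M b) : ℤ) : ℂ) = aSep M b n := by
  rw [coeff_eeSeries, aSep,
    Nat.sum_divisorsAntidiagonal (fun c d : ℕ => ind M b (c : ℤ) * (d : ℂ) ^ 3)]
  rw [Int.cast_sum]
  refine Finset.sum_congr rfl fun c _ => ?_
  unfold ind
  simp only [Int.cast_natCast]
  split_ifs
  · rw [Int.cast_pow, Int.cast_natCast, one_mul]
  · rw [Int.cast_zero, zero_mul]

/-- `eeSeries` with complex coefficients. -/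
def eeC (M : ℕ) (b : ZMod M) : PowerSeries ℂ :=
  PowerSeries.map (Int.castRingHom ℂ) (eeSeries M b)

theorem coeff_eeC (M : ℕ) (b : ZMod M) (n : ℕ) : PowerSeries.coeff n (eeC M b) = aSep M b n := by
  rw [eeC, PowerSeries.coeff_map, ← coeff_eeSeries_eq_aSep]
  rfl

/-- The value of the `q`-series of `EE_b` on the unit disc. -/
def eeDisc (M : ℕ) (b : ZMod M) (q : ℂ) : ℂ := ∑' n : ℕ, aSep M b n * q ^ n

theorem hasQExp_eeC (M : ℕ) (b : ZMod M) : HasQExp (eeC M b) (eeDisc M b) := by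
  intro q hq
  have h := hasSum_aSep M b hq
  have h' := (hasSum_pnat_iff (f := fun n : ℕ => aSep M b n * q ^ n)).mp h
  have hfun : (fun n : ℕ => PowerSeries.coeff n (eeC M b) * q ^ n) =
      fun n : ℕ => aSep M b n * q ^ n := by
    funext n
    rw [coeff_eeC]
  rw [hfun, eeDisc]
  exact h'.summable.hasSum

theorem eeDisc_qParam {M : ℕ} {b : ZMod M} (hb : b ≠ 0) (τ : ℍ) :
    eeDisc M b (𝕢 1 τ) = uHat M b τ := by
  have h := hasSum_uHat hb τ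
  simp only [smul_eq_mul] at h
  exact h.tsum_eq

/-- `gNum` with complex coefficients. -/
def gNumC (M : ℕ) (b : ZMod M) : PowerSeries ℂ :=
  PowerSeries.map (Int.castRingHom ℂ) (gNum M b)

theorem gNumC_eq (M : ℕ) (b : ZMod M) : gNumC M b = eeC M b * e4C ^ 2 * etaUnitInvC := by
  rw [gNumC, gNum, map_mul, map_mul, map_pow, eeC, e4C, etaUnitInvC]

theorem hasQExp_gNumC (M : ℕ) (b : ZMod M) : HasQExp (gNumC M b)
    (fun q => eeDisc M b q * cuspFunction 1 E₄ q ^ 2 *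
      ((∏' n : ℕ, (1 - q ^ (n + 1))) ^ 24)⁻¹) := by
  rw [gNumC_eq]
  exact ((hasQExp_eeC M b).mul (hasQExp_E4.pow 2)).mul hasQExp_etaUnitInvC

/-- **`q`-expansion of `g_b`**: `q · g_b(τ) = ∑ₙ (gNum M b)ₙ qⁿ`. -/
theorem hasSum_gNum {M : ℕ} {b : ZMod M} (hb : b ≠ 0) (τ : ℍ) :
    HasSum (fun n : ℕ => ((PowerSeries.coeff n (gNum M b) : ℤ) : ℂ) * 𝕢 1 τ ^ n)
      (𝕢 1 τ * gFun M b τ) := by
  have hq : ‖𝕢 1 (τ : ℂ)‖ < 1 := Function.Periodic.norm_qParam_lt_one one_pos τ.im_pos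
  have h := hasQExp_gNumC M b _ hq
  have hE : cuspFunction 1 E₄ (𝕢 1 τ) = E₄ τ :=
    eq_cuspFunction τ one_ne_zero
      (SlashInvariantFormClass.periodic_comp_ofComplex E₄ one_mem_strictPeriods_SL)
  have hΔ : ModularForm.discriminant τ = 𝕢 1 τ * (∏' n : ℕ, (1 - 𝕢 1 (τ : ℂ) ^ (n + 1))) ^ 24 := by
    rw [discriminant_eq_q_prod, (multipliable_one_sub_pow hq).tprod_pow 24]
  have hq0 : 𝕢 1 (τ : ℂ) ≠ 0 := Function.Periodic.qParam_ne_zero _
  have hP : (∏' n : ℕ, (1 - 𝕢 1 (τ : ℂ) ^ (n + 1))) ^ 24 ≠ 0 :=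
    pow_ne_zero 24 (tprod_one_sub_pow_ne_zero hq)
  have hval : eeDisc M b (𝕢 1 τ) * cuspFunction 1 E₄ (𝕢 1 τ) ^ 2 *
      ((∏' n : ℕ, (1 - 𝕢 1 (τ : ℂ) ^ (n + 1))) ^ 24)⁻¹ = 𝕢 1 τ * gFun M b τ := by
    rw [hE, eeDisc_qParam hb, gFun_apply, hΔ]
    field_simp
  rw [← hval]
  have hfun : (fun n : ℕ => ((PowerSeries.coeff n (gNum M b) : ℤ) : ℂ) * 𝕢 1 τ ^ n) =
      fun n : ℕ => PowerSeries.coeff n (gNumC M b) * 𝕢 1 (τ : ℂ) ^ n := by
    funext n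
    rw [gNumC, PowerSeries.coeff_map]
    rfl
  rw [hfun]
  exact h

section HasQ

variable {K : Type*} [Field K] [Algebra ℚ K]

/-- Coefficients of `coeffEmb K (gq M b)` in terms of `gNum`. -/
theorem coeff_coeffEmb_gq (M : ℕ) (b : ZMod M) (n : ℕ) :
    (coeffEmb K (gq M b)).coeff ((n : ℤ) - 1) = ((PowerSeries.coeff n (gNum M b) : ℤ) : K) := by
  rw [coeffEmb_coeff, gq, HahnSeries.coeff_single_mul, one_mul,
    show ((n : ℤ) - 1 - (-1)) = (n : ℤ) by ring, HahnSeries.ofPowerSeries_apply_coeff,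
    PowerSeries.coeff_map]
  simp

theorem coeff_coeffEmb_gq_of_lt (M : ℕ) (b : ZMod M) {k : ℤ} (hk : k < -1) :
    (coeffEmb K (gq M b)).coeff k = 0 := by
  rw [coeffEmb_coeff, gq, HahnSeries.coeff_single_mul, one_mul]
  have h0 : (HahnSeries.ofPowerSeries ℤ ℚ ((gNum M b).map (Int.castRingHom ℚ))).coeff (k - (-1))
      = 0 := by
    rw [HahnSeries.ofPowerSeries_apply]
    apply HahnSeries.embDomain_of_notMem_range
    rintro ⟨m, hm⟩
    have hm' : ((m : ℕ) : ℤ) = k - (-1) := hm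
    omega
  rw [h0, map_zero]

/-- **`g_b` has the formal `q`-expansion `gq M b`** (S24 vocabulary). -/
theorem hasQ_gq (ι : K →+* ℂ) {M : ℕ} {b : ZMod M} (hb : b ≠ 0) :
    HasQ ι (coeffEmb K (gq M b)) (gFun M b) := by
  intro τ
  have hq : 𝕢 1 (τ : ℂ) ≠ 0 := Function.Periodic.qParam_ne_zero _
  have h := (hasSum_gNum hb τ).mul_left (𝕢 1 (τ : ℂ))⁻¹
  have hval : (𝕢 1 (τ : ℂ))⁻¹ * (𝕢 1 τ * gFun M b τ) = gFun M b τ := by
    field_simp
  rw [hval] at h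
  have he : Function.Injective (fun n : ℕ => (n : ℤ) - 1) := by
    intro a b hab
    simpa using hab
  refine (he.hasSum_iff ?_).mp ?_
  · intro n hn
    have hlt : n < -1 := by
      by_contra hcon
      rw [not_lt] at hcon
      exact hn ⟨(n + 1).toNat, by simp; omega⟩
    rw [coeff_coeffEmb_gq_of_lt M b hlt, map_zero, zero_mul]
  · have hfun : ((fun n : ℤ => ι ((coeffEmb K (gq M b)).coeff n) * 𝕢 1 τ ^ n) ∘
          fun n : ℕ => (n : ℤ) - 1) =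
        fun n : ℕ => (𝕢 1 (τ : ℂ))⁻¹ *
          (((PowerSeries.coeff n (gNum M b) : ℤ) : ℂ) * 𝕢 1 τ ^ n) := by
      funext n
      simp only [Function.comp_apply]
      rw [coeff_coeffEmb_gq, map_intCast, zpow_sub₀ hq, zpow_natCast, zpow_one]
      field_simp
    rw [hfun]
    exact h

end HasQ

/-! ### The `Γ₀(M)`-law -/

theorem E₄_smul (A : SL(2, ℤ)) (τ : ℍ) : E₄ (A • τ) = denom A τ ^ (4 : ℤ) * E₄ τ := by
  have h := congrFun (E₄_slash A) τ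
  rw [ModularForm.SL_slash_apply] at h
  have hd : denom A τ ≠ 0 := denom_ne_zero _ τ
  rw [← h, ← mul_assoc, mul_comm (denom A τ ^ (4 : ℤ)), mul_assoc, ← zpow_add₀ hd]
  simp

theorem disc_smul (A : SL(2, ℤ)) (τ : ℍ) :
    ModularForm.discriminant (A • τ) = denom A τ ^ (12 : ℤ) * ModularForm.discriminant τ := by
  have h := congrFun (disc_slash A) τ
  rw [ModularForm.SL_slash_apply] at h
  have hd : denom A τ ≠ 0 := denom_ne_zero _ τ
  rw [← h, ← mul_assoc, mul_comm (denom A τ ^ (12 : ℤ)), mul_assoc, ← zpow_add₀ hd]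
  simp

theorem uHat_smul {M : ℕ} (b : ZMod M) {A : SL(2, ℤ)} (hA : A ∈ Gamma0 M) (τ : ℍ) :
    uHat M b (A • τ) = denom A τ ^ (4 : ℤ) * uHat M (b * ((A 0 0 : ℤ) : ZMod M)) τ := by
  have h := congrFun (uHat_slash_Gamma0 b hA) τ
  rw [ModularForm.SL_slash_apply] at h
  have hd : denom A τ ≠ 0 := denom_ne_zero _ τ
  rw [← h, ← mul_assoc, mul_comm (denom A τ ^ (4 : ℤ)), mul_assoc, ← zpow_add₀ hd]
  simp

/-- **The `Γ₀(M)`-law**: `g_b ∘ γ = g_{b · a_γ}` (`a_γ` the upper left entry, `≡ d_γ⁻¹`). -/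
theorem gFun_smul {M : ℕ} (b : ZMod M) {A : SL(2, ℤ)} (hA : A ∈ Gamma0 M) (τ : ℍ) :
    gFun M b (A • τ) = gFun M (b * ((A 0 0 : ℤ) : ZMod M)) τ := by
  have hd : denom A τ ≠ 0 := denom_ne_zero _ τ
  have hΔ : ModularForm.discriminant τ ≠ 0 := discriminant_ne_zero τ
  rw [gFun_apply, gFun_apply, uHat_smul b hA, E₄_smul, disc_smul]
  have h12 : denom A τ ^ (12 : ℤ) = denom A τ ^ (4 : ℤ) * (denom A τ ^ (4 : ℤ)) ^ 2 := by
    rw [← zpow_natCast (denom A τ ^ (4 : ℤ)) 2, ← zpow_mul, ← zpow_add₀ hd]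
    norm_num
  rw [h12]
  have hd4 : denom A τ ^ (4 : ℤ) ≠ 0 := zpow_ne_zero _ hd
  field_simp

/-- The `Γ₀(M)`-law in `HolH`. -/
theorem compSL_gHol {M : ℕ} (b : ZMod M) {A : SL(2, ℤ)} (hA : A ∈ Gamma0 M) :
    compSL A (gHol M b) = gHol M (b * ((A 0 0 : ℤ) : ZMod M)) := by
  apply Subtype.ext
  funext τ
  exact gFun_smul b hA τ

/-- `g_b` is `Γ₁(M)`-invariant. -/
theorem gFun_smul_Gamma1 {M : ℕ} (b : ZMod M) {A : SL(2, ℤ)} (hA : A ∈ Gamma1 M) (τ : ℍ) :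
    gFun M b (A • τ) = gFun M b τ := by
  have h := (Gamma1_mem M A).mp hA
  rw [gFun_smul b (Gamma0_mem.mpr h.2.2), h.1, mul_one]

/-! ### Companions (the literal list of F.1 ruling #1; union with helper1's file) -/

theorem coe_gHol (M : ℕ) (b : ZMod M) : (gHol M b : ℍ → ℂ) = gFun M b := rfl

/-- `g_b` is `Γ₁(M)`-invariant, in `HolH`. -/
theorem compSL_gHol_Gamma1 {M : ℕ} (b : ZMod M) {A : SL(2, ℤ)} (hA : A ∈ Gamma1 M) :
    compSL A (gHol M b) = gHol M b := by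
  apply Subtype.ext
  funext τ
  exact gFun_smul_Gamma1 b hA τ

/-- For `γ ∈ Γ₀(M)` the diagonal entries are mutually inverse modulo `M`. -/
theorem diag_mul_eq_one {M : ℕ} {A : SL(2, ℤ)} (hA : A ∈ Gamma0 M) :
    ((A 0 0 : ℤ) : ZMod M) * ((A 1 1 : ℤ) : ZMod M) = 1 := by
  have hc : ((A 1 0 : ℤ) : ZMod M) = 0 := Gamma0_mem.mp hA
  have h := A.det_coe
  rw [Matrix.det_fin_two] at h
  have h2 := congrArg (Int.cast : ℤ → ZMod M) h
  push_cast at h2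
  rw [hc, mul_zero, sub_zero] at h2
  exact h2

/-- **The diamond law of ruling R1**: for `γ ∈ Γ₀(M)` with lower right entry `≡ u`,
`g_b ∘ γ = g_{b u⁻¹}`. -/
theorem compSL_gHol_of_lowerRight {M : ℕ} (b : ZMod M) {A : SL(2, ℤ)} (hA : A ∈ Gamma0 M)
    (u : (ZMod M)ˣ) (hu : ((A 1 1 : ℤ) : ZMod M) = u) :
    compSL A (gHol M b) = gHol M (b * ((u⁻¹ : (ZMod M)ˣ) : ZMod M)) := by
  rw [compSL_gHol b hA]
  have h := diag_mul_eq_one hA
  rw [hu] at h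
  have h2 : ((A 0 0 : ℤ) : ZMod M) = ((u⁻¹ : (ZMod M)ˣ) : ZMod M) := by
    calc ((A 0 0 : ℤ) : ZMod M)
        = ((A 0 0 : ℤ) : ZMod M) * ((u : ZMod M) * ((u⁻¹ : (ZMod M)ˣ) : ZMod M)) := by
          rw [Units.mul_inv, mul_one]
      _ = ((u⁻¹ : (ZMod M)ˣ) : ZMod M) := by rw [← mul_assoc, h, one_mul]
  rw [h2]

theorem uHat_neg (M : ℕ) (b : ZMod M) : uHat M (-b) = uHat M b := by
  have hc : cSep M (-b) = cSep M b := by
    funext v
    unfold cSep ind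
    rw [neg_neg]
    simp only [or_comm]
  unfold uHat uSep
  rw [hc]

theorem gFun_neg (M : ℕ) (b : ZMod M) : gFun M (-b) = gFun M b := by
  funext τ
  rw [gFun_apply, gFun_apply, uHat_neg]

theorem gHol_neg (M : ℕ) (b : ZMod M) : gHol M (-b) = gHol M b :=
  Subtype.ext (gFun_neg M b)

/-- `coeff_eeSeries_eq_aSep`, in the other direction. -/
theorem aSep_eq_coeff (M : ℕ) (b : ZMod M) (n : ℕ) :
    aSep M b n = ((PowerSeries.coeff n (eeSeries M b) : ℤ) : ℂ) :=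
  (coeff_eeSeries_eq_aSep M b n).symm

/-- For `2 ≤ M` a unit of `ZMod M` is nonzero. -/
theorem unit_ne_zero {M : ℕ} (hM : 2 ≤ M) (b : (ZMod M)ˣ) : (b : ZMod M) ≠ 0 := by
  have : Fact (1 < M) := ⟨hM⟩
  exact b.ne_zero

/-- `hasQ_gq` stated for `gHol`. -/
theorem hasQ_gq_gHol {K : Type*} [Field K] [Algebra ℚ K] (ι : K →+* ℂ) {M : ℕ} {b : ZMod M}
    (hb : b ≠ 0) : HasQ ι (coeffEmb K (gq M b)) (gHol M b : ℍ → ℂ) :=
  hasQ_gq ι hb

/-- `hasQ_gq` for the unit classes, `2 ≤ M` (`M = 1` is a genuine exception). -/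
theorem hasQ_gq_unit {K : Type*} [Field K] [Algebra ℚ K] (ι : K →+* ℂ) {M : ℕ} (hM : 2 ≤ M)
    (b : (ZMod M)ˣ) :
    HasQ ι (coeffEmb K (gq M (b : ZMod M))) (gHol M (b : ZMod M) : ℍ → ℂ) :=
  hasQ_gq ι (unit_ne_zero hM b)

/-- The hypothesis `GHyp` of the theta construction, for `2 ≤ M`. -/
theorem gHyp (ι : Qb →+* ℂ) {M : ℕ} (hM : 2 ≤ M) :
    ∀ b : (ZMod M)ˣ, ∃ φ : HolH, HasQ ι (coeffEmb Qb (gq M (b : ZMod M))) (φ : ℍ → ℂ) :=
  fun b => ⟨gHol M (b : ZMod M), hasQ_gq_unit ι hM b⟩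

end Fermat.Agent.S48.G1.F1.GHol
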