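/-
PROGRAM DS (S48), part G1, AREA F, row F.3 (c) (helper216): generator bookkeeping for the function
field `F1 M` of `Γ₁(M)` (twin of the `A0` block of `S24/Theta.lean`, with the extra family of
generators `gq M b`).

* `F1_eq_adjoin`    : `F1 M = ℚ̄(gens1 M)`;
* `mkA01`, `genJ`, `genG` : elements of the coordinate ring `A01 M` (`j(q^d)`, `d ∣ M`, and `g_b`);
* `A01_induction`   : induction principle for `A01 M`;
* `exists_mul_eq`, `isFractionRing_A01` : `F1 M = Frac (A01 M)`;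
* `galF1_genJ`, `galF1_genG`, `galF1_algebraMap`, `galF1_mem_A01` : the coefficientwise Galois
  action fixes the generators, acts through `σ` on constants, and preserves `A01 M`;
* `ringHom_ext_F1`  : a ring homomorphism out of `F1 M` is determined by its values on the
  constants and on the generators.
-/
import Mathlib
import Fermat.Agent.S48.G1.F1.Defs
import Fermat.Agent.S24.DegreeGen

set_option autoImplicit false

noncomputable section

open ModularCurve

namespace Fermat.Agent.S48.G1.F1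

/-! ### `F1 M` as an adjunction over `ℚ̄` -/

theorem F1_eq_adjoin (M : ℕ) : F1 M = IntermediateField.adjoin Qb (gens1 M) :=
  Fermat.Agent.S24.DegreeGen.laurentBaseChange_adjoin Qb (gens1Q M)

theorem coeffEmb_jqd_mem_gens1 (M : ℕ) {d : ℕ} [NeZero d] (hd : d ∣ M) :
    coeffEmb Qb (qExpand ℚ d jq) ∈ gens1 M :=
  ⟨_, Or.inl (mem_divisorExpansions M hd), rfl⟩

theorem coeffEmb_gq_mem_gens1 (M : ℕ) (b : (ZMod M)ˣ) :
    coeffEmb Qb (gq M (b : ZMod M)) ∈ gens1 M :=
  ⟨_, Or.inr (mem_eisExpansions M b), rfl⟩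

/-- Every generator is `j(q^d)` (`d ∣ M`) or `g_b` (`b ∈ (ℤ/M)ˣ`). -/
theorem mem_gens1_iff {M : ℕ} {y : LaurentSeries Qb} :
    y ∈ gens1 M ↔ (∃ (d : ℕ) (_ : NeZero d), d ∣ M ∧ y = coeffEmb Qb (qExpand ℚ d jq)) ∨
      ∃ b : (ZMod M)ˣ, y = coeffEmb Qb (gq M (b : ZMod M)) := by
  constructor
  · rintro ⟨z, hz | hz, rfl⟩
    · obtain ⟨d, hd0, hdM, rfl⟩ := hz
      exact Or.inl ⟨d, hd0, hdM, rfl⟩
    · obtain ⟨b, rfl⟩ := hz
      exact Or.inr ⟨b, rfl⟩
  · rintro (⟨d, hd0, hdM, rfl⟩ | ⟨b, rfl⟩)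
    · exact coeffEmb_jqd_mem_gens1 M hdM
    · exact coeffEmb_gq_mem_gens1 M b

/-! ### The coordinate ring `A01 M` -/

theorem mem_A01 {M : ℕ} {x : F1 M} :
    x ∈ A01 M ↔ (x : LaurentSeries Qb) ∈ Algebra.adjoin Qb (gens1 M) := Iff.rfl

theorem adjoin_gens1_le (M : ℕ) :
    Algebra.adjoin Qb (gens1 M) ≤ (F1 M).toSubalgebra := by
  have h := IntermediateField.algebra_adjoin_le_adjoin Qb (gens1 M)
  rw [← F1_eq_adjoin] at h
  exact h

theorem mem_F1_of_mem_adjoin {M : ℕ} {y : LaurentSeries Qb}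
    (hy : y ∈ Algebra.adjoin Qb (gens1 M)) : y ∈ F1 M :=
  adjoin_gens1_le M hy

/-- An element of `A01 M` from a Laurent series in the algebra generated by the generators. -/
def mkA01 {M : ℕ} (y : LaurentSeries Qb) (hy : y ∈ Algebra.adjoin Qb (gens1 M)) : A01 M :=
  ⟨⟨y, mem_F1_of_mem_adjoin hy⟩, hy⟩

@[simp] theorem coe_mkA01 {M : ℕ} (y : LaurentSeries Qb)
    (hy : y ∈ Algebra.adjoin Qb (gens1 M)) :
    (((mkA01 y hy : A01 M) : F1 M) : LaurentSeries Qb) = y := rfl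

theorem mkA01_coe {M : ℕ} (x : A01 M) : mkA01 ((x : F1 M) : LaurentSeries Qb) x.2 = x := rfl

theorem mkA01_add {M : ℕ} (a b : LaurentSeries Qb) (ha : a ∈ Algebra.adjoin Qb (gens1 M))
    (hb : b ∈ Algebra.adjoin Qb (gens1 M)) :
    mkA01 (a + b) (add_mem ha hb) = mkA01 a ha + mkA01 b hb := by
  apply Subtype.ext
  apply Subtype.ext
  rfl

theorem mkA01_mul {M : ℕ} (a b : LaurentSeries Qb) (ha : a ∈ Algebra.adjoin Qb (gens1 M))
    (hb : b ∈ Algebra.adjoin Qb (gens1 M)) :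
    mkA01 (a * b) (mul_mem ha hb) = mkA01 a ha * mkA01 b hb := by
  apply Subtype.ext
  apply Subtype.ext
  rfl

theorem mkA01_algebraMap {M : ℕ} (c : Qb) :
    mkA01 (algebraMap Qb (LaurentSeries Qb) c)
      (Subalgebra.algebraMap_mem (Algebra.adjoin Qb (gens1 M)) c)
      = algebraMap Qb (A01 M) c := by
  apply Subtype.ext
  apply Subtype.ext
  rfl

/-- The generator `j(q^d)`, `d ∣ M`, of `A01 M`. -/
def genJ (M d : ℕ) [NeZero d] (hd : d ∣ M) : A01 M :=
  mkA01 (coeffEmb Qb (qExpand ℚ d jq)) (Algebra.subset_adjoin (coeffEmb_jqd_mem_gens1 M hd))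

@[simp] theorem coe_genJ (M d : ℕ) [NeZero d] (hd : d ∣ M) :
    (((genJ M d hd : A01 M) : F1 M) : LaurentSeries Qb) = coeffEmb Qb (qExpand ℚ d jq) := rfl

/-- The generator `g_b`, `b ∈ (ℤ/M)ˣ`, of `A01 M`. -/
def genG (M : ℕ) (b : (ZMod M)ˣ) : A01 M :=
  mkA01 (coeffEmb Qb (gq M (b : ZMod M))) (Algebra.subset_adjoin (coeffEmb_gq_mem_gens1 M b))

@[simp] theorem coe_genG (M : ℕ) (b : (ZMod M)ˣ) :
    (((genG M b : A01 M) : F1 M) : LaurentSeries Qb) = coeffEmb Qb (gq M (b : ZMod M)) := rfl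

/-- `g_{-b} = g_b`. -/
theorem genG_neg (M : ℕ) (b : (ZMod M)ˣ) : genG M (-b) = genG M b := by
  apply Subtype.ext
  apply Subtype.ext
  show coeffEmb Qb (gq M ((-b : (ZMod M)ˣ) : ZMod M)) = coeffEmb Qb (gq M (b : ZMod M))
  rw [Units.val_neg, gq_neg]

/-- Induction principle for `A01 M`. -/
theorem A01_induction {M : ℕ} {p : A01 M → Prop}
    (hJ : ∀ (d : ℕ) [NeZero d] (hd : d ∣ M), p (genJ M d hd))
    (hG : ∀ b : (ZMod M)ˣ, p (genG M b))
    (hC : ∀ c : Qb, p (algebraMap Qb (A01 M) c))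
    (hadd : ∀ x y, p x → p y → p (x + y))
    (hmul : ∀ x y, p x → p y → p (x * y)) (x : A01 M) : p x := by
  have key : ∀ (y : LaurentSeries Qb) (hy : y ∈ Algebra.adjoin Qb (gens1 M)),
      p (mkA01 y hy) := by
    intro y hy
    induction hy using Algebra.adjoin_induction with
    | mem y hy =>
      rcases mem_gens1_iff.mp hy with ⟨d, hd0, hdM, rfl⟩ | ⟨b, rfl⟩
      · exact hJ d hdM
      · exact hG b
    | algebraMap c => rw [mkA01_algebraMap]; exact hC c
    | add a b ha hb iha ihb => rw [mkA01_add a b ha hb]; exact hadd _ _ iha ihb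
    | mul a b ha hb iha ihb => rw [mkA01_mul a b ha hb]; exact hmul _ _ iha ihb
  rw [← mkA01_coe x]
  exact key _ _

/-- Every element of `F1 M` is a quotient of elements of `A01 M`. -/
theorem exists_mul_eq {M : ℕ} (f : F1 M) : ∃ a b : A01 M, (b : F1 M) ≠ 0 ∧ f * b = a := by
  have hf : (f : LaurentSeries Qb) ∈ IntermediateField.adjoin Qb (gens1 M) := by
    rw [← F1_eq_adjoin]
    exact f.2
  obtain ⟨r, hr, s, hs, h⟩ := IntermediateField.mem_adjoin_iff_div.mp hf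
  by_cases hs0 : s = 0
  · refine ⟨0, 1, one_ne_zero, ?_⟩
    apply Subtype.ext
    have h1 : (f : LaurentSeries Qb) = 0 := by rw [h, hs0, div_zero]
    simp [h1]
  · refine ⟨mkA01 r hr, mkA01 s hs, ?_, ?_⟩
    · intro h0
      apply hs0
      have h1 := congrArg (fun x : F1 M => (x : LaurentSeries Qb)) h0
      simpa using h1
    · apply Subtype.ext
      have h1 : (f : LaurentSeries Qb) * s = r := by rw [h, div_mul_cancel₀ _ hs0]
      simpa using h1

instance isFractionRing_A01 (M : ℕ) : IsFractionRing (A01 M) (F1 M) :=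
  IsFractionRing.of_field _ _ fun z => by
    obtain ⟨a, b, hb, hab⟩ := exists_mul_eq z
    refine ⟨a, b, ?_⟩
    show z = (a : F1 M) / (b : F1 M)
    rw [← hab, mul_div_cancel_right₀ _ hb]

/-! ### The Galois action on generators and constants -/

theorem galF1_algebraMap (M : ℕ) (σ : Qb ≃ₐ[ℚ] Qb) (c : Qb) :
    galF1 M σ (algebraMap Qb (F1 M) c) = algebraMap Qb (F1 M) (σ c) :=
  arithmeticRingAut_algebraMap (F1Q M) σ c

theorem galF1_genJ (M : ℕ) (σ : Qb ≃ₐ[ℚ] Qb) (d : ℕ) [NeZero d] (hd : d ∣ M) :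
    galF1 M σ (genJ M d hd : F1 M) = (genJ M d hd : F1 M) :=
  Subtype.ext (coeffMap_coeffEmb σ _)

theorem galF1_genG (M : ℕ) (σ : Qb ≃ₐ[ℚ] Qb) (b : (ZMod M)ˣ) :
    galF1 M σ (genG M b : F1 M) = (genG M b : F1 M) :=
  Subtype.ext (coeffMap_coeffEmb σ _)

/-- The coefficientwise Galois action preserves the coordinate ring `A01 M`. -/
theorem galF1_mem_A01 {M : ℕ} (σ : Qb ≃ₐ[ℚ] Qb) (a : A01 M) :
    galF1 M σ (a : F1 M) ∈ A01 M := by
  refine A01_induction (p := fun a : A01 M => galF1 M σ (a : F1 M) ∈ A01 M) ?_ ?_ ?_ ?_ ?_ a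
  · intro d _ hd
    rw [galF1_genJ]
    exact (genJ M d hd).2
  · intro b
    rw [galF1_genG]
    exact (genG M b).2
  · intro c
    have h : ((algebraMap Qb (A01 M) c : A01 M) : F1 M) = algebraMap Qb (F1 M) c := rfl
    rw [h, galF1_algebraMap]
    exact (A01 M).algebraMap_mem (σ c)
  · intro x y hx hy
    have h : ((x + y : A01 M) : F1 M) = (x : F1 M) + (y : F1 M) := rfl
    rw [h, map_add]
    exact add_mem hx hy
  · intro x y hx hy
    have h : ((x * y : A01 M) : F1 M) = (x : F1 M) * (y : F1 M) := rfl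
    rw [h, map_mul]
    exact mul_mem hx hy

/-! ### Extensionality -/

/-- Two ring homomorphisms out of `F1 M` which agree on the coordinate ring `A01 M` are equal. -/
theorem ringHom_ext_of_A01 {M : ℕ} {R : Type*} [Ring R] [IsDomain R] (φ ψ : F1 M →+* R)
    (h : ∀ a : A01 M, φ (a : F1 M) = ψ (a : F1 M)) : φ = ψ := by
  refine RingHom.ext fun f => ?_
  obtain ⟨a, b, hb, hab⟩ := exists_mul_eq f
  have hφb : φ (b : F1 M) ≠ 0 := (map_ne_zero_iff φ φ.injective).2 hb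
  have h1 : φ f * φ (b : F1 M) = ψ f * φ (b : F1 M) := by
    calc φ f * φ (b : F1 M) = φ (a : F1 M) := by rw [← map_mul, hab]
      _ = ψ (a : F1 M) := h a
      _ = ψ f * ψ (b : F1 M) := by rw [← map_mul, hab]
      _ = ψ f * φ (b : F1 M) := by rw [h b]
  exact mul_right_cancel₀ hφb h1

/-- **Extensionality on generators**: a ring homomorphism out of `F1 M` is determined by its
values on the constants, on the `j(q^d)` (`d ∣ M`) and on the `g_b` (`b ∈ (ℤ/M)ˣ`). -/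
theorem ringHom_ext_F1 {M : ℕ} {R : Type*} [Ring R] [IsDomain R] (φ ψ : F1 M →+* R)
    (hC : ∀ c : Qb, φ (algebraMap Qb (F1 M) c) = ψ (algebraMap Qb (F1 M) c))
    (hJ : ∀ (d : ℕ) [NeZero d] (hd : d ∣ M), φ (genJ M d hd : F1 M) = ψ (genJ M d hd : F1 M))
    (hG : ∀ b : (ZMod M)ˣ, φ (genG M b : F1 M) = ψ (genG M b : F1 M)) : φ = ψ := by
  refine ringHom_ext_of_A01 φ ψ fun a => ?_
  refine A01_induction (p := fun a : A01 M => φ (a : F1 M) = ψ (a : F1 M)) ?_ ?_ ?_ ?_ ?_ a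
  · intro d _ hd
    exact hJ d hd
  · exact hG
  · exact hC
  · intro x y hx hy
    have h : ((x + y : A01 M) : F1 M) = (x : F1 M) + (y : F1 M) := rfl
    rw [h, map_add, map_add, hx, hy]
  · intro x y hx hy
    have h : ((x * y : A01 M) : F1 M) = (x : F1 M) * (y : F1 M) := rfl
    rw [h, map_mul, map_mul, hx, hy]

/-- A `ℚ̄`-algebra endomorphism of `F1 M` which sends every generator to a generator commutes
with the coefficientwise Galois action.  (This is the shape of `DiaGal1`: `diaF1 u` fixes the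
`j(q^d)` and permutes the `g_b`.) -/
theorem comm_galF1_of_gens {M : ℕ} (D : F1 M →+* F1 M) (σ : Qb ≃ₐ[ℚ] Qb)
    (hC : ∀ c : Qb, D (algebraMap Qb (F1 M) c) = algebraMap Qb (F1 M) c)
    (hJ : ∀ (d : ℕ) [NeZero d] (hd : d ∣ M), ∃ (d' : ℕ) (_ : NeZero d') (hd' : d' ∣ M),
      D (genJ M d hd : F1 M) = (genJ M d' hd' : F1 M))
    (hG : ∀ b : (ZMod M)ˣ, ∃ b' : (ZMod M)ˣ, D (genG M b : F1 M) = (genG M b' : F1 M))
    (f : F1 M) : D (galF1 M σ f) = galF1 M σ (D f) := by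
  have key : D.comp (galF1 M σ : F1 M →+* F1 M) = (galF1 M σ : F1 M →+* F1 M).comp D := by
    refine ringHom_ext_F1 _ _ ?_ ?_ ?_
    · intro c
      show D (galF1 M σ (algebraMap Qb (F1 M) c)) = galF1 M σ (D (algebraMap Qb (F1 M) c))
      rw [galF1_algebraMap, hC, hC, galF1_algebraMap]
    · intro d _ hd
      obtain ⟨d', hd0', hd', h⟩ := hJ d hd
      show D (galF1 M σ (genJ M d hd : F1 M)) = galF1 M σ (D (genJ M d hd : F1 M))
      rw [galF1_genJ, h, galF1_genJ]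
    · intro b
      obtain ⟨b', h⟩ := hG b
      show D (galF1 M σ (genG M b : F1 M)) = galF1 M σ (D (genG M b : F1 M))
      rw [galF1_genG, h, galF1_genG]
  exact RingHom.congr_fun key f

end Fermat.Agent.S48.G1.F1
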