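/-
PROGRAM DS (S48) / G1 / AREA F, row F.3 (helper71): EXISTENCE of the diamond automorphisms of
`F1 M` and their analytic description.

For ANY ring homomorphism `θ : A01 M →+* HolH` such that `θ x` has the `q`-expansion `x`
(`IsTheta ι θ`; there is exactly one, `theta1`), `M ≠ 1`, and `γ ∈ Γ₀(M)`:

* precomposition with `γ` preserves `θ (A01 M)` (`preserves`), because it fixes `τ ↦ j(dτ)`
  (`d ∣ M`) and sends `g_b` to `g_{b · a_γ}` (`GHol.compSL_gHol`);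
* hence (`DiaGen`) a `ℚ̄`-algebra automorphism `diaOf hθ hM hγ` of `F1 M = Frac (A01 M)` with
  `θ (diaA a) = compSL γ (θ a)`;
* it is a diamond automorphism for every unit `u` with `u ≡` lower right entry of `γ`
  (`isDia_diaOf`).

EXITS: `exists_isDia` (the hypothesis of `DiaDefs.diaF1_mul` / `diaF1_inv` / `diaF1_gElt`),
`diaA`, `theta_diaA` (for EVERY `γ ∈ Γ₀(M)` with lower right entry `≡ u`), and the final forms
`diaF1_mul'`, `diaF1_inv'`, `diaF1_genJ`, `diaF1_genG`.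
-/
import Mathlib
import Fermat.Agent.S48.G1.F1.DiaDefs
import Fermat.Agent.S48.G1.F1.Gens
import Fermat.Agent.S48.G1.F1.GHol
import Fermat.Agent.S24.Theta
import Fermat.Agent.S48.Hecke1.Defs

set_option autoImplicit false

noncomputable section

open UpperHalfPlane ModularCurve CongruenceSubgroup
open scoped MatrixGroups

namespace Fermat.Agent.S48.G1.F1.DiaEx

open Fermat.Agent.S24.HolH Fermat.Agent.S24.Theta Fermat.Agent.S48.G1.F1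
open Fermat.Agent.S48.G1.F1.GHol Fermat.Agent.S48.G1.F1.Dia

variable {M : ℕ}

/-- `θ` is a theta map: `θ x` is a holomorphic function with `q`-expansion `x`. -/
def IsTheta (ι : Qb →+* ℂ) (θ : A01 M →+* HolH) : Prop :=
  ∀ x : A01 M, HasQ ι ((x : F1 M) : LaurentSeries Qb) (θ x : ℍ → ℂ)

section Theta

variable {ι : Qb →+* ℂ} {θ : A01 M →+* HolH}

theorem IsTheta.injective (hθ : IsTheta ι θ) : Function.Injective θ := by
  intro x y h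
  have h1 := hθ x
  have h2 := hθ y
  rw [h] at h1
  exact Subtype.ext (Subtype.ext (h1.unique h2))

theorem IsTheta.eq_of_hasQ (hθ : IsTheta ι θ) {x : A01 M} {φ : HolH}
    (h : HasQ ι ((x : F1 M) : LaurentSeries Qb) (φ : ℍ → ℂ)) : θ x = φ :=
  Subtype.ext ((hθ x).fun_unique h)

theorem IsTheta.genJ (hθ : IsTheta ι θ) (d : ℕ) [NeZero d] (hd : d ∣ M) :
    θ (genJ M d hd) = jScale d :=
  hθ.eq_of_hasQ (hasQ_coeffEmb_qExpand_jq ι d)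

theorem unit_ne_zero (hM : M ≠ 1) (b : (ZMod M)ˣ) : (b : ZMod M) ≠ 0 := by
  have : Nontrivial (ZMod M) := ZMod.nontrivial_iff.mpr hM
  exact b.ne_zero

theorem IsTheta.genG (hθ : IsTheta ι θ) (hM : M ≠ 1) (b : (ZMod M)ˣ) :
    θ (genG M b) = gHol M (b : ZMod M) :=
  hθ.eq_of_hasQ (hasQ_gq ι (unit_ne_zero hM b))

theorem IsTheta.algebraMap (hθ : IsTheta ι θ) (c : Qb) :
    θ (algebraMap Qb (A01 M) c) = algebraMap ℂ HolH (ι c) :=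
  hθ.eq_of_hasQ (hasQ_algebraMap ι c)

end Theta

/-! ### Units attached to elements of `Γ₀(M)` -/

theorem entry_mul_entry {γ : SL(2, ℤ)} (hγ : γ ∈ Gamma0 M) :
    ((γ 0 0 : ℤ) : ZMod M) * ((γ 1 1 : ℤ) : ZMod M) = 1 := by
  rw [Gamma0_mem] at hγ
  have hdet := γ.det_coe
  rw [Matrix.det_fin_two] at hdet
  have h := congrArg (Int.cast : ℤ → ZMod M) hdet
  push_cast at h
  rw [hγ, mul_zero, sub_zero] at h
  exact h

/-- The unit `d_γ mod M` attached to `γ ∈ Γ₀(M)`. -/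
def unitOf {γ : SL(2, ℤ)} (hγ : γ ∈ Gamma0 M) : (ZMod M)ˣ where
  val := ((γ 1 1 : ℤ) : ZMod M)
  inv := ((γ 0 0 : ℤ) : ZMod M)
  val_inv := by rw [mul_comm]; exact entry_mul_entry hγ
  inv_val := entry_mul_entry hγ

theorem coe_unitOf {γ : SL(2, ℤ)} (hγ : γ ∈ Gamma0 M) :
    ((unitOf hγ : (ZMod M)ˣ) : ZMod M) = ((γ 1 1 : ℤ) : ZMod M) := rfl

theorem coe_unitOf_inv {γ : SL(2, ℤ)} (hγ : γ ∈ Gamma0 M) :
    (((unitOf hγ)⁻¹ : (ZMod M)ˣ) : ZMod M) = ((γ 0 0 : ℤ) : ZMod M) := rfl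

theorem unit_eq_unitOf {γ : SL(2, ℤ)} (hγ : γ ∈ Gamma0 M) {u : (ZMod M)ˣ}
    (hu : (u : ZMod M) = ((γ 1 1 : ℤ) : ZMod M)) : u = unitOf hγ :=
  Units.ext hu

/-! ### Precomposition with `γ ∈ Γ₀(M)` preserves `θ (A01 M)` -/

section Main

variable {ι : Qb →+* ℂ} {θ : A01 M →+* HolH}

/-- `compSL γ` as a ring endomorphism of `HolH`. -/
abbrev cmp (γ : SL(2, ℤ)) : HolH →+* HolH := (compSL γ : HolH →ₐ[ℂ] HolH)

theorem cmp_apply (γ : SL(2, ℤ)) (f : HolH) : cmp γ f = compSL γ f := rfl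

theorem cmp_genJ (hθ : IsTheta ι θ) {γ : SL(2, ℤ)} (hγ : γ ∈ Gamma0 M) (d : ℕ) [NeZero d]
    (hd : d ∣ M) : cmp γ (θ (genJ M d hd)) = θ (genJ M d hd) := by
  rw [hθ.genJ, cmp_apply]
  apply Subtype.ext
  funext τ
  exact Fermat.Agent.S24.StabJ.jFun_scale_smul_of_mem_Gamma0 hd γ hγ τ

theorem cmp_genG (hθ : IsTheta ι θ) (hM : M ≠ 1) {γ : SL(2, ℤ)} (hγ : γ ∈ Gamma0 M)
    (b : (ZMod M)ˣ) : cmp γ (θ (genG M b)) = θ (genG M (b * (unitOf hγ)⁻¹)) := by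
  rw [hθ.genG hM, hθ.genG hM, cmp_apply, compSL_gHol _ hγ, Units.val_mul, coe_unitOf_inv]

theorem cmp_algebraMap (hθ : IsTheta ι θ) (γ : SL(2, ℤ)) (c : Qb) :
    cmp γ (θ (algebraMap Qb (A01 M) c)) = θ (algebraMap Qb (A01 M) c) := by
  rw [hθ.algebraMap, cmp_apply]
  exact (compSL γ).commutes (ι c)

/-- Precomposition with `γ ∈ Γ₀(M)` preserves the image of `θ`. -/
theorem preserves (hθ : IsTheta ι θ) (hM : M ≠ 1) {γ : SL(2, ℤ)} (hγ : γ ∈ Gamma0 M) :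
    DiaGen.Preserves θ (cmp γ) := by
  intro a
  refine A01_induction (p := fun a : A01 M => ∃ a' : A01 M, θ a' = cmp γ (θ a)) ?_ ?_ ?_ ?_ ?_ a
  · intro d _ hd
    exact ⟨genJ M d hd, (cmp_genJ hθ hγ d hd).symm⟩
  · intro b
    exact ⟨genG M (b * (unitOf hγ)⁻¹), (cmp_genG hθ hM hγ b).symm⟩
  · intro c
    exact ⟨algebraMap Qb (A01 M) c, (cmp_algebraMap hθ γ c).symm⟩
  · rintro x y ⟨x', hx⟩ ⟨y', hy⟩
    exact ⟨x' + y', by rw [map_add, map_add, map_add, hx, hy]⟩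
  · rintro x y ⟨x', hx⟩ ⟨y', hy⟩
    exact ⟨x' * y', by rw [map_mul, map_mul, map_mul, hx, hy]⟩

theorem cmp_injective (γ : SL(2, ℤ)) : Function.Injective (cmp γ) := compSL_injective γ

/-- The ring endomorphism of `A01 M` induced by `γ ∈ Γ₀(M)`: `θ (diaA a) = θ a ∘ γ`. -/
def diaA (hθ : IsTheta ι θ) (hM : M ≠ 1) {γ : SL(2, ℤ)} (hγ : γ ∈ Gamma0 M) : A01 M →+* A01 M :=
  DiaGen.liftA hθ.injective (cmp γ) (preserves hθ hM hγ)

/-- **Analytic description**: `θ (diaA a) = θ a ∘ γ`. -/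
theorem theta_diaA (hθ : IsTheta ι θ) (hM : M ≠ 1) {γ : SL(2, ℤ)} (hγ : γ ∈ Gamma0 M)
    (a : A01 M) : θ (diaA hθ hM hγ a) = compSL γ (θ a) :=
  DiaGen.theta_liftA hθ.injective (cmp γ) (preserves hθ hM hγ) a

theorem diaA_genJ (hθ : IsTheta ι θ) (hM : M ≠ 1) {γ : SL(2, ℤ)} (hγ : γ ∈ Gamma0 M)
    (d : ℕ) [NeZero d] (hd : d ∣ M) : diaA hθ hM hγ (genJ M d hd) = genJ M d hd :=
  DiaGen.liftA_eq hθ.injective (cmp γ) (preserves hθ hM hγ) (cmp_genJ hθ hγ d hd).symm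

theorem diaA_genG (hθ : IsTheta ι θ) (hM : M ≠ 1) {γ : SL(2, ℤ)} (hγ : γ ∈ Gamma0 M)
    (b : (ZMod M)ˣ) : diaA hθ hM hγ (genG M b) = genG M (b * (unitOf hγ)⁻¹) :=
  DiaGen.liftA_eq hθ.injective (cmp γ) (preserves hθ hM hγ) (cmp_genG hθ hM hγ b).symm

theorem diaA_algebraMap (hθ : IsTheta ι θ) (hM : M ≠ 1) {γ : SL(2, ℤ)} (hγ : γ ∈ Gamma0 M)
    (c : Qb) : diaA hθ hM hγ (algebraMap Qb (A01 M) c) = algebraMap Qb (A01 M) c :=
  DiaGen.liftA_eq hθ.injective (cmp γ) (preserves hθ hM hγ) (cmp_algebraMap hθ γ c).symm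

/-- The ring automorphism of `F1 M` induced by `γ ∈ Γ₀(M)`. -/
def diaRing (hθ : IsTheta ι θ) (hM : M ≠ 1) {γ : SL(2, ℤ)} (hγ : γ ∈ Gamma0 M) :
    F1 M ≃+* F1 M :=
  DiaGen.liftEquiv (F1 M) hθ.injective (cmp γ) (cmp γ⁻¹) (preserves hθ hM hγ)
    (preserves hθ hM (inv_mem hγ)) (cmp_injective γ) (cmp_injective γ⁻¹)
    (fun a => compSL_compSL_inv γ (θ a)) (fun a => compSL_inv_compSL γ (θ a))

theorem diaRing_coe (hθ : IsTheta ι θ) (hM : M ≠ 1) {γ : SL(2, ℤ)} (hγ : γ ∈ Gamma0 M)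
    (a : A01 M) : diaRing hθ hM hγ (a : F1 M) = (diaA hθ hM hγ a : F1 M) :=
  DiaGen.liftF_algebraMap hθ.injective (cmp γ) (preserves hθ hM hγ) (cmp_injective γ) a

/-- The `ℚ̄`-algebra automorphism of `F1 M` induced by `γ ∈ Γ₀(M)`. -/
def diaOf (hθ : IsTheta ι θ) (hM : M ≠ 1) {γ : SL(2, ℤ)} (hγ : γ ∈ Gamma0 M) :
    F1 M ≃ₐ[Qb] F1 M :=
  AlgEquiv.ofRingEquiv (f := diaRing hθ hM hγ) (fun c => by
    have e : algebraMap Qb (F1 M) c = ((algebraMap Qb (A01 M) c : A01 M) : F1 M) := rfl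
    rw [e, diaRing_coe, diaA_algebraMap])

theorem diaOf_coe (hθ : IsTheta ι θ) (hM : M ≠ 1) {γ : SL(2, ℤ)} (hγ : γ ∈ Gamma0 M)
    (a : A01 M) : diaOf hθ hM hγ (a : F1 M) = (diaA hθ hM hγ a : F1 M) :=
  diaRing_coe hθ hM hγ a

/-- `diaOf γ` is a diamond automorphism for `u ≡ d_γ`. -/
theorem isDia_diaOf (hθ : IsTheta ι θ) (hM : M ≠ 1) {γ : SL(2, ℤ)} (hγ : γ ∈ Gamma0 M)
    (u : (ZMod M)ˣ) (hu : (u : ZMod M) = ((γ 1 1 : ℤ) : ZMod M)) :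
    IsDia M u (diaOf hθ hM hγ) := by
  obtain rfl := unit_eq_unitOf hγ hu
  refine ⟨?_, ?_⟩
  · rintro x ⟨_, ⟨d, hd0, hdM, rfl⟩, hx⟩
    have hx' : x = (genJ M d hdM : F1 M) := Subtype.ext hx.symm
    rw [hx', diaOf_coe, diaA_genJ]
  · intro b x hx
    have hx' : x = (genG M b : F1 M) := Subtype.ext hx
    rw [hx', diaOf_coe, diaA_genG]
    rfl

/-- **Existence of the diamond automorphisms** (`M ≠ 1`). -/
theorem exists_isDia [NeZero M] (hθ : IsTheta ι θ) (hM : M ≠ 1) (u : (ZMod M)ˣ) :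
    ∃ D : F1 M ≃ₐ[Qb] F1 M, IsDia M u D := by
  obtain ⟨γ, hγ, hu⟩ := Fermat.Agent.S48.Hecke1.exists_gamma0_rep M u
  exact ⟨diaOf hθ hM hγ, isDia_diaOf hθ hM hγ u hu.symm⟩

/-- `diaF1 M u` is the automorphism induced by ANY `γ ∈ Γ₀(M)` with lower right entry `≡ u`. -/
theorem diaF1_eq_diaOf (hθ : IsTheta ι θ) (hM : M ≠ 1) {γ : SL(2, ℤ)} (hγ : γ ∈ Gamma0 M)
    (u : (ZMod M)ˣ) (hu : (u : ZMod M) = ((γ 1 1 : ℤ) : ZMod M)) :
    diaF1 M u = diaOf hθ hM hγ :=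
  diaF1_eq (isDia_diaOf hθ hM hγ u hu)

/-- **Analytic description of `diaF1`**: on the coordinate ring, `⟨u⟩` is precomposition with
any `γ ∈ Γ₀(M)` with lower right entry `≡ u`. -/
theorem theta_diaF1 (hθ : IsTheta ι θ) (hM : M ≠ 1) {γ : SL(2, ℤ)} (hγ : γ ∈ Gamma0 M)
    (u : (ZMod M)ˣ) (hu : (u : ZMod M) = ((γ 1 1 : ℤ) : ZMod M)) (a : A01 M) :
    θ ⟨diaF1 M u (a : F1 M), diaF1_mem_A01 M u a.2⟩ = compSL γ (θ a) := by
  have e : (⟨diaF1 M u (a : F1 M), diaF1_mem_A01 M u a.2⟩ : A01 M) = diaA hθ hM hγ a := by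
    apply Subtype.ext
    show diaF1 M u (a : F1 M) = (diaA hθ hM hγ a : F1 M)
    rw [diaF1_eq_diaOf hθ hM hγ u hu, diaOf_coe]
  rw [e, theta_diaA]

/-- The values of `diaF1` on the generators of `Gens.lean`. -/
theorem diaF1_genJ [NeZero M] (hθ : IsTheta ι θ) (hM : M ≠ 1) (u : (ZMod M)ˣ) (d : ℕ) [NeZero d]
    (hd : d ∣ M) : diaF1 M u (genJ M d hd : F1 M) = (genJ M d hd : F1 M) :=
  diaF1_jElt (exists_isDia hθ hM u) d hd

theorem diaF1_genG [NeZero M] (hθ : IsTheta ι θ) (hM : M ≠ 1) (u b : (ZMod M)ˣ) :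
    diaF1 M u (genG M b : F1 M) = (genG M (b * u⁻¹) : F1 M) :=
  diaF1_gElt (exists_isDia hθ hM u) b

theorem diaF1_mul' [NeZero M] (hθ : IsTheta ι θ) (hM : M ≠ 1) (u v : (ZMod M)ˣ) (x : F1 M) :
    diaF1 M (u * v) x = diaF1 M u (diaF1 M v x) :=
  diaF1_mul_apply (exists_isDia hθ hM u) (exists_isDia hθ hM v) x

theorem diaF1_inv' [NeZero M] (hθ : IsTheta ι θ) (hM : M ≠ 1) (u : (ZMod M)ˣ) :
    diaF1 M u⁻¹ = (diaF1 M u).symm :=
  diaF1_inv (exists_isDia hθ hM u)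

end Main

end Fermat.Agent.S48.G1.F1.DiaEx
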