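/-
PROGRAM DS (S48), part G1, AREA F, row F.1 (c) (helper259): the homomorphism
`theta1 : A01 M →+* HolH` from the coordinate ring of `F1 M` to holomorphic functions on `ℍ`.

Twin of `S24/Theta.lean` (section `ThetaDef`) for the function field `F1 M` of `Γ₁(M)`.
Inputs (both landed):
* `F1/Gens.lean` (helper216): the generators `genJ M d hd`, `genG M b` of `A01 M` and the
  induction principle `A01_induction`;
* `F1/GHol.lean` (helper142): the holomorphic functions `gHol M b` with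
  `hasQ_gq : HasQ ι (coeffEmb K (gq M b)) (gFun M b)` for `b ≠ 0`, and their `Γ₁(M)`-invariance.

Contents.
* `GHyp ι M` : every `gq M b` (`b` a unit) is the `q`-expansion of a holomorphic function;
  `gHyp ι hM : GHyp ι M` for `2 ≤ M`.
* `theta1Of ι M hg : A01 M →+* HolH` for ANY proof `hg : GHyp ι M` (so nothing below depends
  on how the analytic input was proved), and
  `theta1 ι M hM := theta1Of ι M (gHyp ι hM)` for `hM : 2 ≤ M` (ruling R2: `M = 1` is excluded).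
* `hasQ_theta1`, `theta1_injective`, `theta1_genJ` (`= jScale d`), `theta1_genG` (`= gHol M b`),
  `theta1_algebraMap`, the induction principles `theta1_induction`, `theta1_image_induction`,
  the `ℚ̄`-algebra form `theta1Alg`, and the `Γ₁(M)`-invariance
  `compSL_theta1_of_mem_Gamma1`, `theta1_smul_of_mem_Gamma1`.
-/
import Mathlib
import Fermat.Agent.S48.G1.F1.Gens
import Fermat.Agent.S48.G1.F1.GHol
import Fermat.Agent.S24.Theta

set_option autoImplicit false

noncomputable section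

open UpperHalfPlane ModularCurve HahnSeries
open scoped MatrixGroups Manifold

namespace Fermat.Agent.S48.G1.F1.Theta1

open Fermat.Agent.S24.HolH Fermat.Agent.S24.Theta Fermat.Agent.S24.DegreeGen
open Fermat.Agent.S24.StabAbs Fermat.Agent.S48.G1.F1

section ThetaOf

variable (ι : Qb →+* ℂ) (M : ℕ)

/-- **The analytic input (row F.1 (b)).**  Every generator `gq M b` is the `q`-expansion of a
holomorphic function on `ℍ`. -/
def GHyp : Prop :=
  ∀ b : (ZMod M)ˣ, ∃ φ : HolH, HasQ ι (coeffEmb Qb (gq M (b : ZMod M))) (φ : ℍ → ℂ)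

variable {ι M}

theorem exists_hol1 (hg : GHyp ι M) (x : A01 M) :
    ∃ φ : HolH, HasQ ι ((x : F1 M) : LaurentSeries Qb) (φ : ℍ → ℂ) := by
  refine A01_induction (p := fun x : A01 M =>
    ∃ φ : HolH, HasQ ι ((x : F1 M) : LaurentSeries Qb) (φ : ℍ → ℂ)) ?_ ?_ ?_ ?_ ?_ x
  · intro d _ hd
    exact ⟨jScale d, hasQ_coeffEmb_qExpand_jq ι d⟩
  · intro b
    exact hg b
  · intro c
    exact ⟨algebraMap ℂ HolH (ι c), hasQ_algebraMap ι c⟩
  · rintro x y ⟨φ, hφ⟩ ⟨ψ, hψ⟩
    refine ⟨φ + ψ, ?_⟩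
    have h := hφ.add hψ
    simpa using h
  · rintro x y ⟨φ, hφ⟩ ⟨ψ, hψ⟩
    refine ⟨φ * ψ, ?_⟩
    have h := hφ.mul hψ
    simpa using h

/-- underlying function of `theta1Of` -/
def theta1Fun (hg : GHyp ι M) (x : A01 M) : HolH := (exists_hol1 hg x).choose

theorem hasQ_theta1Fun (hg : GHyp ι M) (x : A01 M) :
    HasQ ι ((x : F1 M) : LaurentSeries Qb) (theta1Fun hg x : ℍ → ℂ) :=
  (exists_hol1 hg x).choose_spec

theorem theta1Fun_eq (hg : GHyp ι M) {x : A01 M} {φ : HolH}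
    (h : HasQ ι ((x : F1 M) : LaurentSeries Qb) (φ : ℍ → ℂ)) : theta1Fun hg x = φ :=
  Subtype.ext ((hasQ_theta1Fun hg x).fun_unique h)

variable (ι M)

/-- **Theta for `Γ₁(M)`**, from any proof of the analytic input: the ring homomorphism
`A01 M → HolH` sending an element of `A01 M` to the holomorphic function whose `q`-expansion
it is. -/
def theta1Of (hg : GHyp ι M) : A01 M →+* HolH where
  toFun := theta1Fun hg
  map_one' := theta1Fun_eq hg (by
    have h := hasQ_one (K := Qb) ι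
    simpa using h)
  map_mul' x y := theta1Fun_eq hg (by
    have h := (hasQ_theta1Fun hg x).mul (hasQ_theta1Fun hg y)
    simpa using h)
  map_zero' := theta1Fun_eq hg (by
    have h := hasQ_zero (K := Qb) ι
    simpa using h)
  map_add' x y := theta1Fun_eq hg (by
    have h := (hasQ_theta1Fun hg x).add (hasQ_theta1Fun hg y)
    simpa using h)

/-- `theta1Of x` has `q`-expansion `x`. -/
theorem hasQ_theta1Of (hg : GHyp ι M) (x : A01 M) :
    HasQ ι ((x : F1 M) : LaurentSeries Qb) (theta1Of ι M hg x : ℍ → ℂ) :=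
  hasQ_theta1Fun hg x

variable {ι M}

theorem theta1Of_eq_of_hasQ (hg : GHyp ι M) {x : A01 M} {φ : HolH}
    (h : HasQ ι ((x : F1 M) : LaurentSeries Qb) (φ : ℍ → ℂ)) : theta1Of ι M hg x = φ :=
  theta1Fun_eq hg h

theorem theta1Of_genJ (hg : GHyp ι M) (d : ℕ) [NeZero d] (hd : d ∣ M) :
    theta1Of ι M hg (genJ M d hd) = jScale d :=
  theta1Of_eq_of_hasQ hg (hasQ_coeffEmb_qExpand_jq ι d)

/-- `theta1Of (g_b)` is ANY holomorphic function with `q`-expansion `gq M b`. -/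
theorem theta1Of_genG (hg : GHyp ι M) (b : (ZMod M)ˣ) {φ : HolH}
    (hφ : HasQ ι (coeffEmb Qb (gq M (b : ZMod M))) (φ : ℍ → ℂ)) :
    theta1Of ι M hg (genG M b) = φ :=
  theta1Of_eq_of_hasQ hg hφ

theorem theta1Of_algebraMap (hg : GHyp ι M) (c : Qb) :
    theta1Of ι M hg (algebraMap Qb (A01 M) c) = algebraMap ℂ HolH (ι c) :=
  theta1Of_eq_of_hasQ hg (hasQ_algebraMap ι c)

theorem theta1Of_injective (hg : GHyp ι M) : Function.Injective (theta1Of ι M hg) := by
  intro x y h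
  have h1 := hasQ_theta1Of ι M hg x
  have h2 := hasQ_theta1Of ι M hg y
  rw [h] at h1
  exact Subtype.ext (Subtype.ext (h1.unique h2))

end ThetaOf

/-! ### The hypothesis-free `theta1` for `2 ≤ M` -/

section Theta1

variable (ι : Qb →+* ℂ)

/-- The analytic input holds for `2 ≤ M` (`GHol.hasQ_gq`). -/
theorem gHyp {M : ℕ} (hM : 2 ≤ M) : GHyp ι M := fun b =>
  ⟨GHol.gHol M (b : ZMod M), GHol.hasQ_gq ι (GHol.unit_ne_zero hM b)⟩

variable (M : ℕ)

/-- **Theta for `Γ₁(M)`** (`2 ≤ M`): `j(q^d) ↦ (τ ↦ j(dτ))`, `gq M b ↦ g_b`. -/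
def theta1 (hM : 2 ≤ M) : A01 M →+* HolH := theta1Of ι M (gHyp ι hM)

variable {ι M}

theorem theta1_eq_theta1Of (hM : 2 ≤ M) (hg : GHyp ι M) : theta1 ι M hM = theta1Of ι M hg := rfl

/-- `theta1 x` has `q`-expansion `x`. -/
theorem hasQ_theta1 (hM : 2 ≤ M) (x : A01 M) :
    HasQ ι ((x : F1 M) : LaurentSeries Qb) (theta1 ι M hM x : ℍ → ℂ) :=
  hasQ_theta1Of ι M _ x

theorem theta1_eq_of_hasQ (hM : 2 ≤ M) {x : A01 M} {φ : HolH}
    (h : HasQ ι ((x : F1 M) : LaurentSeries Qb) (φ : ℍ → ℂ)) : theta1 ι M hM x = φ :=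
  theta1Of_eq_of_hasQ _ h

theorem theta1_genJ (hM : 2 ≤ M) (d : ℕ) [NeZero d] (hd : d ∣ M) :
    theta1 ι M hM (genJ M d hd) = jScale d :=
  theta1Of_genJ _ d hd

theorem theta1_genJ_apply (hM : 2 ≤ M) (d : ℕ) [NeZero d] (hd : d ∣ M) (τ : ℍ) :
    (theta1 ι M hM (genJ M d hd) : ℍ → ℂ) τ = Fermat.Agent.S24.JFun.jFun (scaleH d τ) := by
  rw [theta1_genJ]
  rfl

theorem theta1_genG (hM : 2 ≤ M) (b : (ZMod M)ˣ) :
    theta1 ι M hM (genG M b) = GHol.gHol M (b : ZMod M) :=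
  theta1Of_genG _ b (GHol.hasQ_gq ι (GHol.unit_ne_zero hM b))

theorem theta1_genG_apply (hM : 2 ≤ M) (b : (ZMod M)ˣ) (τ : ℍ) :
    (theta1 ι M hM (genG M b) : ℍ → ℂ) τ = GHol.gFun M (b : ZMod M) τ := by
  rw [theta1_genG]
  rfl

theorem theta1_algebraMap (hM : 2 ≤ M) (c : Qb) :
    theta1 ι M hM (algebraMap Qb (A01 M) c) = algebraMap ℂ HolH (ι c) :=
  theta1Of_algebraMap _ c

theorem theta1_algebraMap_apply (hM : 2 ≤ M) (c : Qb) (τ : ℍ) :
    (theta1 ι M hM (algebraMap Qb (A01 M) c) : ℍ → ℂ) τ = ι c := by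
  rw [theta1_algebraMap]
  rfl

theorem theta1_injective (hM : 2 ≤ M) : Function.Injective (theta1 ι M hM) :=
  theta1Of_injective _

/-- Induction principle for the graph of `theta1`. -/
theorem theta1_induction (hM : 2 ≤ M) {P : A01 M → HolH → Prop}
    (hJ : ∀ (d : ℕ) [NeZero d] (hd : d ∣ M), P (genJ M d hd) (jScale d))
    (hG : ∀ b : (ZMod M)ˣ, P (genG M b) (GHol.gHol M (b : ZMod M)))
    (hC : ∀ c : Qb, P (algebraMap Qb (A01 M) c) (algebraMap ℂ HolH (ι c)))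
    (hadd : ∀ x y φ ψ, P x φ → P y ψ → P (x + y) (φ + ψ))
    (hmul : ∀ x y φ ψ, P x φ → P y ψ → P (x * y) (φ * ψ)) (x : A01 M) :
    P x (theta1 ι M hM x) := by
  refine A01_induction (p := fun x : A01 M => P x (theta1 ι M hM x)) ?_ ?_ ?_ ?_ ?_ x
  · intro d _ hd
    rw [theta1_genJ]
    exact hJ d hd
  · intro b
    rw [theta1_genG]
    exact hG b
  · intro c
    rw [theta1_algebraMap]
    exact hC c
  · intro x y hx hy
    rw [map_add]
    exact hadd _ _ _ _ hx hy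
  · intro x y hx hy
    rw [map_mul]
    exact hmul _ _ _ _ hx hy

/-- Induction principle for the image of `theta1`. -/
theorem theta1_image_induction (hM : 2 ≤ M) {P : HolH → Prop}
    (hJ : ∀ (d : ℕ) [NeZero d], d ∣ M → P (jScale d))
    (hG : ∀ b : (ZMod M)ˣ, P (GHol.gHol M (b : ZMod M)))
    (hC : ∀ c : Qb, P (algebraMap ℂ HolH (ι c)))
    (hadd : ∀ φ ψ, P φ → P ψ → P (φ + ψ))
    (hmul : ∀ φ ψ, P φ → P ψ → P (φ * ψ)) (x : A01 M) :
    P (theta1 ι M hM x) :=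
  theta1_induction (ι := ι) hM (P := fun _ φ => P φ) (fun d _ hd => hJ d hd) hG hC
    (fun _ _ φ ψ => hadd φ ψ) (fun _ _ φ ψ => hmul φ ψ) x

/-- `theta1 x` is `Γ₁(M)`-invariant. -/
theorem compSL_theta1_of_mem_Gamma1 (hM : 2 ≤ M) {g : SL(2, ℤ)}
    (hg : g ∈ CongruenceSubgroup.Gamma1 M) (x : A01 M) :
    compSL g (theta1 ι M hM x) = theta1 ι M hM x := by
  have hg0 : g ∈ CongruenceSubgroup.Gamma0 M :=
    CongruenceSubgroup.Gamma0_mem.mpr ((CongruenceSubgroup.Gamma1_mem M g).mp hg).2.2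
  refine theta1_image_induction (ι := ι) hM (P := fun φ : HolH => compSL g φ = φ) ?_ ?_ ?_ ?_ ?_ x
  · intro d _ hd
    apply Subtype.ext
    funext τ
    exact Fermat.Agent.S24.StabJ.jFun_scale_smul_of_mem_Gamma0 hd g hg0 τ
  · intro b
    apply Subtype.ext
    funext τ
    exact GHol.gFun_smul_Gamma1 (b : ZMod M) hg τ
  · intro c
    exact (compSL g).commutes (ι c)
  · intro φ ψ hφ hψ
    rw [map_add, hφ, hψ]
  · intro φ ψ hφ hψ
    rw [map_mul, hφ, hψ]

theorem theta1_smul_of_mem_Gamma1 (hM : 2 ≤ M) {g : SL(2, ℤ)}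
    (hg : g ∈ CongruenceSubgroup.Gamma1 M) (x : A01 M) (τ : ℍ) :
    (theta1 ι M hM x : ℍ → ℂ) (g • τ) = (theta1 ι M hM x : ℍ → ℂ) τ := by
  have h := congrArg (fun φ : HolH => (φ : ℍ → ℂ) τ)
    (compSL_theta1_of_mem_Gamma1 (ι := ι) hM hg x)
  simpa using h

variable (ι M)

/-- `theta1` as a `ℚ̄`-algebra homomorphism, for the algebra structure `algebraOfIota ι`. -/
def theta1Alg (hM : 2 ≤ M) : @AlgHom Qb (A01 M) HolH _ _ _ _ (algebraOfIota ι) :=
  letI := algebraOfIota ι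
  { theta1 ι M hM with commutes' := theta1_algebraMap hM }

theorem theta1Alg_apply (hM : 2 ≤ M) (x : A01 M) : theta1Alg ι M hM x = theta1 ι M hM x := rfl

end Theta1

end Fermat.Agent.S48.G1.F1.Theta1

end
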