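/-
PROGRAM DS (S48) / G1 / AREA F, row F.3 (helper71): the diamond automorphisms of `F1 M`,
HYPOTHESIS-FREE FORMS for `2 ≤ M` (instance of `F1/Dia.lean` at the landed `Theta1.theta1`).

* `isTheta_theta1`  : `theta1 ι M hM` is a theta map;
* `exists_isDia1`   : the diamond automorphism exists for every unit `u`;
* `dia_spec1`       : THE LITERAL of the field `dia_spec` of `Producer1.Objs` for
                      `θ := theta1 iotaBar M hM`, `dia := diaF1 M`;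
* `diaA1 M u`       : the restriction of `diaF1 M u` to the coordinate ring `A01 M`
                      (a `ℚ̄`-algebra endomorphism; defined unconditionally), with
                      `theta1_diaA1 : theta1 (diaA1 u a) = compSL γ (theta1 a)` for EVERY
                      `γ ∈ Γ₀(M)` with lower right entry `≡ u`;
* `diaHom M hM`     : `u ↦ diaF1 M u` as a monoid homomorphism `(ℤ/M)ˣ →* Aut(F1 M / ℚ̄)`;
* `diaF1_mul1`, `diaF1_inv1`, `diaF1_genJ1`, `diaF1_genG1`.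
-/
import Mathlib
import Fermat.Agent.S48.G1.F1.Dia
import Fermat.Agent.S48.G1.F1.Theta1

set_option autoImplicit false

noncomputable section

open UpperHalfPlane ModularCurve CongruenceSubgroup
open scoped MatrixGroups

namespace Fermat.Agent.S48.G1.F1.DiaFinal

open Fermat.Agent.S24.HolH Fermat.Agent.S24.Theta Fermat.Agent.S48.G1.F1
open Fermat.Agent.S48.G1.F1.DiaEx

variable {M : ℕ}

theorem ne_one_of_two_le (hM : 2 ≤ M) : M ≠ 1 := by omega

theorem neZero_of_two_le (hM : 2 ≤ M) : NeZero M := ⟨by omega⟩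

/-- `theta1 ι M hM` is a theta map. -/
theorem isTheta_theta1 (ι : Qb →+* ℂ) (hM : 2 ≤ M) : IsTheta ι (Theta1.theta1 ι M hM) :=
  fun x => Theta1.hasQ_theta1 hM x

/-- **Existence of the diamond automorphisms** for `2 ≤ M`. -/
theorem exists_isDia1 (hM : 2 ≤ M) (u : (ZMod M)ˣ) : ∃ D : F1 M ≃ₐ[Qb] F1 M, IsDia M u D :=
  haveI := neZero_of_two_le hM
  exists_isDia (isTheta_theta1 iotaBar hM) (ne_one_of_two_le hM) u

theorem isDia_diaF1' (hM : 2 ≤ M) (u : (ZMod M)ˣ) : IsDia M u (diaF1 M u) :=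
  isDia_diaF1 (exists_isDia1 hM u)

/-- The restriction of `diaF1 M u` to the coordinate ring `A01 M`. -/
def diaA1 (M : ℕ) (u : (ZMod M)ˣ) : A01 M →ₐ[Qb] A01 M where
  toFun a := ⟨diaF1 M u (a : F1 M), diaF1_mem_A01 M u a.2⟩
  map_one' := Subtype.ext (map_one (diaF1 M u))
  map_mul' a b := Subtype.ext (map_mul (diaF1 M u) (a : F1 M) (b : F1 M))
  map_zero' := Subtype.ext (map_zero (diaF1 M u))
  map_add' a b := Subtype.ext (map_add (diaF1 M u) (a : F1 M) (b : F1 M))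
  commutes' c := Subtype.ext ((diaF1 M u).commutes c)

@[simp] theorem coe_diaA1 (M : ℕ) (u : (ZMod M)ˣ) (a : A01 M) :
    ((diaA1 M u a : A01 M) : F1 M) = diaF1 M u (a : F1 M) := rfl

/-- **Analytic description**: `theta1 (⟨u⟩ a) = theta1 a ∘ γ` for EVERY `γ ∈ Γ₀(M)` with lower
right entry `≡ u`. -/
theorem theta1_diaA1 (ι : Qb →+* ℂ) (hM : 2 ≤ M) {γ : SL(2, ℤ)} (hγ : γ ∈ Gamma0 M)
    (u : (ZMod M)ˣ) (hu : ((γ 1 1 : ℤ) : ZMod M) = (u : ZMod M)) (a : A01 M) :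
    Theta1.theta1 ι M hM (diaA1 M u a) = compSL γ (Theta1.theta1 ι M hM a) :=
  theta_diaF1 (isTheta_theta1 ι hM) (ne_one_of_two_le hM) hγ u hu.symm a

/-- **The literal of `Producer1.Objs.dia_spec`** for `θ := theta1 iotaBar M hM`,
`dia := diaF1 M`. -/
theorem dia_spec1 (M : ℕ) (hM : 2 ≤ M) (u : (ZMod M)ˣ) (x : A01 M) :
    ∃ y : A01 M, diaF1 M u (x : F1 M) = (y : F1 M) ∧
      ∀ γ : SL(2, ℤ), γ ∈ Gamma0 M → ((γ 1 1 : ℤ) : ZMod M) = (u : ZMod M) →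
        Theta1.theta1 iotaBar M hM y = compSL γ (Theta1.theta1 iotaBar M hM x) :=
  ⟨diaA1 M u x, rfl, fun _ hγ hu => theta1_diaA1 iotaBar hM hγ u hu x⟩

/-- The same for an arbitrary embedding `ι`. -/
theorem dia_spec1' (ι : Qb →+* ℂ) (M : ℕ) (hM : 2 ≤ M) (u : (ZMod M)ˣ) (x : A01 M) :
    ∃ y : A01 M, diaF1 M u (x : F1 M) = (y : F1 M) ∧
      ∀ γ : SL(2, ℤ), γ ∈ Gamma0 M → ((γ 1 1 : ℤ) : ZMod M) = (u : ZMod M) →
        Theta1.theta1 ι M hM y = compSL γ (Theta1.theta1 ι M hM x) :=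
  ⟨diaA1 M u x, rfl, fun _ hγ hu => theta1_diaA1 ι hM hγ u hu x⟩

/-! ### The group law and the values on generators -/

theorem diaF1_mul1 (hM : 2 ≤ M) (u v : (ZMod M)ˣ) : diaF1 M (u * v) = diaF1 M u * diaF1 M v :=
  diaF1_mul (exists_isDia1 hM u) (exists_isDia1 hM v)

theorem diaF1_mul1_apply (hM : 2 ≤ M) (u v : (ZMod M)ˣ) (x : F1 M) :
    diaF1 M (u * v) x = diaF1 M u (diaF1 M v x) :=
  diaF1_mul_apply (exists_isDia1 hM u) (exists_isDia1 hM v) x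

theorem diaF1_inv1 (hM : 2 ≤ M) (u : (ZMod M)ˣ) : diaF1 M u⁻¹ = (diaF1 M u).symm :=
  diaF1_inv (exists_isDia1 hM u)

/-- `u ↦ ⟨u⟩` as a monoid homomorphism `(ℤ/M)ˣ →* Aut(F1 M / ℚ̄)`. -/
def diaHom (M : ℕ) (hM : 2 ≤ M) : (ZMod M)ˣ →* (F1 M ≃ₐ[Qb] F1 M) where
  toFun := diaF1 M
  map_one' := diaF1_one M
  map_mul' := diaF1_mul1 hM

@[simp] theorem diaHom_apply (hM : 2 ≤ M) (u : (ZMod M)ˣ) : diaHom M hM u = diaF1 M u := rfl

theorem diaHom_neg_one (hM : 2 ≤ M) : diaHom M hM (-1) = 1 := diaF1_neg_one M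

theorem diaF1_genJ1 (hM : 2 ≤ M) (u : (ZMod M)ˣ) (d : ℕ) [NeZero d] (hd : d ∣ M) :
    diaF1 M u (genJ M d hd : F1 M) = (genJ M d hd : F1 M) :=
  diaF1_jElt (exists_isDia1 hM u) d hd

theorem diaF1_genG1 (hM : 2 ≤ M) (u b : (ZMod M)ˣ) :
    diaF1 M u (genG M b : F1 M) = (genG M (b * u⁻¹) : F1 M) :=
  diaF1_gElt (exists_isDia1 hM u) b

theorem diaA1_genJ (hM : 2 ≤ M) (u : (ZMod M)ˣ) (d : ℕ) [NeZero d] (hd : d ∣ M) :
    diaA1 M u (genJ M d hd) = genJ M d hd :=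
  Subtype.ext (diaF1_genJ1 hM u d hd)

theorem diaA1_genG (hM : 2 ≤ M) (u b : (ZMod M)ˣ) :
    diaA1 M u (genG M b) = genG M (b * u⁻¹) :=
  Subtype.ext (diaF1_genG1 hM u b)

/-- `⟨u⟩` fixes the function field of `Γ₀(M)` pointwise on its generators `j(q^d)`; in
particular it fixes `j`. -/
theorem diaF1_j (hM : 2 ≤ M) (u : (ZMod M)ˣ) :
    diaF1 M u (genJ M 1 (one_dvd M) : F1 M) = (genJ M 1 (one_dvd M) : F1 M) :=
  diaF1_genJ1 hM u 1 (one_dvd M)

end Fermat.Agent.S48.G1.F1.DiaFinal
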