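/-
PROGRAM DS (S48), part G1, AREA F/K — LEADING TERMS OF THE GENERATORS `gq M b` (helper38).

`eeSeries M b = ∑_{n ≥ 1} (∑_{c ∣ n, c ≡ ±b (M)} (n/c)³) qⁿ` starts with `q^(b₀)`, coefficient `1`,
where `b₀ = lead M b` is the least positive integer `≡ ±b (M)`.  Hence

* `gNum M b = X ^ lead M b * u` with `u ∈ ℤ⟦X⟧`, `u(0) = 1` (a unit of `ℤ⟦X⟧`), so the image of
  `gNum M b` in `k⟦X⟧` has order `lead M b` and leading coefficient `1` for EVERY nontrivial ring
  `k` (every residue characteristic, `2` and `3` included);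
* two generators `gq M b`, `gq M b'` with `b' ≠ ±b` differ by `X ^ n * (unit of ℤ⟦X⟧)`: the
  diamond-conjugates have pairwise distinct reductions;
* `gq M b` is monic of order `lead M b - 1` in the sense of the Prelude (`IsMonicOfOrder`).
-/
import Mathlib
import Fermat.Agent.S48.G1.F1.Defs
import Fermat.Prelude.Def_ModularCurve_ModularUnit

set_option autoImplicit false

noncomputable section

open ModularCurve

namespace Fermat.Agent.S48.G1.F1.GqLead

open Fermat.Agent.S48.G1.F1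

/-- `n ≡ ±b (M)`. -/
def Hit (M : ℕ) (b : ZMod M) (n : ℕ) : Prop := (n : ZMod M) = b ∨ (n : ZMod M) = -b

theorem hit_neg (M : ℕ) (b : ZMod M) (n : ℕ) : Hit M (-b) n ↔ Hit M b n := by
  unfold Hit
  rw [neg_neg]
  exact or_comm

theorem exists_pos_hit_int (b : ℤ) (hb : b ≠ 0) :
    ∃ n : ℕ, 0 < n ∧ ((n : ℤ) = b ∨ (n : ℤ) = -b) := by
  refine ⟨b.natAbs, Int.natAbs_pos.mpr hb, ?_⟩
  rcases Int.natAbs_eq b with h | h
  · exact Or.inl h.symm
  · exact Or.inr (by omega)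

/-- There is a positive integer `≡ ±b (M)` as soon as `M ≠ 0` or `b ≠ 0`. -/
theorem exists_pos_hit (M : ℕ) (b : ZMod M) (h : M ≠ 0 ∨ b ≠ 0) :
    ∃ n : ℕ, 0 < n ∧ Hit M b n := by
  rcases Nat.eq_zero_or_pos M with hM | hM
  · subst hM
    exact exists_pos_hit_int b (h.resolve_left (fun h0 => h0 rfl))
  · have : NeZero M := ⟨hM.ne'⟩
    by_cases hb : b = 0
    · exact ⟨M, hM, Or.inl (by rw [hb]; exact ZMod.natCast_self M)⟩
    · refine ⟨b.val, ?_, Or.inl (ZMod.natCast_zmod_val b)⟩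
      exact Nat.pos_of_ne_zero (by rwa [Ne, ZMod.val_eq_zero])

/-- The least positive integer `≡ ±b (M)` (and `0` if there is none, i.e. `M = 0 = b`). -/
def lead (M : ℕ) (b : ZMod M) : ℕ := sInf {n : ℕ | 0 < n ∧ Hit M b n}

theorem lead_mem (M : ℕ) (b : ZMod M) (h : M ≠ 0 ∨ b ≠ 0) :
    0 < lead M b ∧ Hit M b (lead M b) :=
  Nat.sInf_mem (s := {n : ℕ | 0 < n ∧ Hit M b n}) (exists_pos_hit M b h)

theorem lead_pos (M : ℕ) (b : ZMod M) (h : M ≠ 0 ∨ b ≠ 0) : 0 < lead M b :=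
  (lead_mem M b h).1

theorem hit_lead (M : ℕ) (b : ZMod M) (h : M ≠ 0 ∨ b ≠ 0) : Hit M b (lead M b) :=
  (lead_mem M b h).2

theorem lead_le (M : ℕ) (b : ZMod M) {n : ℕ} (hn : 0 < n) (hh : Hit M b n) : lead M b ≤ n :=
  Nat.sInf_le (s := {n : ℕ | 0 < n ∧ Hit M b n}) ⟨hn, hh⟩

theorem not_hit_of_lt (M : ℕ) (b : ZMod M) {n : ℕ} (hn : 0 < n) (hlt : n < lead M b) :
    ¬ Hit M b n :=
  fun hh => absurd (lead_le M b hn hh) (not_le.mpr hlt)

theorem lead_neg (M : ℕ) (b : ZMod M) : lead M (-b) = lead M b := by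
  unfold lead
  congr 1
  ext n
  simp only [Set.mem_ofPred_eq, hit_neg]

theorem lead_one (M : ℕ) : lead M 1 = 1 := by
  have h1 : Hit M 1 1 := Or.inl (by simp)
  have hle := lead_le M 1 Nat.one_pos h1
  have hpos : 0 < lead M 1 :=
    (Nat.sInf_mem (s := {n : ℕ | 0 < n ∧ Hit M 1 n}) ⟨1, Nat.one_pos, h1⟩).1
  omega

/-- `lead` separates the classes `±b`. -/
theorem lead_eq_iff (M : ℕ) (b b' : ZMod M) (h : M ≠ 0 ∨ b ≠ 0) (h' : M ≠ 0 ∨ b' ≠ 0) :
    lead M b = lead M b' ↔ b = b' ∨ b = -b' := by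
  constructor
  · intro he
    have h1 := hit_lead M b h
    have h2 := hit_lead M b' h'
    rw [← he] at h2
    rcases h1 with h1 | h1 <;> rcases h2 with h2 | h2
    · exact Or.inl (h1.symm.trans h2)
    · exact Or.inr (h1.symm.trans h2)
    · exact Or.inr (by rw [← h2, h1, neg_neg])
    · exact Or.inl (neg_injective (h1.symm.trans h2))
  · rintro (rfl | rfl)
    · rfl
    · exact lead_neg M b'

theorem lead_ne (M : ℕ) (b b' : ZMod M) (h : M ≠ 0 ∨ b ≠ 0) (h' : M ≠ 0 ∨ b' ≠ 0)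
    (h1 : b ≠ b') (h2 : b ≠ -b') : lead M b ≠ lead M b' :=
  fun he => ((lead_eq_iff M b b' h h').mp he).elim h1 h2

/-- For `M ≥ 1` and `b ≠ 0` the least positive representative of `±b` is at most `M / 2`. -/
theorem two_mul_lead_le (M : ℕ) [NeZero M] (b : ZMod M) (hb : b ≠ 0) : 2 * lead M b ≤ M := by
  have hv : 0 < b.val := Nat.pos_of_ne_zero (by rwa [Ne, ZMod.val_eq_zero])
  have hlt : b.val < M := ZMod.val_lt b
  have h1 : lead M b ≤ b.val := lead_le M b hv (Or.inl (ZMod.natCast_zmod_val b))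
  have h2 : lead M b ≤ M - b.val := by
    refine lead_le M b (by omega) (Or.inr ?_)
    rw [Nat.cast_sub hlt.le, ZMod.natCast_self, ZMod.natCast_zmod_val, zero_sub]
  omega

/-! ### The partial Eisenstein series -/

theorem coeff_eeSeries_of_lt (M : ℕ) (b : ZMod M) {n : ℕ} (hn : n < lead M b) :
    PowerSeries.coeff n (eeSeries M b) = 0 := by
  rw [coeff_eeSeries]
  refine Finset.sum_eq_zero fun c hc => ?_
  have hcpos : 0 < c := Nat.pos_of_mem_divisors hc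
  have hcle : c ≤ n := Nat.divisor_le hc
  exact if_neg (not_hit_of_lt M b hcpos (lt_of_le_of_lt hcle hn))

theorem coeff_eeSeries_lead (M : ℕ) (b : ZMod M) (h : M ≠ 0 ∨ b ≠ 0) :
    PowerSeries.coeff (lead M b) (eeSeries M b) = 1 := by
  have hpos := lead_pos M b h
  rw [coeff_eeSeries, Finset.sum_eq_single_of_mem (lead M b) (Nat.mem_divisors_self _ hpos.ne')]
  · refine (if_pos (hit_lead M b h)).trans ?_
    rw [Nat.div_self hpos]
    norm_num
  · intro c hc hne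
    have hcpos : 0 < c := Nat.pos_of_mem_divisors hc
    have hcle : c ≤ lead M b := Nat.divisor_le hc
    exact if_neg (not_hit_of_lt M b hcpos (lt_of_le_of_ne hcle hne))

theorem X_pow_lead_dvd_eeSeries (M : ℕ) (b : ZMod M) :
    (PowerSeries.X : PowerSeries ℤ) ^ lead M b ∣ eeSeries M b :=
  PowerSeries.X_pow_dvd_iff.mpr fun _ hm => coeff_eeSeries_of_lt M b hm

/-- `EE_b = q^(b₀) · (1 + ⋯)`. -/
theorem eeSeries_eq (M : ℕ) (b : ZMod M) (h : M ≠ 0 ∨ b ≠ 0) :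
    ∃ u : PowerSeries ℤ, PowerSeries.constantCoeff u = 1 ∧
      eeSeries M b = PowerSeries.X ^ lead M b * u := by
  obtain ⟨u, hu⟩ := X_pow_lead_dvd_eeSeries M b
  refine ⟨u, ?_, hu⟩
  have h1 := coeff_eeSeries_lead M b h
  rw [hu, PowerSeries.coeff_X_pow_mul', if_pos le_rfl, Nat.sub_self,
    PowerSeries.coeff_zero_eq_constantCoeff_apply] at h1
  exact h1

/-! ### The numerator `gNum M b = q · g_b` -/

theorem X_pow_lead_dvd_gNum (M : ℕ) (b : ZMod M) :
    (PowerSeries.X : PowerSeries ℤ) ^ lead M b ∣ gNum M b := by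
  unfold gNum
  exact Dvd.dvd.mul_right (Dvd.dvd.mul_right (X_pow_lead_dvd_eeSeries M b) _) _

/-- `q · g_b = q^(b₀) · u`, `u` a power series over `ℤ` with constant coefficient `1`. -/
theorem gNum_eq (M : ℕ) (b : ZMod M) (h : M ≠ 0 ∨ b ≠ 0) :
    ∃ u : PowerSeries ℤ, PowerSeries.constantCoeff u = 1 ∧
      gNum M b = PowerSeries.X ^ lead M b * u := by
  obtain ⟨u, hu1, hu⟩ := eeSeries_eq M b h
  refine ⟨u * eisenstein4 ^ 2 * dedekindEtaUnitInv, ?_, ?_⟩
  · rw [map_mul, map_mul, map_pow, hu1, constantCoeff_eisenstein4,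
      constantCoeff_dedekindEtaUnitInv]
    norm_num
  · unfold gNum
    rw [hu]
    ring

theorem coeff_gNum_of_lt (M : ℕ) (b : ZMod M) {n : ℕ} (hn : n < lead M b) :
    PowerSeries.coeff n (gNum M b) = 0 :=
  PowerSeries.X_pow_dvd_iff.mp (X_pow_lead_dvd_gNum M b) n hn

theorem coeff_gNum_lead (M : ℕ) (b : ZMod M) (h : M ≠ 0 ∨ b ≠ 0) :
    PowerSeries.coeff (lead M b) (gNum M b) = 1 := by
  obtain ⟨u, hu1, hu⟩ := gNum_eq M b h
  rw [hu, PowerSeries.coeff_X_pow_mul', if_pos le_rfl, Nat.sub_self,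
    PowerSeries.coeff_zero_eq_constantCoeff_apply, hu1]

/-! ### Reduction to an arbitrary coefficient ring -/

section Map

variable {k : Type*} [CommRing k] (φ : ℤ →+* k)

theorem coeff_map_gNum_of_lt (M : ℕ) (b : ZMod M) {n : ℕ} (hn : n < lead M b) :
    PowerSeries.coeff n ((gNum M b).map φ) = 0 := by
  rw [PowerSeries.coeff_map, coeff_gNum_of_lt M b hn, map_zero]

theorem coeff_map_gNum_lead (M : ℕ) (b : ZMod M) (h : M ≠ 0 ∨ b ≠ 0) :
    PowerSeries.coeff (lead M b) ((gNum M b).map φ) = 1 := by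
  rw [PowerSeries.coeff_map, coeff_gNum_lead M b h, map_one]

/-- The reduction of `q · g_b` has order exactly `b₀`, in every characteristic. -/
theorem order_map_gNum [Nontrivial k] (M : ℕ) (b : ZMod M) (h : M ≠ 0 ∨ b ≠ 0) :
    ((gNum M b).map φ).order = lead M b := by
  refine PowerSeries.order_eq_nat.mpr ⟨?_, fun i hi => coeff_map_gNum_of_lt φ M b hi⟩
  rw [coeff_map_gNum_lead φ M b h]
  exact one_ne_zero

theorem map_gNum_ne_zero [Nontrivial k] (M : ℕ) (b : ZMod M) (h : M ≠ 0 ∨ b ≠ 0) :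
    (gNum M b).map φ ≠ 0 := by
  intro h0
  have h1 := coeff_map_gNum_lead φ M b h
  rw [h0, map_zero] at h1
  exact zero_ne_one h1

/-- **Distinct reductions**: for `b' ≠ ±b` the reductions of `q · g_b` and `q · g_{b'}` differ,
in every characteristic. -/
theorem map_gNum_ne [Nontrivial k] (M : ℕ) (b b' : ZMod M) (h : M ≠ 0 ∨ b ≠ 0)
    (h' : M ≠ 0 ∨ b' ≠ 0) (h1 : b ≠ b') (h2 : b ≠ -b') :
    (gNum M b).map φ ≠ (gNum M b').map φ := by
  intro he
  have ho := order_map_gNum φ M b h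
  rw [he, order_map_gNum φ M b' h'] at ho
  exact lead_ne M b b' h h' h1 h2 (by exact_mod_cast ho.symm)

end Map

/-- The difference of two generators with `b' ≠ ±b` is `q^n` times a unit of `ℤ⟦q⟧`. -/
theorem gNum_sub_eq (M : ℕ) (b b' : ZMod M) (h : M ≠ 0 ∨ b ≠ 0) (h' : M ≠ 0 ∨ b' ≠ 0)
    (h1 : b ≠ b') (h2 : b ≠ -b') :
    ∃ (n : ℕ) (u : PowerSeries ℤ),
      (PowerSeries.constantCoeff u = 1 ∨ PowerSeries.constantCoeff u = -1) ∧
        gNum M b - gNum M b' = PowerSeries.X ^ n * u := by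
  obtain ⟨u, hu1, hu⟩ := gNum_eq M b h
  obtain ⟨u', hu1', hu'⟩ := gNum_eq M b' h'
  rcases lt_or_gt_of_ne (lead_ne M b b' h h' h1 h2) with hlt | hlt
  · obtain ⟨d, hd⟩ := Nat.exists_eq_add_of_lt hlt
    refine ⟨lead M b, u - PowerSeries.X ^ (d + 1) * u', Or.inl ?_, ?_⟩
    · rw [map_sub, map_mul, map_pow, PowerSeries.constantCoeff_X, hu1]
      simp
    · rw [hu, hu', hd]
      ring
  · obtain ⟨d, hd⟩ := Nat.exists_eq_add_of_lt hlt
    refine ⟨lead M b', PowerSeries.X ^ (d + 1) * u - u', Or.inr ?_, ?_⟩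
    · rw [map_sub, map_mul, map_pow, PowerSeries.constantCoeff_X, hu1']
      simp
    · rw [hu, hu', hd]
      ring

/-! ### Units of `ℤ/M` (the diamond orbit) -/

theorem unit_cond (M : ℕ) (b : (ZMod M)ˣ) : M ≠ 0 ∨ (b : ZMod M) ≠ 0 := by
  rcases Nat.eq_zero_or_pos M with hM | hM
  · subst hM
    have : Nontrivial (ZMod 0) := inferInstanceAs (Nontrivial ℤ)
    exact Or.inr b.ne_zero
  · exact Or.inl hM.ne'

theorem unit_mul_ne (M : ℕ) (b u : (ZMod M)ˣ) (hu : u ≠ 1) :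
    ((b * u : (ZMod M)ˣ) : ZMod M) ≠ (b : ZMod M) := by
  intro he
  apply hu
  have : b * u = b := Units.ext he
  exact mul_eq_left.mp this

theorem unit_mul_ne_neg (M : ℕ) (b u : (ZMod M)ˣ) (hu : u ≠ -1) :
    ((b * u : (ZMod M)ˣ) : ZMod M) ≠ -(b : ZMod M) := by
  intro he
  apply hu
  have h1 : b * u = -b := Units.ext (by rw [he, Units.val_neg])
  have h2 : b * u = b * (-1) := by rw [h1, mul_neg, mul_one]
  exact mul_left_cancel h2

/-- The diamond-conjugates `g_{bu}`, `u ≠ ±1`, of `g_b` have reductions different from that of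
`g_b`, in every characteristic. -/
theorem map_gNum_mul_unit_ne {k : Type*} [CommRing k] [Nontrivial k] (φ : ℤ →+* k) (M : ℕ)
    (b u : (ZMod M)ˣ) (hu1 : u ≠ 1) (hu2 : u ≠ -1) :
    (gNum M ((b * u : (ZMod M)ˣ) : ZMod M)).map φ ≠ (gNum M (b : ZMod M)).map φ :=
  map_gNum_ne φ M _ _ (unit_cond M (b * u)) (unit_cond M b) (unit_mul_ne M b u hu1)
    (unit_mul_ne_neg M b u hu2)

/-! ### The Laurent series `gq M b` -/

/-- `gq M b` is monic of order `b₀ - 1`. -/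
theorem isMonicOfOrder_gq (M : ℕ) (b : ZMod M) (h : M ≠ 0 ∨ b ≠ 0) :
    IsMonicOfOrder (gq M b) ((lead M b : ℤ) - 1) := by
  obtain ⟨u, hu1, hu⟩ := gNum_eq M b h
  have hU : PowerSeries.constantCoeff (u.map (Int.castRingHom ℚ)) = 1 := by
    rw [← PowerSeries.coeff_zero_eq_constantCoeff_apply, PowerSeries.coeff_map,
      PowerSeries.coeff_zero_eq_constantCoeff_apply, hu1, map_one]
  have h1 := (IsMonicOfOrder.single (-1 : ℤ)).mul
    ((IsMonicOfOrder.single (lead M b : ℤ)).mul (IsMonicOfOrder.ofPowerSeries hU))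
  have he : gq M b = HahnSeries.single (-1 : ℤ) (1 : ℚ) *
      (HahnSeries.single (lead M b : ℤ) (1 : ℚ) *
        HahnSeries.ofPowerSeries ℤ ℚ (u.map (Int.castRingHom ℚ))) := by
    rw [gq, hu, map_mul, map_pow, PowerSeries.map_X, map_mul, map_pow,
      HahnSeries.ofPowerSeries_X, HahnSeries.single_pow, one_pow]
    simp
  rw [he]
  convert h1 using 1
  ring

theorem order_gq (M : ℕ) (b : ZMod M) (h : M ≠ 0 ∨ b ≠ 0) :
    (gq M b).order = (lead M b : ℤ) - 1 :=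
  (isMonicOfOrder_gq M b h).1

theorem coeff_gq_lead (M : ℕ) (b : ZMod M) (h : M ≠ 0 ∨ b ≠ 0) :
    (gq M b).coeff ((lead M b : ℤ) - 1) = 1 :=
  (isMonicOfOrder_gq M b h).coeff_self

theorem coeff_gq_of_lt (M : ℕ) (b : ZMod M) (h : M ≠ 0 ∨ b ≠ 0) {n : ℤ}
    (hn : n < (lead M b : ℤ) - 1) : (gq M b).coeff n = 0 :=
  (isMonicOfOrder_gq M b h).coeff_of_lt hn

theorem gq_ne_zero (M : ℕ) (b : ZMod M) (h : M ≠ 0 ∨ b ≠ 0) : gq M b ≠ 0 :=
  (isMonicOfOrder_gq M b h).ne_zero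

/-- `gq M b ≠ gq M b'` for `b' ≠ ±b`. -/
theorem gq_ne (M : ℕ) (b b' : ZMod M) (h : M ≠ 0 ∨ b ≠ 0) (h' : M ≠ 0 ∨ b' ≠ 0)
    (h1 : b ≠ b') (h2 : b ≠ -b') : gq M b ≠ gq M b' := by
  intro he
  have ho := order_gq M b h
  rw [he, order_gq M b' h'] at ho
  exact lead_ne M b b' h h' h1 h2 (by omega)

/-- `gq M b` has integer coefficients. -/
theorem gq_int (M : ℕ) (b : ZMod M) (n : ℤ) : ∃ z : ℤ, (gq M b).coeff n = (z : ℚ) := by
  have hn : n = (n + 1) + (-1 : ℤ) := by ring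
  rw [gq, hn, HahnSeries.coeff_single_mul_add, one_mul]
  rcases lt_or_ge (n + 1) 0 with hneg | hnn
  · exact ⟨0, by rw [ofPowerSeries_coeff_of_neg _ hneg]; simp⟩
  · obtain ⟨m, hm⟩ := Int.eq_ofNat_of_zero_le hnn
    refine ⟨PowerSeries.coeff m (gNum M b), ?_⟩
    rw [hm, HahnSeries.ofPowerSeries_apply_coeff, PowerSeries.coeff_map]
    rfl

end Fermat.Agent.S48.G1.F1.GqLead
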