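/-
PROGRAM DS (S48), part G1, AREA F/K — THE GENERATORS `gq M b` OVER AN ARBITRARY COEFFICIENT RING
(helper38; continuation of `F1/GqLead.lean`).

* iff-forms of the distinctness statements (`map_gNum_eq_iff`, `gq_eq_iff`, `gq_unit_eq_iff`);
* `gqR R M b : LaurentSeries R`, the series `gq M b` with coefficients in any commutative ring `R`
  (pattern of the Prelude's `jqModC`): `gqR ℚ M b = gq M b`, `coeffMap f (gqR R M b) = gqR S M b`,
  `coeffEmb L (gq M b) = gqR L M b`, leading coefficient `1` at `q^(lead M b - 1)`, and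
  `gqR R M b = gqR R M b' ↔ b' = ±b` for every nontrivial `R` (every residue field).
-/
import Mathlib
import Fermat.Agent.S48.G1.F1.GqLead
import Fermat.Prelude.Def_ModularCurve_X0ModL

set_option autoImplicit false

noncomputable section

open ModularCurve

namespace Fermat.Agent.S48.G1.F1.GqLead

open Fermat.Agent.S48.G1.F1

theorem gNum_neg (M : ℕ) (b : ZMod M) : gNum M (-b) = gNum M b := by
  rw [gNum, gNum, eeSeries_neg]

/-- The reductions of `q · g_b` and `q · g_{b'}` agree iff `b' = ±b` (every characteristic). -/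
theorem map_gNum_eq_iff {k : Type*} [CommRing k] [Nontrivial k] (φ : ℤ →+* k) (M : ℕ)
    (b b' : ZMod M) (h : M ≠ 0 ∨ b ≠ 0) (h' : M ≠ 0 ∨ b' ≠ 0) :
    (gNum M b).map φ = (gNum M b').map φ ↔ b' = b ∨ b' = -b := by
  constructor
  · intro he
    by_contra hne
    rw [not_or] at hne
    exact map_gNum_ne φ M b b' h h' (fun e => hne.1 e.symm)
      (fun e => hne.2 (by rw [e, neg_neg])) he
  · rintro (rfl | rfl)
    · rfl
    · rw [gNum_neg]

theorem gq_eq_iff (M : ℕ) (b b' : ZMod M) (h : M ≠ 0 ∨ b ≠ 0) (h' : M ≠ 0 ∨ b' ≠ 0) :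
    gq M b = gq M b' ↔ b' = b ∨ b' = -b := by
  constructor
  · intro he
    by_contra hne
    rw [not_or] at hne
    exact gq_ne M b b' h h' (fun e => hne.1 e.symm) (fun e => hne.2 (by rw [e, neg_neg])) he
  · rintro (rfl | rfl)
    · rfl
    · rw [gq_neg]

theorem unit_coe_eq_neg_iff (M : ℕ) (b b' : (ZMod M)ˣ) :
    (b' : ZMod M) = -(b : ZMod M) ↔ b' = -b := by
  rw [← Units.val_neg]
  exact ⟨fun e => Units.ext e, fun e => by rw [e]⟩

/-- The generators indexed by units: `gq M b = gq M b' ↔ b' = ±b`. -/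
theorem gq_unit_eq_iff (M : ℕ) (b b' : (ZMod M)ˣ) :
    gq M (b : ZMod M) = gq M (b' : ZMod M) ↔ b' = b ∨ b' = -b := by
  rw [gq_eq_iff M _ _ (unit_cond M b) (unit_cond M b'), unit_coe_eq_neg_iff]
  exact or_congr_left ⟨fun e => Units.ext e, fun e => by rw [e]⟩

theorem map_gNum_unit_eq_iff {k : Type*} [CommRing k] [Nontrivial k] (φ : ℤ →+* k) (M : ℕ)
    (b b' : (ZMod M)ˣ) :
    (gNum M (b : ZMod M)).map φ = (gNum M (b' : ZMod M)).map φ ↔ b' = b ∨ b' = -b := by
  rw [map_gNum_eq_iff φ M _ _ (unit_cond M b) (unit_cond M b'), unit_coe_eq_neg_iff]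
  exact or_congr_left ⟨fun e => Units.ext e, fun e => by rw [e]⟩

/-! ### `gq` over an arbitrary coefficient ring -/

section Ring

variable (R : Type*) [CommRing R]

/-- The series `gq M b` with coefficients in `R`. -/
def gqR (M : ℕ) (b : ZMod M) : LaurentSeries R :=
  HahnSeries.single (-1 : ℤ) 1 *
    HahnSeries.ofPowerSeries ℤ R ((gNum M b).map (Int.castRingHom R))

theorem gqR_rat (M : ℕ) (b : ZMod M) : gqR ℚ M b = gq M b := rfl

theorem gqR_neg (M : ℕ) (b : ZMod M) : gqR R M (-b) = gqR R M b := by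
  rw [gqR, gqR, gNum_neg]

variable {R} in
theorem coeffMap_gqR {S : Type*} [CommRing S] (f : R →+* S) (M : ℕ) (b : ZMod M) :
    coeffMap f (gqR R M b) = gqR S M b := by
  rw [gqR, map_mul, coeffMap_single, map_one, coeffMap_ofPowerSeries,
    ← RingHom.comp_apply (PowerSeries.map f) (PowerSeries.map (Int.castRingHom R)),
    ← PowerSeries.map_comp, RingHom.ext_int (f.comp (Int.castRingHom R)) (Int.castRingHom S)]
  rfl

/-- `gqR R M b` is the coefficientwise image of the integral series `gqR ℤ M b`. -/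
theorem coeffMap_gqR_int (M : ℕ) (b : ZMod M) :
    coeffMap (Int.castRingHom R) (gqR ℤ M b) = gqR R M b :=
  coeffMap_gqR (Int.castRingHom R) M b

theorem coeffMap_gqR_int_rat (M : ℕ) (b : ZMod M) :
    coeffMap (Int.castRingHom ℚ) (gqR ℤ M b) = gq M b :=
  coeffMap_gqR (Int.castRingHom ℚ) M b

theorem coeff_gqR (M : ℕ) (b : ZMod M) (n : ℤ) :
    (gqR R M b).coeff n =
      (HahnSeries.ofPowerSeries ℤ R ((gNum M b).map (Int.castRingHom R))).coeff (n + 1) := by
  have hn : n = (n + 1) + (-1 : ℤ) := by ring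
  conv_lhs => rw [gqR, hn, HahnSeries.coeff_single_mul_add, one_mul]

theorem coeff_gqR_lead (M : ℕ) (b : ZMod M) (h : M ≠ 0 ∨ b ≠ 0) :
    (gqR R M b).coeff ((lead M b : ℤ) - 1) = 1 := by
  rw [coeff_gqR, sub_add_cancel, HahnSeries.ofPowerSeries_apply_coeff,
    coeff_map_gNum_lead _ M b h]

theorem coeff_gqR_of_lt (M : ℕ) (b : ZMod M) {n : ℤ} (hn : n < (lead M b : ℤ) - 1) :
    (gqR R M b).coeff n = 0 := by
  rw [coeff_gqR]
  rcases lt_or_ge (n + 1) 0 with hneg | hnn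
  · exact ofPowerSeries_coeff_of_neg _ hneg
  · obtain ⟨m, hm⟩ := Int.eq_ofNat_of_zero_le hnn
    rw [hm, HahnSeries.ofPowerSeries_apply_coeff]
    exact coeff_map_gNum_of_lt _ M b (by omega)

theorem gqR_ne_zero [Nontrivial R] (M : ℕ) (b : ZMod M) (h : M ≠ 0 ∨ b ≠ 0) :
    gqR R M b ≠ 0 := by
  intro h0
  have h1 := coeff_gqR_lead R M b h
  rw [h0, HahnSeries.coeff_zero] at h1
  exact zero_ne_one h1

/-- `gqR R M b = gqR R M b' ↔ b' = ±b`, for every nontrivial coefficient ring. -/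
theorem gqR_eq_iff [Nontrivial R] (M : ℕ) (b b' : ZMod M) (h : M ≠ 0 ∨ b ≠ 0)
    (h' : M ≠ 0 ∨ b' ≠ 0) : gqR R M b = gqR R M b' ↔ b' = b ∨ b' = -b := by
  constructor
  · intro he
    refine (map_gNum_eq_iff (Int.castRingHom R) M b b' h h').mp ?_
    refine HahnSeries.ofPowerSeries_injective (Γ := ℤ) ?_
    have h1 : (HahnSeries.single (1 : ℤ) (1 : R)) * HahnSeries.single (-1 : ℤ) (1 : R) = 1 := by
      rw [HahnSeries.single_mul_single]
      simp
    have h2 := congrArg (fun z => HahnSeries.single (1 : ℤ) (1 : R) * z) he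
    simp only [gqR, ← mul_assoc, h1, one_mul] at h2
    exact h2
  · rintro (rfl | rfl)
    · rfl
    · rw [gqR_neg]

theorem gqR_unit_eq_iff [Nontrivial R] (M : ℕ) (b b' : (ZMod M)ˣ) :
    gqR R M (b : ZMod M) = gqR R M (b' : ZMod M) ↔ b' = b ∨ b' = -b := by
  rw [gqR_eq_iff R M _ _ (unit_cond M b) (unit_cond M b'), unit_coe_eq_neg_iff]
  exact or_congr_left ⟨fun e => Units.ext e, fun e => by rw [e]⟩

end Ring

/-! ### Base change of constants -/

section Emb

variable (L : Type*) [Field L] [Algebra ℚ L]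

theorem coeffEmb_gq (M : ℕ) (b : ZMod M) : coeffEmb L (gq M b) = gqR L M b := by
  rw [← gqR_rat, coeffEmb, coeffMap_gqR]

theorem coeff_coeffEmb_gq_lead (M : ℕ) (b : ZMod M) (h : M ≠ 0 ∨ b ≠ 0) :
    (coeffEmb L (gq M b)).coeff ((lead M b : ℤ) - 1) = 1 := by
  rw [coeffEmb_gq, coeff_gqR_lead L M b h]

theorem coeff_coeffEmb_gq_of_lt (M : ℕ) (b : ZMod M) {n : ℤ} (hn : n < (lead M b : ℤ) - 1) :
    (coeffEmb L (gq M b)).coeff n = 0 := by
  rw [coeffEmb_gq, coeff_gqR_of_lt L M b hn]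

theorem coeffEmb_gq_ne_zero (M : ℕ) (b : ZMod M) (h : M ≠ 0 ∨ b ≠ 0) :
    coeffEmb L (gq M b) ≠ 0 := by
  rw [coeffEmb_gq]
  exact gqR_ne_zero L M b h

theorem coeffEmb_gq_eq_iff (M : ℕ) (b b' : ZMod M) (h : M ≠ 0 ∨ b ≠ 0) (h' : M ≠ 0 ∨ b' ≠ 0) :
    coeffEmb L (gq M b) = coeffEmb L (gq M b') ↔ b' = b ∨ b' = -b := by
  rw [coeffEmb_gq, coeffEmb_gq, gqR_eq_iff L M b b' h h']

theorem coeffEmb_gq_unit_eq_iff (M : ℕ) (b b' : (ZMod M)ˣ) :
    coeffEmb L (gq M (b : ZMod M)) = coeffEmb L (gq M (b' : ZMod M)) ↔ b' = b ∨ b' = -b := by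
  rw [coeffEmb_gq, coeffEmb_gq, gqR_unit_eq_iff L M b b']

end Emb

end Fermat.Agent.S48.G1.F1.GqLead
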