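import Fermat.Agent.S24.HolHCoset
import Fermat.Agent.S24.Degree.Sym
import Fermat.Agent.S24.Degree.Growth

set_option autoImplicit false
set_option linter.dupNamespace false

/-!
# Coset families for an arbitrary subgroup `Γ ≤ SL(2,ℤ)` (generic twin of `S24/HolHCoset` and
`S24/Degree/Sym`), and Lagrange interpolation over `SL(2,ℤ) ⧸ Γ`.

* `cosetHomG Γ θ x` : the coset-indexed family `a ↦ θ a ∘ (g⁻¹ • ·)`, `x = g Γ`;
* `exists_poly_relation` (SY): every `θ a` is a root of a monic polynomial of degree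
  `[SL(2,ℤ) : Γ]` with coefficients in `ℂ[j]`;
* `exists_interp` (LAG): a `Γ`-invariant holomorphic function of moderate growth at all cusps is
  a rational function of `j` and a separating element, with denominator in `ℂ[j]`.
-/

open scoped Manifold MatrixGroups Topology
open UpperHalfPlane Filter Polynomial
open Fermat.Agent.S24.HolH Fermat.Agent.S24.JFun Fermat.Agent.S24.Degree

noncomputable section

namespace Fermat.Agent.S48.G1.CosetG

local notation "𝕢" => Function.Periodic.qParam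

variable (Γ : Subgroup SL(2, ℤ)) {A : Type*} [CommRing A]

/-- The coset-indexed family of ring homs `a ↦ θ a ∘ (g⁻¹ • ·)`, `x = g Γ`. -/
def cosetHomG (θ : A →+* HolH) (x : SL(2, ℤ) ⧸ Γ) : A →+* HolH :=
  ((compSL (Quotient.out x)⁻¹ : HolH →ₐ[ℂ] HolH) : HolH →+* HolH).comp θ

variable {Γ}

theorem cosetHomG_apply (θ : A →+* HolH) (x : SL(2, ℤ) ⧸ Γ) (a : A) :
    cosetHomG Γ θ x a = compSL (Quotient.out x)⁻¹ (θ a) := rfl

theorem cosetHomG_mk (θ : A →+* HolH)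
    (hθ : ∀ γ ∈ Γ, ∀ a, compSL γ (θ a) = θ a) (g : SL(2, ℤ)) (a : A) :
    cosetHomG Γ θ (g : SL(2, ℤ) ⧸ Γ) a = compSL g⁻¹ (θ a) := by
  obtain ⟨γ, hγ⟩ := QuotientGroup.mk_out_eq_mul Γ g
  rw [cosetHomG_apply, hγ, mul_inv_rev, compSL_mul, hθ _ (inv_mem γ.2)]

theorem cosetHomG_one (θ : A →+* HolH)
    (hθ : ∀ γ ∈ Γ, ∀ a, compSL γ (θ a) = θ a) (a : A) :
    cosetHomG Γ θ ((1 : SL(2, ℤ)) : SL(2, ℤ) ⧸ Γ) a = θ a := by
  rw [cosetHomG_mk θ hθ, inv_one, compSL_one]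

theorem cosetHomG_smul (θ : A →+* HolH)
    (hθ : ∀ γ ∈ Γ, ∀ a, compSL γ (θ a) = θ a) (σ : SL(2, ℤ))
    (x : SL(2, ℤ) ⧸ Γ) (a : A) :
    cosetHomG Γ θ (σ • x) a = compSL σ⁻¹ (cosetHomG Γ θ x a) := by
  obtain ⟨g, rfl⟩ := QuotientGroup.mk_surjective x
  rw [MulAction.Quotient.smul_mk, smul_eq_mul, cosetHomG_mk θ hθ, cosetHomG_mk θ hθ, mul_inv_rev,
    compSL_mul]

theorem cosetHomG_injective (θ : A →+* HolH) (hinj : Function.Injective θ)
    (x : SL(2, ℤ) ⧸ Γ) : Function.Injective (cosetHomG Γ θ x) := by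
  intro a b hab
  exact hinj (compSL_injective _ hab)

/-- values at a point: `cosetHomG Γ θ (gΓ) a τ = θ a (g⁻¹ • τ)` -/
theorem cosetHomG_mk_apply (θ : A →+* HolH)
    (hθ : ∀ γ ∈ Γ, ∀ a, compSL γ (θ a) = θ a) (g : SL(2, ℤ)) (a : A) (τ : ℍ) :
    (cosetHomG Γ θ (g : SL(2, ℤ) ⧸ Γ) a : ℍ → ℂ) τ = (θ a : ℍ → ℂ) (g⁻¹ • τ) := by
  rw [cosetHomG_mk θ hθ]
  rfl

/-- an element with `SL(2,ℤ)`-invariant image has the same image under all `cosetHomG Γ θ x` -/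
theorem cosetHomG_of_invariant (θ : A →+* HolH) {a : A}
    (ha : ∀ g : SL(2, ℤ), compSL g (θ a) = θ a) (x : SL(2, ℤ) ⧸ Γ) :
    cosetHomG Γ θ x a = θ a := by
  rw [cosetHomG_apply, ha]

/-- the order at a fixed point of `σ` does not change along `σ`-orbits of cosets. -/
theorem ordZ_cosetHomG_smul (θ : A →+* HolH)
    (hθ : ∀ γ ∈ Γ, ∀ a, compSL γ (θ a) = θ a) {σ : SL(2, ℤ)} {τ0 : ℍ}
    (hfix : σ • τ0 = τ0) (x : SL(2, ℤ) ⧸ Γ) (a : A) :
    ordZ τ0 (cosetHomG Γ θ (σ • x) a) = ordZ τ0 (cosetHomG Γ θ x a) := by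
  have hfix' : σ⁻¹ • τ0 = τ0 := by
    rw [inv_smul_eq_iff, hfix]
  rw [cosetHomG_smul θ hθ, ordZ_compSL, hfix']

/-- if `g⁻¹ h` stabilises `θ a` whenever the two translates agree. -/
theorem compSL_of_cosetHomG_eq (θ : A →+* HolH)
    (hθ : ∀ γ ∈ Γ, ∀ a, compSL γ (θ a) = θ a) (g h : SL(2, ℤ)) (a : A)
    (hgh : cosetHomG Γ θ (g : SL(2, ℤ) ⧸ Γ) a = cosetHomG Γ θ (h : SL(2, ℤ) ⧸ Γ) a) :
    compSL (g⁻¹ * h) (θ a) = θ a := by
  rw [cosetHomG_mk θ hθ, cosetHomG_mk θ hθ] at hgh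
  rw [compSL_mul, hgh, ← compSL_mul, inv_mul_cancel, compSL_one]

/-- if the common stabiliser of the `θ a` in `SL(2,ℤ)` is contained in `Γ`, then distinct cosets
give distinct homs. -/
theorem cosetHomG_index_injective (θ : A →+* HolH)
    (hθ : ∀ γ ∈ Γ, ∀ a, compSL γ (θ a) = θ a)
    (hstab : ∀ g : SL(2, ℤ), (∀ a, compSL g (θ a) = θ a) → g ∈ Γ) :
    Function.Injective (cosetHomG Γ θ) := by
  intro x y hxy
  obtain ⟨g, rfl⟩ := QuotientGroup.mk_surjective x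
  obtain ⟨h, rfl⟩ := QuotientGroup.mk_surjective y
  refine QuotientGroup.eq.mpr (hstab _ fun a => ?_)
  exact compSL_of_cosetHomG_eq θ hθ g h a (congrArg (fun ρ : A →+* HolH => ρ a) hxy)

/-- if the stabiliser of one `θ a` is contained in `Γ`, the translates of `θ a` are pairwise
distinct (`a` is *separating*). -/
theorem cosetHomG_apply_injective (θ : A →+* HolH)
    (hθ : ∀ γ ∈ Γ, ∀ a, compSL γ (θ a) = θ a) (a : A)
    (hstab : ∀ g : SL(2, ℤ), compSL g (θ a) = θ a → g ∈ Γ) :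
    Function.Injective fun x : SL(2, ℤ) ⧸ Γ => cosetHomG Γ θ x a := by
  intro x y hxy
  obtain ⟨g, rfl⟩ := QuotientGroup.mk_surjective x
  obtain ⟨h, rfl⟩ := QuotientGroup.mk_surjective y
  exact QuotientGroup.eq.mpr (hstab _ (compSL_of_cosetHomG_eq θ hθ g h a hxy))

theorem neg_one_smul_cosetG (hneg : (-1 : SL(2, ℤ)) ∈ Γ) (x : SL(2, ℤ) ⧸ Γ) :
    (-1 : SL(2, ℤ)) • x = x := by
  obtain ⟨g, rfl⟩ := QuotientGroup.mk_surjective x
  rw [MulAction.Quotient.smul_mk, smul_eq_mul]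
  apply QuotientGroup.eq.mpr
  have : (-1 * g)⁻¹ * g = (-1 : SL(2, ℤ)) := by
    rw [neg_one_mul, inv_neg, neg_mul, inv_mul_cancel]
  rw [this]
  exact hneg

/-- `σ^s` acts trivially on cosets, `s` prime, and `σ`-invariant nonzero functions have order
divisible by `s` at `τ0`. -/
theorem dvd_ordZ_cosetHomG_mul_minimalPeriod (θ : A →+* HolH) (hinj : Function.Injective θ)
    (hθ : ∀ γ ∈ Γ, ∀ a, compSL γ (θ a) = θ a) {σ : SL(2, ℤ)} {τ0 : ℍ} {s : ℕ}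
    (hs : s.Prime) (hper : ∀ x : SL(2, ℤ) ⧸ Γ, (σ ^ s) • x = x)
    (hrot : ∀ f : HolH, f ≠ 0 → compSL σ f = f → (s : ℤ) ∣ ordZ τ0 f)
    (x : SL(2, ℤ) ⧸ Γ) (a : A) (ha : a ≠ 0) :
    (s : ℤ) ∣ ordZ τ0 (cosetHomG Γ θ x a) * (Function.minimalPeriod (σ • ·) x : ℤ) := by
  have hdvd : Function.minimalPeriod (σ • ·) x ∣ s := by
    apply Function.IsPeriodicPt.minimalPeriod_dvd
    show (σ • ·)^[s] x = x
    rw [smul_iterate]
    exact hper x
  rcases (Nat.dvd_prime hs).mp hdvd with h1 | h1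
  · have hfixed : σ • x = x := Function.minimalPeriod_eq_one_iff_isFixedPt.mp h1
    have hne : cosetHomG Γ θ x a ≠ 0 := by
      intro h0
      exact ha (cosetHomG_injective θ hinj x (by rw [h0, map_zero]))
    have hinv' : compSL σ⁻¹ (cosetHomG Γ θ x a) = cosetHomG Γ θ x a := by
      rw [← cosetHomG_smul θ hθ, hfixed]
    exact Dvd.dvd.mul_right (hrot _ hne (compSL_eq_self_of_inv hinv')) _
  · rw [h1]
    exact dvd_mul_left _ _

/-- `hdiv` for `σ = S`, `s = 2`, at any fixed point of `S` (needs `-1 ∈ Γ`). -/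
theorem two_dvd_ordZ_cosetHomG_mul_minimalPeriod_S (hneg : (-1 : SL(2, ℤ)) ∈ Γ) (θ : A →+* HolH)
    (hinj : Function.Injective θ) (hθ : ∀ γ ∈ Γ, ∀ a, compSL γ (θ a) = θ a) {τ0 : ℍ}
    (hfix : ModularGroup.S • τ0 = τ0) (x : SL(2, ℤ) ⧸ Γ) (a : A) (ha : a ≠ 0) :
    ((2 : ℕ) : ℤ) ∣ ordZ τ0 (cosetHomG Γ θ x a)
      * (Function.minimalPeriod (ModularGroup.S • ·) x : ℤ) :=
  dvd_ordZ_cosetHomG_mul_minimalPeriod θ hinj hθ Nat.prime_two
    (fun y => by rw [S_sq_eq]; exact neg_one_smul_cosetG hneg y)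
    (fun f hf hinv => two_dvd_ordZ_of_S_fixed hfix hf hinv) x a ha

/-- `hdiv` for `σ = S * T`, `s = 3`, at any fixed point of `S * T` (needs `-1 ∈ Γ`). -/
theorem three_dvd_ordZ_cosetHomG_mul_minimalPeriod_ST (hneg : (-1 : SL(2, ℤ)) ∈ Γ)
    (θ : A →+* HolH)
    (hinj : Function.Injective θ) (hθ : ∀ γ ∈ Γ, ∀ a, compSL γ (θ a) = θ a) {τ0 : ℍ}
    (hfix : (ModularGroup.S * ModularGroup.T) • τ0 = τ0) (x : SL(2, ℤ) ⧸ Γ) (a : A)
    (ha : a ≠ 0) :
    ((3 : ℕ) : ℤ) ∣ ordZ τ0 (cosetHomG Γ θ x a)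
      * (Function.minimalPeriod ((ModularGroup.S * ModularGroup.T) • ·) x : ℤ) :=
  dvd_ordZ_cosetHomG_mul_minimalPeriod θ hinj hθ Nat.prime_three
    (fun y => by rw [ST_cube_eq]; exact neg_one_smul_cosetG hneg y)
    (fun f hf hinv => three_dvd_ordZ_of_ST_fixed hfix hf hinv) x a ha

/-! ### A separating element from two generators -/

/-- If the joint stabiliser of `θ a` and `θ b` is contained in `Γ`, then for some `c : ℕ` the
translates of `θ (a + c * b)` are pairwise distinct. -/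
theorem exists_separating [Finite (SL(2, ℤ) ⧸ Γ)] (θ : A →+* HolH)
    (hθ : ∀ γ ∈ Γ, ∀ a, compSL γ (θ a) = θ a) (a b : A)
    (hstab : ∀ g : SL(2, ℤ), compSL g (θ a) = θ a → compSL g (θ b) = θ b → g ∈ Γ) :
    ∃ c : ℕ, Function.Injective fun x : SL(2, ℤ) ⧸ Γ => cosetHomG Γ θ x (a + (c : A) * b) := by
  classical
  -- the set of bad `c` for a pair of distinct cosets has at most one element
  let X := SL(2, ℤ) ⧸ Γ
  let bad : X × X → Set ℕ := fun p =>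
    {c | p.1 ≠ p.2 ∧ cosetHomG Γ θ p.1 (a + (c : A) * b) = cosetHomG Γ θ p.2 (a + (c : A) * b)}
  have hbad : ∀ p : X × X, (bad p).Subsingleton := by
    rintro ⟨x, y⟩ c ⟨hxy, hc⟩ c' ⟨-, hc'⟩
    by_contra hne
    apply hxy
    simp only [map_add, map_mul, map_natCast] at hc hc'
    -- subtract: (c - c') (b_x - b_y) = 0
    have h1 : ((c : HolH) - (c' : HolH)) * (cosetHomG Γ θ x b - cosetHomG Γ θ y b) = 0 := by
      linear_combination hc - hc'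
    have hcc : ((c : HolH) - (c' : HolH)) ≠ 0 := by
      rw [sub_ne_zero]
      intro h
      apply hne
      have h3 : algebraMap ℂ HolH (c : ℂ) = algebraMap ℂ HolH (c' : ℂ) := by
        rw [map_natCast, map_natCast]
        exact h
      exact_mod_cast (algebraMap ℂ HolH).injective h3
    have hb : cosetHomG Γ θ x b = cosetHomG Γ θ y b := by
      rcases mul_eq_zero.mp h1 with h | h
      · exact absurd h hcc
      · exact sub_eq_zero.mp h
    have ha : cosetHomG Γ θ x a = cosetHomG Γ θ y a := by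
      rw [hb] at hc
      exact add_right_cancel hc
    obtain ⟨g, rfl⟩ := QuotientGroup.mk_surjective x
    obtain ⟨h, rfl⟩ := QuotientGroup.mk_surjective y
    exact QuotientGroup.eq.mpr (hstab _ (compSL_of_cosetHomG_eq θ hθ g h a ha)
      (compSL_of_cosetHomG_eq θ hθ g h b hb))
  have hfin : (⋃ p : X × X, bad p).Finite :=
    Set.finite_iUnion fun p => (hbad p).finite
  obtain ⟨c, hc⟩ := hfin.exists_notMem
  refine ⟨c, fun x y hxy => ?_⟩
  by_contra hne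
  exact hc (Set.mem_iUnion.mpr ⟨(x, y), hne, hxy⟩)

/-! ### The coset polynomial and the monic relation over `ℂ[j]` -/

section Poly

variable [Fintype (SL(2, ℤ) ⧸ Γ)]

variable (Γ) in
/-- The characteristic polynomial of `a` with respect to the coset family of `θ`. -/
def cosetPolyG (θ : A →+* HolH) (a : A) : HolH[X] :=
  ∏ x : SL(2, ℤ) ⧸ Γ, (X - C (cosetHomG Γ θ x a))

theorem cosetPolyG_monic (θ : A →+* HolH) (a : A) : (cosetPolyG Γ θ a).Monic :=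
  monic_prod_of_monic _ _ fun _ _ => monic_X_sub_C _

theorem cosetPolyG_natDegree (θ : A →+* HolH) (a : A) :
    (cosetPolyG Γ θ a).natDegree = Fintype.card (SL(2, ℤ) ⧸ Γ) := by
  rw [cosetPolyG, natDegree_finsetProd_X_sub_C_eq_card]
  rfl

/-- the characteristic polynomial is invariant under `SL(2,ℤ)`. -/
theorem cosetPolyG_map_compSL (θ : A →+* HolH)
    (hθ : ∀ γ ∈ Γ, ∀ a, compSL γ (θ a) = θ a) (a : A) (γ : SL(2, ℤ)) :
    (cosetPolyG Γ θ a).map ((compSL γ : HolH →ₐ[ℂ] HolH) : HolH →+* HolH)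
      = cosetPolyG Γ θ a := by
  rw [cosetPolyG, Polynomial.map_prod]
  have h1 : ∀ x : SL(2, ℤ) ⧸ Γ,
      (X - C (cosetHomG Γ θ x a)).map ((compSL γ : HolH →ₐ[ℂ] HolH) : HolH →+* HolH)
        = X - C (cosetHomG Γ θ (γ⁻¹ • x) a) := by
    intro x
    rw [Polynomial.map_sub, Polynomial.map_X, Polynomial.map_C, cosetHomG_smul θ hθ, inv_inv]
    rfl
  simp only [h1]
  exact Fintype.prod_equiv (MulAction.toPerm (γ⁻¹ : SL(2, ℤ))) _ _ (fun x => rfl)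

theorem cosetPolyG_coeff_invariant (θ : A →+* HolH)
    (hθ : ∀ γ ∈ Γ, ∀ a, compSL γ (θ a) = θ a) (a : A) (k : ℕ) (γ : SL(2, ℤ)) (τ : ℍ) :
    ((cosetPolyG Γ θ a).coeff k : ℍ → ℂ) (γ • τ)
      = ((cosetPolyG Γ θ a).coeff k : ℍ → ℂ) τ := by
  have h := congrArg (fun p : HolH[X] => p.coeff k) (cosetPolyG_map_compSL θ hθ a γ)
  simp only [Polynomial.coeff_map] at h
  have h2 := congrArg (fun f : HolH => (f : ℍ → ℂ) τ) h
  exact h2

theorem cosetPolyG_coeff_mem (θ : A →+* HolH) (a : A) (B : Subalgebra ℂ HolH)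
    (hB : ∀ x : SL(2, ℤ) ⧸ Γ, cosetHomG Γ θ x a ∈ B) (k : ℕ) :
    (cosetPolyG Γ θ a).coeff k ∈ B :=
  coeff_prod_X_sub_C_mem B Finset.univ (fun x => cosetHomG Γ θ x a) (fun x _ => hB x) k

theorem cosetPolyG_eval (θ : A →+* HolH)
    (hθ : ∀ γ ∈ Γ, ∀ a, compSL γ (θ a) = θ a) (a : A) :
    (cosetPolyG Γ θ a).eval (θ a) = 0 := by
  rw [cosetPolyG, Polynomial.eval_prod]
  refine Finset.prod_eq_zero (Finset.mem_univ ((1 : SL(2, ℤ)) : SL(2, ℤ) ⧸ Γ)) ?_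
  rw [cosetHomG_one θ hθ]
  simp

/-- evaluation of a polynomial over `HolH` at a point of `ℍ`. -/
theorem eval_apply_of_natDegree_lt (Q : HolH[X]) (t : HolH) (n : ℕ) (hn : Q.natDegree < n)
    (τ : ℍ) :
    ((Q.eval t : HolH) : ℍ → ℂ) τ
      = ∑ k ∈ Finset.range n, (Q.coeff k : ℍ → ℂ) τ * (t : ℍ → ℂ) τ ^ k := by
  rw [Polynomial.eval_eq_sum_range' hn]
  have hev : ∀ f : HolH, (f : ℍ → ℂ) τ = ((Pi.evalRingHom (fun _ : ℍ => ℂ) τ).comp
      (HolH.val : HolH →+* (ℍ → ℂ))) f := fun f => rfl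
  rw [hev, map_sum]
  simp only [map_mul, map_pow]
  rfl

/-- an `SL(2,ℤ)`-invariant element of `cuspMod` is a polynomial in `j`. -/
theorem exists_polynomial_of_invariant (f : HolH) (hf : f ∈ cuspMod)
    (hinv : ∀ γ : SL(2, ℤ), compSL γ f = f) :
    ∃ P : ℂ[X], ∀ τ : ℍ, (f : ℍ → ℂ) τ = P.eval (jFun τ) := by
  obtain ⟨m, hm⟩ := modAt_of_mem_cuspMod hf
  obtain ⟨P, -, hP⟩ := Fermat.Agent.S24.PolyJ.exists_polynomial_eval_jFun m f.2
    (fun γ τ => by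
      have h := congrArg (fun g : HolH => (g : ℍ → ℂ) τ) (hinv γ)
      exact h) hm
  exact ⟨P, hP⟩

/-- **SY**, Fintype form. -/
theorem exists_poly_relation_fintype (θ : A →+* HolH)
    (hθ : ∀ γ ∈ Γ, ∀ a, compSL γ (θ a) = θ a)
    (a : A) (ha : ∀ x : SL(2, ℤ) ⧸ Γ, cosetHomG Γ θ x a ∈ cuspMod) :
    ∃ P : ℕ → Polynomial ℂ, ∀ τ : ℍ,
      (θ a : ℍ → ℂ) τ ^ Fintype.card (SL(2, ℤ) ⧸ Γ)
        + ∑ k ∈ Finset.range (Fintype.card (SL(2, ℤ) ⧸ Γ)),
            (P k).eval (jFun τ) * (θ a : ℍ → ℂ) τ ^ k = 0 := by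
  set n := Fintype.card (SL(2, ℤ) ⧸ Γ) with hn
  set Q := cosetPolyG Γ θ a with hQ
  have hP : ∀ k : ℕ, ∃ P : Polynomial ℂ, ∀ τ : ℍ, (Q.coeff k : ℍ → ℂ) τ = P.eval (jFun τ) := by
    intro k
    refine exists_polynomial_of_invariant _ (cosetPolyG_coeff_mem θ a cuspMod ha k) fun γ => ?_
    have h := congrArg (fun p : HolH[X] => p.coeff k) (cosetPolyG_map_compSL θ hθ a γ)
    simp only [Polynomial.coeff_map] at h
    exact h
  choose P hP using hP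
  refine ⟨P, fun τ => ?_⟩
  have h0 : Q.eval (θ a) = 0 := cosetPolyG_eval θ hθ a
  have hsum := (cosetPolyG_monic (Γ := Γ) θ a).as_sum
  rw [cosetPolyG_natDegree] at hsum
  rw [hQ, hsum] at h0
  simp only [Polynomial.eval_add, Polynomial.eval_pow, Polynomial.eval_X, Polynomial.eval_finsetSum,
    Polynomial.eval_mul, Polynomial.eval_C] at h0
  have h1 := congrArg (fun f : HolH => (f : ℍ → ℂ) τ) h0
  beta_reduce at h1
  rw [← hn] at h1
  have h2 : ((θ a ^ n + ∑ k ∈ Finset.range n, Q.coeff k * θ a ^ k : HolH) : ℍ → ℂ) τ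
      = (θ a : ℍ → ℂ) τ ^ n + ∑ k ∈ Finset.range n, (Q.coeff k : ℍ → ℂ) τ * (θ a : ℍ → ℂ) τ ^ k := by
    have hev : ∀ f : HolH, (f : ℍ → ℂ) τ = ((Pi.evalRingHom (fun _ : ℍ => ℂ) τ).comp
        (HolH.val : HolH →+* (ℍ → ℂ))) f := fun f => rfl
    rw [hev, map_add, map_pow, map_sum]
    simp only [map_mul, map_pow]
    rfl
  rw [h2] at h1
  have h3 : ((0 : HolH) : ℍ → ℂ) τ = 0 := rfl
  rw [h3] at h1
  rw [← h1]
  congr 1
  exact Finset.sum_congr rfl fun k _ => by rw [hP k τ]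

end Poly

/-- **SY**: `θ a` is a root of a monic polynomial of degree `[SL(2,ℤ) : Γ]` with coefficients in
`ℂ[j]`. -/
theorem exists_poly_relation [Finite (SL(2, ℤ) ⧸ Γ)] (θ : A →+* HolH)
    (hθ : ∀ γ ∈ Γ, ∀ a, compSL γ (θ a) = θ a)
    (a : A) (ha : ∀ x : SL(2, ℤ) ⧸ Γ, cosetHomG Γ θ x a ∈ cuspMod) :
    ∃ P : ℕ → Polynomial ℂ, ∀ τ : ℍ,
      (θ a : ℍ → ℂ) τ ^ Nat.card (SL(2, ℤ) ⧸ Γ)
        + ∑ k ∈ Finset.range (Nat.card (SL(2, ℤ) ⧸ Γ)),
            (P k).eval (jFun τ) * (θ a : ℍ → ℂ) τ ^ k = 0 := by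
  classical
  let _ : Fintype (SL(2, ℤ) ⧸ Γ) := Fintype.ofFinite _
  rw [Nat.card_eq_fintype_card]
  exact exists_poly_relation_fintype θ hθ a ha

/-- all translates of an element of `cuspMod` are in `cuspMod`. -/
theorem cosetHomG_mem_cuspMod (θ : A →+* HolH) {a : A} (ha : θ a ∈ cuspMod)
    (x : SL(2, ℤ) ⧸ Γ) : cosetHomG Γ θ x a ∈ cuspMod := by
  rw [cosetHomG_apply]
  exact compSL_mem_cuspMod _ ha

end Fermat.Agent.S48.G1.CosetG

end
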