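/-
PROGRAM DS (S48), part G1, AREA F, row F.2 leaf (g) (helper145): THE DEGREE THEOREM, GENERIC IN THE
SUBGROUP AND IN THE FIELD OF CONSTANTS.

Setting: `L` a field of characteristic zero with `ι : L →+* ℂ`, `F` a field between `L` and
`L((q))`, `A ⊆ F` an `L`-subalgebra with `Frac A = F`, `θ : A →+* HolH` a ring hom such that
`θ a` has the `q`-expansion `a` (`S24.Theta.HasQ`), `J : A` the series `j(q)`, and
`G ≤ SL(2, ℤ)` a subgroup of finite index such that

* `θ a` is `G`-invariant for every `a` (`hinv`),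
* an element of `SL(2, ℤ)` fixing all the `θ a` lies in `G` (`hstab`; so `-1 ∈ G`),
* every `θ a` has moderate growth at all cusps (`hmod`, `S24.Degree.cuspMod`).

Then `F` is finite over `L(j)` of degree `[SL(2, ℤ) : G]`, `j` is transcendental over `L` and
`trdeg_L F = 1`.

This is the generic-`G` twin of `S24/Degree/{Lower,Main}` and `S30/CSide/Degree` (there
`G = Γ₀(N)`), on top of helper15's `CosetG` (coset family, coset polynomial); no expansions at
the other cusps are used, only moderate growth.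
-/
import Mathlib
import Fermat.Agent.S24.Theta
import Fermat.Agent.S48.G1.F1.CosetG
import Fermat.Agent.S24.Degree.Descent
import Fermat.Agent.S24.DegreeAbs
import Fermat.Agent.S24.DegreeCore
import Fermat.Agent.S30.Descent

set_option autoImplicit false
set_option linter.dupNamespace false
set_option linter.unusedSectionVars false
set_option linter.style.haveILetI false

noncomputable section

open scoped Manifold MatrixGroups Topology
open UpperHalfPlane Filter Polynomial ModularCurve IntermediateField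
open Fermat.Agent.S24.HolH Fermat.Agent.S24.JFun Fermat.Agent.S24.Theta Fermat.Agent.S24.Degree
open Fermat.Agent.S48.G1.CosetG

namespace Fermat.Agent.S48.G1.DegreeG

local notation "𝕢" => Function.Periodic.qParam

/-! ### Clearing denominators -/

section Inv

variable {L R : Type*} [Field L] [CommRing R] [IsDomain R] [Algebra L R]

/-- A nonzero element `b` satisfying a monic relation over `L[J]` divides a nonzero element
of `L[J]`. -/
theorem exists_mul_eq_aeval_of_relation (J b : R) (hb : b ≠ 0) :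
    ∀ (n : ℕ) (p : ℕ → L[X]),
      b ^ n + ∑ k ∈ Finset.range n, aeval J (p k) * b ^ k = 0 →
      ∃ (c : L[X]) (a : R), aeval J c ≠ 0 ∧ b * a = aeval J c := by
  intro n
  induction n with
  | zero =>
    intro p h
    rw [pow_zero, Finset.range_zero, Finset.sum_empty, add_zero] at h
    exact absurd h one_ne_zero
  | succ m ih =>
    intro p h
    rw [Finset.sum_range_succ', pow_zero, mul_one] at h
    have hfac : b ^ (m + 1) + ∑ k ∈ Finset.range m, aeval J (p (k + 1)) * b ^ (k + 1)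
        = b * (b ^ m + ∑ k ∈ Finset.range m, aeval J (p (k + 1)) * b ^ k) := by
      rw [mul_add, Finset.mul_sum, pow_succ']
      congr 1
      refine Finset.sum_congr rfl fun k _ => ?_
      rw [pow_succ']
      ring
    by_cases h0 : aeval J (p 0) = 0
    · rw [h0, add_zero, hfac] at h
      rcases mul_eq_zero.mp h with h1 | h1
      · exact absurd h1 hb
      · exact ih (fun k => p (k + 1)) h1
    · refine ⟨p 0, -(b ^ m + ∑ k ∈ Finset.range m, aeval J (p (k + 1)) * b ^ k), h0, ?_⟩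
      rw [← add_assoc, hfac] at h
      linear_combination (-1 : R) * h

end Inv

/-! ### The degree theorem -/

section Main

variable {L : Type*} [Field L] [CharZero L] [Algebra ℚ L] (ι : L →+* ℂ)
  {F : IntermediateField L (LaurentSeries L)} (A : Subalgebra L F)
  (θ : A →+* HolH) (G : Subgroup SL(2, ℤ)) (J : A)

/-- `θ` is injective (the expansion is determined by the function). -/
theorem theta_injective (hQ : ∀ a : A, HasQ ι ((a : F) : LaurentSeries L) (θ a : ℍ → ℂ)) :
    Function.Injective θ := by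
  intro a b hab
  have h1 := hQ a
  rw [hab] at h1
  exact Subtype.ext (Subtype.ext (h1.unique (hQ b)))

/-- `θ J` is the `j`-function. -/
theorem theta_J_apply (hJ : ((J : F) : LaurentSeries L) = coeffEmb L jq)
    (hQ : ∀ a : A, HasQ ι ((a : F) : LaurentSeries L) (θ a : ℍ → ℂ)) (τ : ℍ) :
    (θ J : ℍ → ℂ) τ = jFun τ := by
  have h1 := hQ J
  rw [hJ, Fermat.Agent.S24.Puiseux.coeffEmb_jq] at h1
  exact congrFun (h1.fun_unique (hasQ_jqModC ι)) τ

/-- `θ` on constants. -/
theorem theta_algebraMap_apply (hQ : ∀ a : A, HasQ ι ((a : F) : LaurentSeries L) (θ a : ℍ → ℂ))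
    (c : L) (τ : ℍ) : (θ (algebraMap L A c) : ℍ → ℂ) τ = ι c := by
  have h1 := hQ (algebraMap L A c)
  have h2 : (((algebraMap L A c : A) : F) : LaurentSeries L) = algebraMap L (LaurentSeries L) c :=
    rfl
  rw [h2] at h1
  exact congrFun (h1.fun_unique (hasQ_algebraMap ι c)) τ

theorem compSL_theta_J (hJ : ((J : F) : LaurentSeries L) = coeffEmb L jq)
    (hQ : ∀ a : A, HasQ ι ((a : F) : LaurentSeries L) (θ a : ℍ → ℂ)) (g : SL(2, ℤ)) :
    compSL g (θ J) = θ J := by
  apply Subtype.ext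
  funext τ
  show (θ J : ℍ → ℂ) (g • τ) = (θ J : ℍ → ℂ) τ
  rw [theta_J_apply ι A θ J hJ hQ, theta_J_apply ι A θ J hJ hQ, jFun_smul]

theorem compSL_theta_algebraMap
    (hQ : ∀ a : A, HasQ ι ((a : F) : LaurentSeries L) (θ a : ℍ → ℂ)) (g : SL(2, ℤ)) (c : L) :
    compSL g (θ (algebraMap L A c)) = θ (algebraMap L A c) := by
  apply Subtype.ext
  funext τ
  show (θ (algebraMap L A c) : ℍ → ℂ) (g • τ) = (θ (algebraMap L A c) : ℍ → ℂ) τ
  rw [theta_algebraMap_apply ι A θ hQ, theta_algebraMap_apply ι A θ hQ]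

/-- `j` is transcendental over `L`. -/
theorem transcendental_J (hJ : ((J : F) : LaurentSeries L) = coeffEmb L jq) :
    Transcendental L (J : F) := by
  intro hal
  have hal' : IsAlgebraic L ((J : F) : LaurentSeries L) := by
    have := hal.algebraMap (A := LaurentSeries L)
    exact this
  have hord : (((J : F) : LaurentSeries L)).order < 0 := by
    rw [hJ, Fermat.Agent.S24.Puiseux.coeffEmb_jq, Fermat.Agent.S24.Puiseux.order_jqModC]
    norm_num
  exact Fermat.Agent.S30.Descent.transcendental_jj hord hal'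

/-- The coset-indexed embeddings of `F` into `Frac(HolH)`. -/
def cosetEmbG [IsFractionRing A F]
    (hQ : ∀ a : A, HasQ ι ((a : F) : LaurentSeries L) (θ a : ℍ → ℂ)) (x : SL(2, ℤ) ⧸ G) :
    F →+* FractionRing HolH :=
  IsFractionRing.lift (A := A) (K := F)
    (g := (algebraMap HolH (FractionRing HolH)).comp (cosetHomG G θ x))
    ((IsFractionRing.injective HolH (FractionRing HolH)).comp
      (cosetHomG_injective θ (theta_injective ι A θ hQ) x))

theorem cosetEmbG_coe [IsFractionRing A F]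
    (hQ : ∀ a : A, HasQ ι ((a : F) : LaurentSeries L) (θ a : ℍ → ℂ)) (x : SL(2, ℤ) ⧸ G) (a : A) :
    cosetEmbG ι A θ G hQ x (a : F)
      = algebraMap HolH (FractionRing HolH) (cosetHomG G θ x a) :=
  IsFractionRing.lift_algebraMap _ a

theorem cosetEmbG_injective [IsFractionRing A F]
    (hQ : ∀ a : A, HasQ ι ((a : F) : LaurentSeries L) (θ a : ℍ → ℂ))
    (hinv : ∀ γ ∈ G, ∀ a : A, compSL γ (θ a) = θ a)
    (hstab : ∀ γ : SL(2, ℤ), (∀ a : A, compSL γ (θ a) = θ a) → γ ∈ G) :
    Function.Injective (cosetEmbG ι A θ G hQ) := by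
  intro x y hxy
  apply cosetHomG_index_injective θ hinv hstab
  ext a : 1
  have h1 := congrArg (fun ρ : F →+* FractionRing HolH => ρ (a : F)) hxy
  simp only [cosetEmbG_coe] at h1
  exact IsFractionRing.injective HolH (FractionRing HolH) h1

theorem cosetEmbG_algebraMap [IsFractionRing A F]
    (hQ : ∀ a : A, HasQ ι ((a : F) : LaurentSeries L) (θ a : ℍ → ℂ)) (x y : SL(2, ℤ) ⧸ G)
    (c : L) :
    cosetEmbG ι A θ G hQ x (algebraMap L F c) = cosetEmbG ι A θ G hQ y (algebraMap L F c) := by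
  have h : algebraMap L F c = ((algebraMap L A c : A) : F) := rfl
  rw [h, cosetEmbG_coe, cosetEmbG_coe,
    cosetHomG_of_invariant θ (fun g => compSL_theta_algebraMap ι A θ hQ g c) x,
    cosetHomG_of_invariant θ (fun g => compSL_theta_algebraMap ι A θ hQ g c) y]

theorem cosetEmbG_J [IsFractionRing A F] (hJ : ((J : F) : LaurentSeries L) = coeffEmb L jq)
    (hQ : ∀ a : A, HasQ ι ((a : F) : LaurentSeries L) (θ a : ℍ → ℂ)) (x y : SL(2, ℤ) ⧸ G) :
    cosetEmbG ι A θ G hQ x (J : F) = cosetEmbG ι A θ G hQ y (J : F) := by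
  rw [cosetEmbG_coe, cosetEmbG_coe,
    cosetHomG_of_invariant θ (fun g => compSL_theta_J ι A θ J hJ hQ g) x,
    cosetHomG_of_invariant θ (fun g => compSL_theta_J ι A θ J hJ hQ g) y]

variable [Fintype (SL(2, ℤ) ⧸ G)]

/-- The relation, in `A`: every `a : A` satisfies a monic relation of degree `[SL(2,ℤ) : G]`
with coefficients in `L[J]`. -/
theorem exists_relation (hJ : ((J : F) : LaurentSeries L) = coeffEmb L jq)
    (hQ : ∀ a : A, HasQ ι ((a : F) : LaurentSeries L) (θ a : ℍ → ℂ))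
    (hinv : ∀ γ ∈ G, ∀ a : A, compSL γ (θ a) = θ a)
    (hmod : ∀ a : A, θ a ∈ cuspMod) (a : A) :
    ∃ p : ℕ → L[X], a ^ Fintype.card (SL(2, ℤ) ⧸ G)
      + ∑ k ∈ Finset.range (Fintype.card (SL(2, ℤ) ⧸ G)), aeval J (p k) * a ^ k = 0 := by
  obtain ⟨P, hP⟩ := exists_poly_relation_fintype (Γ := G) θ hinv a
    (fun x => cosetHomG_mem_cuspMod θ (hmod a) x)
  have hexp : ∀ (e k : ℕ) (τ : ℍ),
      HasSum (fun m : ℤ => ι ((((J : F) : LaurentSeries L) ^ e
          * ((a : F) : LaurentSeries L) ^ k).coeff m) * 𝕢 1 (τ : ℂ) ^ m)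
        (jFun τ ^ e * (θ a : ℍ → ℂ) τ ^ k) := by
    intro e k τ
    have h := hQ (J ^ e * a ^ k) τ
    have hv : (θ (J ^ e * a ^ k) : ℍ → ℂ) τ = jFun τ ^ e * (θ a : ℍ → ℂ) τ ^ k := by
      rw [map_mul, map_pow, map_pow]
      show (θ J : ℍ → ℂ) τ ^ e * (θ a : ℍ → ℂ) τ ^ k = _
      rw [theta_J_apply ι A θ J hJ hQ]
    rw [hv] at h
    exact h
  obtain ⟨p, hp⟩ := exists_poly_relation_of_hasSum ι ((a : F) : LaurentSeries L)
    ((J : F) : LaurentSeries L) (θ a : ℍ → ℂ) jFun hexp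
    (Fintype.card (SL(2, ℤ) ⧸ G)) P hP
  refine ⟨p, ?_⟩
  have hinj : Function.Injective (F.val.comp A.val : A →ₐ[L] LaurentSeries L) :=
    Subtype.val_injective.comp Subtype.val_injective
  apply hinj
  rw [map_add, map_pow, map_sum, map_zero]
  simp only [map_mul, map_pow, ← Polynomial.aeval_algHom_apply]
  exact hp

/-- **Upper bound**, for every element of `F`: a monic polynomial of degree `[SL(2,ℤ) : G]`
over `L(j)`. -/
theorem exists_monic [IsFractionRing A F] (hJ : ((J : F) : LaurentSeries L) = coeffEmb L jq)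
    (hQ : ∀ a : A, HasQ ι ((a : F) : LaurentSeries L) (θ a : ℍ → ℂ))
    (hinv : ∀ γ ∈ G, ∀ a : A, compSL γ (θ a) = θ a)
    (hmod : ∀ a : A, θ a ∈ cuspMod) (f : F) :
    ∃ Q : Polynomial L⟮(J : F)⟯, Q.Monic ∧ Q.natDegree = Fintype.card (SL(2, ℤ) ⧸ G) ∧
      Polynomial.aeval f Q = 0 := by
  obtain ⟨a, b, hb, rfl⟩ := IsFractionRing.div_surjective (A := A) f
  have hb0 : b ≠ 0 := nonZeroDivisors.ne_zero hb
  obtain ⟨pb, hpb⟩ := exists_relation ι A θ G J hJ hQ hinv hmod b
  obtain ⟨c, a', hc, hba⟩ := exists_mul_eq_aeval_of_relation (L := L) J b hb0 _ pb hpb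
  obtain ⟨pr, hpr⟩ := exists_relation ι A θ G J hJ hQ hinv hmod (a * a')
  -- the relation for `r = a * a'` in `F`
  have hrF : ((a * a' : A) : F) ^ Fintype.card (SL(2, ℤ) ⧸ G)
      + ∑ k ∈ Finset.range (Fintype.card (SL(2, ℤ) ⧸ G)),
          aeval (J : F) (pr k) * ((a * a' : A) : F) ^ k = 0 := by
    have h1 := congrArg (A.val : A → F) hpr
    rw [map_add, map_pow, map_sum, map_zero] at h1
    simp only [map_mul, map_pow, ← Polynomial.aeval_algHom_apply] at h1
    exact h1
  obtain ⟨Q, hQm, hQn, hQr⟩ := exists_monic_of_relation (J : F) ((a * a' : A) : F) _ pr hrF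
  -- `s = c(J) ∈ L(J)`
  set sJ : L⟮(J : F)⟯ := aeval (AdjoinSimple.gen L (J : F)) c with hsJ
  have hsF : algebraMap L⟮(J : F)⟯ F sJ = aeval (J : F) c := by
    have h2 := Polynomial.aeval_algHom_apply (L⟮(J : F)⟯).val (AdjoinSimple.gen L (J : F)) c
    exact h2.symm
  have hcF : aeval (J : F) c = ((aeval J c : A) : F) := (aeval_subalgebra_coe c A J).symm
  have hcF0 : aeval (J : F) c ≠ 0 := by
    rw [hcF]
    exact fun h => hc (Subtype.ext h)
  have hbF : (algebraMap A F b) ≠ 0 := by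
    intro h
    exact hb0 ((map_eq_zero_iff _ (IsFractionRing.injective A F)).mp h)
  have hba' : (algebraMap A F b) * (algebraMap A F a') = aeval (J : F) c := by
    rw [hcF, ← map_mul, hba]
    rfl
  refine ⟨scaleRoots Q sJ⁻¹, ?_, ?_, ?_⟩
  · exact (monic_scaleRoots_iff sJ⁻¹).mpr hQm
  · rw [natDegree_scaleRoots, hQn]
  · have h1 := scaleRoots_aeval_eq_zero (r := sJ⁻¹) hQr
    have h2 : algebraMap A F a / algebraMap A F b
        = algebraMap L⟮(J : F)⟯ F sJ⁻¹ * ((a * a' : A) : F) := by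
      rw [map_inv₀, hsF, ← hba']
      have h3 : ((a * a' : A) : F) = algebraMap A F a * algebraMap A F a' := rfl
      rw [h3]
      have ha'F : (algebraMap A F a') ≠ 0 := by
        intro h
        rw [h, mul_zero] at hba'
        exact hcF0 hba'.symm
      field_simp
    rw [h2]
    exact h1

/-- **The degree theorem** (`Fintype` form). -/
theorem finite_and_finrank_card [IsFractionRing A F]
    (hJ : ((J : F) : LaurentSeries L) = coeffEmb L jq)
    (hQ : ∀ a : A, HasQ ι ((a : F) : LaurentSeries L) (θ a : ℍ → ℂ))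
    (hinv : ∀ γ ∈ G, ∀ a : A, compSL γ (θ a) = θ a)
    (hstab : ∀ γ : SL(2, ℤ), (∀ a : A, compSL γ (θ a) = θ a) → γ ∈ G)
    (hmod : ∀ a : A, θ a ∈ cuspMod) :
    Module.Finite L⟮(J : F)⟯ F ∧
      Module.finrank L⟮(J : F)⟯ F = Fintype.card (SL(2, ℤ) ⧸ G) := by
  have : CharZero L⟮(J : F)⟯ :=
    charZero_of_injective_algebraMap (algebraMap L L⟮(J : F)⟯).injective
  obtain ⟨hfin, hle⟩ := Fermat.Agent.S24.Degree.finite_and_finrank_le (k := L⟮(J : F)⟯) (L := F)
    (Fintype.card (SL(2, ℤ) ⧸ G)) (exists_monic ι A θ G J hJ hQ hinv hmod)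
  haveI : Module.Finite L⟮(J : F)⟯ F := hfin
  refine ⟨hfin, le_antisymm hle ?_⟩
  have hge := Fermat.Agent.S24.DegreeAbs.card_le_finrank_of_injective' (J : F)
    (cosetEmbG ι A θ G hQ) (cosetEmbG_injective ι A θ G hQ hinv hstab)
    (cosetEmbG_algebraMap ι A θ G hQ) (cosetEmbG_J ι A θ G J hJ hQ)
  rwa [Nat.card_eq_fintype_card] at hge

end Main

/-! ### Final forms (`Finite` quotient, `Nat.card`) -/

section Final

variable {L : Type*} [Field L] [CharZero L] [Algebra ℚ L] (ι : L →+* ℂ)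
  {F : IntermediateField L (LaurentSeries L)} (A : Subalgebra L F) [IsFractionRing A F]
  (θ : A →+* HolH) (G : Subgroup SL(2, ℤ)) [Finite (SL(2, ℤ) ⧸ G)] (J : A)

/-- **Upper bound**: every element of `F` is a root of a monic polynomial of degree
`[SL(2,ℤ) : G]` over `L(j)` (no stabiliser hypothesis). -/
theorem exists_monic_natCard (hJ : ((J : F) : LaurentSeries L) = coeffEmb L jq)
    (hQ : ∀ a : A, HasQ ι ((a : F) : LaurentSeries L) (θ a : ℍ → ℂ))
    (hinv : ∀ γ ∈ G, ∀ a : A, compSL γ (θ a) = θ a)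
    (hmod : ∀ a : A, θ a ∈ cuspMod) (f : F) :
    ∃ Q : Polynomial L⟮(J : F)⟯, Q.Monic ∧ Q.natDegree = Nat.card (SL(2, ℤ) ⧸ G) ∧
      Polynomial.aeval f Q = 0 := by
  classical
  letI : Fintype (SL(2, ℤ) ⧸ G) := Fintype.ofFinite _
  rw [Nat.card_eq_fintype_card]
  exact exists_monic ι A θ G J hJ hQ hinv hmod f

/-- `F` is finite over `L(j)` (no stabiliser hypothesis), of degree at most `[SL(2,ℤ) : G]`. -/
theorem finite_and_finrank_le (hJ : ((J : F) : LaurentSeries L) = coeffEmb L jq)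
    (hQ : ∀ a : A, HasQ ι ((a : F) : LaurentSeries L) (θ a : ℍ → ℂ))
    (hinv : ∀ γ ∈ G, ∀ a : A, compSL γ (θ a) = θ a)
    (hmod : ∀ a : A, θ a ∈ cuspMod) :
    Module.Finite L⟮(J : F)⟯ F ∧ Module.finrank L⟮(J : F)⟯ F ≤ Nat.card (SL(2, ℤ) ⧸ G) := by
  have : CharZero L⟮(J : F)⟯ :=
    charZero_of_injective_algebraMap (algebraMap L L⟮(J : F)⟯).injective
  exact Fermat.Agent.S24.Degree.finite_and_finrank_le (k := L⟮(J : F)⟯) (L := F)
    (Nat.card (SL(2, ℤ) ⧸ G)) (exists_monic_natCard ι A θ G J hJ hQ hinv hmod)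

/-- **The degree theorem**: `[F : L(j)] = [SL(2,ℤ) : G]`. -/
theorem finite_and_finrank (hJ : ((J : F) : LaurentSeries L) = coeffEmb L jq)
    (hQ : ∀ a : A, HasQ ι ((a : F) : LaurentSeries L) (θ a : ℍ → ℂ))
    (hinv : ∀ γ ∈ G, ∀ a : A, compSL γ (θ a) = θ a)
    (hstab : ∀ γ : SL(2, ℤ), (∀ a : A, compSL γ (θ a) = θ a) → γ ∈ G)
    (hmod : ∀ a : A, θ a ∈ cuspMod) :
    Module.Finite L⟮(J : F)⟯ F ∧
      Module.finrank L⟮(J : F)⟯ F = Nat.card (SL(2, ℤ) ⧸ G) := by
  classical
  letI : Fintype (SL(2, ℤ) ⧸ G) := Fintype.ofFinite _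
  rw [Nat.card_eq_fintype_card]
  exact finite_and_finrank_card ι A θ G J hJ hQ hinv hstab hmod

/-- `F` has transcendence degree one over `L`. -/
theorem trdeg_eq_one (hJ : ((J : F) : LaurentSeries L) = coeffEmb L jq)
    (hQ : ∀ a : A, HasQ ι ((a : F) : LaurentSeries L) (θ a : ℍ → ℂ))
    (hinv : ∀ γ ∈ G, ∀ a : A, compSL γ (θ a) = θ a)
    (hmod : ∀ a : A, θ a ∈ cuspMod) :
    Algebra.trdeg L F = 1 := by
  haveI : Module.Finite L⟮(J : F)⟯ F := (finite_and_finrank_le ι A θ G J hJ hQ hinv hmod).1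
  haveI : Algebra.IsAlgebraic L⟮(J : F)⟯ F := Algebra.IsAlgebraic.of_finite _ _
  exact Fermat.Agent.S24.DegreeAbs.trdeg_eq_one (J : F) (transcendental_J A J hJ)

end Final

end Fermat.Agent.S48.G1.DegreeG

end
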