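/-
PROGRAM DS (S48), part G1, AREA F, instance row (I1) of the F.2 plan (helper86): the group
`±Γ₁(M) = Γ₁(M) ∪ -Γ₁(M)`, i.e. the exact stabiliser in `SL(2, ℤ)` of the function field `F1 M`
acting on `ℍ` (`-1` acts trivially).  Definitions and group theory only; imports Mathlib only.

* `Gamma1pm M`                  : the subgroup, carrier `{γ | γ ∈ Gamma1 M ∨ -γ ∈ Gamma1 M}`;
* `mem_Gamma1pm`, `mem_Gamma1pm_iff'` : membership (the second in terms of `Gamma0 M` and the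
  lower right entry `≡ ±1`);
* `Gamma1_le_Gamma1pm`, `Gamma1pm_le_Gamma0`, `Gamma_le_Gamma1pm`, `neg_one_mem_Gamma1pm`,
  `neg_mem_Gamma1pm_iff`;
* finite index for `M ≠ 0` (`FiniteIndex` and `Finite (SL(2, ℤ) ⧸ Gamma1pm M)`);
* `conj_T_zpow_mem_Gamma1pm`    : every conjugate of `T ^ M` lies in `±Γ₁(M)` (all cusps have
  width dividing `M`);
* `forall_mem_Gamma1pm_of_neg`  : a `±`-insensitive statement true on `Γ₁(M)` is true on `±Γ₁(M)`.
-/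
import Mathlib

set_option autoImplicit false

namespace Fermat.Agent.S48.G1.F1

open CongruenceSubgroup
open scoped MatrixGroups

/-- `-γ ∈ Γ₁(M)` in terms of the entries. -/
theorem neg_mem_Gamma1_iff_entries (M : ℕ) (A : SL(2, ℤ)) :
    -A ∈ Gamma1 M ↔ ((A 0 0 : ℤ) : ZMod M) = -1 ∧ ((A 1 1 : ℤ) : ZMod M) = -1 ∧
      ((A 1 0 : ℤ) : ZMod M) = 0 := by
  rw [Gamma1_mem]
  simp only [Matrix.SpecialLinearGroup.coe_neg, Matrix.neg_apply, Int.cast_neg, neg_eq_zero]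
  constructor
  · rintro ⟨h1, h2, h3⟩
    exact ⟨by rw [← h1, neg_neg], by rw [← h2, neg_neg], h3⟩
  · rintro ⟨h1, h2, h3⟩
    exact ⟨by rw [h1, neg_neg], by rw [h2, neg_neg], h3⟩

/-- For `A ∈ Γ₀(M)` the diagonal entries are inverse to each other mod `M`. -/
theorem diag_mul_eq_one_of_mem_Gamma0 (M : ℕ) {A : SL(2, ℤ)} (hA : A ∈ Gamma0 M) :
    ((A 0 0 : ℤ) : ZMod M) * ((A 1 1 : ℤ) : ZMod M) = 1 := by
  have hc : ((A 1 0 : ℤ) : ZMod M) = 0 := Gamma0_mem.mp hA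
  have hdet : (A 0 0 : ℤ) * A 1 1 - A 0 1 * A 1 0 = 1 := by
    have := A.det_coe
    rw [Matrix.det_fin_two] at this
    exact this
  have := congrArg (fun x : ℤ => (x : ZMod M)) hdet
  simp only [Int.cast_sub, Int.cast_mul, hc, mul_zero, sub_zero, Int.cast_one] at this
  exact this

/-- **The group `±Γ₁(M)`**: the matrices `γ` with `γ ∈ Γ₁(M)` or `-γ ∈ Γ₁(M)`. -/
def Gamma1pm (M : ℕ) : Subgroup SL(2, ℤ) where
  carrier := {γ | γ ∈ Gamma1 M ∨ -γ ∈ Gamma1 M}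
  mul_mem' := by
    rintro a b (ha | ha) (hb | hb)
    · exact Or.inl (mul_mem ha hb)
    · refine Or.inr ?_
      have h : -(a * b) = a * -b := by rw [mul_neg]
      rw [h]
      exact mul_mem ha hb
    · refine Or.inr ?_
      have h : -(a * b) = -a * b := by rw [neg_mul]
      rw [h]
      exact mul_mem ha hb
    · refine Or.inl ?_
      have h : a * b = -a * -b := by rw [neg_mul_neg]
      rw [h]
      exact mul_mem ha hb
  one_mem' := Or.inl (one_mem _)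
  inv_mem' := by
    rintro a (ha | ha)
    · exact Or.inl (inv_mem ha)
    · refine Or.inr ?_
      have h : -a⁻¹ = (-a)⁻¹ := by
        refine eq_inv_of_mul_eq_one_left ?_
        rw [neg_mul_neg, inv_mul_cancel]
      rw [h]
      exact inv_mem ha

theorem mem_Gamma1pm {M : ℕ} {γ : SL(2, ℤ)} :
    γ ∈ Gamma1pm M ↔ γ ∈ Gamma1 M ∨ -γ ∈ Gamma1 M := Iff.rfl

theorem Gamma1_le_Gamma1pm (M : ℕ) : Gamma1 M ≤ Gamma1pm M := fun _ h => Or.inl h

theorem neg_one_mem_Gamma1pm (M : ℕ) : (-1 : SL(2, ℤ)) ∈ Gamma1pm M :=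
  Or.inr (by rw [neg_neg]; exact one_mem _)

theorem neg_mem_Gamma1pm_iff {M : ℕ} {γ : SL(2, ℤ)} : -γ ∈ Gamma1pm M ↔ γ ∈ Gamma1pm M := by
  rw [mem_Gamma1pm, mem_Gamma1pm, neg_neg, or_comm]

theorem Gamma1pm_le_Gamma0 (M : ℕ) : Gamma1pm M ≤ Gamma0 M := by
  rintro γ (h | h)
  · exact Gamma1_in_Gamma0 M h
  · rw [Gamma0_mem]
    exact ((neg_mem_Gamma1_iff_entries M γ).mp h).2.2

/-- Membership in `±Γ₁(M)`: `γ ∈ Γ₀(M)` with lower right entry `≡ ±1 (mod M)`. -/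
theorem mem_Gamma1pm_iff' {M : ℕ} {γ : SL(2, ℤ)} :
    γ ∈ Gamma1pm M ↔ γ ∈ Gamma0 M ∧
      (((γ 1 1 : ℤ) : ZMod M) = 1 ∨ ((γ 1 1 : ℤ) : ZMod M) = -1) := by
  constructor
  · intro h
    refine ⟨Gamma1pm_le_Gamma0 M h, ?_⟩
    rcases h with h | h
    · exact Or.inl ((Gamma1_mem M γ).mp h).2.1
    · exact Or.inr ((neg_mem_Gamma1_iff_entries M γ).mp h).2.1
  · rintro ⟨h0, h | h⟩
    · refine Or.inl ((Gamma1_mem M γ).mpr ⟨?_, h, Gamma0_mem.mp h0⟩)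
      have had := diag_mul_eq_one_of_mem_Gamma0 M h0
      rw [h, mul_one] at had
      exact had
    · refine Or.inr ((neg_mem_Gamma1_iff_entries M γ).mpr ⟨?_, h, Gamma0_mem.mp h0⟩)
      have had := diag_mul_eq_one_of_mem_Gamma0 M h0
      rw [h, mul_neg, mul_one] at had
      rw [← had, neg_neg]

theorem Gamma_le_Gamma1pm (M : ℕ) : Gamma M ≤ Gamma1pm M := by
  intro γ hγ
  refine Or.inl ?_
  rw [Gamma_mem] at hγ
  rw [Gamma1_mem]
  exact ⟨hγ.1, hγ.2.2.2, hγ.2.2.1⟩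

instance finiteIndex_Gamma1pm (M : ℕ) [NeZero M] : (Gamma1pm M).FiniteIndex :=
  Subgroup.finiteIndex_of_le (Gamma1_le_Gamma1pm M)

instance finite_quotient_Gamma1pm (M : ℕ) [NeZero M] : Finite (SL(2, ℤ) ⧸ Gamma1pm M) :=
  (Gamma1pm M).finite_quotient_of_finiteIndex

/-- Every conjugate of `T ^ M` lies in `Γ(M)`, hence in `±Γ₁(M)`. -/
theorem conj_T_zpow_mem_GammaLvl (M : ℕ) (g : SL(2, ℤ)) :
    g * ModularGroup.T ^ (M : ℤ) * g⁻¹ ∈ Gamma M := by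
  have hT : ModularGroup.T ^ (M : ℤ) ∈ Gamma M := by
    rw [Gamma_mem, ModularGroup.coe_T_zpow]
    simp
  exact (Gamma_normal M).conj_mem _ hT g

theorem conj_T_zpow_mem_Gamma1pm (M : ℕ) (g : SL(2, ℤ)) :
    g * ModularGroup.T ^ (M : ℤ) * g⁻¹ ∈ Gamma1pm M :=
  Gamma_le_Gamma1pm M (conj_T_zpow_mem_GammaLvl M g)

/-- A statement which does not see the sign of `γ` and holds on `Γ₁(M)` holds on `±Γ₁(M)`. -/
theorem forall_mem_Gamma1pm_of_neg {P : SL(2, ℤ) → Prop} {M : ℕ} (hneg : ∀ γ, P (-γ) ↔ P γ)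
    (h : ∀ γ ∈ Gamma1 M, P γ) : ∀ γ ∈ Gamma1pm M, P γ := by
  rintro γ (hγ | hγ)
  · exact h γ hγ
  · exact (hneg γ).mp (h _ hγ)

end Fermat.Agent.S48.G1.F1
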