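/-
PROGRAM DS (S48), part G1, AREA F, row F.2 (I2) (helper205): MODERATE GROWTH AT ALL CUSPS.

The analytic generators `gHol M b = EE_b · E₄² / Δ` of `F1(M)` lie in the subalgebra
`S24.Degree.cuspMod` of holomorphic functions all of whose `SL(2, ℤ)`-translates have moderate
growth at `i∞`:  `gFun M b (γ • τ) = (uHat M b ∣[4] γ) τ · E₄ τ ² / Δ τ`, the first two factors are
bounded at `i∞` and `q / Δ` is bounded at `i∞`.

Consequently every ring hom `θ : A01 M →+* HolH` sending the generators `j(q^d)` to `τ ↦ j(dτ)`,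
the generators `gq M b` to `gHol M b` and constants to constants takes values in `cuspMod`
(`mem_cuspMod_of_gens`): this is the only input about cusps needed by the degree bound (`SY`) and
the Lagrange interpolation for `Γ₁(M)`.
-/
import Mathlib
import Fermat.Agent.S48.G1.F1.GHol
import Fermat.Agent.S48.G1.F1.Gens
import Fermat.Agent.S48.G1.F1.Theta1
import Fermat.Agent.S24.Degree.Growth

set_option autoImplicit false

noncomputable section

open UpperHalfPlane ModularForm Filter Topology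
open scoped MatrixGroups Manifold

namespace Fermat.Agent.S48.G1.F1.GrowthG

open Fermat.Agent.S48.Sep1 Fermat.Agent.S24.Theta Fermat.Agent.S24.HolH
open Fermat.Agent.S24.Degree Fermat.Agent.S48.G1.F1 Fermat.Agent.S48.G1.F1.GHol

local notation "𝕢" => Function.Periodic.qParam

/-- `q / Δ → 1` at `i∞`. -/
theorem tendsto_q_div_disc :
    Tendsto (fun τ : ℍ => 𝕢 1 (τ : ℂ) / ModularForm.discriminant τ) atImInfty (𝓝 1) := by
  have h1 : Tendsto (fun τ : ℍ => (∏' (n : ℕ), (1 - eta_q n τ) ^ 24)⁻¹) atImInfty (𝓝 1) := by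
    have h := tendsto_atImInfty_tprod_one_sub_eta_q_pow.inv₀ one_ne_zero
    rwa [inv_one] at h
  refine h1.congr fun τ => ?_
  have hq : 𝕢 1 (τ : ℂ) ≠ 0 := Function.Periodic.qParam_ne_zero _
  rw [discriminant_eq_q_prod]
  field_simp

/-- **(G1)** `q / Δ` is bounded at `i∞`. -/
theorem isBoundedAtImInfty_q_div_disc :
    IsBoundedAtImInfty (fun τ : ℍ => 𝕢 1 (τ : ℂ) / ModularForm.discriminant τ) :=
  tendsto_q_div_disc.isBigO_one ℝ

/-- `E₄` is bounded at `i∞`. -/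
theorem isBoundedAtImInfty_E4 : IsBoundedAtImInfty (fun τ : ℍ => E₄ τ) :=
  Fermat.Agent.S24.JFun.tendsto_E4.isBigO_one ℝ

/-- The translate of `g_b` by `γ ∈ SL(2, ℤ)` in terms of the weight-4 slash of `EE_b`. -/
theorem gFun_smul_eq (M : ℕ) (b : ZMod M) (γ : SL(2, ℤ)) (τ : ℍ) :
    gFun M b (γ • τ)
      = (uHat M b ∣[(4 : ℤ)] γ) τ * E₄ τ ^ 2 / ModularForm.discriminant τ := by
  have hd : denom γ τ ≠ 0 := denom_ne_zero _ τ
  have hΔ : ModularForm.discriminant τ ≠ 0 := discriminant_ne_zero τ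
  have hu : uHat M b (γ • τ) = denom γ τ ^ (4 : ℤ) * (uHat M b ∣[(4 : ℤ)] γ) τ := by
    rw [ModularForm.SL_slash_apply, ← mul_assoc, mul_comm (denom γ τ ^ (4 : ℤ)), mul_assoc,
      ← zpow_add₀ hd]
    simp
  rw [gFun_apply, hu, GHol.E₄_smul, GHol.disc_smul]
  have h12 : denom γ τ ^ (12 : ℤ) = denom γ τ ^ (4 : ℤ) * (denom γ τ ^ (4 : ℤ)) ^ 2 := by
    rw [← zpow_natCast (denom γ τ ^ (4 : ℤ)) 2, ← zpow_mul, ← zpow_add₀ hd]
    norm_num
  rw [h12]
  have hd4 : denom γ τ ^ (4 : ℤ) ≠ 0 := zpow_ne_zero _ hd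
  field_simp

/-- Every `SL(2, ℤ)`-translate of `g_b` has a pole of order at most `1` at `i∞`. -/
theorem isBoundedAtImInfty_q_mul_gFun_smul (M : ℕ) (b : ZMod M) (γ : SL(2, ℤ)) :
    IsBoundedAtImInfty (fun τ : ℍ => 𝕢 1 (τ : ℂ) ^ 1 * gFun M b (γ • τ)) := by
  have h1 := isBoundedAtImInfty_uHat_slash M b γ
  have h2 := isBoundedAtImInfty_E4
  have h3 := isBoundedAtImInfty_q_div_disc
  have h := (h1.mul (h2.mul h2)).mul h3
  refine h.congr' ?_ (EventuallyEq.refl _ _)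
  filter_upwards with τ
  simp only [Pi.mul_apply]
  rw [gFun_smul_eq]
  have hΔ : ModularForm.discriminant τ ≠ 0 := discriminant_ne_zero τ
  field_simp

/-- Moderate growth of every translate of `g_b`. -/
theorem modAt_gFun_smul (M : ℕ) (b : ZMod M) (γ : SL(2, ℤ)) :
    ModAt (fun τ : ℍ => gFun M b (γ • τ)) :=
  ⟨1, isBoundedAtImInfty_q_mul_gFun_smul M b γ⟩

/-- **(G2)** The analytic generators `g_b` lie in `cuspMod` (every `M`, every `b`). -/
theorem gHol_mem_cuspMod (M : ℕ) (b : ZMod M) : gHol M b ∈ cuspMod :=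
  fun γ => modAt_gFun_smul M b γ

/-- Every translate of `g_b` lies in `cuspMod`. -/
theorem compSL_gHol_mem_cuspMod (M : ℕ) (b : ZMod M) (γ : SL(2, ℤ)) :
    compSL γ (gHol M b) ∈ cuspMod :=
  compSL_mem_cuspMod γ (gHol_mem_cuspMod M b)

/-- **(G3)** A ring hom `θ : A01 M →+* HolH` which sends the generators `j(q^d)` to `τ ↦ j(dτ)`,
the generators `gq M b` to `g_b`, and constants to constants, takes values in `cuspMod`. -/
theorem mem_cuspMod_of_gens {M : ℕ} (ι : Qb →+* ℂ) (θ : A01 M →+* HolH)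
    (hJ : ∀ (d : ℕ) [NeZero d] (hd : d ∣ M), θ (genJ M d hd) = jScale d)
    (hG : ∀ b : (ZMod M)ˣ, θ (genG M b) = gHol M (b : ZMod M))
    (hC : ∀ c : Qb, θ (algebraMap Qb (A01 M) c) = algebraMap ℂ HolH (ι c))
    (x : A01 M) : θ x ∈ cuspMod := by
  refine A01_induction (p := fun x : A01 M => θ x ∈ cuspMod) ?_ ?_ ?_ ?_ ?_ x
  · intro d _ hd
    rw [hJ d hd]
    exact jScale_mem_cuspMod d (jScale d) (fun _ => rfl)
  · intro b
    rw [hG b]
    exact gHol_mem_cuspMod M _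
  · intro c
    rw [hC c]
    exact Subalgebra.algebraMap_mem cuspMod (ι c)
  · intro x y hx hy
    rw [map_add]
    exact add_mem hx hy
  · intro x y hx hy
    rw [map_mul]
    exact mul_mem hx hy

/-- **(G4)** Consumer form: every `SL(2, ℤ)`-translate of `θ x` has moderate growth at `i∞`. -/
theorem modAt_theta {M : ℕ} (ι : Qb →+* ℂ) (θ : A01 M →+* HolH)
    (hJ : ∀ (d : ℕ) [NeZero d] (hd : d ∣ M), θ (genJ M d hd) = jScale d)
    (hG : ∀ b : (ZMod M)ˣ, θ (genG M b) = gHol M (b : ZMod M))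
    (hC : ∀ c : Qb, θ (algebraMap Qb (A01 M) c) = algebraMap ℂ HolH (ι c))
    (x : A01 M) (g : SL(2, ℤ)) :
    ∃ m : ℕ, IsBoundedAtImInfty (fun τ : ℍ => 𝕢 1 (τ : ℂ) ^ m * (θ x : ℍ → ℂ) (g • τ)) :=
  mem_cuspMod_of_gens ι θ hJ hG hC x g

/-- Consumer form for the translates as elements of `HolH`. -/
theorem compSL_theta_mem_cuspMod {M : ℕ} (ι : Qb →+* ℂ) (θ : A01 M →+* HolH)
    (hJ : ∀ (d : ℕ) [NeZero d] (hd : d ∣ M), θ (genJ M d hd) = jScale d)
    (hG : ∀ b : (ZMod M)ˣ, θ (genG M b) = gHol M (b : ZMod M))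
    (hC : ∀ c : Qb, θ (algebraMap Qb (A01 M) c) = algebraMap ℂ HolH (ι c))
    (x : A01 M) (g : SL(2, ℤ)) : compSL g (θ x) ∈ cuspMod :=
  compSL_mem_cuspMod g (mem_cuspMod_of_gens ι θ hJ hG hC x)

/-! ### The instance `theta1` -/

/-- **`theta1 x ∈ cuspMod`**: every `SL(2, ℤ)`-translate of `theta1 x` has moderate growth. -/
theorem theta1_mem_cuspMod (ι : Qb →+* ℂ) {M : ℕ} (hM : 2 ≤ M) (x : A01 M) :
    Theta1.theta1 ι M hM x ∈ cuspMod :=
  mem_cuspMod_of_gens ι (Theta1.theta1 ι M hM) (fun d _ hd => Theta1.theta1_genJ hM d hd)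
    (fun b => Theta1.theta1_genG hM b) (fun c => Theta1.theta1_algebraMap hM c) x

theorem compSL_theta1_mem_cuspMod (ι : Qb →+* ℂ) {M : ℕ} (hM : 2 ≤ M) (x : A01 M)
    (g : SL(2, ℤ)) : compSL g (Theta1.theta1 ι M hM x) ∈ cuspMod :=
  compSL_mem_cuspMod g (theta1_mem_cuspMod ι hM x)

theorem modAt_theta1 (ι : Qb →+* ℂ) {M : ℕ} (hM : 2 ≤ M) (x : A01 M) (g : SL(2, ℤ)) :
    ∃ m : ℕ, IsBoundedAtImInfty
      (fun τ : ℍ => 𝕢 1 (τ : ℂ) ^ m * (Theta1.theta1 ι M hM x : ℍ → ℂ) (g • τ)) :=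
  theta1_mem_cuspMod ι hM x g

end Fermat.Agent.S48.G1.F1.GrowthG
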