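import Fermat.Agent.S48.G1.F1.GHol
import Fermat.Agent.S48.G1.F1.GqLeadR
import Fermat.Agent.S24.StabJ
import Fermat.Agent.S24.Theta

set_option autoImplicit false

/-!
# G1 (S48), area F, row (I2): the stabiliser of the generators of `F1(M)` is `±Γ₁(M)`

For `2 ≤ M`, an element `γ ∈ SL(2, ℤ)` fixing the two holomorphic functions
`τ ↦ j(Mτ)` (`S24.Theta.jScale M`) and `g_1 = EE_1 · E₄² / Δ` (`GHol.gHol M 1`) satisfies
`γ ∈ Γ₁(M)` or `-γ ∈ Γ₁(M)`: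

* `j(Mτ)` fixed `⇒ γ ∈ Γ₀(M)` (`S24/StabJ`);
* then `g_1 ∘ γ = g_a`, `a` the upper left entry of `γ` (`GHol.compSL_gHol`), so `g_a = g_1`,
  hence the `q`-expansions agree, `gq M a = gq M 1` (`GHol.hasQ_gq` + uniqueness of `HasQ`),
  and `a = ±1` by the leading exponents (`GqLead.coeffEmb_gq_eq_iff`).

Exports: `mem_pmGamma1_of_stab` (the dealt literal), `stab_iff`, the family form
`mem_pmGamma1_of_family` (any family of holomorphic functions containing `j(Mτ)` and `g_1`: the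
`hstab` / `θ_stab` shapes of the consumers) and the `Γ₁(M) ⊔ ⟨-1⟩` form.
-/

noncomputable section

open UpperHalfPlane ModularForm CongruenceSubgroup ModularCurve
open scoped MatrixGroups Manifold

namespace Fermat.Agent.S48.G1.F1.Stab1

open Fermat.Agent.S24.HolH Fermat.Agent.S24.Theta Fermat.Agent.S24.JFun
open Fermat.Agent.S48.G1.F1 Fermat.Agent.S48.G1.F1.GHol Fermat.Agent.S48.G1.F1.GqLead

/-- An element fixing `τ ↦ j(Mτ)` lies in `Γ₀(M)`. -/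
theorem mem_Gamma0_of_compSL_jScale (M : ℕ) [NeZero M] (γ : SL(2, ℤ))
    (hj : compSL γ (jScale M) = jScale M) : γ ∈ Gamma0 M := by
  refine Fermat.Agent.S24.StabJ.mem_Gamma0_of_jFun_scale M γ fun τ => ?_
  have h := congrArg (fun f : HolH => (f : ℍ → ℂ) τ) hj
  simpa using h

/-- Conversely `τ ↦ j(Mτ)` is fixed by `Γ₀(M)`. -/
theorem compSL_jScale_of_mem_Gamma0 (M : ℕ) [NeZero M] {γ : SL(2, ℤ)} (hγ : γ ∈ Gamma0 M) :
    compSL γ (jScale M) = jScale M := by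
  apply Subtype.ext
  funext τ
  exact Fermat.Agent.S24.StabJ.jFun_scale_smul_of_mem_Gamma0 (dvd_refl M) γ hγ τ

/-- `g_a = g_1` forces `a = ±1` (`a ≠ 0`, `2 ≤ M`). -/
theorem eq_one_or_neg_one_of_gHol_eq {M : ℕ} (hM : 2 ≤ M) {a : ZMod M} (ha : a ≠ 0)
    (h : gHol M a = gHol M 1) : a = 1 ∨ a = -1 := by
  have h1 : (1 : ZMod M) ≠ 0 := by
    have : Fact (1 < M) := ⟨hM⟩
    exact one_ne_zero
  have hqa : HasQ (RingHom.id ℂ) (coeffEmb ℂ (gq M a)) (gFun M a) := hasQ_gq (RingHom.id ℂ) ha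
  have hq1 : HasQ (RingHom.id ℂ) (coeffEmb ℂ (gq M 1)) (gFun M 1) := hasQ_gq (RingHom.id ℂ) h1
  have hfun : gFun M a = gFun M 1 := congrArg (fun f : HolH => (f : ℍ → ℂ)) h
  rw [hfun] at hqa
  have he : coeffEmb ℂ (gq M 1) = coeffEmb ℂ (gq M a) := hq1.unique hqa
  exact (coeffEmb_gq_eq_iff ℂ M 1 a (Or.inr h1) (Or.inr ha)).mp he

/-- **(I2), the stabiliser**: an element of `SL(2, ℤ)` fixing `j(Mτ)` and `g_1` lies in
`±Γ₁(M)`. -/
theorem mem_pmGamma1_of_stab (M : ℕ) [NeZero M] (hM : 2 ≤ M) (γ : SL(2, ℤ))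
    (hj : compSL γ (jScale M) = jScale M) (hg : compSL γ (gHol M 1) = gHol M 1) :
    γ ∈ Gamma1 M ∨ -γ ∈ Gamma1 M := by
  have h0 : γ ∈ Gamma0 M := mem_Gamma0_of_compSL_jScale M γ hj
  have hc : ((γ 1 0 : ℤ) : ZMod M) = 0 := Gamma0_mem.mp h0
  have had := diag_mul_eq_one h0
  have hF : Fact (1 < M) := ⟨hM⟩
  have ha : ((γ 0 0 : ℤ) : ZMod M) ≠ 0 := by
    intro h
    rw [h, zero_mul] at had
    exact zero_ne_one had
  have hgl : gHol M ((γ 0 0 : ℤ) : ZMod M) = gHol M 1 := by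
    rw [← hg, compSL_gHol 1 h0, one_mul]
  rcases eq_one_or_neg_one_of_gHol_eq hM ha hgl with h1 | h1
  · left
    rw [Gamma1_mem]
    refine ⟨h1, ?_, hc⟩
    rw [h1, one_mul] at had
    exact had
  · right
    have hd : ((γ 1 1 : ℤ) : ZMod M) = -1 := by
      rw [h1, neg_mul, one_mul, neg_eq_iff_eq_neg] at had
      exact had
    rw [Gamma1_mem]
    refine ⟨?_, ?_, ?_⟩
    · rw [Matrix.SpecialLinearGroup.coe_neg, Matrix.neg_apply, Int.cast_neg, h1, neg_neg]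
    · rw [Matrix.SpecialLinearGroup.coe_neg, Matrix.neg_apply, Int.cast_neg, hd, neg_neg]
    · rw [Matrix.SpecialLinearGroup.coe_neg, Matrix.neg_apply, Int.cast_neg, hc, neg_zero]

/-- `-γ` acts on `ℍ` like `γ`. -/
theorem compSL_neg_eq (γ : SL(2, ℤ)) (f : HolH) : compSL (-γ) f = compSL γ f := by
  apply Subtype.ext
  funext τ
  show (f : ℍ → ℂ) ((-γ) • τ) = (f : ℍ → ℂ) (γ • τ)
  rw [ModularGroup.SL_neg_smul]

/-- Every element of `±Γ₁(M)` fixes `j(Mτ)` and all the `g_b`. -/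
theorem compSL_jScale_of_pm (M : ℕ) [NeZero M] {γ : SL(2, ℤ)}
    (hγ : γ ∈ Gamma1 M ∨ -γ ∈ Gamma1 M) : compSL γ (jScale M) = jScale M := by
  rcases hγ with h | h
  · exact compSL_jScale_of_mem_Gamma0 M (Gamma1_in_Gamma0 M h)
  · rw [← compSL_neg_eq]
    exact compSL_jScale_of_mem_Gamma0 M (Gamma1_in_Gamma0 M h)

theorem compSL_gHol_of_pm {M : ℕ} (b : ZMod M) {γ : SL(2, ℤ)}
    (hγ : γ ∈ Gamma1 M ∨ -γ ∈ Gamma1 M) : compSL γ (gHol M b) = gHol M b := by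
  rcases hγ with h | h
  · exact compSL_gHol_Gamma1 b h
  · rw [← compSL_neg_eq]
    exact compSL_gHol_Gamma1 b h

/-- The joint stabiliser of `j(Mτ)` and `g_1` is exactly `±Γ₁(M)` (`2 ≤ M`). -/
theorem stab_iff (M : ℕ) [NeZero M] (hM : 2 ≤ M) (γ : SL(2, ℤ)) :
    (compSL γ (jScale M) = jScale M ∧ compSL γ (gHol M 1) = gHol M 1) ↔
      (γ ∈ Gamma1 M ∨ -γ ∈ Gamma1 M) :=
  ⟨fun h => mem_pmGamma1_of_stab M hM γ h.1 h.2,
    fun h => ⟨compSL_jScale_of_pm M h, compSL_gHol_of_pm 1 h⟩⟩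

/-- **Family form** (the `hstab` / `θ_stab` shape of the consumers): if a family `φ` of
holomorphic functions contains `j(Mτ)` and `g_1`, every `γ` fixing the whole family lies in
`±Γ₁(M)`. -/
theorem mem_pmGamma1_of_family (M : ℕ) [NeZero M] (hM : 2 ≤ M) {κ : Sort*} (φ : κ → HolH)
    (i₀ i₁ : κ) (h₀ : φ i₀ = jScale M) (h₁ : φ i₁ = gHol M 1) (γ : SL(2, ℤ))
    (h : ∀ i, compSL γ (φ i) = φ i) : γ ∈ Gamma1 M ∨ -γ ∈ Gamma1 M := by
  refine mem_pmGamma1_of_stab M hM γ ?_ ?_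
  · rw [← h₀]
    exact h i₀
  · rw [← h₁]
    exact h i₁

/-! ### `±Γ₁(M)` as a subgroup -/

/-- `±Γ₁(M)` as a subgroup of `SL(2, ℤ)`. -/
def pmGamma1 (M : ℕ) : Subgroup SL(2, ℤ) where
  carrier := {γ | γ ∈ Gamma1 M ∨ -γ ∈ Gamma1 M}
  mul_mem' := by
    rintro a b (ha | ha) (hb | hb)
    · exact Or.inl (mul_mem ha hb)
    · refine Or.inr ?_
      rw [← mul_neg]
      exact mul_mem ha hb
    · refine Or.inr ?_
      rw [← neg_mul]
      exact mul_mem ha hb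
    · refine Or.inl ?_
      rw [← neg_mul_neg]
      exact mul_mem ha hb
  one_mem' := Or.inl (one_mem _)
  inv_mem' := by
    rintro a (ha | ha)
    · exact Or.inl (inv_mem ha)
    · refine Or.inr ?_
      have h : -a⁻¹ = (-a)⁻¹ := by
        refine (inv_eq_of_mul_eq_one_right ?_).symm
        rw [neg_mul_neg, mul_inv_cancel]
      rw [h]
      exact inv_mem ha

theorem mem_pmGamma1 {M : ℕ} {γ : SL(2, ℤ)} :
    γ ∈ pmGamma1 M ↔ (γ ∈ Gamma1 M ∨ -γ ∈ Gamma1 M) := Iff.rfl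

theorem Gamma1_le_pmGamma1 (M : ℕ) : Gamma1 M ≤ pmGamma1 M := fun _ h => Or.inl h

theorem neg_one_mem_pmGamma1 (M : ℕ) : (-1 : SL(2, ℤ)) ∈ pmGamma1 M := by
  refine Or.inr ?_
  rw [neg_neg]
  exact one_mem _

/-- `±Γ₁(M) = Γ₁(M) ⊔ ⟨-1⟩`. -/
theorem pmGamma1_eq_sup (M : ℕ) :
    pmGamma1 M = Gamma1 M ⊔ Subgroup.zpowers (-1 : SL(2, ℤ)) := by
  refine le_antisymm ?_ (sup_le (Gamma1_le_pmGamma1 M) ?_)
  · rintro γ (h | h)
    · exact Subgroup.mem_sup_left h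
    · have hγ : γ = -γ * (-1 : SL(2, ℤ)) := by rw [neg_mul_neg, mul_one]
      rw [hγ]
      exact Subgroup.mul_mem_sup h (Subgroup.mem_zpowers _)
  · rw [Subgroup.zpowers_le]
    exact neg_one_mem_pmGamma1 M

theorem mem_sup_zpowers_iff (M : ℕ) (γ : SL(2, ℤ)) :
    γ ∈ Gamma1 M ⊔ Subgroup.zpowers (-1 : SL(2, ℤ)) ↔ (γ ∈ Gamma1 M ∨ -γ ∈ Gamma1 M) := by
  rw [← pmGamma1_eq_sup]
  exact Iff.rfl

/-- (I2) in subgroup form: the stabiliser of `j(Mτ)` and `g_1` is contained in `±Γ₁(M)`. -/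
theorem mem_pmGamma1_subgroup_of_stab (M : ℕ) [NeZero M] (hM : 2 ≤ M) (γ : SL(2, ℤ))
    (hj : compSL γ (jScale M) = jScale M) (hg : compSL γ (gHol M 1) = gHol M 1) :
    γ ∈ pmGamma1 M :=
  mem_pmGamma1_of_stab M hM γ hj hg

/-- (I2) in the `Γ₁(M) ⊔ ⟨-1⟩` form. -/
theorem mem_sup_of_stab (M : ℕ) [NeZero M] (hM : 2 ≤ M) (γ : SL(2, ℤ))
    (hj : compSL γ (jScale M) = jScale M) (hg : compSL γ (gHol M 1) = gHol M 1) :
    γ ∈ Gamma1 M ⊔ Subgroup.zpowers (-1 : SL(2, ℤ)) :=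
  (mem_sup_zpowers_iff M γ).mpr (mem_pmGamma1_of_stab M hM γ hj hg)

/-- The `θ_stab` shape for `Γ := ±Γ₁(M)`: a family containing `j(Mτ)` and `g_1`. -/
theorem mem_pmGamma1_subgroup_of_family (M : ℕ) [NeZero M] (hM : 2 ≤ M) {κ : Sort*}
    (φ : κ → HolH) (i₀ i₁ : κ) (h₀ : φ i₀ = jScale M) (h₁ : φ i₁ = gHol M 1) (γ : SL(2, ℤ))
    (h : ∀ i, compSL γ (φ i) = φ i) : γ ∈ pmGamma1 M :=
  mem_pmGamma1_of_family M hM φ i₀ i₁ h₀ h₁ γ h

/-- Elements of `±Γ₁(M)` fix `j(dτ)` (`d ∣ M`) and every `g_b`. -/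
theorem compSL_jScale_of_mem_pmGamma1 {M d : ℕ} [NeZero d] (hd : d ∣ M) {γ : SL(2, ℤ)}
    (hγ : γ ∈ pmGamma1 M) : compSL γ (jScale d) = jScale d := by
  have key : ∀ δ : SL(2, ℤ), δ ∈ Gamma1 M → compSL δ (jScale d) = jScale d := by
    intro δ hδ
    apply Subtype.ext
    funext τ
    exact Fermat.Agent.S24.StabJ.jFun_scale_smul_of_mem_Gamma0 hd δ (Gamma1_in_Gamma0 M hδ) τ
  rcases hγ with h | h
  · exact key γ h
  · rw [← compSL_neg_eq]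
    exact key _ h

theorem compSL_gHol_of_mem_pmGamma1 {M : ℕ} (b : ZMod M) {γ : SL(2, ℤ)}
    (hγ : γ ∈ pmGamma1 M) : compSL γ (gHol M b) = gHol M b :=
  compSL_gHol_of_pm b hγ

end Fermat.Agent.S48.G1.F1.Stab1
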