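/-
PROGRAM DS (S48), part G1, AREA F, row F.2 leaf (g') (helper145): THE DEGREE OF `F1 M` OVER `ℚ̄(j)`.

Instance of the generic degree theorem `DegreeG.finite_and_finrank` at
`L := ℚ̄`, `F := F1 M`, `A := A01 M`, `θ := theta1`, `G := ±Γ₁(M) = Gamma1pm M`, for `2 ≤ M`:

* `finite_and_finrank_F1` : `F1 M` is finite over `ℚ̄(j)` of degree `[SL(2, ℤ) : ±Γ₁(M)]`
  (`= Nat.card (SL(2, ℤ) ⧸ Gamma1pm M) = (Gamma1pm M).index`), for ANY element `j : F1 M` whose
  series is `coeffEmb ℚ̄ jq` (e.g. `jF1 M`, `genJ M 1 _`, `Abs.embF (F1Q M) ℚ̄ ⟨jq, _⟩`: the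
  hypothesis is then `rfl` resp. `coe_jF1 M`);
* `transcendental_j`, `trdeg_F1`, `isAlgebraic_F1`, `exists_monic_F1`;
* `compSL_theta1_of_mem_Gamma1pm`, `mem_Gamma1pm_of_compSL_theta1` : `theta1` is invariant under
  `±Γ₁(M)` and its joint stabiliser in `SL(2, ℤ)` is exactly `±Γ₁(M)` (the `θ_inv` / `θ_stab`
  shapes of `PlaceFinGen.ThetaDataG`), for an arbitrary embedding `ι : ℚ̄ →+* ℂ`.

Inputs (all landed): `Theta1` (helper259), `GHol` (helper142/helper1), `GrowthG` (helper205),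
`Stab1` (helper1), `Gamma1pm` (helper86), `CosetG` (helper15).
-/
import Mathlib
import Fermat.Agent.S48.G1.F1.DegreeG
import Fermat.Agent.S48.G1.F1.GrowthG
import Fermat.Agent.S48.G1.F1.Stab1
import Fermat.Agent.S48.G1.F1.Gamma1pm

set_option autoImplicit false
set_option linter.dupNamespace false
set_option linter.style.haveILetI false

noncomputable section

open UpperHalfPlane ModularCurve CongruenceSubgroup IntermediateField
open scoped MatrixGroups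

namespace Fermat.Agent.S48.G1.F1.Degree1

open Fermat.Agent.S24.HolH Fermat.Agent.S24.Theta Fermat.Agent.S24.Degree
open Fermat.Agent.S48.G1.F1 Fermat.Agent.S48.G1.F1.Theta1

/-! ### Invariance and stabiliser of `theta1` -/

section Stab

variable (ι : Qb →+* ℂ) {M : ℕ}

/-- `theta1` is invariant under `±Γ₁(M)`. -/
theorem compSL_theta1_of_mem_Gamma1pm (hM : 2 ≤ M) {γ : SL(2, ℤ)} (hγ : γ ∈ Gamma1pm M)
    (x : A01 M) : compSL γ (theta1 ι M hM x) = theta1 ι M hM x := by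
  rcases hγ with h | h
  · exact compSL_theta1_of_mem_Gamma1 hM h x
  · rw [← Stab1.compSL_neg_eq]
    exact compSL_theta1_of_mem_Gamma1 hM h x

/-- An element of `SL(2, ℤ)` fixing all the `theta1 x` lies in `±Γ₁(M)`. -/
theorem mem_Gamma1pm_of_compSL_theta1 (hM : 2 ≤ M) (γ : SL(2, ℤ))
    (h : ∀ x : A01 M, compSL γ (theta1 ι M hM x) = theta1 ι M hM x) : γ ∈ Gamma1pm M := by
  haveI : NeZero M := ⟨by omega⟩
  have h1 : theta1 ι M hM (genG M 1) = GHol.gHol M 1 := by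
    rw [theta1_genG, Units.val_one]
  exact Stab1.mem_pmGamma1_of_family M hM (fun x : A01 M => theta1 ι M hM x)
    (genJ M M dvd_rfl) (genG M 1) (theta1_genJ hM M dvd_rfl) h1 γ h

/-- The joint stabiliser of `theta1` is exactly `±Γ₁(M)`. -/
theorem mem_Gamma1pm_iff_compSL_theta1 (hM : 2 ≤ M) (γ : SL(2, ℤ)) :
    γ ∈ Gamma1pm M ↔ ∀ x : A01 M, compSL γ (theta1 ι M hM x) = theta1 ι M hM x :=
  ⟨fun hγ x => compSL_theta1_of_mem_Gamma1pm ι hM hγ x, mem_Gamma1pm_of_compSL_theta1 ι hM γ⟩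

end Stab

/-! ### The element `j` -/

/-- The element `j` of `A01 M`. -/
def jA01 (M : ℕ) : A01 M := genJ M 1 (one_dvd M)

theorem coe_jA01 (M : ℕ) :
    (((jA01 M : A01 M) : F1 M) : LaurentSeries Qb) = coeffEmb Qb jq := by
  show coeffEmb Qb (qExpand ℚ 1 jq) = coeffEmb Qb jq
  rw [qExpand_one_apply]

/-- The element `j` of `F1 M`. -/
def jF1 (M : ℕ) : F1 M := ((jA01 M : A01 M) : F1 M)

theorem coe_jF1 (M : ℕ) : ((jF1 M : F1 M) : LaurentSeries Qb) = coeffEmb Qb jq := coe_jA01 M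

theorem jF1_eq (M : ℕ) : jF1 M = ((jA01 M : A01 M) : F1 M) := rfl

/-- Any element of `F1 M` with series `j(q)` is `jF1 M`. -/
theorem eq_jF1 {M : ℕ} {j : F1 M} (hj : (j : LaurentSeries Qb) = coeffEmb Qb jq) : j = jF1 M :=
  Subtype.ext (hj.trans (coe_jF1 M).symm)

/-- `j` is transcendental over `ℚ̄` (every `M`). -/
theorem transcendental_j {M : ℕ} (j : F1 M) (hj : (j : LaurentSeries Qb) = coeffEmb Qb jq) :
    Transcendental Qb j := by
  obtain rfl := eq_jF1 hj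
  exact DegreeG.transcendental_J (A01 M) (jA01 M) (coe_jA01 M)

/-! ### The degree -/

section Degree

variable {M : ℕ}

/-- **Upper bound, elementwise**: every element of `F1 M` is a root of a monic polynomial of
degree `[SL(2, ℤ) : ±Γ₁(M)]` over `ℚ̄(j)`. -/
theorem exists_monic_F1 (hM : 2 ≤ M) (j : F1 M) (hj : (j : LaurentSeries Qb) = coeffEmb Qb jq)
    (f : F1 M) :
    ∃ Q : Polynomial Qb⟮j⟯, Q.Monic ∧ Q.natDegree = Nat.card (SL(2, ℤ) ⧸ Gamma1pm M) ∧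
      Polynomial.aeval f Q = 0 := by
  haveI : NeZero M := ⟨by omega⟩
  obtain rfl := eq_jF1 hj
  exact DegreeG.exists_monic_natCard iotaBar (A01 M) (theta1 iotaBar M hM) (Gamma1pm M) (jA01 M)
    (coe_jA01 M) (fun a => hasQ_theta1 hM a)
    (fun γ hγ a => compSL_theta1_of_mem_Gamma1pm iotaBar hM hγ a)
    (fun a => GrowthG.theta1_mem_cuspMod iotaBar hM a) f

/-- **The degree of `F1 M` over `ℚ̄(j)`** is `[SL(2, ℤ) : ±Γ₁(M)]` (`2 ≤ M`). -/
theorem finite_and_finrank_F1 (hM : 2 ≤ M) (j : F1 M)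
    (hj : (j : LaurentSeries Qb) = coeffEmb Qb jq) :
    Module.Finite Qb⟮j⟯ (F1 M) ∧
      Module.finrank Qb⟮j⟯ (F1 M) = Nat.card (SL(2, ℤ) ⧸ Gamma1pm M) := by
  haveI : NeZero M := ⟨by omega⟩
  obtain rfl := eq_jF1 hj
  exact DegreeG.finite_and_finrank iotaBar (A01 M) (theta1 iotaBar M hM) (Gamma1pm M) (jA01 M)
    (coe_jA01 M) (fun a => hasQ_theta1 hM a)
    (fun γ hγ a => compSL_theta1_of_mem_Gamma1pm iotaBar hM hγ a)
    (mem_Gamma1pm_of_compSL_theta1 iotaBar hM)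
    (fun a => GrowthG.theta1_mem_cuspMod iotaBar hM a)

theorem finite_F1 (hM : 2 ≤ M) (j : F1 M) (hj : (j : LaurentSeries Qb) = coeffEmb Qb jq) :
    Module.Finite Qb⟮j⟯ (F1 M) := (finite_and_finrank_F1 hM j hj).1

theorem finrank_F1 (hM : 2 ≤ M) (j : F1 M) (hj : (j : LaurentSeries Qb) = coeffEmb Qb jq) :
    Module.finrank Qb⟮j⟯ (F1 M) = Nat.card (SL(2, ℤ) ⧸ Gamma1pm M) :=
  (finite_and_finrank_F1 hM j hj).2

/-- The degree as an index. -/
theorem finrank_F1_eq_index (hM : 2 ≤ M) (j : F1 M)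
    (hj : (j : LaurentSeries Qb) = coeffEmb Qb jq) :
    Module.finrank Qb⟮j⟯ (F1 M) = (Gamma1pm M).index :=
  finrank_F1 hM j hj

/-- `F1 M` is algebraic over `ℚ̄(j)`. -/
theorem isAlgebraic_F1 (hM : 2 ≤ M) (j : F1 M) (hj : (j : LaurentSeries Qb) = coeffEmb Qb jq) :
    Algebra.IsAlgebraic Qb⟮j⟯ (F1 M) := by
  haveI : Module.Finite Qb⟮j⟯ (F1 M) := finite_F1 hM j hj
  exact Algebra.IsAlgebraic.of_finite _ _

/-- `F1 M` has transcendence degree one over `ℚ̄`. -/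
theorem trdeg_F1 (hM : 2 ≤ M) : Algebra.trdeg Qb (F1 M) = 1 := by
  haveI : Algebra.IsAlgebraic Qb⟮jF1 M⟯ (F1 M) := isAlgebraic_F1 hM (jF1 M) (coe_jF1 M)
  exact Fermat.Agent.S24.DegreeAbs.trdeg_eq_one (jF1 M) (transcendental_j (jF1 M) (coe_jF1 M))

end Degree

end Fermat.Agent.S48.G1.F1.Degree1

end
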