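import Fermat.Agent.S48.G1.F1.InterpG
import Fermat.Agent.S48.G1.F1.Degree1

set_option autoImplicit false
set_option linter.dupNamespace false

/-!
# PROGRAM DS (S48) / G1 / F.2 (I4): invariant ⇒ member of `F1 M`

`mem_F1_of_invariant`: a `q`-series `f ∈ ℚ̄((q))` which is the `q`-expansion of a holomorphic
function on `ℍ`, invariant under `Γ₁(M)` and of moderate growth at all cusps
(`S24.Degree.cuspMod`), lies in the function field `F1 M` (`2 ≤ M`).

No expansion at any cusp other than `∞` is used: instance of the generic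
`CosetG.mem_of_invariant` (Lagrange interpolation over `SL(2,ℤ) ⧸ ±Γ₁(M)` + retraction descent)
at `θ := theta1`, with the separating element `j(q^M) + c · g_1`.
-/

noncomputable section

open UpperHalfPlane ModularCurve CongruenceSubgroup IntermediateField
open scoped MatrixGroups

namespace Fermat.Agent.S48.G1.F1.Invariant1

open Fermat.Agent.S24.HolH Fermat.Agent.S24.Theta Fermat.Agent.S24.Degree
open Fermat.Agent.S48.G1.F1 Fermat.Agent.S48.G1.F1.Theta1 Fermat.Agent.S48.G1.CosetG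

variable (ι : Qb →+* ℂ) {M : ℕ}

/-- the `q`-expansion map of `A01 M`, as a ring hom into `ℚ̄((q))`. -/
def qA01 (M : ℕ) : A01 M →+* LaurentSeries Qb :=
  ((F1 M).val : F1 M →+* LaurentSeries Qb).comp ((A01 M).val : A01 M →+* F1 M)

theorem qA01_apply (x : A01 M) : qA01 M x = ((x : F1 M) : LaurentSeries Qb) := rfl

theorem qA01_mem (x : A01 M) : qA01 M x ∈ F1 M := (x : F1 M).2

/-- the avatar of `j`. -/
theorem theta1_jA01 (hM : 2 ≤ M) : theta1 ι M hM (Degree1.jA01 M) = Fermat.Agent.S24.JHol.jHol := by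
  refine theta1_eq_of_hasQ (ι := ι) hM ?_
  show HasQ ι (((Degree1.jA01 M : A01 M) : F1 M) : LaurentSeries Qb)
    (Fermat.Agent.S24.JHol.jHol : ℍ → ℂ)
  rw [Degree1.coe_jA01]
  have h := hasQ_coeffEmb_qExpand_jq (K := Qb) ι 1
  rw [qExpand_one_apply] at h
  have h2 : (fun τ : ℍ => Fermat.Agent.S24.JFun.jFun (Fermat.Agent.S24.StabAbs.scaleH 1 τ))
      = (Fermat.Agent.S24.JHol.jHol : ℍ → ℂ) := by
    funext τ
    have h3 : Fermat.Agent.S24.StabAbs.scaleH 1 τ = τ := by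
      apply UpperHalfPlane.ext
      rw [Fermat.Agent.S24.StabAbs.coe_scaleH]
      simp
    rw [h3]
    rfl
  rw [← h2]
  exact h

/-- `j(q)` is transcendental over `ℚ̄` in `ℚ̄((q))`. -/
theorem transcendental_qA01_j (M : ℕ) : Transcendental Qb (qA01 M (Degree1.jA01 M)) := by
  have h := Degree1.transcendental_j (Degree1.jF1 M) (Degree1.coe_jF1 M)
  intro halg
  apply h
  exact (isAlgebraic_algHom_iff (F1 M).val Subtype.val_injective).mp halg

/-- a separating element of `A01 M`: some `j(q^M) + c · g_1`. -/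
theorem exists_separating1 (hM : 2 ≤ M) :
    ∃ t : A01 M, Function.Injective fun x : SL(2, ℤ) ⧸ Gamma1pm M =>
      cosetHomG (Gamma1pm M) (theta1 ι M hM) x t := by
  have : NeZero M := ⟨by omega⟩
  obtain ⟨c, hc⟩ := exists_separating (Γ := Gamma1pm M) (theta1 ι M hM)
    (fun γ hγ a => Degree1.compSL_theta1_of_mem_Gamma1pm ι hM hγ a)
    (genJ M M dvd_rfl) (genG M 1) (fun g hj hg => by
      rw [theta1_genJ] at hj
      rw [theta1_genG, Units.val_one] at hg
      exact Stab1.mem_pmGamma1_of_stab M hM g hj hg)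
  exact ⟨_, hc⟩

/-- **(I4), `±Γ₁(M)` form.** -/
theorem mem_F1_of_invariant_pm (hM : 2 ≤ M) (f : LaurentSeries Qb) (φ : HolH)
    (hf : HasQ ι f (φ : ℍ → ℂ)) (hinv : ∀ γ ∈ Gamma1pm M, compSL γ φ = φ)
    (hmod : φ ∈ cuspMod) : f ∈ F1 M := by
  have : NeZero M := ⟨by omega⟩
  obtain ⟨t, ht⟩ := exists_separating1 ι hM
  exact mem_of_invariant (Γ := Gamma1pm M) ι (theta1 ι M hM) (qA01 M)
    (fun a => hasQ_theta1 hM a)
    (fun γ hγ a => Degree1.compSL_theta1_of_mem_Gamma1pm ι hM hγ a)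
    (Degree1.jA01 M) t (theta1_jA01 ι hM) (transcendental_qA01_j M) ht
    (GrowthG.theta1_mem_cuspMod ι hM t) (F1 M).toSubfield (fun a => qA01_mem a)
    (fun c => (F1 M).algebraMap_mem c) f φ hf hinv hmod

/-- **(I4): invariant ⇒ member.**  A `q`-series over `ℚ̄` which is the `q`-expansion of a
holomorphic `Γ₁(M)`-invariant function of moderate growth at all cusps lies in `F1 M`. -/
theorem mem_F1_of_invariant (hM : 2 ≤ M) (f : LaurentSeries Qb) (φ : HolH)
    (hf : HasQ ι f (φ : ℍ → ℂ)) (hinv : ∀ γ ∈ Gamma1 M, compSL γ φ = φ)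
    (hmod : φ ∈ cuspMod) : f ∈ F1 M := by
  refine mem_F1_of_invariant_pm ι hM f φ hf (fun γ hγ => ?_) hmod
  rcases hγ with h | h
  · exact hinv γ h
  · rw [← Stab1.compSL_neg_eq]
    exact hinv _ h

/-- existence form (the `hmem` binder of `InjModel.inj_of_model`). -/
theorem exists_F1_of_invariant (hM : 2 ≤ M) (f : LaurentSeries Qb) (φ : HolH)
    (hf : HasQ ι f (φ : ℍ → ℂ)) (hinv : ∀ γ : SL(2, ℤ), γ ∈ Gamma1 M → compSL γ φ = φ)
    (hmod : φ ∈ cuspMod) : ∃ y : F1 M, (y : LaurentSeries Qb) = f :=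
  ⟨⟨f, mem_F1_of_invariant ι hM f φ hf hinv hmod⟩, rfl⟩

/-- relation form: `f · D(j) = ∑_{k < n} P_k(j) t^k` in `ℚ̄((q))` with `D ≠ 0`. -/
theorem exists_rational1 (hM : 2 ≤ M) (f : LaurentSeries Qb) (φ : HolH)
    (hf : HasQ ι f (φ : ℍ → ℂ)) (hinv : ∀ γ ∈ Gamma1pm M, compSL γ φ = φ)
    (hmod : φ ∈ cuspMod) :
    ∃ (t : A01 M) (D : Polynomial Qb) (P : ℕ → Polynomial Qb), D ≠ 0 ∧
      f * Polynomial.aeval (coeffEmb Qb jq) D
        = ∑ k ∈ Finset.range (Nat.card (SL(2, ℤ) ⧸ Gamma1pm M)),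
            Polynomial.aeval (coeffEmb Qb jq) (P k) * ((t : F1 M) : LaurentSeries Qb) ^ k := by
  have : NeZero M := ⟨by omega⟩
  obtain ⟨t, ht⟩ := exists_separating1 ι hM
  obtain ⟨D, P, hD, h⟩ := exists_rational_of_invariant (Γ := Gamma1pm M) ι (theta1 ι M hM)
    (qA01 M) (fun a => hasQ_theta1 hM a)
    (fun γ hγ a => Degree1.compSL_theta1_of_mem_Gamma1pm ι hM hγ a)
    (Degree1.jA01 M) t (theta1_jA01 ι hM) ht (GrowthG.theta1_mem_cuspMod ι hM t) f φ hf hinv hmod
  refine ⟨t, D, P, hD, ?_⟩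
  have hj : qA01 M (Degree1.jA01 M) = coeffEmb Qb jq := Degree1.coe_jA01 M
  rw [hj] at h
  exact h

end Fermat.Agent.S48.G1.F1.Invariant1

end
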