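/-
PROGRAM DS (S48), part G1, AREA F, row F.2 leaf (e) (helper83): FINITENESS, DEGREE, TRANSCENDENCE
DEGREE AND FINITE GENERATION OF THE FUNCTION FIELD `F1(M)_E` OVER `E(j)`, FOR EVERY FIELD `E` OF
CHARACTERISTIC ZERO, from ONE statement over `ℂ` (or over any other constant field).

* `finite_and_finrank_le_of_monic` : (algebra) a finitely generated field extension in
  characteristic zero all of whose elements are roots of monic polynomials of degree `≤ D` is
  finite of degree `≤ D`.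
* `exists_monic_lift` : a monic relation over `k(J)` read inside the big field `Ω` is a monic
  relation over `k(J)` read inside an intermediate field `L ∋ J`.
* `finite_and_finrank_transfer` : (base change of constants, on top of `S30.E2.Degree.Abs`)
  if `F₀ ⊗ E₀` is finite over `E₀(j₀)` for ONE field `E₀ ⊇ ℚ`, then `F₀ ⊗ E` is finite over
  `E(j₀)` of the same degree for EVERY field `E ⊇ ℚ`.
* `finite_and_finrank_le_C` : for `F₀ = ℚ(S₀)`, `S₀` finite: the `ℂ`-level hypothesis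
  "every element of `ℂ(S₀)` is a root of a monic polynomial of degree `≤ D` over `ℂ(j₀)`"
  gives finiteness and the degree bound over `ℂ`.
* the instance `F₀ = F1Q M` (`S₀ = gens1Q M`, `j₀ = j`):
  - UNCONDITIONAL: `gens1Q_finite`, `essFiniteType_F1E` (instance), `transcendental_jF1E`;
  - from `MonicC M D` (the `ℂ`-level relation): `finite_F1E`, `finrank_F1E_le`, `finrank_F1E_eq`,
    `isAlgebraic_F1E`, `trdeg_F1E`, and the `ℚ̄`-forms `finite_F1`, `finrank_F1_le`, `trdeg_F1`;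
  - from finiteness over ANY one constant field: `finite_F1E_of_finite`, `trdeg_F1E_of_finite`.
-/
import Mathlib
import Fermat.Agent.S48.G1.F1.Defs
import Fermat.Agent.S30.E2.Degree

set_option autoImplicit false
set_option linter.style.haveILetI false

noncomputable section

open ModularCurve IntermediateField HahnSeries

namespace Fermat.Agent.S48.G1.FieldFin

open Fermat.Agent.S30.E2.Degree Fermat.Agent.S48.G1.F1

/-! ### Generic algebra -/

section Alg

/-- A finitely generated field extension in characteristic zero, all of whose elements are roots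
of monic polynomials of degree `≤ D`, is finite of degree `≤ D`. -/
theorem finite_and_finrank_le_of_monic {K F : Type*} [Field K] [Field F] [Algebra K F]
    [CharZero K] (S : Set F) (hSfin : S.Finite) (hS : IntermediateField.adjoin K S = ⊤) (D : ℕ)
    (h : ∀ a : F, ∃ p : Polynomial K, p.Monic ∧ p.natDegree ≤ D ∧ Polynomial.aeval a p = 0) :
    Module.Finite K F ∧ Module.finrank K F ≤ D := by
  have hint : ∀ a : F, IsIntegral K a := fun a => by
    obtain ⟨p, hp, -, hpa⟩ := h a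
    exact ⟨p, hp, hpa⟩
  have : Finite S := hSfin.to_subtype
  have hfin' : FiniteDimensional K (IntermediateField.adjoin K S) :=
    IntermediateField.finiteDimensional_adjoin fun x _ => hint x
  have hfin : Module.Finite K F := by
    rw [hS] at hfin'
    exact Module.Finite.equiv (IntermediateField.topEquiv (F := K) (E := F)).toLinearEquiv
  refine ⟨hfin, ?_⟩
  obtain ⟨α, hα⟩ := Field.exists_primitive_element K F
  obtain ⟨p, hp, hpn, hpa⟩ := h α
  have h1 : Module.finrank K F = (minpoly K α).natDegree := by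
    rw [← IntermediateField.adjoin.finrank (hint α), hα, IntermediateField.finrank_top']
  rw [h1]
  exact (Polynomial.natDegree_le_natDegree (minpoly.min K α hp hpa)).trans hpn

variable {k Ω : Type*} [Field k] [Field Ω] [Algebra k Ω]

/-- `k(J)` formed inside `Ω` is contained in any intermediate field `L ∋ J`. -/
theorem adjoin_coe_le (L : IntermediateField k Ω) (J : L) : k⟮(J : Ω)⟯ ≤ L := by
  rw [IntermediateField.adjoin_le_iff, Set.singleton_subset_iff]
  exact J.2

/-- Elements of `k(J)` formed inside `Ω` come from `k(J)` formed inside `L`. -/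
theorem exists_mem_adjoin_of_coe (L : IntermediateField k Ω) (J : L) {x : Ω}
    (hx : x ∈ k⟮(J : Ω)⟯) : ∃ y : k⟮J⟯, ((y : L) : Ω) = x := by
  have h1 : (k⟮J⟯ : IntermediateField k L).map L.val = k⟮(J : Ω)⟯ := by
    rw [IntermediateField.adjoin_map, Set.image_singleton]
    rfl
  rw [← h1] at hx
  obtain ⟨y, hy, rfl⟩ := hx
  exact ⟨⟨y, hy⟩, rfl⟩

/-- The identification `k(J) ⊆ Ω → k(J) ⊆ L`, as a ring homomorphism. -/
def liftHom (L : IntermediateField k Ω) (J : L) : ↥(k⟮(J : Ω)⟯) →+* ↥(k⟮J⟯) :=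
  ((IntermediateField.inclusion (adjoin_coe_le L J)).toRingHom).codRestrict (k⟮J⟯) fun x => by
    obtain ⟨y, hy⟩ := exists_mem_adjoin_of_coe L J x.2
    have h2 : (IntermediateField.inclusion (adjoin_coe_le L J)).toRingHom x = (y : L) :=
      Subtype.ext hy.symm
    rw [h2]
    exact y.2

theorem coe_liftHom (L : IntermediateField k Ω) (J : L) (x : ↥(k⟮(J : Ω)⟯)) :
    (((liftHom L J x : ↥(k⟮J⟯)) : L) : Ω) = (x : Ω) := rfl

/-- A monic relation over `k(J)` read in `Ω` is a monic relation over `k(J)` read in `L`. -/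
theorem exists_monic_lift (L : IntermediateField k Ω) (J z : L)
    (p : Polynomial ↥(k⟮(J : Ω)⟯)) (hp : p.Monic) (hz : Polynomial.aeval (z : Ω) p = 0) :
    ∃ p' : Polynomial ↥(k⟮J⟯), p'.Monic ∧ p'.natDegree = p.natDegree ∧
      Polynomial.aeval z p' = 0 := by
  refine ⟨p.map (liftHom L J), hp.map _, hp.natDegree_map _, ?_⟩
  apply Subtype.val_injective
  have h1 : ((L.val : L →+* Ω).comp ((algebraMap ↥(k⟮J⟯) L).comp (liftHom L J)))
      = algebraMap ↥(k⟮(J : Ω)⟯) Ω := RingHom.ext fun x => rfl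
  have h2 : ((Polynomial.aeval z (p.map (liftHom L J)) : L) : Ω)
      = (L.val : L →+* Ω) (Polynomial.eval₂ ((algebraMap ↥(k⟮J⟯) L).comp (liftHom L J)) z p) := by
    rw [Polynomial.aeval_def, Polynomial.eval₂_map]
    rfl
  rw [h2, Polynomial.hom_eval₂, h1]
  exact hz

end Alg

/-! ### Base change of constants: from one constant field to every constant field -/

section Transfer

variable (F₀ : IntermediateField ℚ (LaurentSeries ℚ)) (j₀ : F₀)

/-- Up from `ℚ̄`, down to `E`. -/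
theorem finite_and_finrank_of_bar (E : Type*) [Field E] [Algebra ℚ E]
    [Module.Finite Qb⟮Abs.embF F₀ Qb j₀⟯ (laurentBaseChange Qb F₀)] :
    Module.Finite E⟮Abs.embF F₀ E j₀⟯ (laurentBaseChange E F₀) ∧
      Module.finrank E⟮Abs.embF F₀ E j₀⟯ (laurentBaseChange E F₀)
        = Module.finrank Qb⟮Abs.embF F₀ Qb j₀⟯ (laurentBaseChange Qb F₀) := by
  have hc0 : CharZero E := algebraRat.charZero E
  have halg : Algebra.IsAlgebraic ℚ Qb := AlgebraicClosure.isAlgebraic ℚ
  let f : Qb →ₐ[ℚ] AlgebraicClosure E := IsAlgClosed.lift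
  letI : Algebra Qb (AlgebraicClosure E) := f.toRingHom.toAlgebra
  obtain ⟨h1, h2⟩ := Abs.finite_and_finrank_baseChange_up F₀ Qb (AlgebraicClosure E) j₀
  haveI := h1
  obtain ⟨h3, h4⟩ := Abs.finite_and_finrank_baseChange_down F₀ E (AlgebraicClosure E) j₀
  exact ⟨h3, h4.trans h2⟩

/-- Up from `E₀`, down to `ℚ̄`. -/
theorem finite_and_finrank_bar_of (E₀ : Type*) [Field E₀] [Algebra ℚ E₀]
    [Module.Finite E₀⟮Abs.embF F₀ E₀ j₀⟯ (laurentBaseChange E₀ F₀)] :
    Module.Finite Qb⟮Abs.embF F₀ Qb j₀⟯ (laurentBaseChange Qb F₀) ∧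
      Module.finrank Qb⟮Abs.embF F₀ Qb j₀⟯ (laurentBaseChange Qb F₀)
        = Module.finrank E₀⟮Abs.embF F₀ E₀ j₀⟯ (laurentBaseChange E₀ F₀) := by
  have hc0 : CharZero E₀ := algebraRat.charZero E₀
  have halg : Algebra.IsAlgebraic ℚ Qb := AlgebraicClosure.isAlgebraic ℚ
  let f : Qb →ₐ[ℚ] AlgebraicClosure E₀ := IsAlgClosed.lift
  letI : Algebra Qb (AlgebraicClosure E₀) := f.toRingHom.toAlgebra
  obtain ⟨h1, h2⟩ := Abs.finite_and_finrank_baseChange_up F₀ E₀ (AlgebraicClosure E₀) j₀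
  haveI := h1
  obtain ⟨h3, h4⟩ := Abs.finite_and_finrank_baseChange_down F₀ Qb (AlgebraicClosure E₀) j₀
  exact ⟨h3, h4.trans h2⟩

/-- **Base change of constants.**  If `F₀ ⊗ E₀` is finite over `E₀(j₀)` for one field
`E₀ ⊇ ℚ`, then `F₀ ⊗ E` is finite over `E(j₀)`, of the same degree, for every field `E ⊇ ℚ`. -/
theorem finite_and_finrank_transfer (E₀ E : Type*) [Field E₀] [Algebra ℚ E₀] [Field E]
    [Algebra ℚ E] [Module.Finite E₀⟮Abs.embF F₀ E₀ j₀⟯ (laurentBaseChange E₀ F₀)] :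
    Module.Finite E⟮Abs.embF F₀ E j₀⟯ (laurentBaseChange E F₀) ∧
      Module.finrank E⟮Abs.embF F₀ E j₀⟯ (laurentBaseChange E F₀)
        = Module.finrank E₀⟮Abs.embF F₀ E₀ j₀⟯ (laurentBaseChange E₀ F₀) := by
  obtain ⟨h1, h2⟩ := finite_and_finrank_bar_of F₀ j₀ E₀
  haveI := h1
  obtain ⟨h3, h4⟩ := finite_and_finrank_of_bar F₀ j₀ E
  exact ⟨h3, h4.trans h2⟩

end Transfer

/-! ### Finitely generated `F₀`: the `ℂ`-level relation gives finiteness -/

section Generic

variable (S₀ : Set (LaurentSeries ℚ))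

/-- The generators, inside the base-changed field. -/
def genSet (E : Type*) [Field E] [Algebra ℚ E] :
    Set ↥(laurentBaseChange E (IntermediateField.adjoin ℚ S₀)) :=
  {x | (x : LaurentSeries E) ∈ ⇑(coeffEmb E) '' S₀}

theorem genSet_finite (hS₀ : S₀.Finite) (E : Type*) [Field E] [Algebra ℚ E] :
    (genSet S₀ E).Finite :=
  Set.Finite.preimage Subtype.val_injective.injOn (hS₀.image _)

theorem adjoin_genSet_eq_top (E : Type*) [Field E] [Algebra ℚ E] :
    IntermediateField.adjoin E (genSet S₀ E) = ⊤ := by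
  rw [eq_top_iff]
  rintro ⟨w, hw⟩ -
  have h1 : laurentBaseChange E (IntermediateField.adjoin ℚ S₀)
      ≤ IntermediateField.lift (IntermediateField.adjoin E (genSet S₀ E)) := by
    refine (Fermat.Agent.S24.DegreeGen.laurentBaseChange_adjoin E S₀).le.trans ?_
    refine IntermediateField.adjoin_le_iff.mpr ?_
    rintro _ ⟨x0, hx0, rfl⟩
    have hmem : coeffEmb E x0 ∈ laurentBaseChange E (IntermediateField.adjoin ℚ S₀) :=
      coeffEmb_mem_laurentBaseChange E (IntermediateField.subset_adjoin ℚ S₀ hx0)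
    have h2 : (⟨coeffEmb E x0, hmem⟩ : ↥(laurentBaseChange E (IntermediateField.adjoin ℚ S₀)))
        ∈ IntermediateField.adjoin E (genSet S₀ E) :=
      IntermediateField.subset_adjoin _ _ ⟨x0, hx0, rfl⟩
    exact (IntermediateField.mem_lift
      (⟨coeffEmb E x0, hmem⟩ : ↥(laurentBaseChange E (IntermediateField.adjoin ℚ S₀)))).mpr h2
  exact (IntermediateField.mem_lift
    (⟨w, hw⟩ : ↥(laurentBaseChange E (IntermediateField.adjoin ℚ S₀)))).mp (h1 hw)

/-- `F₀ ⊗ E` is a finitely generated field over `E`. -/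
theorem essFiniteType_of_finite (hS₀ : S₀.Finite) (E : Type*) [Field E] [Algebra ℚ E] :
    Algebra.EssFiniteType E ↥(laurentBaseChange E (IntermediateField.adjoin ℚ S₀)) := by
  refine IntermediateField.essFiniteType_iff.mpr ?_
  rw [Fermat.Agent.S24.DegreeGen.laurentBaseChange_adjoin]
  have h := IntermediateField.fg_adjoin_finset (F := E) (hS₀.image ⇑(coeffEmb E)).toFinset
  simpa using h

/-- **The `ℂ`-level relation gives finiteness and the degree bound over `ℂ`.** -/
theorem finite_and_finrank_le_C (hS₀ : S₀.Finite) (j₀ : ↥(IntermediateField.adjoin ℚ S₀))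
    (D : ℕ)
    (hfin : ∀ z ∈ IntermediateField.adjoin ℂ (⇑(coeffEmb ℂ) '' S₀),
      ∃ p : Polynomial ↥(ℂ⟮coeffEmb ℂ (j₀ : LaurentSeries ℚ)⟯),
        p.Monic ∧ p.natDegree ≤ D ∧ Polynomial.aeval z p = 0) :
    Module.Finite ℂ⟮Abs.embF (IntermediateField.adjoin ℚ S₀) ℂ j₀⟯
        (laurentBaseChange ℂ (IntermediateField.adjoin ℚ S₀)) ∧
      Module.finrank ℂ⟮Abs.embF (IntermediateField.adjoin ℚ S₀) ℂ j₀⟯
        (laurentBaseChange ℂ (IntermediateField.adjoin ℚ S₀)) ≤ D := by
  refine finite_and_finrank_le_of_monic (genSet S₀ ℂ) (genSet_finite S₀ hS₀ ℂ)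
    (Fermat.Agent.S24.DegreeAbs.adjoin_simple_adjoin_eq_top _ _ (adjoin_genSet_eq_top S₀ ℂ)) D ?_
  intro a
  have ha : (a : LaurentSeries ℂ) ∈ IntermediateField.adjoin ℂ (⇑(coeffEmb ℂ) '' S₀) := by
    rw [← Fermat.Agent.S24.DegreeGen.laurentBaseChange_adjoin]
    exact a.2
  obtain ⟨p, hp, hpn, hpa⟩ := hfin a ha
  obtain ⟨p', hp', hpn', hpa'⟩ := exists_monic_lift
    (laurentBaseChange ℂ (IntermediateField.adjoin ℚ S₀))
    (Abs.embF (IntermediateField.adjoin ℚ S₀) ℂ j₀) a p hp hpa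
  exact ⟨p', hp', hpn' ▸ hpn, hpa'⟩

end Generic

/-! ### The instance: the function field of `Γ₁(M)` -/

section Inst

/-- `j`, as an element of `F1Q M`. -/
def jQ1 (M : ℕ) : F1Q M :=
  ⟨jq, by have h := jqd_mem_F1Q M (one_dvd M); rwa [qExpand_one_apply] at h⟩

@[simp] theorem coe_jQ1 (M : ℕ) : ((jQ1 M : F1Q M) : LaurentSeries ℚ) = jq := rfl

/-- `j`, as an element of the function field of `Γ₁(M)` with constant field `E`. -/
abbrev jF1E (M : ℕ) (E : Type*) [Field E] [Algebra ℚ E] : laurentBaseChange E (F1Q M) :=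
  Abs.embF (F1Q M) E (jQ1 M)

@[simp] theorem coe_jF1E (M : ℕ) (E : Type*) [Field E] [Algebra ℚ E] :
    ((jF1E M E : laurentBaseChange E (F1Q M)) : LaurentSeries E) = coeffEmb E jq := rfl

/-- `j ∈ F1 M` (coe `= coeffEmb ℚ̄ jq`). -/
abbrev jF1 (M : ℕ) : F1 M := jF1E M Qb

theorem coe_jF1 (M : ℕ) : ((jF1 M : F1 M) : LaurentSeries Qb) = coeffEmb Qb jq := rfl

/-- `j` is transcendental over the constants (unconditional). -/
theorem transcendental_jF1E (M : ℕ) (E : Type*) [Field E] [Algebra ℚ E] :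
    Transcendental E (jF1E M E) := by
  have hc0 : CharZero E := algebraRat.charZero E
  refine Abs.transcendental_embF_down (F1Q M) E (AlgebraicClosure E) (jQ1 M) ?_
  refine Fermat.Agent.S24.FF.transcendental_of_not_mem_range ?_
  rintro ⟨c, hc⟩
  apply Fermat.Agent.S24.DegreeGen.coeffEmb_jq_not_mem_range (AlgebraicClosure E)
  exact ⟨c, congrArg Subtype.val hc⟩

theorem transcendental_jF1 (M : ℕ) : Transcendental Qb (jF1 M) :=
  transcendental_jF1E M Qb

theorem eisExpansions_eq_range (M : ℕ) :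
    eisExpansions M = Set.range fun b : (ZMod M)ˣ => gq M (b : ZMod M) := by
  ext x
  constructor
  · rintro ⟨b, rfl⟩
    exact ⟨b, rfl⟩
  · rintro ⟨b, rfl⟩
    exact ⟨b, rfl⟩

/-- The generating set of `F1Q M` is finite. -/
theorem gens1Q_finite (M : ℕ) [NeZero M] : (gens1Q M).Finite := by
  refine (Fermat.Agent.S24.DegreeGen.divisorExpansions_finite M).union ?_
  rw [eisExpansions_eq_range]
  exact Set.finite_range _

/-- `F1(M)_E` is a finitely generated field over `E` (unconditional). -/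
instance essFiniteType_F1E (M : ℕ) [NeZero M] (E : Type*) [Field E] [Algebra ℚ E] :
    Algebra.EssFiniteType E ↥(laurentBaseChange E (F1Q M)) :=
  essFiniteType_of_finite (gens1Q M) (gens1Q_finite M) E

theorem essFiniteType_F1 (M : ℕ) [NeZero M] : Algebra.EssFiniteType Qb ↥(F1 M) :=
  essFiniteType_F1E M Qb

/-- **The `ℂ`-level input**: every element of `ℂ(gens1Q M)` is a root of a monic polynomial of
degree `≤ D` over `ℂ(j)`.  (With `hS : adjoin ℂ (coeffEmb ℂ '' gens1Q M) = FracG (Gamma1 M) M`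
and `hfin` of `DescentGen.exists_descent_hasChar`, this is `fun z hz => hfin z (hS ▸ hz)`.) -/
def MonicC (M D : ℕ) : Prop :=
  ∀ z ∈ IntermediateField.adjoin ℂ (⇑(coeffEmb ℂ) '' gens1Q M),
    ∃ p : Polynomial ↥(ℂ⟮coeffEmb ℂ jq⟯),
      p.Monic ∧ p.natDegree ≤ D ∧ Polynomial.aeval z p = 0

variable {M D : ℕ}

/-- Finiteness and the degree bound over `ℂ`. -/
theorem finite_and_finrank_le_F1C [NeZero M] (h : MonicC M D) :
    Module.Finite ℂ⟮jF1E M ℂ⟯ (laurentBaseChange ℂ (F1Q M)) ∧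
      Module.finrank ℂ⟮jF1E M ℂ⟯ (laurentBaseChange ℂ (F1Q M)) ≤ D :=
  finite_and_finrank_le_C (gens1Q M) (gens1Q_finite M) (jQ1 M) D h

/-- Finiteness over `E(j)` for every `E`, from finiteness over one `E₀(j)`. -/
theorem finite_F1E_of_finite (E₀ E : Type*) [Field E₀] [Algebra ℚ E₀] [Field E] [Algebra ℚ E]
    [Module.Finite E₀⟮jF1E M E₀⟯ (laurentBaseChange E₀ (F1Q M))] :
    Module.Finite E⟮jF1E M E⟯ (laurentBaseChange E (F1Q M)) :=
  (finite_and_finrank_transfer (F1Q M) (jQ1 M) E₀ E).1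

/-- The degree over `E(j)` does not depend on `E`. -/
theorem finrank_F1E_eq_of_finite (E₀ E : Type*) [Field E₀] [Algebra ℚ E₀] [Field E]
    [Algebra ℚ E] [Module.Finite E₀⟮jF1E M E₀⟯ (laurentBaseChange E₀ (F1Q M))] :
    Module.finrank E⟮jF1E M E⟯ (laurentBaseChange E (F1Q M))
      = Module.finrank E₀⟮jF1E M E₀⟯ (laurentBaseChange E₀ (F1Q M)) :=
  (finite_and_finrank_transfer (F1Q M) (jQ1 M) E₀ E).2

/-- `trdeg_E F1(M)_E = 1` from finiteness over one `E₀(j)`. -/
theorem trdeg_F1E_of_finite (E₀ E : Type*) [Field E₀] [Algebra ℚ E₀] [Field E] [Algebra ℚ E]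
    [Module.Finite E₀⟮jF1E M E₀⟯ (laurentBaseChange E₀ (F1Q M))] :
    Algebra.trdeg E ↥(laurentBaseChange E (F1Q M)) = 1 := by
  haveI : Module.Finite E⟮jF1E M E⟯ (laurentBaseChange E (F1Q M)) := finite_F1E_of_finite E₀ E
  haveI : Algebra.IsAlgebraic E⟮jF1E M E⟯ (laurentBaseChange E (F1Q M)) :=
    Algebra.IsAlgebraic.of_finite _ _
  exact Fermat.Agent.S24.DegreeAbs.trdeg_eq_one (jF1E M E) (transcendental_jF1E M E)

/-- **Finiteness of `F1(M)_E` over `E(j)`**, for every field `E ⊇ ℚ`. -/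
theorem finite_F1E [NeZero M] (h : MonicC M D) (E : Type*) [Field E] [Algebra ℚ E] :
    Module.Finite E⟮jF1E M E⟯ (laurentBaseChange E (F1Q M)) := by
  haveI := (finite_and_finrank_le_F1C h).1
  exact finite_F1E_of_finite ℂ E

/-- The degree over `E(j)` is the degree over `ℂ(j)`. -/
theorem finrank_F1E_eq [NeZero M] (h : MonicC M D) (E : Type*) [Field E] [Algebra ℚ E] :
    Module.finrank E⟮jF1E M E⟯ (laurentBaseChange E (F1Q M))
      = Module.finrank ℂ⟮jF1E M ℂ⟯ (laurentBaseChange ℂ (F1Q M)) := by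
  haveI := (finite_and_finrank_le_F1C h).1
  exact finrank_F1E_eq_of_finite ℂ E

/-- **The degree bound** `[F1(M)_E : E(j)] ≤ D`. -/
theorem finrank_F1E_le [NeZero M] (h : MonicC M D) (E : Type*) [Field E] [Algebra ℚ E] :
    Module.finrank E⟮jF1E M E⟯ (laurentBaseChange E (F1Q M)) ≤ D := by
  rw [finrank_F1E_eq h E]
  exact (finite_and_finrank_le_F1C h).2

theorem isAlgebraic_F1E [NeZero M] (h : MonicC M D) (E : Type*) [Field E] [Algebra ℚ E] :
    Algebra.IsAlgebraic E⟮jF1E M E⟯ (laurentBaseChange E (F1Q M)) := by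
  haveI := finite_F1E h E
  exact Algebra.IsAlgebraic.of_finite _ _

/-- **`trdeg_E F1(M)_E = 1`**, for every field `E ⊇ ℚ`. -/
theorem trdeg_F1E [NeZero M] (h : MonicC M D) (E : Type*) [Field E] [Algebra ℚ E] :
    Algebra.trdeg E ↥(laurentBaseChange E (F1Q M)) = 1 := by
  haveI := (finite_and_finrank_le_F1C h).1
  exact trdeg_F1E_of_finite ℂ E

/-! #### The `ℚ̄`-forms -/

theorem finite_F1 [NeZero M] (h : MonicC M D) : Module.Finite Qb⟮jF1 M⟯ (F1 M) :=
  finite_F1E h Qb

theorem finrank_F1_le [NeZero M] (h : MonicC M D) : Module.finrank Qb⟮jF1 M⟯ (F1 M) ≤ D :=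
  finrank_F1E_le h Qb

theorem isAlgebraic_F1 [NeZero M] (h : MonicC M D) : Algebra.IsAlgebraic Qb⟮jF1 M⟯ (F1 M) :=
  isAlgebraic_F1E h Qb

theorem trdeg_F1 [NeZero M] (h : MonicC M D) : Algebra.trdeg Qb ↥(F1 M) = 1 :=
  trdeg_F1E h Qb

end Inst

end Fermat.Agent.S48.G1.FieldFin
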