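import Mathlib
import Fermat.Prelude.Def_AlgebraicCurve_Correspondence
import Fermat.Agent.S30.E4.NormVirt
import Fermat.Agent.S30.E4.NormDiv

/-!
# S48 / G1 / F.4: "virtual norms" preserve `m ∣ div` (level-free)

Let `k / K` be a function field in one variable (`trdeg = 1`, characteristic zero), `LS` a field,
`φ : k →ₐ[K] LS` an embedding and `c x : k →ₐ[K] LS` (`x : ι`, `ι` finite) further embeddings (the
*virtual conjugates*), separated by one element of `k`.  Suppose `T : k → k` satisfies

  `φ (T b) = ∏ x, c x b`   for every `b : k`.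

Then `T` preserves the property "`m` divides the order at every place":
`dvd_ord_of_virtual`.

This is the divisor half of "the multiplicative Hecke operator preserves Kummer functions"
(`Closed1`), with `k = F1 M`, `φ = (q ↦ q^ℓ)`, `c none = (⟨ℓ⟩ ·)(q^{ℓ²})`, `c (some i) = (·)(zⁱ q)`.
In contrast with `S30/E4/HeckeNorm` no function field of level `Mℓ`, no degree computation and no
irreducibility of the modular equation is needed: the virtual conjugates are split into the
classes `x ∼ y :⟺ ∀ b, minpoly (c x b) = minpoly (c y b)`; the product over a class is the norm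
from `E_x = φ(k)(c_x(k))` of `c_x b` (every `φ(k)`-embedding of `E_x` is `c_x ↦ c_y` for exactly
one `y` of the class), `E_x` is integral over `c_x(k)` by transcendence degree, and norms preserve
`m ∣ div` (`S30.E4.NormDiv.dvd_ord_norm`).
-/

set_option autoImplicit false
set_option linter.style.haveILetI false

noncomputable section

namespace Fermat.Agent.S48.G1.F1.VirtNormDiv

open Polynomial AlgebraicCurve

/-! ### Part 1: field theory -/

section FieldTheory

variable {k LS : Type*} [Field k] [Field LS] [Algebra k LS]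
variable {ι : Type*} (c : ι → k →+* LS)

/-- The field generated over `k` by the image of the `x`-th virtual conjugate. -/
def Ex (x : ι) : IntermediateField k LS := IntermediateField.adjoin k (Set.range (c x))

theorem mem_Ex (x : ι) (b : k) : c x b ∈ Ex c x :=
  IntermediateField.subset_adjoin k _ ⟨b, rfl⟩

/-- The `x`-th virtual conjugate, as a ring hom into `Ex c x`. -/
def genHom (x : ι) : k →+* Ex c x := (c x).codRestrict (Ex c x) (mem_Ex c x)

@[simp]
theorem coe_genHom (x : ι) (b : k) : ((genHom c x b : Ex c x) : LS) = c x b := rfl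

/-- The equaliser of two ring homs, as a `ℚ`-subspace. -/
def eqSub [CharZero k] {Ω : Type*} [Field Ω] (f g : k →+* Ω) : Subspace ℚ k where
  carrier := {b | f b = g b}
  add_mem' := by
    intro a b ha hb
    simp only [Set.mem_ofPred_eq] at ha hb ⊢
    rw [map_add, map_add, ha, hb]
  zero_mem' := by
    simp only [Set.mem_ofPred_eq, map_zero]
  smul_mem' := by
    intro q b hb
    simp only [Set.mem_ofPred_eq] at hb ⊢
    rw [Rat.smul_def, map_mul, map_mul, hb, map_ratCast, map_ratCast]

theorem mem_eqSub [CharZero k] {Ω : Type*} [Field Ω] (f g : k →+* Ω) (b : k) :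
    b ∈ eqSub f g ↔ f b = g b := Iff.rfl

/-- The relation "conjugate over `k`" on the indices. -/
def Rel (x y : ι) : Prop := ∀ b : k, minpoly k (c x b) = minpoly k (c y b)

theorem rel_refl (x : ι) : Rel c x x := fun _ => rfl

theorem rel_symm {x y : ι} (h : Rel c x y) : Rel c y x := fun b => (h b).symm

theorem rel_trans {x y z : ι} (h : Rel c x y) (h' : Rel c y z) : Rel c x z :=
  fun b => (h b).trans (h' b)

/-- The setoid of conjugacy classes of indices. -/
def relSetoid : Setoid ι := ⟨Rel c, rel_refl c, rel_symm c, rel_trans c⟩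

variable [Fintype ι]

variable (hsym : ∀ b : k, ∃ P : k[X], P.map (algebraMap k LS) = ∏ x, (X - C (c x b)))

include hsym in
theorem isIntegral_c (x : ι) (b : k) : IsIntegral k (c x b) := by
  classical
  obtain ⟨P, hP⟩ := hsym b
  have hmonic : P.Monic := by
    apply Polynomial.monic_of_injective (algebraMap k LS).injective
    rw [hP]
    exact Polynomial.monic_prod_of_monic _ _ fun y _ => monic_X_sub_C _
  refine ⟨P, hmonic, ?_⟩
  rw [← Polynomial.eval_map, hP, Polynomial.eval_prod]
  exact Finset.prod_eq_zero (Finset.mem_univ x) (by simp)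

include hsym in
theorem isAlgebraic_Ex (x : ι) : Algebra.IsAlgebraic k (Ex c x) :=
  IntermediateField.isAlgebraic_adjoin (by
    rintro _ ⟨b, rfl⟩
    exact isIntegral_c c hsym x b)

include hsym in
/-- Every `k`-embedding of `Ex c x` sends `c x b` to some `c y b`. -/
theorem exists_conj (x : ι) (σ : Ex c x →ₐ[k] AlgebraicClosure LS) (b : k) :
    ∃ y, σ (genHom c x b) = algebraMap LS (AlgebraicClosure LS) (c y b) := by
  classical
  obtain ⟨P, hP⟩ := hsym b
  have h0 : aeval (genHom c x b) P = 0 := by
    apply Subtype.ext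
    have h1 : ((aeval (genHom c x b) P : Ex c x) : LS) = aeval (c x b) P := by
      rw [← coe_genHom c x b]
      exact (Polynomial.aeval_algHom_apply (Ex c x).val (genHom c x b) P).symm
    rw [h1, aeval_def, ← Polynomial.eval_map, hP, Polynomial.eval_prod]
    exact Finset.prod_eq_zero (Finset.mem_univ x) (by simp)
  have h2 : (P.map (algebraMap k (AlgebraicClosure LS))).eval (σ (genHom c x b)) = 0 := by
    rw [Polynomial.eval_map, ← aeval_def, Polynomial.aeval_algHom_apply, h0, map_zero]
  have h3 : P.map (algebraMap k (AlgebraicClosure LS))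
      = ∏ y, (X - C (algebraMap LS (AlgebraicClosure LS) (c y b))) := by
    rw [IsScalarTower.algebraMap_eq k LS (AlgebraicClosure LS), ← Polynomial.map_map, hP,
      Polynomial.map_prod]
    simp
  rw [h3, Polynomial.eval_prod, Finset.prod_eq_zero_iff] at h2
  obtain ⟨y, -, hy⟩ := h2
  rw [eval_sub, eval_X, eval_C, sub_eq_zero] at hy
  exact ⟨y, hy⟩

variable [CharZero k]

include hsym in
/-- The index can be chosen uniformly in `b`. -/
theorem exists_conj_uniform (x : ι) (σ : Ex c x →ₐ[k] AlgebraicClosure LS) :
    ∃ y, ∀ b, σ (genHom c x b) = algebraMap LS (AlgebraicClosure LS) (c y b) := by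
  classical
  let p : ι → Subspace ℚ k := fun y =>
    eqSub ((σ : Ex c x →+* AlgebraicClosure LS).comp (genHom c x))
      ((algebraMap LS (AlgebraicClosure LS)).comp (c y))
  have hcov : ⋃ y, (p y : Set k) = Set.univ := by
    rw [Set.iUnion_eq_univ_iff]
    intro b
    obtain ⟨y, hy⟩ := exists_conj c hsym x σ b
    exact ⟨y, hy⟩
  obtain ⟨y, hy⟩ := Subspace.exists_eq_top_of_iUnion_eq_univ hcov
  refine ⟨y, fun b => ?_⟩
  have hb : b ∈ p y := by
    rw [hy]
    exact Submodule.mem_top
  exact hb

include hsym in
/-- The index attached to a `k`-embedding of `Ex c x`. -/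
def idx (x : ι) (σ : Ex c x →ₐ[k] AlgebraicClosure LS) : ι :=
  (exists_conj_uniform c hsym x σ).choose

theorem idx_spec (x : ι) (σ : Ex c x →ₐ[k] AlgebraicClosure LS) (b : k) :
    σ (genHom c x b) = algebraMap LS (AlgebraicClosure LS) (c (idx c hsym x σ) b) :=
  (exists_conj_uniform c hsym x σ).choose_spec b

theorem idx_injective (x : ι) : Function.Injective (idx c hsym x) := by
  intro σ τ h
  refine IntermediateField.algHom_ext_of_eq_adjoin k (S := Ex c x) (s := Set.range (c x)) rfl ?_
  rintro _ ⟨b, rfl⟩
  have h1 := idx_spec c hsym x σ b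
  have h2 := idx_spec c hsym x τ b
  rw [h] at h1
  exact h1.trans h2.symm

include hsym in
/-- `Ex c x` is finite over `k`: it has at most `card ι` embeddings. -/
theorem finiteDimensional_Ex (x : ι) : FiniteDimensional k (Ex c x) := by
  have := isAlgebraic_Ex c hsym x
  have : Finite (Ex c x →ₐ[k] AlgebraicClosure LS) :=
    Finite.of_injective _ (idx_injective c hsym x)
  have : Nonempty (Ex c x →ₐ[k] AlgebraicClosure LS) :=
    ⟨(IsScalarTower.toAlgHom k LS (AlgebraicClosure LS)).comp (Ex c x).val⟩
  have h1 : Field.finSepDegree k (Ex c x) = Nat.card (Ex c x →ₐ[k] AlgebraicClosure LS) :=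
    Field.finSepDegree_eq_of_isAlgClosed k (Ex c x) (AlgebraicClosure LS)
  have h2 : Field.finSepDegree k (Ex c x) = Module.finrank k (Ex c x) :=
    Field.finSepDegree_eq_finrank_of_isSeparable k (Ex c x)
  have h3 : 0 < Module.finrank k (Ex c x) := by
    rw [← h2, h1]
    exact Nat.card_pos
  exact Module.finite_of_finrank_pos h3

/-- An embedding with index `y` forces `x ∼ y`. -/
theorem rel_idx (x : ι) (σ : Ex c x →ₐ[k] AlgebraicClosure LS) : Rel c x (idx c hsym x σ) := by
  intro b
  have h1 : minpoly k (algebraMap LS (AlgebraicClosure LS) (c (idx c hsym x σ) b))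
      = minpoly k (c (idx c hsym x σ) b) :=
    minpoly.algebraMap_eq (algebraMap LS (AlgebraicClosure LS)).injective _
  have h2 : minpoly k (σ (genHom c x b)) = minpoly k (genHom c x b) :=
    minpoly.algHom_eq σ σ.injective _
  have h3 : minpoly k (genHom c x b) = minpoly k (c x b) :=
    IntermediateField.minpoly_eq (genHom c x b)
  rw [← h3, ← h2, idx_spec c hsym x σ b, h1]

variable (hsep : ∃ b₀ : k, Function.Injective fun x => c x b₀)

include hsep in
/-- Conversely every `y ∼ x` is the index of an embedding. -/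
theorem exists_idx_eq_of_rel {x y : ι} (h : Rel c x y) :
    ∃ σ : Ex c x →ₐ[k] AlgebraicClosure LS, idx c hsym x σ = y := by
  classical
  -- for every `b` an embedding sending `c x b` to `c y b`
  have hemb : ∀ b : k, ∃ σ : Ex c x →ₐ[k] AlgebraicClosure LS,
      σ (genHom c x b) = algebraMap LS (AlgebraicClosure LS) (c y b) := by
    intro b
    have hK : ∀ s ∈ Set.range (c x), IsIntegral k s ∧
        ((minpoly k s).map (algebraMap k (AlgebraicClosure LS))).Splits := by
      rintro _ ⟨b', rfl⟩
      exact ⟨isIntegral_c c hsym x b', IsAlgClosed.splits _⟩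
    have hy : aeval (algebraMap LS (AlgebraicClosure LS) (c y b)) (minpoly k (c x b)) = 0 := by
      rw [h b, ← minpoly.algebraMap_eq (algebraMap LS (AlgebraicClosure LS)).injective (c y b)]
      exact minpoly.aeval k _
    exact IntermediateField.exists_algHom_adjoin_of_splits_of_aeval hK
      (IntermediateField.subset_adjoin k _ ⟨b, rfl⟩) hy
  let p : {y' : ι // ∃ σ : Ex c x →ₐ[k] AlgebraicClosure LS, idx c hsym x σ = y'} →
      Subspace ℚ k := fun y' => eqSub (c y'.1) (c y)
  have hcov : ⋃ y', (p y' : Set k) = Set.univ := by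
    rw [Set.iUnion_eq_univ_iff]
    intro b
    obtain ⟨σ, hσ⟩ := hemb b
    refine ⟨⟨idx c hsym x σ, σ, rfl⟩, ?_⟩
    show c (idx c hsym x σ) b = c y b
    apply (algebraMap LS (AlgebraicClosure LS)).injective
    rw [← idx_spec c hsym x σ b, hσ]
  obtain ⟨y', hy'⟩ := Subspace.exists_eq_top_of_iUnion_eq_univ hcov
  obtain ⟨b₀, hb₀⟩ := hsep
  have hb : b₀ ∈ p y' := by
    rw [hy']
    exact Submodule.mem_top
  have hyy : y'.1 = y := hb₀ hb
  obtain ⟨σ, hσ⟩ := y'.2
  exact ⟨σ, hσ.trans hyy⟩

open Classical in
/-- The class of `x`. -/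
def cls (x : ι) : Finset ι := Finset.univ.filter fun y => Rel c x y

include hsym hsep in
/-- **The norm of a virtual conjugate is the product over its class.** -/
theorem algebraMap_norm_genHom (x : ι) (b : k) :
    algebraMap k LS (Algebra.norm k (genHom c x b)) = ∏ y ∈ cls c x, c y b := by
  classical
  have := finiteDimensional_Ex c hsym x
  have := isAlgebraic_Ex c hsym x
  apply (algebraMap LS (AlgebraicClosure LS)).injective
  rw [← IsScalarTower.algebraMap_apply k LS (AlgebraicClosure LS),
    Algebra.norm_eq_prod_embeddings k (AlgebraicClosure LS) (genHom c x b), map_prod]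
  have h1 : ∏ σ : Ex c x →ₐ[k] AlgebraicClosure LS, σ (genHom c x b)
      = ∏ σ : Ex c x →ₐ[k] AlgebraicClosure LS,
          algebraMap LS (AlgebraicClosure LS) (c (idx c hsym x σ) b) :=
    Finset.prod_congr rfl fun σ _ => idx_spec c hsym x σ b
  rw [h1, ← Finset.prod_image (s := Finset.univ) (g := idx c hsym x)
    (f := fun y => algebraMap LS (AlgebraicClosure LS) (c y b))
    (fun σ _ τ _ hστ => idx_injective c hsym x hστ)]
  refine Finset.prod_congr ?_ fun _ _ => rfl
  ext y
  simp only [Finset.mem_image, Finset.mem_univ, true_and, cls, Finset.mem_filter]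
  constructor
  · rintro ⟨σ, rfl⟩
    exact rel_idx c hsym x σ
  · intro h
    exact exists_idx_eq_of_rel c hsym hsep h

include hsym hsep in
/-- **Factorisation into norms**: the product of all virtual conjugates of `b` is a product of
norms of virtual conjugates, one for each class. -/
theorem exists_factorization :
    ∃ S : Finset ι, ∀ b : k,
      ∏ x, c x b = algebraMap k LS (∏ x ∈ S, Algebra.norm k (genHom c x b)) := by
  classical
  let s : Setoid ι := relSetoid c
  refine ⟨Finset.univ.image (fun q : Quotient s => q.out), fun b => ?_⟩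
  rw [Finset.prod_image (fun q _ q' _ h => Quotient.out_injective h), map_prod,
    ← Finset.prod_fiberwise Finset.univ (fun x : ι => (⟦x⟧ : Quotient s)) (fun x => c x b)]
  refine Finset.prod_congr rfl fun q _ => ?_
  rw [algebraMap_norm_genHom c hsym hsep q.out b]
  refine Finset.prod_congr ?_ fun _ _ => rfl
  ext y
  simp only [Finset.mem_filter, Finset.mem_univ, true_and, cls]
  constructor
  · intro h
    have h1 : (⟦y⟧ : Quotient s) = ⟦q.out⟧ := by rw [h, Quotient.out_eq]
    exact rel_symm c (Quotient.exact h1)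
  · intro h
    have h1 : (⟦y⟧ : Quotient s) = ⟦q.out⟧ := Quotient.sound (rel_symm c h)
    rw [h1, Quotient.out_eq]

end FieldTheory

/-! ### Part 2: places -/

section Places

universe u v

variable {K : Type u} {F F' : Type v} [Field K] [Field F] [Field F'] [Algebra K F] [Algebra K F']

/-- An algebraic extension has the same transcendence degree. -/
theorem trdeg_eq_of_isAlgebraic [Algebra F F'] [IsScalarTower K F F'] [Algebra.IsAlgebraic F F'] :
    Algebra.trdeg K F' = Algebra.trdeg K F := by
  have h3 := trdeg_add_eq K F (A := F')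
  have h4 : Algebra.trdeg F F' = 0 := trdeg_eq_zero_iff.mpr inferInstance
  rw [h4, add_zero] at h3
  exact h3.symm

/-- If `F` and `F'` both have transcendence degree one over `K`, then `F'` is integral over the
image of every `K`-embedding `F → F'`. -/
theorem isIntegral_of_trdeg (β : F →ₐ[K] F') (h1 : Algebra.trdeg K F = 1)
    (h2 : Algebra.trdeg K F' = 1) : β.toRingHom.IsIntegral := by
  letI := algebraAlong β
  haveI := isScalarTower_along β
  have h3 := trdeg_add_eq K F (A := F')
  rw [h1, h2] at h3
  have h4 : Algebra.trdeg F F' = 0 := by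
    have h5 : (1 : Cardinal) + Algebra.trdeg F F' = 1 + 0 := by rw [h3, add_zero]
    exact Cardinal.eq_of_add_eq_add_left h5 Cardinal.one_lt_aleph0
  have halg : Algebra.IsAlgebraic F F' := trdeg_eq_zero_iff.mp h4
  have hint : Algebra.IsIntegral F F' := Algebra.IsAlgebraic.isIntegral
  exact fun x => hint.isIntegral x

/-- Norms of images under an integral embedding preserve `m ∣ div`. -/
theorem dvd_ord_norm_of_integral [Algebra F F'] [IsScalarTower K F F'] [FiniteDimensional F F']
    [CharZero F] (β : F →ₐ[K] F') (hβ : β.toRingHom.IsIntegral) (m : ℕ) {b : F} (hb : b ≠ 0)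
    (hdiv : ∀ v : Place K F, (m : ℤ) ∣ v.ord b) (v : Place K F) :
    (m : ℤ) ∣ v.ord (Algebra.norm F (β b)) := by
  refine Fermat.Agent.S30.E4.NormDiv.dvd_ord_norm m (β b) ((map_ne_zero β).mpr hb) (fun w => ?_) v
  rw [Place.ord_restrictAlong β hβ w b]
  exact Dvd.dvd.mul_left (hdiv _) _

/-- `m ∣ ord` is stable under finite products of nonzero elements. -/
theorem dvd_ord_prod (v : Place K F) (m : ℕ) {α : Type*} (S : Finset α) (g : α → F)
    (h : ∀ x ∈ S, g x ≠ 0 ∧ (m : ℤ) ∣ v.ord (g x)) :
    (∏ x ∈ S, g x) ≠ 0 ∧ (m : ℤ) ∣ v.ord (∏ x ∈ S, g x) := by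
  classical
  induction S using Finset.induction_on with
  | empty =>
    rw [Finset.prod_empty, v.ord_one]
    exact ⟨one_ne_zero, dvd_zero _⟩
  | insert a S ha ih =>
    have h1 := h a (Finset.mem_insert_self a S)
    have h2 := ih fun x hx => h x (Finset.mem_insert_of_mem hx)
    rw [Finset.prod_insert ha]
    refine ⟨mul_ne_zero h1.1 h2.1, ?_⟩
    rw [v.ord_mul h1.1 h2.1]
    exact dvd_add h1.2 h2.2

end Places

/-! ### The main theorem -/

section Main

universe u v

/-- **Virtual norms preserve `m ∣ div`.**  Let `k / K` be a field of transcendence degree one in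
characteristic zero, `φ, c x : k →ₐ[K] LS` embeddings into a field (`x` in a finite type), the
`c x` separated by one element, and `T : k → k` with `φ (T b) = ∏ x, c x b` for all `b`.  If the
order of `f ≠ 0` at every place of `k / K` is divisible by `m`, so is the order of `T f`. -/
theorem dvd_ord_of_virtual {K : Type u} {k LS : Type v} [Field K] [Field k] [Field LS]
    [CharZero K] [Algebra K k] [Algebra K LS] {ι : Type*} [Fintype ι]
    (φ : k →ₐ[K] LS) (c : ι → k →ₐ[K] LS)
    (hsep : ∃ b₀ : k, Function.Injective fun x => c x b₀)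
    (htr : Algebra.trdeg K k = 1)
    (T : k → k) (hT : ∀ b, φ (T b) = ∏ x, c x b)
    (m : ℕ) (f : k) (hf : f ≠ 0) (hdiv : ∀ v : Place K k, (m : ℤ) ∣ v.ord f) :
    ∀ v : Place K k, (m : ℤ) ∣ v.ord (T f) := by
  classical
  haveI : CharZero k := charZero_of_injective_algebraMap (algebraMap K k).injective
  letI : Algebra k LS := φ.toRingHom.toAlgebra
  haveI : IsScalarTower K k LS := IsScalarTower.of_algebraMap_eq fun a => (φ.commutes a).symm
  let c' : ι → k →+* LS := fun x => (c x : k →+* LS)
  have hsym : ∀ b : k, ∃ P : k[X], P.map (algebraMap k LS) = ∏ x, (X - C (c' x b)) := fun b =>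
    Fermat.Agent.S30.E4.NormVirt.exists_poly_of_mul (algebraMap k LS) c' T hT b
  have hsep' : ∃ b₀ : k, Function.Injective fun x => c' x b₀ := hsep
  obtain ⟨S, hS⟩ := exists_factorization c' hsym hsep'
  have hTf : T f = ∏ x ∈ S, Algebra.norm k (genHom c' x f) := by
    apply (algebraMap k LS).injective
    rw [← hS f]
    exact hT f
  intro v
  rw [hTf]
  refine (dvd_ord_prod v m S _ fun x _ => ?_).2
  haveI := finiteDimensional_Ex c' hsym x
  haveI := isAlgebraic_Ex c' hsym x
  let β : k →ₐ[K] Ex c' x :=
    { genHom c' x with commutes' := fun a => Subtype.ext ((c x).commutes a) }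
  have h2 : Algebra.trdeg K (Ex c' x) = 1 := by
    rw [trdeg_eq_of_isAlgebraic (K := K) (F := k) (F' := Ex c' x), htr]
  have hβ : β.toRingHom.IsIntegral := isIntegral_of_trdeg β htr h2
  refine ⟨?_, dvd_ord_norm_of_integral β hβ m hf hdiv v⟩
  exact Algebra.norm_ne_zero_iff.mpr ((map_ne_zero (genHom c' x)).mpr hf)

/-- **Adapter in the shape of `ClosedGen.dvd_ord_T`, WITHOUT the degree hypothesis.**
`k ⊆ Ω` a subfield of transcendence degree one over `K`, `β : k →ₐ[K] Ω` a second embedding,
`V, c i : Ω →+* Ω` ring homs fixing the constants, and `T : k → k` with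
`V (T b) = V (β b) * ∏ i, c i b`.  If one element of `k` separates the virtual conjugates
`V ∘ β`, `c i`, then `T` preserves `m ∣ div`. -/
theorem dvd_ord_T_of_sep {K : Type u} {Ω : Type v} [Field K] [CharZero K] [Field Ω] [Algebra K Ω]
    (k : IntermediateField K Ω) (β : k →ₐ[K] Ω) {ι : Type*} [Fintype ι]
    (V : Ω →+* Ω) (c : ι → Ω →+* Ω)
    (hV : ∀ a : K, V (algebraMap K Ω a) = algebraMap K Ω a)
    (hc : ∀ (i : ι) (a : K), c i (algebraMap K Ω a) = algebraMap K Ω a)
    (T : k → k) (hT : ∀ b : k, V (T b : Ω) = V (β b) * ∏ i, c i (b : Ω))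
    (hsep : ∃ b₀ : k, (∀ i, V (β b₀) ≠ c i (b₀ : Ω)) ∧ Function.Injective fun i => c i (b₀ : Ω))
    (htr : Algebra.trdeg K k = 1)
    (m : ℕ) (f : k) (hf : f ≠ 0) (hdiv : ∀ P : Place K k, (m : ℤ) ∣ P.ord f)
    (P : Place K k) : (m : ℤ) ∣ P.ord (T f) := by
  classical
  let φ : k →ₐ[K] Ω :=
    { V.comp (k.val : k →+* Ω) with
      commutes' := fun a => hV a }
  let c' : Option ι → k →ₐ[K] Ω := fun x =>
    match x with
    | none =>
      { V.comp (β : k →+* Ω) with
        commutes' := fun a => by
          show V (β (algebraMap K k a)) = algebraMap K Ω a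
          rw [β.commutes, hV] }
    | some i =>
      { (c i).comp (k.val : k →+* Ω) with
        commutes' := fun a => hc i a }
  have hT' : ∀ b : k, φ (T b) = ∏ x, c' x b := fun b => by
    rw [Fintype.prod_option]
    exact hT b
  have hsep' : ∃ b₀ : k, Function.Injective fun x => c' x b₀ := by
    obtain ⟨b₀, h1, h2⟩ := hsep
    refine ⟨b₀, ?_⟩
    intro x y hxy
    match x, y, hxy with
    | none, none, _ => rfl
    | none, some i, h => exact absurd h (h1 i)
    | some i, none, h => exact absurd h.symm (h1 i)
    | some i, some j, h => exact congrArg some (h2 h)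
  exact dvd_ord_of_virtual φ c' hsep' htr T hT' m f hf hdiv P

end Main

end Fermat.Agent.S48.G1.F1.VirtNormDiv
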