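import Mathlib
import Fermat.Prelude.Def_ModularCurve_X0ModL
import Fermat.Agent.S48.G1.F1.VirtNormDiv
import Fermat.Agent.S48.G1.Avatar2
import Fermat.Agent.S48.ExitDPlaces
import Fermat.Agent.S48.G1.Producer1.Bricks1

/-!
# S48 / G1 / F.4: the wiring of `Bricks1.Closed1` (helper130)

`Bricks1.Closed1 O` says: for every prime `ℓ ∤ M` the multiplicative Hecke operator with diamond
`T_ℓ f = (⟨ℓ⟩ f)(q^ℓ) · ∏_{i<ℓ} f(ζⁱ q^{1/ℓ})` preserves `F1 M` and preserves `m ∣ div`.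

This file reduces it to TWO inputs:

* membership: the Hecke series of every `x : F1 M` lies in `F1 M` (row F.4 (M1), `HeckeMem`);
* `F1 M` has transcendence degree one over `ℚ̄` (row F.2).

The divisor half is `VirtNormDiv.dvd_ord_T_of_sep` (virtual norms preserve `m ∣ div`), applied to
`V = (q ↦ q^ℓ)`, `β = (δ ·)(q^{ℓ²})`, `c i = (·)(zⁱ q)`; the separation hypothesis is checked on
the coefficient of `q⁻¹` of any element of the field with a simple pole at `q = 0` (`j`):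
it is `0` for `(δ b₀)(q^{ℓ²})` and `z^{-i} · a ≠ 0` for `b₀(zⁱ q)`.

* `heckeClosed2_of_mem` : generic in the base-changed field `laurentBaseChange ℚ̄ F₀`;
* `closed1_of_mem`      : the instance `F1 M`, exit literal `Bricks1.Closed1 O`.
-/

set_option autoImplicit false

noncomputable section

open ModularCurve AlgebraicCurve
open Fermat.Agent.S24.Puiseux
open Fermat.Agent.S48.G1.F1

namespace Fermat.Agent.S48.G1.F1.ClosedOfMem

/-- The coefficient of `q⁻¹` of `A(q^ℓ)` vanishes for `ℓ ≥ 2`. -/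
theorem qExpand_coeff_neg_one {ℓ : ℕ} [NeZero ℓ] (hℓ : 2 ≤ ℓ) (A : LaurentSeries Qb) :
    (qExpand Qb ℓ A).coeff (-1) = 0 := by
  refine qExpand_coeff_of_not_dvd ℓ A ?_
  intro hdvd
  have h1 : (ℓ : ℤ) ∣ 1 := (dvd_neg).1 hdvd
  have h2 : ℓ ∣ 1 := by exact_mod_cast h1
  have h3 : ℓ = 1 := Nat.dvd_one.1 h2
  omega

/-- The coefficient of `q⁻¹` of `A(ζ q)`. -/
theorem scale_coeff_neg_one (ζ : Qbˣ) (A : LaurentSeries Qb) :
    (scale ζ A).coeff (-1) = ((ζ⁻¹ : Qbˣ) : Qb) * A.coeff (-1) := by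
  rw [scale_coeff, zpow_neg_one]

/-- **Generic wiring**: membership of the Hecke series, transcendence degree one and an element
with a simple pole at `q = 0` give `ExitD.HeckeClosed2` for the place setting. -/
theorem heckeClosed2_of_mem (F₀ : IntermediateField ℚ (LaurentSeries ℚ))
    (htr : Algebra.trdeg Qb (laurentBaseChange Qb F₀) = 1)
    (hb : ∃ b₀ : laurentBaseChange Qb F₀, (b₀ : LaurentSeries Qb).coeff (-1) ≠ 0)
    {ℓ : ℕ} (hℓ : ℓ.Prime) (z : Qbˣ) (hz : IsPrimitiveRoot z ℓ)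
    (δ : laurentBaseChange Qb F₀ ≃ₐ[Qb] laurentBaseChange Qb F₀)
    (hmem : ∀ x : laurentBaseChange Qb F₀,
      Fermat.Agent.S48.CongrD.heckeMul2 ℓ hℓ.pos z (x : LaurentSeries Qb)
        ((δ x : laurentBaseChange Qb F₀) : LaurentSeries Qb) ∈ laurentBaseChange Qb F₀) :
    Fermat.Agent.S48.ExitD.HeckeClosed2 (Fermat.Agent.S48.ExitD.placeSetting F₀) ℓ hℓ.pos z
      (RingHom.id (laurentBaseChange Qb F₀))
      ((δ : laurentBaseChange Qb F₀ ≃ₐ[Qb] laurentBaseChange Qb F₀) :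
        laurentBaseChange Qb F₀ →+* laurentBaseChange Qb F₀) := by
  have : NeZero ℓ := ⟨hℓ.ne_zero⟩
  refine ⟨hmem, fun m f hf hdiv P => ?_⟩
  -- the data of `dvd_ord_T_of_sep`
  let F : IntermediateField Qb (LaurentSeries Qb) := laurentBaseChange Qb F₀
  let β : F →ₐ[Qb] LaurentSeries Qb :=
    (qExpandAlgHomC Qb ℓ).comp (F.val.comp (δ : F →ₐ[Qb] F))
  let V : LaurentSeries Qb →+* LaurentSeries Qb := qExpand Qb ℓ
  let c : Fin ℓ → LaurentSeries Qb →+* LaurentSeries Qb := fun i => scale (z ^ (i : ℕ))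
  let T : F → F := fun x => ⟨_, hmem x⟩
  have hV : ∀ a : Qb, V (algebraMap Qb (LaurentSeries Qb) a) = algebraMap Qb (LaurentSeries Qb) a :=
    fun a => (qExpandAlgHomC Qb ℓ).commutes a
  have hc : ∀ (i : Fin ℓ) (a : Qb),
      c i (algebraMap Qb (LaurentSeries Qb) a) = algebraMap Qb (LaurentSeries Qb) a :=
    fun i a => scale_algebraMap _ a
  have hT : ∀ b : F, V ((T b : F) : LaurentSeries Qb)
      = V (β b) * ∏ i, c i (b : LaurentSeries Qb) := by
    intro b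
    have h := Fermat.Agent.S48.G1.Avatar2.qExpand_heckeMul2 hℓ.pos hz (b : LaurentSeries Qb)
      ((δ b : F) : LaurentSeries Qb)
    have hprod : ∏ i : Fin ℓ, c i (b : LaurentSeries Qb)
        = ∏ i ∈ Finset.range ℓ, scale (z ^ i) (b : LaurentSeries Qb) :=
      Fin.prod_univ_eq_prod_range (fun i => scale (z ^ i) (b : LaurentSeries Qb)) ℓ
    rw [hprod]
    exact h
  have hsep : ∃ b₀ : F, (∀ i, V (β b₀) ≠ c i (b₀ : LaurentSeries Qb)) ∧
      Function.Injective fun i => c i (b₀ : LaurentSeries Qb) := by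
    obtain ⟨b₀, hb₀⟩ := hb
    refine ⟨b₀, fun i hEq => ?_, fun i j hij => ?_⟩
    · have h1 : (V (β b₀)).coeff (-1) = 0 := qExpand_coeff_neg_one hℓ.two_le _
      have h2 : (c i (b₀ : LaurentSeries Qb)).coeff (-1)
          = (((z ^ (i : ℕ))⁻¹ : Qbˣ) : Qb) * (b₀ : LaurentSeries Qb).coeff (-1) :=
        scale_coeff_neg_one _ _
      rw [hEq, h2] at h1
      exact mul_ne_zero (Units.ne_zero _) hb₀ h1
    · have h1 : (c i (b₀ : LaurentSeries Qb)).coeff (-1)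
          = (c j (b₀ : LaurentSeries Qb)).coeff (-1) := congrArg (fun s => s.coeff (-1)) hij
      have h2 : (((z ^ (i : ℕ))⁻¹ : Qbˣ) : Qb) * (b₀ : LaurentSeries Qb).coeff (-1)
          = (((z ^ (j : ℕ))⁻¹ : Qbˣ) : Qb) * (b₀ : LaurentSeries Qb).coeff (-1) := by
        rw [← scale_coeff_neg_one, ← scale_coeff_neg_one]
        exact h1
      have h3 : (((z ^ (i : ℕ))⁻¹ : Qbˣ) : Qb) = (((z ^ (j : ℕ))⁻¹ : Qbˣ) : Qb) :=
        mul_right_cancel₀ hb₀ h2
      have h4 : (z ^ (i : ℕ))⁻¹ = (z ^ (j : ℕ))⁻¹ := Units.ext h3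
      have h5 : z ^ (i : ℕ) = z ^ (j : ℕ) := inv_injective h4
      exact Fin.ext (hz.pow_inj i.2 j.2 h5)
  exact Fermat.Agent.S48.G1.F1.VirtNormDiv.dvd_ord_T_of_sep F β V c hV hc T hT hsep htr m f hf
    hdiv P

/-- `j` lies in `F1 M` and has a simple pole at `q = 0`. -/
theorem exists_coeff_neg_one_ne_zero (M : ℕ) :
    ∃ b₀ : F1 M, (b₀ : LaurentSeries Qb).coeff (-1) ≠ 0 := by
  have hj : jq ∈ F1Q M := by
    have h := jqd_mem_F1Q M (d := 1) (one_dvd M)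
    rwa [qExpand_one_apply] at h
  refine ⟨⟨coeffEmb Qb jq, coeffEmb_mem_laurentBaseChange Qb hj⟩, ?_⟩
  show (coeffEmb Qb jq).coeff (-1) ≠ 0
  rw [coeffEmb_coeff, coeff_jq_neg_one, map_one]
  exact one_ne_zero

/-- **F.4, wiring**: `Bricks1.Closed1 O` from the membership of the Hecke series in `F1 M` and
`trdeg ℚ̄ (F1 M) = 1`. -/
theorem closed1_of_mem (M : ℕ) (O : Fermat.Agent.S48.G1.Producer1.Objs M)
    (htr : Algebra.trdeg Qb (F1 M) = 1)
    (hmem : ∀ (ℓ : ℕ) (hℓ : ℓ.Prime) (hℓM : ¬ ℓ ∣ M) (x : F1 M),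
      Fermat.Agent.S48.G1.Producer1.heckeSeries1 O hℓ hℓM x ∈ F1 M) :
    Fermat.Agent.S48.G1.Producer1.Bricks1.Closed1 O := by
  intro ℓ hℓ hℓM
  exact heckeClosed2_of_mem (F1Q M) htr (exists_coeff_neg_one_ne_zero M) hℓ
    (Fermat.Agent.S48.G1.Producer1.zetaL ℓ) (Fermat.Agent.S30.Producer.zeta_spec hℓ.pos)
    (O.dia (Fermat.Agent.S48.G1.Producer1.unitL hℓ hℓM)) (hmem ℓ hℓ hℓM)

end Fermat.Agent.S48.G1.F1.ClosedOfMem
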