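/-
PROGRAM DS (S48) / G1, AREA F, row F.4 (M1) — helper103.

THE MULTIPLICATIVE HECKE OPERATOR WITH DIAMOND PRESERVES GOOD SERIES OF `Γ₁(M)`.

For a prime `ℓ ∤ M`, the analytic avatar of
`T_ℓ f (q) = (⟨ℓ⟩ f)(q ^ ℓ) · ∏_{i < ℓ} f (zⁱ q^{1/ℓ})` (`CongrD.heckeMul2 ℓ _ z f g`, `g = ⟨ℓ⟩ f`)
is `heckeFun1 φ τ = ∏_x φ (rep1 x • τ)`, the product over the `ℓ + 1` representatives
`[[1, j], [0, ℓ]]`, `σ_ℓ [[ℓ, 0], [0, 1]]` of `T_ℓ` on `Γ₁(M)` (`Betti1.rep1`).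

* `heckeFun1_smul_of_mem_Gamma1` : `Γ₁(M)`-invariance of the avatar;
* `hasQExpK_heckeMul2`           : its `q`-expansion is `heckeMul2 ℓ _ z f g`;
* `exists_hasQExpK_heckeFun1_smul` : all its `SL(2, ℤ)`-translates have `q^(1/M)`-expansions;
* `IsGood1`, `isGood1_heckeMul2` : the packaged statement, for any coefficient field `K` with
  an embedding `ι : K →+* ℂ` (used with `K = ℚ̄` and with `K = ℂ`, `ι = id`).

Twin of `S30/HeckeGood` (level `Γ₀(N)`, no diamond).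
-/
import Fermat.Agent.S30.HeckeGood
import Fermat.Agent.S48.CongrD
import Fermat.Agent.S48.Betti1.Gamma1Adj

set_option autoImplicit false

noncomputable section

open UpperHalfPlane ModularForm Complex HahnSeries ModularCurve CongruenceSubgroup
open scoped MatrixGroups Manifold

namespace Fermat.Agent.S48.G1.F1.HeckeMem

open Fermat.Agent.S24.Puiseux Fermat.Agent.S24.QB
open Fermat.Agent.S22.HeckePerm (tRep tRep_infty tRep_coe exists_perm_T)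
open Fermat.Agent.S48.Betti1 (rep1 rep1_spec)
open Fermat.Agent.S48.G1.Gamma1Coset (sPt sPt_infty sPt_coe sig sys1)
open Fermat.Agent.S30 Fermat.Agent.S30.HeckeGood
open Fermat.Agent.S48

/-! ### Formal identities for `heckeMul2` -/

section Formal

variable {L : Type*} [Field L]

/-- The defining relation of `heckeMul2`, in terms of the `S24` operators. -/
theorem qExpand_heckeMul2 {ℓ : ℕ} [NeZero ℓ] (hℓ : 0 < ℓ) {z : Lˣ} (hz : IsPrimitiveRoot z ℓ)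
    (f g : LaurentSeries L) :
    qExpand L ℓ (CongrD.heckeMul2 ℓ hℓ z f g)
      = qExpand L ℓ (qExpand L ℓ g) * ∏ i ∈ Finset.range ℓ, scale (z ^ i) f := by
  unfold CongrD.heckeMul2
  rw [map_mul, ← expand_eq_qExpand ℓ hℓ (Congr.normL ℓ hℓ z f), Congr.expand_normL ℓ hℓ z hz,
    conjProd_eq_prod_scale, expand_eq_qExpand]

/-- `heckeMul2` does not depend on the primitive `ℓ`-th root of unity. -/
theorem heckeMul2_eq_of_isPrimitiveRoot {ℓ : ℕ} (hℓ : 0 < ℓ) {z w : Lˣ}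
    (hz : IsPrimitiveRoot z ℓ) (hw : IsPrimitiveRoot w ℓ) (f g : LaurentSeries L) :
    CongrD.heckeMul2 ℓ hℓ z f g = CongrD.heckeMul2 ℓ hℓ w f g := by
  unfold CongrD.heckeMul2 Congr.normL
  rw [conjProd_eq_of_isPrimitiveRoot hℓ hz hw]

end Formal

/-! ### The analytic avatar -/

section Avatar

variable (M : ℕ) [NeZero M] {ℓ : ℕ} [NeZero ℓ] (hℓ : ℓ.Prime) (hℓM : ¬ ℓ ∣ M)

/-- The analytic avatar of the multiplicative Hecke operator of `Γ₁(M)`: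
`τ ↦ ∏_x φ (rep1 x • τ)`, the product over the `ℓ + 1` representatives of `T_ℓ`. -/
def heckeFun1 (φ : ℍ → ℂ) (τ : ℍ) : ℂ :=
  ∏ x : OnePoint (ZMod ℓ), φ (rep1 M hℓ hℓM x • τ)

theorem heckeFun1_def (φ : ℍ → ℂ) (τ : ℍ) :
    heckeFun1 M hℓ hℓM φ τ = ∏ x : OnePoint (ZMod ℓ), φ (rep1 M hℓ hℓM x • τ) := rfl

omit [NeZero ℓ] in
/-- The representative acts through its two factors. -/
theorem rep1_smul (x : OnePoint (ZMod ℓ)) (τ : ℍ) :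
    rep1 M hℓ hℓM x • τ = sPt M hℓ hℓM x • (tRep ℓ x • τ) := by
  show (Matrix.SpecialLinearGroup.mapGL ℝ (sPt M hℓ hℓM x) * tRep ℓ x) • τ
    = Matrix.SpecialLinearGroup.mapGL ℝ (sPt M hℓ hℓM x) • (tRep ℓ x • τ)
  rw [mul_smul]

/-- `T_ℓ φ (τ) = φ (σ_ℓ • (ℓ τ)) · ∏_{j < ℓ} φ ((τ + j)/ℓ)`. -/
theorem heckeFun1_eq (φ : ℍ → ℂ) (τ : ℍ) :
    heckeFun1 M hℓ hℓM φ τ
      = φ (sig M hℓ hℓM • (heckeDiagMatrix ℓ • τ))
        * ∏ j ∈ Finset.range ℓ, φ (heckeMatrix ℓ j • τ) := by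
  unfold heckeFun1
  simp only [rep1_smul]
  rw [← prod_zmod_val_eq_prod_range ℓ (fun j => φ (heckeMatrix ℓ j • τ))]
  refine (Fintype.prod_option
    (fun x : OnePoint (ZMod ℓ) => φ (sPt M hℓ hℓM x • (tRep ℓ x • τ)))).trans ?_
  congr 1
  refine Finset.prod_congr rfl fun j _ => ?_
  show φ (sPt M hℓ hℓM (j : OnePoint (ZMod ℓ)) • (tRep ℓ (j : OnePoint (ZMod ℓ)) • τ)) = _
  rw [sPt_coe, one_smul, tRep_coe]

/-- `Γ₁(M)`-invariance of the avatar (`ℓ ∤ M`): the coset permutation. -/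
theorem heckeFun1_smul_of_mem_Gamma1 {φ : ℍ → ℂ}
    (hφ : ∀ γ ∈ Gamma1 M, ∀ τ : ℍ, φ (γ • τ) = φ τ)
    (γ : SL(2, ℤ)) (hγ : γ ∈ Gamma1 M) (τ : ℍ) :
    heckeFun1 M hℓ hℓM φ (γ • τ) = heckeFun1 M hℓ hℓM φ τ := by
  unfold heckeFun1
  set S := (sys1 M hℓ hℓM).toCocSys with hS
  rw [← Equiv.prod_comp (S.permEquiv ⟨γ, hγ⟩) (fun x => φ (rep1 M hℓ hℓM x • τ))]
  refine Finset.prod_congr rfl fun x _ => ?_
  have h1 : rep1 M hℓ hℓM x • γ • τ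
      = (((sys1 M hℓ hℓM).coc ⟨γ, hγ⟩ x : Gamma1 M) : SL(2, ℤ))
        • rep1 M hℓ hℓM ((sys1 M hℓ hℓM).perm ⟨γ, hγ⟩ x) • τ := by
    show rep1 M hℓ hℓM x • (Matrix.SpecialLinearGroup.mapGL ℝ γ) • τ
      = (Matrix.SpecialLinearGroup.mapGL ℝ
          (((sys1 M hℓ hℓM).coc ⟨γ, hγ⟩ x : Gamma1 M) : SL(2, ℤ)))
        • rep1 M hℓ hℓM ((sys1 M hℓ hℓM).perm ⟨γ, hγ⟩ x) • τ
    rw [← mul_smul, ← mul_smul]
    exact congrArg (· • τ) (rep1_spec M hℓ hℓM ⟨γ, hγ⟩ x)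
  rw [h1, hφ _ ((sys1 M hℓ hℓM).coc ⟨γ, hγ⟩ x).2]
  rfl

/-- Every `SL(2,ℤ)`-translate of the avatar is a product over the standard Hecke
representatives of `SL(2,ℤ)`-translates of `φ`. -/
theorem heckeFun1_smul (φ : ℍ → ℂ) (γ : SL(2, ℤ)) :
    ∃ g : OnePoint (ZMod ℓ) → SL(2, ℤ), ∀ τ : ℍ,
      heckeFun1 M hℓ hℓM φ (γ • τ) = ∏ y : OnePoint (ZMod ℓ), φ (g y • tRep ℓ y • τ) := by
  have hγ : γ ∈ Gamma0 1 := by
    rw [Gamma0_mem]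
    exact Subsingleton.elim _ _
  obtain ⟨σ, g', -, hmul⟩ := exists_perm_T (N := 1) hℓ hℓ.not_dvd_one γ hγ
  refine ⟨fun y => sPt M hℓ hℓM (σ.symm y) * g' (σ.symm y), fun τ => ?_⟩
  unfold heckeFun1
  rw [← Equiv.prod_comp σ
    (fun y => φ ((sPt M hℓ hℓM (σ.symm y) * g' (σ.symm y)) • tRep ℓ y • τ))]
  refine Finset.prod_congr rfl fun x _ => ?_
  rw [Equiv.symm_apply_apply, rep1_smul]
  have h1 : tRep ℓ x • γ • τ = g' x • tRep ℓ (σ x) • τ := by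
    show tRep ℓ x • (Matrix.SpecialLinearGroup.mapGL ℝ γ) • τ
      = (Matrix.SpecialLinearGroup.mapGL ℝ (g' x)) • tRep ℓ (σ x) • τ
    rw [← mul_smul, ← mul_smul, hmul x]
  rw [h1, mul_smul]

omit [NeZero M] in
theorem T_mem_Gamma1 : ModularGroup.T ∈ Gamma1 M := by
  rw [Gamma1_mem]
  simp [ModularGroup.T]

omit [NeZero M] in
theorem conj_T_pow_mem_Gamma1 (γ : SL(2, ℤ)) :
    γ * ModularGroup.T ^ (M : ℤ) * γ⁻¹ ∈ Gamma1 M := by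
  have h1 : ModularGroup.T ^ (M : ℤ) ∈ CongruenceSubgroup.Gamma M := by
    simpa using ModularGroup_T_pow_mem_Gamma (M : ℤ) (M : ℤ) dvd_rfl
  have h2 := (Gamma_normal M).conj_mem _ h1 γ
  rw [Gamma1_mem]
  have h3 := Gamma_mem.mp h2
  exact ⟨h3.1, h3.2.2.2, h3.2.2.1⟩

omit [NeZero M] in
/-- A `Γ₁(M)`-invariant function has all its `SL(2,ℤ)`-translates `M`-periodic. -/
theorem smul_vadd_of_invariant1 {Φ : ℍ → ℂ}
    (hΦ : ∀ γ ∈ Gamma1 M, ∀ τ : ℍ, Φ (γ • τ) = Φ τ) (γ : SL(2, ℤ)) (τ : ℍ) :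
    Φ (γ • ((M : ℝ) +ᵥ τ)) = Φ (γ • τ) := by
  have h1 : ((M : ℝ) +ᵥ τ : ℍ) = ModularGroup.T ^ (M : ℤ) • τ := by
    rw [UpperHalfPlane.modular_T_zpow_smul, Int.cast_natCast]
  have h2 : γ • ModularGroup.T ^ (M : ℤ) • τ
      = (γ * ModularGroup.T ^ (M : ℤ) * γ⁻¹) • γ • τ := by
    rw [mul_smul, mul_smul, inv_smul_smul]
  rw [h1, h2]
  exact hΦ _ (conj_T_pow_mem_Gamma1 M γ) _

end Avatar

/-! ### Expansions -/

section Expansions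

variable {K : Type*} [Field K] [IsAlgClosed K] [CharZero K] (ι : K →+* ℂ)
variable (M : ℕ) [NeZero M] {ℓ : ℕ} [NeZero ℓ] (hℓ : ℓ.Prime) (hℓM : ¬ ℓ ∣ M)

/-- **The `q`-expansion of the avatar.**  If `φ` has `q`-expansion `f`, its diamond translate
`φ ∘ σ_ℓ` has `q`-expansion `g`, and the avatar is `1`-periodic, then the avatar has
`q`-expansion `heckeMul2 ℓ z f g`. -/
theorem hasQExpK_heckeMul2 {z : Kˣ} (hz : IsPrimitiveRoot z ℓ)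
    {f g : LaurentSeries K} {φ : ℍ → ℂ} (hf : HasQExpK ι 1 f φ)
    (hg : HasQExpK ι 1 g (fun τ => φ (sig M hℓ hℓM • τ)))
    (hper : ∀ τ : ℍ, heckeFun1 M hℓ hℓM φ ((1 : ℝ) +ᵥ τ) = heckeFun1 M hℓ hℓM φ τ) :
    HasQExpK ι 1 (CongrD.heckeMul2 ℓ hℓ.pos z f g) (heckeFun1 M hℓ hℓM φ) := by
  obtain ⟨ζ, hζprim, hζ⟩ := exists_unit_map_eq_exp ι (NeZero.ne ℓ)
  have hζ' : ι (ζ : K) = Complex.exp (2 * Real.pi * Complex.I / ((1 * ℓ : ℕ) : ℂ)) := by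
    rw [one_mul]
    exact hζ
  have h1 := hasQExpK_prod_tRep (ℓ := ℓ) one_ne_zero ζ hζ'
    (fun x : OnePoint (ZMod ℓ) => x.elim g (fun _ => f))
    (fun (x : OnePoint (ZMod ℓ)) (τ : ℍ) => φ (sPt M hℓ hℓM x • τ))
    (fun x => by
      induction x using OnePoint.rec with
      | infty => exact hg
      | coe j =>
        refine hf.congr fun τ => ?_
        show φ τ = φ (sPt M hℓ hℓM (j : OnePoint (ZMod ℓ)) • τ)
        rw [sPt_coe, one_smul])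
  have h2 : HasQExpK ι (1 * ℓ) (qExpand K ℓ (CongrD.heckeMul2 ℓ hℓ.pos ζ f g))
      (heckeFun1 M hℓ hℓM φ) := by
    rw [qExpand_heckeMul2 hℓ.pos hζprim,
      ← prod_zmod_val_eq_prod_range ℓ (fun i => scale (ζ ^ i) f)]
    refine h1.congr fun τ => ?_
    unfold heckeFun1
    simp only [rep1_smul]
  rw [one_mul] at h2
  obtain ⟨A', hA', hA'1⟩ := HasQExpK.exists_qExpand_of_periodic ζ hζ h2 hper
  have e : CongrD.heckeMul2 ℓ hℓ.pos ζ f g = A' := qExpand_injective ℓ hA'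
  rw [heckeMul2_eq_of_isPrimitiveRoot hℓ.pos hz hζprim, e]
  exact hA'1

/-- **Expansions at all cusps**: if all `SL(2,ℤ)`-translates of the `Γ₁(M)`-invariant function
`φ` have `q^(1/M)`-expansions, so do all `SL(2,ℤ)`-translates of its Hecke avatar. -/
theorem exists_hasQExpK_heckeFun1_smul {φ : ℍ → ℂ}
    (hinv : ∀ γ ∈ Gamma1 M, ∀ τ : ℍ, φ (γ • τ) = φ τ)
    (htr : ∀ γ : SL(2, ℤ), ∃ B : LaurentSeries K, HasQExpK ι M B (fun τ => φ (γ • τ)))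
    (γ : SL(2, ℤ)) :
    ∃ B : LaurentSeries K, HasQExpK ι M B (fun τ => heckeFun1 M hℓ hℓM φ (γ • τ)) := by
  obtain ⟨ζ, -, hζ⟩ := exists_unit_map_eq_exp ι (Nat.mul_ne_zero (NeZero.ne M) (NeZero.ne ℓ))
  obtain ⟨g, hg⟩ := heckeFun1_smul M hℓ hℓM φ γ
  choose B hB using fun y => htr (g y)
  have h1 := hasQExpK_prod_tRep (ℓ := ℓ) (NeZero.ne M) ζ hζ B
    (fun y τ => φ (g y • τ)) (fun y => hB y)
  have h2 : HasQExpK ι (M * ℓ) _ (fun τ => heckeFun1 M hℓ hℓM φ (γ • τ)) :=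
    h1.congr fun τ => (hg τ).symm
  have hΦinv : ∀ γ ∈ Gamma1 M, ∀ τ : ℍ,
      heckeFun1 M hℓ hℓM φ (γ • τ) = heckeFun1 M hℓ hℓM φ τ :=
    fun γ hγ τ => heckeFun1_smul_of_mem_Gamma1 M hℓ hℓM hinv γ hγ τ
  obtain ⟨A'', -, hA''⟩ := exists_hasQExpK_of_periodic (NeZero.ne M) ζ hζ h2
    (fun τ => smul_vadd_of_invariant1 M hΦinv γ τ)
  exact ⟨A'', hA''⟩

/-! ### The packaged statement -/

/-- `φ` is a **good avatar** of the `q`-series `f` for `Γ₁(M)`: it has the `q`-expansion `f`,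
is `Γ₁(M)`-invariant, and all its `SL(2, ℤ)`-translates have `K`-rational
`q^(1/M)`-expansions. -/
def IsGood1 (f : LaurentSeries K) (φ : ℍ → ℂ) : Prop :=
  HasQExpK ι 1 f φ ∧ (∀ γ ∈ Gamma1 M, ∀ τ : ℍ, φ (γ • τ) = φ τ) ∧
    ∀ γ : SL(2, ℤ), ∃ B : LaurentSeries K, HasQExpK ι M B (fun τ => φ (γ • τ))

/-- **Hecke preserves good series of `Γ₁(M)`**: if `φ` is a good avatar of `f` and the diamond
translate `φ ∘ σ_ℓ` has `q`-expansion `g`, then the Hecke avatar `heckeFun1 φ` is a good avatar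
of `heckeMul2 ℓ z f g`. -/
theorem isGood1_heckeMul2 {z : Kˣ} (hz : IsPrimitiveRoot z ℓ)
    {f g : LaurentSeries K} {φ : ℍ → ℂ} (hf : IsGood1 ι M f φ)
    (hg : HasQExpK ι 1 g (fun τ => φ (sig M hℓ hℓM • τ))) :
    IsGood1 ι M (CongrD.heckeMul2 ℓ hℓ.pos z f g) (heckeFun1 M hℓ hℓM φ) := by
  obtain ⟨hφ, hinv, htr⟩ := hf
  have hΦinv : ∀ γ ∈ Gamma1 M, ∀ τ : ℍ,
      heckeFun1 M hℓ hℓM φ (γ • τ) = heckeFun1 M hℓ hℓM φ τ :=
    fun γ hγ τ => heckeFun1_smul_of_mem_Gamma1 M hℓ hℓM hinv γ hγ τ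
  have hΦper : ∀ τ : ℍ, heckeFun1 M hℓ hℓM φ ((1 : ℝ) +ᵥ τ) = heckeFun1 M hℓ hℓM φ τ :=
    fun τ => by
      rw [← UpperHalfPlane.modular_T_smul]
      exact hΦinv _ (T_mem_Gamma1 M) τ
  exact ⟨hasQExpK_heckeMul2 ι M hℓ hℓM hz hφ hg hΦper, hΦinv,
    exists_hasQExpK_heckeFun1_smul ι M hℓ hℓM hinv htr⟩

/-- The Hecke avatar of a good avatar is holomorphic. -/
theorem mdiff_heckeFun1 {z : Kˣ} (hz : IsPrimitiveRoot z ℓ)
    {f g : LaurentSeries K} {φ : ℍ → ℂ} (hf : IsGood1 ι M f φ)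
    (hg : HasQExpK ι 1 g (fun τ => φ (sig M hℓ hℓM • τ))) :
    MDiff (heckeFun1 M hℓ hℓM φ) :=
  (isGood1_heckeMul2 ι M hℓ hℓM hz hf hg).1.mdiff one_ne_zero

end Expansions

end Fermat.Agent.S48.G1.F1.HeckeMem
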