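/-
PROGRAM DS (S48) / G1, AREA F, row F.4 (Closed1), piece (M1) MEMBERSHIP, layer (B) (helper103).

`T_ℓ` (with diamond) preserves the function field `F1 M` of `Γ₁(M)`:

    heckeSeries1 O hℓ hℓM x ∈ F1 M      for every `x : F1 M`, every `O : Objs M`,

from ONE external input, the "invariant ⇒ in `F1 M`" exit of row F.2 (`hinvF1`, literal of
`Invariant1.mem_F1_of_invariant`): a `ℚ̄`-series which is the `q`-expansion of a holomorphic
`Γ₁(M)`-invariant function of moderate growth at all cusps lies in `F1 M`.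

Route (no expansion at any other cusp): for `a : A01 M` with avatar `W = O.θ a`, the avatar of the
Hecke series of `a` is `heckeHolF1 W = ∏_x W ∘ rep1 x` (product over the `ℓ + 1` representatives
of `T_ℓ` on `Γ₁(M)`):

* `q`-expansion: `HeckeMem.hasQExpK_heckeMul2` (layer (A)), with `O.dia_spec` at `γ = σ_ℓ`;
* `Γ₁(M)`-invariance: `HeckeMem.heckeFun1_smul_of_mem_Gamma1`;
* moderate growth: `HeckeMem.heckeFun1_smul` + `modAt_comp_tRep` (growth of `ψ(ℓτ)`,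
  `ψ((τ+j)/ℓ)`).

The passage from `A01 M` to its fraction field `F1 M` is the multiplicativity of `heckeMul2`.
-/
import Mathlib
import Fermat.Agent.S48.G1.F1.HeckeMem
import Fermat.Agent.S48.G1.F1.GrowthG
import Fermat.Agent.S48.G1.Producer1.Objects1
import Fermat.Agent.S30.KummerHecke

set_option autoImplicit false

noncomputable section

open UpperHalfPlane ModularForm Complex HahnSeries ModularCurve CongruenceSubgroup
open scoped MatrixGroups Manifold Real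

namespace Fermat.Agent.S48.G1.F1.HeckeMemF1

open Fermat.Agent.S24.HolH Fermat.Agent.S24.Theta Fermat.Agent.S24.Degree
open Fermat.Agent.S22.HeckePerm (tRep tRep_infty tRep_coe)
open Fermat.Agent.S48.Betti1 (rep1)
open Fermat.Agent.S48.G1.Gamma1Coset (sPt sig sig_mem sig_entry)
open Fermat.Agent.S30.KummerHecke (compRep compRep_apply)
open Fermat.Agent.S48.G1.F1.HeckeMem
open Fermat.Agent.S48.G1.Producer1

local notation "𝕢" => Function.Periodic.qParam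

/-! ### Moderate growth of Hecke translates -/

/-- Moderate growth is preserved by a substitution which multiplies imaginary parts by a
constant `c > 0`. -/
theorem modAt_comp_of_im {s : ℍ → ℍ} {c : ℝ} (hc : 0 < c) (hs : ∀ τ : ℍ, (s τ).im = c * τ.im)
    {ψ : ℍ → ℂ} (h : ModAt ψ) : ModAt (fun τ => ψ (s τ)) := by
  obtain ⟨m, hm⟩ := h
  rw [UpperHalfPlane.isBoundedAtImInfty_iff] at hm
  obtain ⟨C, A, hCA⟩ := hm
  obtain ⟨m', hm'⟩ := exists_nat_ge (c * m)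
  refine ⟨m', ?_⟩
  rw [UpperHalfPlane.isBoundedAtImInfty_iff]
  refine ⟨C, A / c, fun z hz => ?_⟩
  have hz0 : 0 < z.im := z.im_pos
  have hA : A ≤ (s z).im := by
    rw [hs z]
    calc A = A / c * c := by field_simp
      _ ≤ z.im * c := mul_le_mul_of_nonneg_right hz hc.le
      _ = c * z.im := mul_comm _ _
  have h1 := hCA (s z) hA
  have h2 : Real.exp (-2 * π * z.im) ^ m' ≤ Real.exp (-2 * π * (s z).im) ^ m := by
    rw [← Real.exp_nat_mul, ← Real.exp_nat_mul, hs z]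
    apply Real.exp_le_exp.mpr
    have hπ := Real.pi_pos
    have h3 : c * m * z.im ≤ m' * z.im := mul_le_mul_of_nonneg_right hm' hz0.le
    nlinarith
  rw [norm_mul, norm_pow, norm_qParam_eq] at h1 ⊢
  calc Real.exp (-2 * π * z.im) ^ m' * ‖ψ (s z)‖
      ≤ Real.exp (-2 * π * (s z).im) ^ m * ‖ψ (s z)‖ :=
        mul_le_mul_of_nonneg_right h2 (norm_nonneg _)
    _ ≤ C := h1

theorem im_heckeDiagMatrix_smul {ℓ : ℕ} (hℓ : ℓ ≠ 0) (τ : ℍ) :
    (heckeDiagMatrix ℓ • τ).im = ℓ * τ.im := by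
  rw [← UpperHalfPlane.coe_im, coe_heckeDiagMatrix_smul hℓ]
  simp

theorem im_heckeMatrix_smul {ℓ : ℕ} (hℓ : ℓ ≠ 0) (j : ℕ) (τ : ℍ) :
    (heckeMatrix ℓ j • τ).im = (ℓ : ℝ)⁻¹ * τ.im := by
  rw [← UpperHalfPlane.coe_im, coe_heckeMatrix_smul hℓ]
  simp [Complex.div_natCast_im]
  ring

/-- Moderate growth is preserved by the Hecke substitutions `τ ↦ ℓτ`, `τ ↦ (τ + j) / ℓ`. -/
theorem modAt_comp_tRep {ℓ : ℕ} [NeZero ℓ] (x : OnePoint (ZMod ℓ)) {ψ : ℍ → ℂ} (h : ModAt ψ) :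
    ModAt (fun τ => ψ (tRep ℓ x • τ)) := by
  have hℓ : ℓ ≠ 0 := NeZero.ne ℓ
  have hℓ0 : (0 : ℝ) < ℓ := by exact_mod_cast Nat.pos_of_ne_zero hℓ
  induction x using OnePoint.rec with
  | infty =>
    rw [tRep_infty]
    exact modAt_comp_of_im hℓ0 (im_heckeDiagMatrix_smul hℓ) h
  | coe j =>
    rw [tRep_coe]
    exact modAt_comp_of_im (inv_pos.mpr hℓ0) (im_heckeMatrix_smul hℓ j.val) h

/-- A finite product of functions of moderate growth has moderate growth. -/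
theorem modAt_prod {κ : Type*} (s : Finset κ) (F : κ → ℍ → ℂ) (h : ∀ i ∈ s, ModAt (F i)) :
    ModAt (fun τ => ∏ i ∈ s, F i τ) := by
  classical
  induction s using Finset.induction_on with
  | empty => simpa using modAt_const 1
  | insert a s ha ih =>
    have h1 : ModAt (F a) := h a (Finset.mem_insert_self a s)
    have h2 := ih fun i hi => h i (Finset.mem_insert_of_mem hi)
    refine (h1.mul h2).congr fun τ => ?_
    rw [Finset.prod_insert ha]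

/-! ### The Hecke operator with diamond on holomorphic functions -/

section Hol

variable (M : ℕ) [NeZero M] {ℓ : ℕ} [NeZero ℓ] (hℓ : ℓ.Prime) (hℓM : ¬ ℓ ∣ M)

/-- The multiplicative Hecke operator of `Γ₁(M)` on holomorphic functions:
`H ↦ (τ ↦ ∏_x H (rep1 x • τ)) = (H ∘ σ_ℓ)(ℓτ) · ∏_{j<ℓ} H((τ + j)/ℓ)`. -/
def heckeHolF1 (H : HolH) : HolH :=
  ∏ x : OnePoint (ZMod ℓ), compRep ℓ x (compSL (sPt M hℓ hℓM x) H)

theorem heckeHolF1_apply (H : HolH) (τ : ℍ) :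
    (heckeHolF1 M hℓ hℓM H : ℍ → ℂ) τ = heckeFun1 M hℓ hℓM (H : ℍ → ℂ) τ := by
  show ((∏ x : OnePoint (ZMod ℓ), compRep ℓ x (compSL (sPt M hℓ hℓM x) H) : HolH) : ℍ → ℂ) τ = _
  rw [SubmonoidClass.coe_finsetProd, Finset.prod_apply, heckeFun1_def]
  refine Finset.prod_congr rfl fun x _ => ?_
  rw [compRep_apply, compSL_apply, rep1_smul]

theorem coe_heckeHolF1 (H : HolH) :
    (heckeHolF1 M hℓ hℓM H : ℍ → ℂ) = heckeFun1 M hℓ hℓM (H : ℍ → ℂ) :=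
  funext (heckeHolF1_apply M hℓ hℓM H)

/-- `heckeHolF1 H` is `Γ₁(M)`-invariant if `H` is. -/
theorem compSL_heckeHolF1 {H : HolH} (hH : ∀ γ ∈ Gamma1 M, compSL γ H = H)
    (γ : SL(2, ℤ)) (hγ : γ ∈ Gamma1 M) :
    compSL γ (heckeHolF1 M hℓ hℓM H) = heckeHolF1 M hℓ hℓM H := by
  apply Subtype.ext
  funext τ
  show (heckeHolF1 M hℓ hℓM H : ℍ → ℂ) (γ • τ) = (heckeHolF1 M hℓ hℓM H : ℍ → ℂ) τ
  rw [heckeHolF1_apply, heckeHolF1_apply]
  refine heckeFun1_smul_of_mem_Gamma1 M hℓ hℓM (fun g hg τ' => ?_) γ hγ τ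
  have h := congrArg (fun F : HolH => (F : ℍ → ℂ) τ') (hH g hg)
  exact h

/-- `heckeHolF1 H` has moderate growth at all cusps if `H` has. -/
theorem heckeHolF1_mem_cuspMod {H : HolH} (hH : H ∈ cuspMod) :
    heckeHolF1 M hℓ hℓM H ∈ cuspMod := by
  intro g
  obtain ⟨g', hg'⟩ := heckeFun1_smul M hℓ hℓM (H : ℍ → ℂ) g
  have h1 : ModAt (fun τ => ∏ y : OnePoint (ZMod ℓ), (H : ℍ → ℂ) (g' y • tRep ℓ y • τ)) :=
    modAt_prod Finset.univ (fun y τ => (H : ℍ → ℂ) (g' y • tRep ℓ y • τ))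
      fun y _ => modAt_comp_tRep y (ψ := fun τ => (H : ℍ → ℂ) (g' y • τ)) (hH (g' y))
  refine h1.congr fun τ => ?_
  rw [heckeHolF1_apply, hg']

end Hol

/-! ### Membership -/

section Mem

variable {M : ℕ} [NeZero M] (O : Objs M)

theorem heckeSeries1_mul' {ℓ : ℕ} (hℓ : ℓ.Prime) (hℓM : ¬ ℓ ∣ M) (f g : F1 M) :
    heckeSeries1 O hℓ hℓM (f * g) = heckeSeries1 O hℓ hℓM f * heckeSeries1 O hℓ hℓM g := by
  unfold heckeSeries1
  rw [map_mul]
  exact Fermat.Agent.S48.CongrD.heckeMul2_mul ℓ hℓ.pos (zetaL ℓ)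
    (Fermat.Agent.S30.Producer.zeta_spec hℓ.pos) _ _ _ _

theorem heckeSeries1_one' {ℓ : ℕ} (hℓ : ℓ.Prime) (hℓM : ¬ ℓ ∣ M) :
    heckeSeries1 O hℓ hℓM (1 : F1 M) = 1 := by
  unfold heckeSeries1
  rw [map_one]
  exact Fermat.Agent.S48.CongrD.heckeMul2_one ℓ hℓ.pos (zetaL ℓ)

theorem heckeSeries1_ne_zero' {ℓ : ℕ} (hℓ : ℓ.Prime) (hℓM : ¬ ℓ ∣ M) {f : F1 M} (hf : f ≠ 0) :
    heckeSeries1 O hℓ hℓM f ≠ 0 := by
  intro h0
  have h1 := heckeSeries1_mul' O hℓ hℓM f f⁻¹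
  rw [mul_inv_cancel₀ hf, heckeSeries1_one', h0, zero_mul] at h1
  exact one_ne_zero h1

/-- **The `q`-expansion of the Hecke avatar**: `heckeHolF1 (θ a)` has `q`-expansion the Hecke
series of `a`, for every `a : A01 M`. -/
theorem hasQ_heckeHolF1 {ℓ : ℕ} [NeZero ℓ] (hℓ : ℓ.Prime) (hℓM : ¬ ℓ ∣ M) (a : A01 M) :
    HasQ iotaBar (heckeSeries1 O hℓ hℓM (a : F1 M))
      (heckeHolF1 M hℓ hℓM (O.θ a) : ℍ → ℂ) := by
  obtain ⟨y, hy, hθy⟩ := O.dia_spec (unitL hℓ hℓM) a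
  have hσ : O.θ y = compSL (sig M hℓ hℓM) (O.θ a) :=
    hθy (sig M hℓ hℓM) (sig_mem M hℓ hℓM) (by
      rw [sig_entry]
      exact (Fermat.Agent.S48.Hecke1.coe_primeUnit hℓ hℓM).symm)
  have hf : Fermat.Agent.S24.QB.HasQExpK iotaBar 1 (((a : F1 M) : LaurentSeries Qb))
      ((O.θ a : HolH) : ℍ → ℂ) := hasQ_iff_hasQExpK.mp (O.hasQ a)
  have hg : Fermat.Agent.S24.QB.HasQExpK iotaBar 1 (((y : F1 M) : LaurentSeries Qb))
      (fun τ => ((O.θ a : HolH) : ℍ → ℂ) (sig M hℓ hℓM • τ)) := by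
    have h := hasQ_iff_hasQExpK.mp (O.hasQ y)
    rw [hσ] at h
    exact h
  have hinv : ∀ γ ∈ Gamma1 M, ∀ τ : ℍ,
      ((O.θ a : HolH) : ℍ → ℂ) (γ • τ) = ((O.θ a : HolH) : ℍ → ℂ) τ := by
    intro γ hγ τ
    have h := congrArg (fun F : HolH => (F : ℍ → ℂ) τ) (O.inv γ hγ a)
    exact h
  have hper : ∀ τ : ℍ, heckeFun1 M hℓ hℓM ((O.θ a : HolH) : ℍ → ℂ) ((1 : ℝ) +ᵥ τ)
      = heckeFun1 M hℓ hℓM ((O.θ a : HolH) : ℍ → ℂ) τ := fun τ => by
    rw [← UpperHalfPlane.modular_T_smul]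
    exact heckeFun1_smul_of_mem_Gamma1 M hℓ hℓM hinv _ (T_mem_Gamma1 M) τ
  have hQ := hasQExpK_heckeMul2 iotaBar M hℓ hℓM
    (Fermat.Agent.S30.Producer.zeta_spec hℓ.pos) hf hg hper
  rw [hasQ_iff_hasQExpK, coe_heckeHolF1]
  unfold heckeSeries1
  rw [hy]
  exact hQ

variable (hmod : ∀ x : A01 M, O.θ x ∈ cuspMod)
variable (hinvF1 : ∀ (f : LaurentSeries Qb) (φ : HolH), HasQ iotaBar f (φ : ℍ → ℂ) →
    (∀ γ ∈ Gamma1 M, compSL γ φ = φ) → φ ∈ cuspMod → f ∈ F1 M)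

include hmod hinvF1 in
/-- Membership for the coordinate ring. -/
theorem heckeSeries1_coe_mem {ℓ : ℕ} (hℓ : ℓ.Prime) (hℓM : ¬ ℓ ∣ M) (a : A01 M) :
    heckeSeries1 O hℓ hℓM (a : F1 M) ∈ F1 M := by
  haveI : NeZero ℓ := ⟨hℓ.ne_zero⟩
  exact hinvF1 _ (heckeHolF1 M hℓ hℓM (O.θ a)) (hasQ_heckeHolF1 O hℓ hℓM a)
    (compSL_heckeHolF1 M hℓ hℓM fun γ hγ => O.inv γ hγ a)
    (heckeHolF1_mem_cuspMod M hℓ hℓM (hmod a))

include hmod hinvF1 in
/-- **(M1) `T_ℓ` preserves `F1 M`**, from the "invariant ⇒ in `F1 M`" exit of row F.2 and the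
moderate growth of the avatars. -/
theorem heckeSeries1_mem_of_inv {ℓ : ℕ} (hℓ : ℓ.Prime) (hℓM : ¬ ℓ ∣ M) (x : F1 M) :
    heckeSeries1 O hℓ hℓM x ∈ F1 M := by
  obtain ⟨a, b, hb, hab⟩ := exists_mul_eq x
  have h1 := heckeSeries1_mul' O hℓ hℓM x (b : F1 M)
  rw [hab] at h1
  have hb' := heckeSeries1_ne_zero' O hℓ hℓM hb
  have h2 : heckeSeries1 O hℓ hℓM x
      = heckeSeries1 O hℓ hℓM (a : F1 M) / heckeSeries1 O hℓ hℓM (b : F1 M) := by
    rw [h1, mul_div_cancel_right₀ _ hb']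
  rw [h2]
  exact (F1 M).div_mem (heckeSeries1_coe_mem O hmod hinvF1 hℓ hℓM a)
    (heckeSeries1_coe_mem O hmod hinvF1 hℓ hℓM b)

omit hmod in
include hinvF1 in
/-- **(M1) `T_ℓ` preserves `F1 M`** (`2 ≤ M`, arbitrary `O : Objs M`), from the
"invariant ⇒ in `F1 M`" exit of row F.2 alone. -/
theorem heckeSeries1_mem (hM : 2 ≤ M) {ℓ : ℕ} (hℓ : ℓ.Prime) (hℓM : ¬ ℓ ∣ M) (x : F1 M) :
    heckeSeries1 O hℓ hℓM x ∈ F1 M := by
  refine heckeSeries1_mem_of_inv O (fun a => ?_) hinvF1 hℓ hℓM x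
  rw [← Theta1.theta1_eq_of_hasQ hM (O.hasQ a)]
  exact GrowthG.theta1_mem_cuspMod iotaBar hM a

end Mem

end Fermat.Agent.S48.G1.F1.HeckeMemF1
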