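import Mathlib
import Fermat.Agent.S48.G1.F1.ClosedOfMem
import Fermat.Agent.S48.G1.F1.Degree1
import Fermat.Agent.S48.G1.F1.Invariant1
import Fermat.Agent.S48.G1.F1.HeckeMemF1
import Fermat.Agent.S48.G1.Producer1.Model1

/-!
# S48 / G1 / F.4: the assembly of `Bricks1.Closed1` (helper130)

`Bricks1.Closed1 O` for an arbitrary `O : Producer1.Objs M`, `2 ≤ M`:

* `closed1_of_hmem`     : from the membership of the Hecke series alone
  (`ClosedOfMem.closed1_of_mem` with the transcendence degree `Degree1.trdeg_F1`);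
* `hinvF1`              : the (F-2) input `Invariant1.mem_F1_of_invariant` at `ι = iotaBar`, in the
  literal shape consumed by the membership theorem of the Hecke series;
* `closed1_of_heckeMem` : from the membership theorem of the Hecke series stated relative to
  "invariant ⇒ member" (the literal of `HeckeMemF1.heckeSeries1_mem`);
* `heckeSeries1_mem`    : the Hecke series of every `x : F1 M` lies in `F1 M`
  (`HeckeMemF1.heckeSeries1_mem` with `hinvF1`);
* **`closed1`**         : THE EXIT of row F.4, `Bricks1.Closed1 O`, no hypothesis besides `2 ≤ M`;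
* `closed1_objs1`       : the same at the concrete objects `Producer1.objs1 M hM`.
-/

set_option autoImplicit false

noncomputable section

open UpperHalfPlane ModularCurve CongruenceSubgroup
open scoped MatrixGroups
open Fermat.Agent.S24.HolH Fermat.Agent.S24.Theta Fermat.Agent.S24.Degree
open Fermat.Agent.S48.G1.F1

namespace Fermat.Agent.S48.G1.F1.ClosedInst

/-- **F.4**: `Bricks1.Closed1 O` from the membership of the Hecke series in `F1 M` (`2 ≤ M`). -/
theorem closed1_of_hmem (M : ℕ) (hM : 2 ≤ M) (O : Fermat.Agent.S48.G1.Producer1.Objs M)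
    (hmem : ∀ (ℓ : ℕ) (hℓ : ℓ.Prime) (hℓM : ¬ ℓ ∣ M) (x : F1 M),
      Fermat.Agent.S48.G1.Producer1.heckeSeries1 O hℓ hℓM x ∈ F1 M) :
    Fermat.Agent.S48.G1.Producer1.Bricks1.Closed1 O :=
  Fermat.Agent.S48.G1.F1.ClosedOfMem.closed1_of_mem M O
    (Fermat.Agent.S48.G1.F1.Degree1.trdeg_F1 hM) hmem

/-- (F-2) "invariant ⇒ member" at `ι = iotaBar`. -/
theorem hinvF1 {M : ℕ} (hM : 2 ≤ M) :
    ∀ (f : LaurentSeries Qb) (φ : HolH), HasQ iotaBar f (φ : ℍ → ℂ) →
      (∀ γ ∈ Gamma1 M, compSL γ φ = φ) → φ ∈ cuspMod → f ∈ F1 M :=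
  fun f φ hf hinv hmod =>
    Fermat.Agent.S48.G1.F1.Invariant1.mem_F1_of_invariant iotaBar hM f φ hf hinv hmod

/-- **F.4**: `Bricks1.Closed1 O` from the membership theorem of the Hecke series relative to
"invariant ⇒ member". -/
theorem closed1_of_heckeMem (M : ℕ) (hM : 2 ≤ M) (O : Fermat.Agent.S48.G1.Producer1.Objs M)
    (H : (∀ (f : LaurentSeries Qb) (φ : HolH), HasQ iotaBar f (φ : ℍ → ℂ) →
        (∀ γ ∈ Gamma1 M, compSL γ φ = φ) → φ ∈ cuspMod → f ∈ F1 M) →
      ∀ (ℓ : ℕ) (hℓ : ℓ.Prime) (hℓM : ¬ ℓ ∣ M) (x : F1 M),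
        Fermat.Agent.S48.G1.Producer1.heckeSeries1 O hℓ hℓM x ∈ F1 M) :
    Fermat.Agent.S48.G1.Producer1.Bricks1.Closed1 O :=
  closed1_of_hmem M hM O (H (hinvF1 hM))

/-- **(M1)** The Hecke series of every element of `F1 M` lies in `F1 M` (`2 ≤ M`, any `O`). -/
theorem heckeSeries1_mem (M : ℕ) [NeZero M] (hM : 2 ≤ M)
    (O : Fermat.Agent.S48.G1.Producer1.Objs M) (ℓ : ℕ) (hℓ : ℓ.Prime) (hℓM : ¬ ℓ ∣ M)
    (x : F1 M) : Fermat.Agent.S48.G1.Producer1.heckeSeries1 O hℓ hℓM x ∈ F1 M :=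
  Fermat.Agent.S48.G1.F1.HeckeMemF1.heckeSeries1_mem (O := O) (hinvF1 := hinvF1 hM) hM hℓ hℓM x

/-- **Row F.4, THE EXIT**: for `2 ≤ M` and every `O : Objs M`, the multiplicative Hecke operators
with diamond preserve `F1 M` and `m ∣ div` (`Bricks1.Closed1 O`). -/
theorem closed1 (M : ℕ) [NeZero M] (hM : 2 ≤ M) (O : Fermat.Agent.S48.G1.Producer1.Objs M) :
    Fermat.Agent.S48.G1.Producer1.Bricks1.Closed1 O :=
  closed1_of_hmem M hM O (heckeSeries1_mem M hM O)

/-- Row F.4 at the concrete objects. -/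
theorem closed1_objs1 (M : ℕ) [NeZero M] (hM : 2 ≤ M) :
    Fermat.Agent.S48.G1.Producer1.Bricks1.Closed1
      (Fermat.Agent.S48.G1.Producer1.objs1 M hM) :=
  closed1 M hM _

end Fermat.Agent.S48.G1.F1.ClosedInst
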