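import Mathlib
import Fermat.Agent.S24.HolHOrd
import Fermat.Agent.S30.KummerChar.Basic

/-!
# G1 (S48), AREA F, row F.5 (d): the Kummer converse, generic form (helper250)

Generic twin of `S30/KummerConverse` (which is typed to `Γ₀(N)`, `FN N`, `A0 N`).

Setting: `F/K` a function field, `F₀ ⊆ F` a `K`-subalgebra with a ring homomorphism
`θ : F₀ →+* HolH` (the analytic avatar), invariant under a subgroup `Γ ≤ SL(2, ℤ)`
(the unbundled fields of `PlaceFinGen.ThetaDataG`).  Let `a b : F₀` be nonzero and `H` a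
holomorphic `m`-th root of `θ a * θ b ^ (m - 1)`.

* `dvd_ord_sub_of_point` : if the place `v` is the place of a point `τ ∈ ℍ` (orders of `θ f` at
  `τ` are `κ · ord_v f`, and `κ` divides the order at `τ` of every nonzero holomorphic function
  invariant under some `σ ∈ Γ` fixing `τ`) and the multipliers of `H` are trivial on the elements
  of `Γ` with a fixed point, then `m ∣ ord_v a - ord_v b`.
  The hypothesis `hpt` is the exit of `PlaceFinGen.exists_point_of_place` at `v`.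
* `dvd_ord_sub_of_root` : the assembly with the cusp half (`PlaceCuspGen.dvd_ord_sub_of_cusp`).
* `divBy_of_root` : the `DivBy` form for `f = a / b`.
* `dvd_sub_of_mul_eq'` : the arithmetic step common to points and cusps.

No level, no `Γ₀`/`Γ₁`, no `F1 M` in the types.
-/

set_option autoImplicit false

noncomputable section

open scoped MatrixGroups
open AlgebraicCurve UpperHalfPlane
open Fermat.Agent.S24.HolH Fermat.Agent.S30.KummerChar

namespace Fermat.Agent.S48.G1.ConverseGen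

/-- The arithmetic step common to points and cusps: if `κ ∣ o` and
`m * o = κ * va + (m - 1) * (κ * vb)` then `m ∣ va - vb`. -/
theorem dvd_sub_of_mul_eq' {m κ : ℕ} (hm : 0 < m) (hκ : 0 < κ) {o va vb : ℤ}
    (hdiv : (κ : ℤ) ∣ o)
    (h : (m : ℤ) * o = κ * va + ((m - 1 : ℕ) : ℤ) * (κ * vb)) : (m : ℤ) ∣ va - vb := by
  obtain ⟨t, rfl⟩ := hdiv
  have hκ' : (κ : ℤ) ≠ 0 := by exact_mod_cast hκ.ne'
  have hm1 : ((m - 1 : ℕ) : ℤ) = (m : ℤ) - 1 := by
    rw [Nat.cast_sub hm, Nat.cast_one]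
  rw [hm1] at h
  have h2 : (m : ℤ) * t = va + ((m : ℤ) - 1) * vb := by
    apply mul_left_cancel₀ hκ'
    linear_combination h
  exact ⟨t - vb, by linear_combination (-1 : ℤ) * h2⟩

/-- The order at a point of a power. -/
theorem ordZ_pow' (τ : ℍ) {f : HolH} (hf : f ≠ 0) (n : ℕ) :
    ordZ τ (f ^ n) = n * ordZ τ f := by
  induction n with
  | zero => simp [ordZ_one]
  | succ n ih =>
    rw [pow_succ, ordZ_mul τ (pow_ne_zero n hf) hf, ih]
    push_cast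
    ring

variable {K F : Type*} [Field K] [Field F] [Algebra K F]

section Converse

variable (Γ : Subgroup SL(2, ℤ)) (F₀ : Subalgebra K F) (θ : F₀ →+* HolH)

/-- A holomorphic `m`-th root of `θ a * θ b ^ (m - 1)` (`a, b ≠ 0`) is nonzero. -/
theorem root_ne_zero (θ_inj : Function.Injective θ) {m : ℕ} (hm : 0 < m) {a b : F₀}
    (ha : a ≠ 0) (hb : b ≠ 0) {H : HolH} (h : H ^ m = θ a * θ b ^ (m - 1)) : H ≠ 0 := by
  rintro rfl
  rw [zero_pow hm.ne'] at h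
  have ha' : θ a ≠ 0 := (map_ne_zero_iff θ θ_inj).mpr ha
  have hb' : θ b ≠ 0 := (map_ne_zero_iff θ θ_inj).mpr hb
  exact mul_ne_zero ha' (pow_ne_zero _ hb') h.symm

/-- A holomorphic `m`-th root of `θ a * θ b ^ (m - 1)` is an eigenfunction of every element of
`Γ`. -/
theorem root_isEig (θ_inv : ∀ g ∈ Γ, ∀ f : F₀, compSL g (θ f) = θ f) {m : ℕ} (hm : 0 < m)
    {a b : F₀} {H : HolH} (h : H ^ m = θ a * θ b ^ (m - 1)) {γ : SL(2, ℤ)} (hγ : γ ∈ Γ) :
    IsEig γ H := by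
  apply isEig_of_pow hm
  rw [h, map_mul, map_pow, θ_inv γ hγ a, θ_inv γ hγ b]

/-- **Finite places (generic).**  If `v` is the place of a point `τ` of `ℍ` in the sense of
`hpt` (= the exit of `PlaceFinGen.exists_point_of_place`), and the multipliers of the root `H`
are trivial on the elements of `Γ` with a fixed point in `ℍ`, then `m ∣ ord_v a - ord_v b`. -/
theorem dvd_ord_sub_of_point (θ_inj : Function.Injective θ)
    (θ_inv : ∀ g ∈ Γ, ∀ f : F₀, compSL g (θ f) = θ f)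
    {m : ℕ} (hm : 0 < m) {a b : F₀} (ha : a ≠ 0) (hb : b ≠ 0) {H : HolH}
    (h : H ^ m = θ a * θ b ^ (m - 1))
    (hell : ∀ γ ∈ Γ, (∃ τ : ℍ, γ • τ = τ) → mult γ H = 1)
    (v : Place K F)
    (hpt : ∃ (τ : ℍ) (κ : ℕ) (σ : SL(2, ℤ)), 0 < κ ∧ σ ∈ Γ ∧ σ • τ = τ ∧
      (∀ f : F₀, f ≠ 0 → ordZ τ (θ f) = κ * v.ord (f : F)) ∧
      (∀ H : HolH, H ≠ 0 → compSL σ H = H → (κ : ℤ) ∣ ordZ τ H)) :
    (m : ℤ) ∣ v.ord (a : F) - v.ord (b : F) := by
  obtain ⟨τ, κ, σ, hκ, hσ, hστ, hf, hHdiv⟩ := hpt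
  have hH0 : H ≠ 0 := root_ne_zero F₀ θ θ_inj hm ha hb h
  have ha' : θ a ≠ 0 := (map_ne_zero_iff θ θ_inj).mpr ha
  have hb' : θ b ≠ 0 := (map_ne_zero_iff θ θ_inj).mpr hb
  have hinv : compSL σ H = H := by
    have h1 := (root_isEig Γ F₀ θ θ_inv hm h hσ).compSL_eq
    rw [hell σ hσ ⟨τ, hστ⟩, map_one, one_mul] at h1
    exact h1
  have hord : (m : ℤ) * ordZ τ H = ordZ τ (θ a) + ((m - 1 : ℕ) : ℤ) * ordZ τ (θ b) := by
    have h1 := congrArg (ordZ τ) h
    rw [ordZ_pow' τ hH0, ordZ_mul τ ha' (pow_ne_zero _ hb'), ordZ_pow' τ hb'] at h1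
    exact h1
  rw [hf a ha, hf b hb] at hord
  exact dvd_sub_of_mul_eq' hm hκ (hHdiv H hH0 hinv) hord

/-- **Kummer converse (generic assembly).**  From the point dictionary at the places where `jF`
is regular (`hfin`, the exit of `PlaceFinGen.exists_point_of_place`) and the cusp half (`hcusp`,
the exit of `PlaceCuspGen.dvd_ord_sub_of_cusp`): `m ∣ ord_v a - ord_v b` at every place. -/
theorem dvd_ord_sub_of_root (jF : F) (θ_inj : Function.Injective θ)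
    (θ_inv : ∀ g ∈ Γ, ∀ f : F₀, compSL g (θ f) = θ f)
    {m : ℕ} (hm : 0 < m) {a b : F₀} (ha : a ≠ 0) (hb : b ≠ 0) {H : HolH}
    (h : H ^ m = θ a * θ b ^ (m - 1))
    (hell : ∀ γ ∈ Γ, (∃ τ : ℍ, γ • τ = τ) → mult γ H = 1)
    (hfin : ∀ v : Place K F, 0 ≤ v.ord jF →
      ∃ (τ : ℍ) (κ : ℕ) (σ : SL(2, ℤ)), 0 < κ ∧ σ ∈ Γ ∧ σ • τ = τ ∧
        (∀ f : F₀, f ≠ 0 → ordZ τ (θ f) = κ * v.ord (f : F)) ∧
        (∀ H : HolH, H ≠ 0 → compSL σ H = H → (κ : ℤ) ∣ ordZ τ H))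
    (hcusp : ∀ v : Place K F, v.ord jF < 0 → (m : ℤ) ∣ v.ord (a : F) - v.ord (b : F))
    (v : Place K F) : (m : ℤ) ∣ v.ord (a : F) - v.ord (b : F) := by
  rcases lt_or_ge (v.ord jF) 0 with hv | hv
  · exact hcusp v hv
  · exact dvd_ord_sub_of_point Γ F₀ θ θ_inj θ_inv hm ha hb h hell v (hfin v hv)

/-- **`DivBy` form of the Kummer converse**, for `f = a / b`. -/
theorem divBy_of_root (jF : F) (θ_inj : Function.Injective θ)
    (θ_inv : ∀ g ∈ Γ, ∀ f : F₀, compSL g (θ f) = θ f)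
    {m : ℕ} (hm : 0 < m) {a b : F₀} (ha : a ≠ 0) (hb : b ≠ 0) {H : HolH}
    (h : H ^ m = θ a * θ b ^ (m - 1))
    (hell : ∀ γ ∈ Γ, (∃ τ : ℍ, γ • τ = τ) → mult γ H = 1)
    (hfin : ∀ v : Place K F, 0 ≤ v.ord jF →
      ∃ (τ : ℍ) (κ : ℕ) (σ : SL(2, ℤ)), 0 < κ ∧ σ ∈ Γ ∧ σ • τ = τ ∧
        (∀ f : F₀, f ≠ 0 → ordZ τ (θ f) = κ * v.ord (f : F)) ∧
        (∀ H : HolH, H ≠ 0 → compSL σ H = H → (κ : ℤ) ∣ ordZ τ H))
    (hcusp : ∀ v : Place K F, v.ord jF < 0 → (m : ℤ) ∣ v.ord (a : F) - v.ord (b : F))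
    (f : F) (hab : f * (b : F) = (a : F)) (v : Place K F) : (m : ℤ) ∣ v.ord f := by
  have hb' : (b : F) ≠ 0 := fun h0 => hb (Subtype.ext h0)
  have ha' : (a : F) ≠ 0 := fun h0 => ha (Subtype.ext h0)
  have hf : f ≠ 0 := by
    rintro rfl
    rw [zero_mul] at hab
    exact ha' hab.symm
  have h1 := dvd_ord_sub_of_root Γ F₀ θ jF θ_inj θ_inv hm ha hb h hell hfin hcusp v
  rw [← hab, v.ord_mul hf hb', add_sub_cancel_right] at h1
  exact h1

end Converse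

end Fermat.Agent.S48.G1.ConverseGen
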