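/-
PROGRAM DS (S48) / G1, AREA F, row F.5(b) (helper147): THE PLACE → CUSP DICTIONARY, GENERIC.

Setting (the fields of a "theta datum", unbundled): `K` a field with `emb : K →+* ℂ`, `F / K` a
function field with a distinguished element `jF`, a generating subalgebra `F₀ ∋ jF` realised by
holomorphic functions `θ : F₀ →+* HolH` with `θ jF = j`, invariant under a subgroup
`Γ ≤ SL(2, ℤ)` which contains all `g T^N g⁻¹`.

* `compSL_theta_mem_MerInf` : **moderate growth from algebraicity.**  If `F` is algebraic over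
  `K(jF)`, every translate `θ f ∘ g` (`g ∈ SL(2, ℤ)`) lies in `MerInf N` (holomorphic,
  `N`-periodic, meromorphic at `i∞`).  No expansion at the cusps is needed: the translate is a
  root of a polynomial with coefficients in `ℂ[j]` (Cauchy's root bound).
* `theta_mem_cuspMod` : hence `θ f` has moderate growth at every cusp.
* `exists_cusp_of_place` : if moreover `Γ` is the exact stabiliser and
  `[F : K(jF)] = [SL(2, ℤ) : Γ]`, every pole `v` of `jF` is the place of a cusp `g ∞`: with `w` the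
  width and `κ = N / w`, `ord_v jF = -w` and the analytic order at `i∞` (in `exp (2πiτ/N)`) of
  `θ f ∘ g` is `κ · ord_v f`.
* `dvd_ord_sub_of_cusp` : the cusp half of the Kummer converse: a holomorphic `m`-th root of
  `θ a · θ b ^ (m-1)` with trivial multipliers on the parabolic elements of `Γ` forces
  `m ∣ ord_v a - ord_v b` at every pole `v` of `jF`.
-/
import Mathlib
import Fermat.Agent.S24.CuspFibre
import Fermat.Agent.S24.JHol
import Fermat.Agent.S30.PlacePoint.Generic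
import Fermat.Agent.S30.KummerChar.Cusp

set_option autoImplicit false
set_option linter.dupNamespace false
set_option linter.unusedSectionVars false
set_option linter.style.haveILetI false

noncomputable section

open AlgebraicCurve IntermediateField UpperHalfPlane Filter Topology
open scoped MatrixGroups Real Manifold
open Fermat.Agent.S24 Fermat.Agent.S24.HolH Fermat.Agent.S24.JHol Fermat.Agent.S24.JFun
open Fermat.Agent.S24.CuspOrd Fermat.Agent.S30

namespace Fermat.Agent.S48.G1.PlaceCuspGen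

local notation "𝕢" => Function.Periodic.qParam

/-! ### Moderate growth from algebraicity over `K(j)` -/

section Growth

variable {K F : Type*} [Field K] [Field F] [Algebra K F]

theorem jHol_mem_MerInf (N : ℕ) [NeZero N] : jHol ∈ MerInf N := by
  refine mem_MerInf_of_hasOrd (k := -(N : ℤ)) (c := 1) (fun τ => ?_) ?_
  · show jFun ((N : ℝ) +ᵥ τ) = jFun τ
    have : ((N : ℝ) +ᵥ τ) = ModularGroup.T ^ (N : ℤ) • τ := by
      rw [UpperHalfPlane.modular_T_zpow_smul]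
      simp
    rw [this, jFun_smul]
  · exact CuspFibre.hasOrd_jFun N

theorem eval₂_jHol_mem (N : ℕ) [NeZero N] (emb : K →+* ℂ) (p : Polynomial K) :
    p.eval₂ ((algebraMap ℂ HolH).comp emb) jHol ∈ MerInf N := by
  rw [Polynomial.eval₂_eq_sum_range]
  refine Subalgebra.sum_mem _ fun i _ => ?_
  exact Subalgebra.mul_mem _ (Subalgebra.algebraMap_mem _ _)
    (Subalgebra.pow_mem _ (jHol_mem_MerInf N) i)

theorem eval₂_jHol_apply (emb : K →+* ℂ) (p : Polynomial K) (τ : ℍ) :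
    ((p.eval₂ ((algebraMap ℂ HolH).comp emb) jHol : HolH) : ℍ → ℂ) τ
      = (p.map emb).eval (jFun τ) := by
  rw [← CuspFibre.evalHom_apply, Polynomial.hom_eval₂, Polynomial.eval_map,
    CuspFibre.evalHom_apply, jHol_apply]
  congr 1

/-- **Moderate growth from algebraicity** (core form): a translate `θ f ∘ g` which is
`N`-periodic lies in `MerInf N`, as soon as `F` is algebraic over `K(jF)`. -/
theorem compSL_mem_MerInf_of_algebraic (jF : F) (halg : Algebra.IsAlgebraic K⟮jF⟯ F)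
    (F₀ : Subalgebra K F) (hj : jF ∈ F₀) (emb : K →+* ℂ) (θ : F₀ →+* HolH)
    (θ_const : ∀ c : K, θ (algebraMap K F₀ c) = algebraMap ℂ HolH (emb c))
    (θ_j : θ ⟨jF, hj⟩ = jHol) {N : ℕ} [NeZero N] (g : SL(2, ℤ)) (f : F₀)
    (hper : compSL (ModularGroup.T ^ (N : ℤ)) (compSL g (θ f)) = compSL g (θ f)) :
    compSL g (θ f) ∈ MerInf N := by
  obtain ⟨n, p, hpn, hrel⟩ := CuspFibre.exists_poly_rel jF (f : F) halg
  have hrel₀ : ∑ k ∈ Finset.range (n + 1),
      Polynomial.aeval (⟨jF, hj⟩ : F₀) (p k) * f ^ k = 0 := by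
    apply Subtype.ext
    show F₀.val (∑ k ∈ Finset.range (n + 1),
      Polynomial.aeval (⟨jF, hj⟩ : F₀) (p k) * f ^ k) = (0 : F)
    rw [map_sum, ← hrel]
    refine Finset.sum_congr rfl fun k _ => ?_
    rw [map_mul, map_pow, ← Polynomial.aeval_algHom_apply, Subalgebra.val_apply]
    rfl
  let Ψ : F₀ →+* HolH := ((compSL g : HolH →ₐ[ℂ] HolH) : HolH →+* HolH).comp θ
  have hΨ : ∀ x, Ψ x = compSL g (θ x) := fun x => rfl
  have hΨj : Ψ ⟨jF, hj⟩ = jHol := by rw [hΨ, θ_j, compSL_jHol]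
  have hΨc : Ψ.comp (algebraMap K F₀) = (algebraMap ℂ HolH).comp emb := by
    refine RingHom.ext fun c => ?_
    show compSL g (θ (algebraMap K F₀ c)) = algebraMap ℂ HolH (emb c)
    rw [θ_const, AlgHom.commutes]
  have hΨa : ∀ q : Polynomial K, Ψ (Polynomial.aeval (⟨jF, hj⟩ : F₀) q)
      = q.eval₂ ((algebraMap ℂ HolH).comp emb) jHol := by
    intro q
    rw [Polynomial.aeval_def, Polynomial.hom_eval₂, hΨc, hΨj]
  have hrelH : ∑ k ∈ Finset.range (n + 1),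
      (p k).eval₂ ((algebraMap ℂ HolH).comp emb) jHol * compSL g (θ f) ^ k = 0 := by
    have := congrArg Ψ hrel₀
    rw [map_sum, map_zero] at this
    rw [← this]
    refine Finset.sum_congr rfl fun k _ => ?_
    rw [map_mul, map_pow, hΨa, hΨ]
  have hq : (p n).map emb ≠ 0 := by
    intro h0
    exact hpn ((Polynomial.map_eq_zero_iff emb.injective).mp h0)
  obtain ⟨c, hc, hlow⟩ := CuspFibre.exists_lower_bound_eval_jFun hq
  refine CuspFibre.mem_MerInf_of_root (compSL g (θ f)) (fun τ => ?_) n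
    (fun k => (p k).eval₂ ((algebraMap ℂ HolH).comp emb) jHol)
    (fun k => eval₂_jHol_mem N emb (p k)) c hc ?_ hrelH
  · have h3 := congrArg (fun Φ : HolH => (Φ : ℍ → ℂ) τ) hper
    simp only [compSL_apply] at h3
    rw [UpperHalfPlane.modular_T_zpow_smul] at h3
    simpa using h3
  · filter_upwards [hlow] with τ hτ
    rw [eval₂_jHol_apply]
    exact hτ

/-- **Moderate growth from algebraicity**: if `θ` is `Γ`-invariant and `Γ` contains all
`g T^N g⁻¹`, every translate `θ f ∘ g` lies in `MerInf N`. -/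
theorem compSL_theta_mem_MerInf (Γ : Subgroup SL(2, ℤ)) (jF : F)
    (halg : Algebra.IsAlgebraic K⟮jF⟯ F)
    (F₀ : Subalgebra K F) (hj : jF ∈ F₀) (emb : K →+* ℂ) (θ : F₀ →+* HolH)
    (θ_const : ∀ c : K, θ (algebraMap K F₀ c) = algebraMap ℂ HolH (emb c))
    (θ_j : θ ⟨jF, hj⟩ = jHol)
    (θ_inv : ∀ g ∈ Γ, ∀ f : F₀, compSL g (θ f) = θ f)
    {N : ℕ} [NeZero N] (hN : ∀ g : SL(2, ℤ), g * ModularGroup.T ^ (N : ℤ) * g⁻¹ ∈ Γ)
    (g : SL(2, ℤ)) (f : F₀) : compSL g (θ f) ∈ MerInf N := by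
  refine compSL_mem_MerInf_of_algebraic jF halg F₀ hj emb θ θ_const θ_j g f ?_
  rw [← compSL_mul]
  have h2 : g * ModularGroup.T ^ (N : ℤ) = (g * ModularGroup.T ^ (N : ℤ) * g⁻¹) * g := by
    group
  rw [h2, compSL_mul, θ_inv _ (hN g)]

/-- Elements of `MerInf N` have moderate growth at `i∞` (in the parameter `q`). -/
theorem modAt_of_mem_MerInf {N : ℕ} [NeZero N] {φ : HolH} (h : φ ∈ MerInf N) :
    Degree.ModAt (φ : ℍ → ℂ) := by
  obtain ⟨-, m, hm⟩ := h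
  refine ⟨m, ?_⟩
  rw [UpperHalfPlane.isBoundedAtImInfty_iff] at hm ⊢
  obtain ⟨B, A, hBA⟩ := hm
  refine ⟨B, A, fun z hz => ?_⟩
  have h1 := hBA z hz
  have hs0 : 0 ≤ ‖sPar N z‖ := norm_nonneg _
  have hs1 : ‖sPar N z‖ ≤ 1 := (norm_sPar_lt_one N z).le
  have hq : 𝕢 1 (z : ℂ) = sPar N z ^ N := (CuspFibre.sPar_pow_natCast N z).symm
  rw [norm_mul, norm_pow] at h1
  rw [hq, norm_mul, norm_pow, norm_pow, ← pow_mul]
  calc ‖sPar N z‖ ^ (N * m) * ‖(φ : ℍ → ℂ) z‖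
      ≤ ‖sPar N z‖ ^ m * ‖(φ : ℍ → ℂ) z‖ := by
        apply mul_le_mul_of_nonneg_right _ (norm_nonneg _)
        exact pow_le_pow_of_le_one hs0 hs1 (Nat.le_mul_of_pos_left m (NeZero.pos N))
    _ = ‖(φ : ℍ → ℂ) z‖ * ‖sPar N z‖ ^ m := mul_comm _ _
    _ ≤ B := h1

/-- **Moderate growth at all cusps, for free**: every `θ f` lies in `cuspMod`. -/
theorem theta_mem_cuspMod (Γ : Subgroup SL(2, ℤ)) (jF : F)
    (halg : Algebra.IsAlgebraic K⟮jF⟯ F)
    (F₀ : Subalgebra K F) (hj : jF ∈ F₀) (emb : K →+* ℂ) (θ : F₀ →+* HolH)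
    (θ_const : ∀ c : K, θ (algebraMap K F₀ c) = algebraMap ℂ HolH (emb c))
    (θ_j : θ ⟨jF, hj⟩ = jHol)
    (θ_inv : ∀ g ∈ Γ, ∀ f : F₀, compSL g (θ f) = θ f)
    {N : ℕ} [NeZero N] (hN : ∀ g : SL(2, ℤ), g * ModularGroup.T ^ (N : ℤ) * g⁻¹ ∈ Γ)
    (f : F₀) : θ f ∈ Degree.cuspMod := by
  intro g
  exact modAt_of_mem_MerInf
    (compSL_theta_mem_MerInf Γ jF halg F₀ hj emb θ θ_const θ_j θ_inv hN g f)

end Growth

/-! ### The dictionary -/

section Dict

variable {K F : Type*} [Field K] [IsAlgClosed K] [CharZero K] [Field F] [Algebra K F]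
  [Algebra.EssFiniteType K F]

/-- **Place → cusp dictionary, generic in `Γ` and `F`.**  Every pole `v` of `jF` is the place
of a cusp `g ∞`: `w` is its width (`g T^w g⁻¹ ∈ Γ`, `ord_v jF = -w`), `κ = N / w`, and the
analytic order at `i∞` (in the parameter `exp (2πiτ/N)`) of `θ f ∘ g` is `κ · ord_v f`. -/
theorem exists_cusp_of_place (Γ : Subgroup SL(2, ℤ)) [Finite (SL(2, ℤ) ⧸ Γ)] (jF : F)
    (htr : Algebra.trdeg K F = 1) (hx : Transcendental K jF)
    (hdeg : Module.finrank K⟮jF⟯ F = Nat.card (SL(2, ℤ) ⧸ Γ))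
    (F₀ : Subalgebra K F) (hF₀ : ∀ f : F, ∃ a b : F₀, (b : F) ≠ 0 ∧ f * b = a) (hj : jF ∈ F₀)
    (emb : K →+* ℂ) (θ : F₀ →+* HolH) (θ_inj : Function.Injective θ)
    (θ_const : ∀ c : K, θ (algebraMap K F₀ c) = algebraMap ℂ HolH (emb c))
    (θ_j : θ ⟨jF, hj⟩ = jHol)
    (θ_inv : ∀ g ∈ Γ, ∀ f : F₀, compSL g (θ f) = θ f)
    (θ_stab : ∀ g : SL(2, ℤ), (∀ f : F₀, compSL g (θ f) = θ f) → g ∈ Γ)
    {N : ℕ} [NeZero N] (hN : ∀ g : SL(2, ℤ), g * ModularGroup.T ^ (N : ℤ) * g⁻¹ ∈ Γ)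
    (v : Place K F) (hv : v.ord jF < 0) :
    ∃ (g : SL(2, ℤ)) (κ w : ℕ), 0 < κ ∧ κ * w = N ∧ -v.ord jF = (w : ℤ) ∧
      g * ModularGroup.T ^ (w : ℤ) * g⁻¹ ∈ Γ ∧
      ∀ f : F₀, f ≠ 0 →
        ordInf N ((compSL g (θ f) : HolH) : ℍ → ℂ) = κ * v.ord (f : F) := by
  classical
  letI : Fintype (SL(2, ℤ) ⧸ Γ) := Fintype.ofFinite _
  have hfin : FiniteDimensional K⟮jF⟯ F := FF.finite_adjoin_simple htr hx
  have hx' : Transcendental K jF⁻¹ := FF.transcendental_inv hx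
  have hfin' : FiniteDimensional K⟮jF⁻¹⟯ F := FF.finiteDimensional_adjoin_inv _ hfin
  have hj0 : jF ≠ 0 := fun h => hx (h ▸ isAlgebraic_zero)
  have halg : Algebra.IsAlgebraic K⟮jF⟯ F := FF.isAlgebraic_adjoin_simple htr hx
  have hmem : ∀ (g : SL(2, ℤ)) (f : F₀), compSL g (θ f) ∈ MerInf N :=
    compSL_theta_mem_MerInf Γ jF halg F₀ hj emb θ θ_const θ_j θ_inv hN
  set j₀ : F₀ := ⟨jF, hj⟩ with hj₀
  -- the coset embeddings
  let ρ : SL(2, ℤ) ⧸ Γ → F₀ →+* MerInf N := fun i =>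
    RingHom.codRestrict
      (((compSL (Quotient.out i)⁻¹ : HolH →ₐ[ℂ] HolH) : HolH →+* HolH).comp θ)
      (MerInf N) (fun f => hmem (Quotient.out i)⁻¹ f)
  have hρ : ∀ i f, ((ρ i f : MerInf N) : HolH) = compSL (Quotient.out i)⁻¹ (θ f) :=
    fun i f => rfl
  have hρmk : ∀ (γ : SL(2, ℤ)) (f : F₀),
      ((ρ (QuotientGroup.mk γ) f : MerInf N) : HolH) = compSL γ⁻¹ (θ f) := by
    intro γ f
    rw [hρ]
    set γ' := Quotient.out (QuotientGroup.mk γ : SL(2, ℤ) ⧸ Γ) with hγ'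
    have h1 : (QuotientGroup.mk γ' : SL(2, ℤ) ⧸ Γ) = QuotientGroup.mk γ :=
      QuotientGroup.out_eq' _
    have h2 : γ'⁻¹ * γ ∈ Γ := QuotientGroup.eq.mp h1
    have h3 : γ'⁻¹ = (γ'⁻¹ * γ) * γ⁻¹ := by group
    rw [h3, compSL_mul, θ_inv _ h2]
  have hρsmul : ∀ (g : SL(2, ℤ)) (i : SL(2, ℤ) ⧸ Γ) (f : F₀),
      ((ρ (g • i) f : MerInf N) : HolH) = compSL g⁻¹ ((ρ i f : MerInf N) : HolH) := by
    intro g i f
    induction i using QuotientGroup.induction_on with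
    | H γ =>
      rw [MulAction.Quotient.smul_mk, hρmk, hρmk, smul_eq_mul, mul_inv_rev, compSL_mul]
  have hρ_inj : ∀ i, Function.Injective (ρ i) := by
    intro i a b hab
    have h1 : compSL (Quotient.out i)⁻¹ (θ a) = compSL (Quotient.out i)⁻¹ (θ b) := by
      rw [← hρ, ← hρ, hab]
    exact θ_inj (compSL_injective _ h1)
  have hρ_ne : Function.Injective ρ := by
    intro i i' h
    induction i using QuotientGroup.induction_on with
    | H γ =>
      induction i' using QuotientGroup.induction_on with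
      | H γ' =>
        refine QuotientGroup.eq.mpr ?_
        refine θ_stab _ fun f => ?_
        have h1 : ((ρ (QuotientGroup.mk γ) f : MerInf N) : HolH)
            = ((ρ (QuotientGroup.mk γ') f : MerInf N) : HolH) := by rw [h]
        rw [hρmk, hρmk] at h1
        have h2 := congrArg (compSL γ') h1
        rw [compSL_compSL_inv, ← compSL_mul] at h2
        exact h2
  have hden : j₀ ≠ 0 := fun h => hj0 (congrArg Subtype.val h)
  have hxnd : jF⁻¹ * ((j₀ : F₀) : F) = ((1 : F₀) : F) := by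
    show jF⁻¹ * jF = ((1 : F₀) : F)
    rw [inv_mul_cancel₀ hj0]
    rfl
  have hcard : Fintype.card (SL(2, ℤ) ⧸ Γ) = Module.finrank K⟮jF⁻¹⟯ F := by
    rw [FF.finrank_adjoin_inv, hdeg, Nat.card_eq_fintype_card]
  have hρj : ∀ i, ((ρ i j₀ : MerInf N) : HolH) = jHol := by
    intro i
    rw [hρ, hj₀, θ_j, compSL_jHol]
  have hρc : ∀ i (c : K), ρ i (algebraMap K F₀ c) = algebraMap ℂ (MerInf N) (emb c) := by
    intro i c
    apply Subtype.ext
    rw [hρ, θ_const, AlgHom.commutes]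
    rfl
  have hK : ∀ i j (c : K), ρ i (algebraMap K F₀ c) = ρ j (algebraMap K F₀ c) := by
    intro i j c
    rw [hρc, hρc]
  have hnum : ∀ i j, ρ i (1 : F₀) = ρ j 1 := by
    intro i j
    rw [map_one, map_one]
  have hden' : ∀ i j, ρ i j₀ = ρ j j₀ := by
    intro i j
    apply Subtype.ext
    rw [hρj, hρj]
  have hconst' : ∀ i (c : K), c ≠ 0 → ordR (ρ i (algebraMap K F₀ c)) = 0 := by
    intro i c hc
    rw [hρc]
    exact ordR_algebraMap ((map_ne_zero emb).mpr hc)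
  have hordj : ∀ i, ordR (ρ i j₀) = -(N : ℤ) := by
    intro i
    show ordInf N (((ρ i j₀ : MerInf N) : HolH) : ℍ → ℂ) = -(N : ℤ)
    rw [hρj]
    exact (CuspFibre.hasOrd_jFun N).ordInf_eq one_ne_zero
  have hord1 : ∀ i, ordR (ρ i (1 : F₀)) = 0 := by
    intro i
    rw [map_one]
    have := ordR_algebraMap (N := N) (c := 1) one_ne_zero
    rwa [map_one] at this
  have hNpos : 0 < N := NeZero.pos N
  have hxs : ∀ i, ordR (ρ i (1 : F₀)) - ordR (ρ i j₀) = (N : ℤ) := by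
    intro i
    rw [hord1, hordj]
    ring
  have hxpos : ∀ i, ordR (ρ i j₀) < ordR (ρ i (1 : F₀)) := by
    intro i
    have := hxs i
    have hN' : (0 : ℤ) < N := by exact_mod_cast hNpos
    omega
  have hv' : 0 < v.ord jF⁻¹ := by
    rw [v.ord_inv]
    omega
  have hg : ∀ i (f : F₀), ordR (ρ (ModularGroup.T • i) f) = ordR (ρ i f) := by
    intro i f
    show ordInf N (((ρ (ModularGroup.T • i) f : MerInf N) : HolH) : ℍ → ℂ)
      = ordInf N (((ρ i f : MerInf N) : HolH) : ℍ → ℂ)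
    rw [hρsmul]
    have : (ModularGroup.T : SL(2, ℤ))⁻¹ = ModularGroup.T ^ (-1 : ℤ) := (zpow_neg_one _).symm
    rw [this, ordInf_compSL_T_zpow]
  have hperiod : ∀ i : SL(2, ℤ) ⧸ Γ, ModularGroup.T ^
      (Function.minimalPeriod (fun i : SL(2, ℤ) ⧸ Γ => ModularGroup.T • i) i) • i = i := by
    intro i
    have h := Function.isPeriodicPt_minimalPeriod
      (fun i : SL(2, ℤ) ⧸ Γ => ModularGroup.T • i) i
    have h' : (fun i : SL(2, ℤ) ⧸ Γ => ModularGroup.T • i)^[Function.minimalPeriod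
        (fun i : SL(2, ℤ) ⧸ Γ => ModularGroup.T • i) i] i = i := h
    rwa [smul_iterate] at h'
  have hdiv : ∀ i (f : F₀), f ≠ 0 → (N : ℤ) ∣ ordR (ρ i f) *
      (Function.minimalPeriod (fun i : SL(2, ℤ) ⧸ Γ => ModularGroup.T • i) i : ℤ) := by
    intro i f hf
    set m := Function.minimalPeriod (fun i : SL(2, ℤ) ⧸ Γ => ModularGroup.T • i) i with hm
    have hper : ModularGroup.T ^ m • i = i := hperiod i
    have hφ0 : ((ρ i f : MerInf N) : HolH) ≠ 0 := by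
      intro h0
      apply hf
      apply hρ_inj i
      apply Subtype.ext
      rw [h0, map_zero]
      rfl
    have h1 : compSL (ModularGroup.T ^ (-(m : ℤ))) ((ρ i f : MerInf N) : HolH)
        = ((ρ i f : MerInf N) : HolH) := by
      have h2 : ((ρ (ModularGroup.T ^ m • i) f : MerInf N) : HolH)
          = ((ρ i f : MerInf N) : HolH) := by rw [hper]
      rw [hρsmul] at h2
      rw [zpow_neg, zpow_natCast]
      exact h2
    have h3 := dvd_ordInf_mul_of_compSL_T_zpow_eq (ρ i f).2 hφ0 h1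
    rw [mul_neg, dvd_neg] at h3
    exact h3
  have hE0 := PlacePoint.exists_emb (K := K) (F := F) jF⁻¹ hx' hfin' F₀ hF₀ (1 : F₀) j₀ hden
    hxnd (R := MerInf N) (ordR (N := N)) ordR_mul ordR_add (I := SL(2, ℤ) ⧸ Γ)
  have hE1 := hE0 ρ
  have hE := hE1 hρ_inj hρ_ne hcard hK hnum hden' hconst' hxpos v hv'
  obtain ⟨i, hE'⟩ := hE
  obtain ⟨κ, hκ, hi⟩ := hE'
  have hM0 := PlacePoint.ord_eq_minimalPeriod (K := K) (F := F) htr jF⁻¹ hx' hfin'
    F₀ hF₀ (1 : F₀) j₀ hden hxnd (R := MerInf N) (ordR (N := N)) ordR_mul ordR_add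
    (I := SL(2, ℤ) ⧸ Γ) (Γ := SL(2, ℤ))
  have hM1 := hM0 ρ
  have hM2 := hM1 hρ_inj hρ_ne hcard hK hnum hden' hconst' N hNpos hxs
  have hvm := hM2 ModularGroup.T hg hdiv v i κ hκ hi
  rw [v.ord_inv] at hvm
  obtain ⟨w, hw⟩ : ∃ w : ℕ,
      Function.minimalPeriod (fun i : SL(2, ℤ) ⧸ Γ => ModularGroup.T • i) i = w := ⟨_, rfl⟩
  rw [hw] at hvm
  have hperw : ModularGroup.T ^ w • i = i := by
    rw [← hw]
    exact hperiod i
  have h1 := hi j₀ hden
  rw [hordj] at h1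
  have h4 : v.ord ((j₀ : F₀) : F) = v.ord jF := rfl
  have h3 : v.ord jF = -(w : ℤ) := by omega
  have h2 : κ * (w : ℤ) = N := by
    rw [h4, h3] at h1
    linarith
  obtain ⟨k, rfl⟩ := Int.eq_ofNat_of_zero_le hκ.le
  obtain ⟨γ, hγ⟩ : ∃ γ : SL(2, ℤ), Quotient.out i = γ := ⟨_, rfl⟩
  have hmk : (QuotientGroup.mk γ : SL(2, ℤ) ⧸ Γ) = i := by
    rw [← hγ]
    exact QuotientGroup.out_eq' i
  have hmemw : γ⁻¹ * ModularGroup.T ^ (w : ℤ) * γ⁻¹⁻¹ ∈ Γ := by
    rw [inv_inv]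
    have h5 : (QuotientGroup.mk (ModularGroup.T ^ w * γ) : SL(2, ℤ) ⧸ Γ)
        = QuotientGroup.mk γ := by
      rw [← smul_eq_mul, ← MulAction.Quotient.smul_mk, hmk, hperw]
    have h6 : (ModularGroup.T ^ w * γ)⁻¹ * γ ∈ Γ := QuotientGroup.eq.mp h5
    have h7 : γ⁻¹ * ModularGroup.T ^ (w : ℤ) * γ = ((ModularGroup.T ^ w * γ)⁻¹ * γ)⁻¹ := by
      rw [zpow_natCast]
      group
    rw [h7]
    exact inv_mem h6
  have hk0 : 0 < k := by exact_mod_cast hκ
  have hkw : k * w = N := by exact_mod_cast h2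
  have hvw : -v.ord jF = (w : ℤ) := by omega
  refine ⟨γ⁻¹, k, w, hk0, hkw, hvw, hmemw, fun f hf => ?_⟩
  rw [← hγ]
  exact hi f hf

/-- the arithmetic step of the Kummer converse -/
theorem dvd_sub_of_ord_eq {m κ : ℕ} (hm : 0 < m) (hκ : 0 < κ) {o va vb : ℤ}
    (hdiv : (κ : ℤ) ∣ o)
    (h : (m : ℤ) * o = κ * va + ((m - 1 : ℕ) : ℤ) * (κ * vb)) : (m : ℤ) ∣ va - vb := by
  obtain ⟨t, rfl⟩ := hdiv
  have hκ' : (κ : ℤ) ≠ 0 := by exact_mod_cast hκ.ne'
  have hm1 : ((m - 1 : ℕ) : ℤ) = (m : ℤ) - 1 := by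
    rw [Nat.cast_sub hm, Nat.cast_one]
  rw [hm1] at h
  have h2 : (m : ℤ) * t = va + ((m : ℤ) - 1) * vb := by
    apply mul_left_cancel₀ hκ'
    linear_combination h
  exact ⟨t - vb, by linear_combination (-1 : ℤ) * h2⟩

/-- **Kummer converse at the cusps, generic.**  A holomorphic `m`-th root `H` of
`θ a * θ b ^ (m - 1)` whose multipliers are trivial on the parabolic elements `g T^n g⁻¹` of `Γ`
forces `m ∣ ord_v a - ord_v b` at every pole `v` of `jF`. -/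
theorem dvd_ord_sub_of_cusp (Γ : Subgroup SL(2, ℤ)) [Finite (SL(2, ℤ) ⧸ Γ)] (jF : F)
    (htr : Algebra.trdeg K F = 1) (hx : Transcendental K jF)
    (hdeg : Module.finrank K⟮jF⟯ F = Nat.card (SL(2, ℤ) ⧸ Γ))
    (F₀ : Subalgebra K F) (hF₀ : ∀ f : F, ∃ a b : F₀, (b : F) ≠ 0 ∧ f * b = a) (hj : jF ∈ F₀)
    (emb : K →+* ℂ) (θ : F₀ →+* HolH) (θ_inj : Function.Injective θ)
    (θ_const : ∀ c : K, θ (algebraMap K F₀ c) = algebraMap ℂ HolH (emb c))
    (θ_j : θ ⟨jF, hj⟩ = jHol)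
    (θ_inv : ∀ g ∈ Γ, ∀ f : F₀, compSL g (θ f) = θ f)
    (θ_stab : ∀ g : SL(2, ℤ), (∀ f : F₀, compSL g (θ f) = θ f) → g ∈ Γ)
    {N : ℕ} [NeZero N] (hN : ∀ g : SL(2, ℤ), g * ModularGroup.T ^ (N : ℤ) * g⁻¹ ∈ Γ)
    {m : ℕ} (hm : 0 < m) {a b : F₀} (ha : a ≠ 0) (hb : b ≠ 0) {H : HolH}
    (h : H ^ m = θ a * θ b ^ (m - 1))
    (hpar : ∀ γ ∈ Γ, ∀ (g : SL(2, ℤ)) (n : ℤ),
      γ = g * ModularGroup.T ^ n * g⁻¹ → KummerChar.mult γ H = 1)
    (v : Place K F) (hv : v.ord jF < 0) :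
    (m : ℤ) ∣ v.ord (a : F) - v.ord (b : F) := by
  obtain ⟨g, κ, w, hκ, hκw, -, hmemw, hord⟩ := exists_cusp_of_place Γ jF htr hx hdeg F₀ hF₀ hj
    emb θ θ_inj θ_const θ_j θ_inv θ_stab hN v hv
  have halg : Algebra.IsAlgebraic K⟮jF⟯ F := FF.isAlgebraic_adjoin_simple htr hx
  have hmem : ∀ (g : SL(2, ℤ)) (f : F₀), compSL g (θ f) ∈ MerInf N :=
    compSL_theta_mem_MerInf Γ jF halg F₀ hj emb θ θ_const θ_j θ_inv hN
  have hθa : θ a ≠ 0 := (map_ne_zero_iff _ θ_inj).mpr ha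
  have hθb : θ b ≠ 0 := (map_ne_zero_iff _ θ_inj).mpr hb
  have hH0 : H ≠ 0 := by
    rintro rfl
    rw [zero_pow hm.ne'] at h
    exact mul_ne_zero hθa (pow_ne_zero _ hθb) h.symm
  have hinvpow : ∀ γ ∈ Γ, compSL γ (H ^ m) = H ^ m := by
    intro γ hγ
    rw [h, map_mul, map_pow, θ_inv γ hγ, θ_inv γ hγ]
  have heig : ∀ γ ∈ Γ, KummerChar.IsEig γ H := fun γ hγ =>
    KummerChar.isEig_of_pow hm (hinvpow γ hγ)
  -- the translate of the root
  set φ : HolH := compSL g H with hφ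
  have hφ0 : φ ≠ 0 := KummerChar.compSL_ne_zero g hH0
  have hinv : ∀ k : ℤ, g * ModularGroup.T ^ k * g⁻¹ ∈ Γ →
      compSL (ModularGroup.T ^ k) φ = φ := by
    intro k hk
    have h1 := (heig _ hk).compSL_eq
    rw [hpar _ hk g k rfl, map_one, one_mul] at h1
    rw [hφ, ← compSL_mul]
    have h2 : g * ModularGroup.T ^ k = (g * ModularGroup.T ^ k * g⁻¹) * g := by group
    rw [h2, compSL_mul, h1]
  have hφpow : φ ^ m = compSL g (θ a) * compSL g (θ b) ^ (m - 1) := by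
    rw [hφ, ← map_pow, h, map_mul, map_pow]
  have hφmem : φ ∈ MerInf N := by
    refine KummerChar.mem_MerInf_of_modAt
      (KummerChar.periodic_of_compSL_T (hinv N (hN g))) ?_
    have hP : Degree.ModAt ((compSL g (θ a) * compSL g (θ b) ^ (m - 1) : HolH) : ℍ → ℂ) :=
      modAt_of_mem_MerInf
        (Subalgebra.mul_mem _ (hmem g a) (Subalgebra.pow_mem _ (hmem g b) _))
    refine KummerChar.modAt_of_pow hm hP fun τ => ?_
    exact congrArg (fun Φ : HolH => (Φ : ℍ → ℂ) τ) hφpow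
  -- orders at the cusp
  let A' : MerInf N := ⟨compSL g (θ a), hmem g a⟩
  let B' : MerInf N := ⟨compSL g (θ b), hmem g b⟩
  let Φ' : MerInf N := ⟨φ, hφmem⟩
  have hA0 : A' ≠ 0 := fun h0 =>
    KummerChar.compSL_ne_zero g hθa (congrArg Subtype.val h0)
  have hB0 : B' ≠ 0 := fun h0 =>
    KummerChar.compSL_ne_zero g hθb (congrArg Subtype.val h0)
  have hΦ0 : Φ' ≠ 0 := fun h0 => hφ0 (congrArg Subtype.val h0)
  have hrel : Φ' ^ m = A' * B' ^ (m - 1) := Subtype.ext hφpow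
  have hordA : (m : ℤ) * ordR Φ'
      = κ * v.ord (a : F) + ((m - 1 : ℕ) : ℤ) * (κ * v.ord (b : F)) := by
    have h1 := congrArg ordR hrel
    rw [KummerChar.ordR_pow hΦ0, ordR_mul _ _ hA0 (pow_ne_zero _ hB0),
      KummerChar.ordR_pow hB0] at h1
    have h2 : ordR A' = κ * v.ord (a : F) := hord a ha
    have h3 : ordR B' = κ * v.ord (b : F) := hord b hb
    rw [h2, h3] at h1
    exact h1
  have hw0 : w ≠ 0 := by
    rintro rfl
    rw [mul_zero] at hκw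
    exact (NeZero.ne N) hκw.symm
  have hdvd : (N : ℤ) ∣ ordInf N (φ : ℍ → ℂ) * (w : ℤ) :=
    dvd_ordInf_mul_of_compSL_T_zpow_eq hφmem hφ0 (hinv w hmemw)
  have hκdvd : (κ : ℤ) ∣ ordR Φ' := by
    have hw0' : (w : ℤ) ≠ 0 := by exact_mod_cast hw0
    have h1 : ((κ * w : ℕ) : ℤ) ∣ ordInf N (φ : ℍ → ℂ) * (w : ℤ) := by
      rw [hκw]
      exact hdvd
    rw [Nat.cast_mul] at h1
    exact (mul_dvd_mul_iff_right hw0').mp h1
  exact dvd_sub_of_ord_eq hm hκ hκdvd hordA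

end Dict

end Fermat.Agent.S48.G1.PlaceCuspGen
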