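/-
PROGRAM DS (S48) / G1, AREA F, row F.5 (b′) (helper147): THE CUSPS OF `F1 M`.

The instance of `PlaceCuspGen` (generic place → cusp dictionary) at `Γ := ±Γ₁(M)`, `F := F1 M`,
`θ := theta1`, `N := M`, with all hypotheses discharged by `PlaceFin1` (helper86) and `Degree1`
(helper145).  `jF` is ANY element of `F1 M` with `q`-expansion `j`.

* `exists_cusp_of_place1` : every pole `v` of `j` on `F1 M` is the place of a cusp `g ∞` of width
  `w` (`g T^w g⁻¹ ∈ ±Γ₁(M)`, `ord_v j = -w`), and with `κ = M / w` the analytic order at `i∞`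
  (in `exp (2πiτ/M)`) of `theta1 f ∘ g` is `κ · ord_v f`.
* `hcusp1_Gamma1pm`, `hcusp1_of_trace` : the cusp half of the Kummer converse for `F1 M`, i.e. the
  `hcusp` argument of `ConverseGen.divBy_of_root`; the second from the consumer's hypothesis
  "the multiplier is trivial on the elements of `Γ₁(M)` with `tr² ≤ 4`" (`Betti1.parEll`).
* `hell1_of_trace` : the `hell` argument from the same hypothesis.
-/
import Fermat.Agent.S48.G1.F1.PlaceCuspGen
import Fermat.Agent.S48.G1.F1.PlaceFin1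

set_option autoImplicit false
set_option linter.dupNamespace false
set_option linter.style.haveILetI false

noncomputable section

namespace Fermat.Agent.S48.G1.F1.PlaceCusp1

open AlgebraicCurve IntermediateField UpperHalfPlane ModularCurve CongruenceSubgroup
open Fermat.Agent.S24 Fermat.Agent.S24.HolH Fermat.Agent.S24.JHol Fermat.Agent.S24.JFun
open Fermat.Agent.S24.CuspOrd Fermat.Agent.S30.KummerChar
open Fermat.Agent.S48.G1 Fermat.Agent.S48.G1.F1 Fermat.Agent.S48.G1.F1.Theta1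
open Fermat.Agent.S48.G1.PlaceFinGen
open scoped MatrixGroups

/-! ### Two facts on `SL(2, ℤ)` -/

/-- An element of `SL(2, ℤ)` with a fixed point in the upper half plane has `tr² ≤ 4`. -/
theorem trace_sq_le_of_fixed_pt (g : SL(2, ℤ)) {τ : ℍ} (h : g • τ = τ) :
    (g : Matrix (Fin 2) (Fin 2) ℤ).trace ^ 2 ≤ 4 := by
  have hdet : g 0 0 * g 1 1 - g 0 1 * g 1 0 = 1 := by
    have := g.det_coe
    rwa [Matrix.det_fin_two] at this
  rw [Matrix.trace_fin_two]
  set A : ℝ := (g 0 0 : ℝ) with hA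
  set B : ℝ := (g 0 1 : ℝ) with hB
  set C : ℝ := (g 1 0 : ℝ) with hC
  set D : ℝ := (g 1 1 : ℝ) with hD
  have hdetR : A * D - B * C = 1 := by
    rw [hA, hB, hC, hD]
    exact_mod_cast hdet
  have hy : 0 < τ.im := τ.im_pos
  have hτ : (τ : ℂ) = ⟨τ.re, τ.im⟩ := rfl
  have h1 : ((g • τ : ℍ) : ℂ) = (τ : ℂ) := congrArg (fun z : ℍ => (z : ℂ)) h
  rw [UpperHalfPlane.coe_specialLinearGroup_apply] at h1
  have hden : ((algebraMap ℤ ℝ (g 1 0) : ℝ) : ℂ) * (τ : ℂ) + ((algebraMap ℤ ℝ (g 1 1) : ℝ) : ℂ)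
      ≠ 0 := by
    have := UpperHalfPlane.denom_ne_zero (g : GL (Fin 2) ℝ) τ
    simpa [UpperHalfPlane.denom] using this
  rw [div_eq_iff hden] at h1
  have hre := congrArg Complex.re h1
  have him := congrArg Complex.im h1
  rw [hτ] at hre him
  simp only [Complex.add_re, Complex.mul_re, Complex.ofReal_re, Complex.ofReal_im, zero_mul,
    sub_zero, Complex.add_im, Complex.mul_im, add_zero, eq_intCast] at hre him
  have hre' : A * τ.re + B = τ.re * (C * τ.re + D) - τ.im * (C * τ.im) := by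
    simpa [hA, hB, hC, hD] using hre
  have him' : A * τ.im = τ.re * (C * τ.im) + τ.im * (C * τ.re + D) := by
    simpa [hA, hB, hC, hD] using him
  have hx : 2 * C * τ.re = A - D := by
    have h2 : τ.im * (2 * C * τ.re - (A - D)) = 0 := by linear_combination -him'
    rcases mul_eq_zero.mp h2 with h3 | h3
    · exact absurd h3 hy.ne'
    · linarith
  have hkey : (A + D) ^ 2 = 4 - 4 * C ^ 2 * τ.im ^ 2 := by
    have hb : B = -(C * (τ.re ^ 2 + τ.im ^ 2)) := by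
      have e : B = τ.re * (C * τ.re + D) - τ.im * (C * τ.im) - A * τ.re := by linarith
      rw [e]
      have : (A - D) * τ.re = 2 * C * τ.re * τ.re := by rw [hx]
      nlinarith [this]
    have : (A + D) ^ 2 = (A - D) ^ 2 + 4 * (A * D) := by ring
    rw [this, ← hx]
    have hAD : A * D = 1 + B * C := by linarith
    rw [hAD, hb]
    ring
  have hR : ((g 0 0 : ℝ) + (g 1 1 : ℝ)) ^ 2 ≤ 4 := by
    have : (A + D) ^ 2 ≤ 4 := by
      rw [hkey]
      nlinarith [sq_nonneg (C * τ.im)]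
    simpa [hA, hD] using this
  exact_mod_cast hR

/-- Conjugates of powers of `T` have trace `2`. -/
theorem trace_conj_T_zpow_eq (g : SL(2, ℤ)) (n : ℤ) :
    ((g * ModularGroup.T ^ n * g⁻¹ : SL(2, ℤ)) : Matrix (Fin 2) (Fin 2) ℤ).trace = 2 := by
  rw [Matrix.SpecialLinearGroup.coe_mul, Matrix.trace_mul_comm,
    ← Matrix.SpecialLinearGroup.coe_mul, inv_mul_cancel_left, ModularGroup.coe_T_zpow,
    Matrix.trace_fin_two]
  simp

theorem compSL_neg_eq (γ : SL(2, ℤ)) (f : HolH) : compSL (-γ) f = compSL γ f := by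
  apply Subtype.ext
  funext τ
  show (f : ℍ → ℂ) ((-γ) • τ) = (f : ℍ → ℂ) (γ • τ)
  rw [ModularGroup.SL_neg_smul]

/-! ### The cusps of `F1 M` -/

/-- **Place → cusp for `F1 M`, hypothesis-free.**  Every pole `v` of `j` on `F1 M` is the place
of a cusp `g ∞` of `Γ₁(M)`: `w` is its width, `κ = M / w`, `ord_v j = -w`, and the analytic order
at `i∞` (in the parameter `exp (2πiτ/M)`) of `theta1 f ∘ g` is `κ · ord_v f` for all `f ∈ A01 M`. -/
theorem exists_cusp_of_place1 (ι : Qb →+* ℂ) {M : ℕ} [NeZero M] (hM : 2 ≤ M) (jF : F1 M)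
    (hjF : ((jF : F1 M) : LaurentSeries Qb) = coeffEmb Qb jq)
    (v : Place Qb (F1 M)) (hv : v.ord jF < 0) :
    ∃ (g : SL(2, ℤ)) (κ w : ℕ), 0 < κ ∧ κ * w = M ∧ -v.ord jF = (w : ℤ) ∧
      g * ModularGroup.T ^ (w : ℤ) * g⁻¹ ∈ Gamma1pm M ∧
      ∀ f : A01 M, f ≠ 0 →
        ordInf M ((compSL g (theta1 ι M hM f) : HolH) : ℍ → ℂ) = κ * v.ord (f : F1 M) := by
  haveI := PlaceFin.essFiniteType_F1 M
  exact PlaceCuspGen.exists_cusp_of_place (Gamma1pm M) jF (PlaceFin1.htr1 hM)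
    (PlaceFin1.hx1 jF hjF) (PlaceFin1.hdeg1 hM jF hjF)
    (PlaceFin1.thetaData1' ι M hM jF hjF).F₀ (PlaceFin1.thetaData1' ι M hM jF hjF).hF₀
    (PlaceFin1.thetaData1' ι M hM jF hjF).hj (PlaceFin1.thetaData1' ι M hM jF hjF).emb
    (PlaceFin1.thetaData1' ι M hM jF hjF).θ (PlaceFin1.thetaData1' ι M hM jF hjF).θ_inj
    (PlaceFin1.thetaData1' ι M hM jF hjF).θ_const (PlaceFin1.thetaData1' ι M hM jF hjF).θ_j
    (PlaceFin1.thetaData1' ι M hM jF hjF).θ_inv (PlaceFin1.thetaData1' ι M hM jF hjF).θ_stab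
    (N := M) (conj_T_zpow_mem_Gamma1pm M) v hv

/-- **The cusp half of the Kummer converse for `F1 M`** (multipliers trivial on the parabolic
elements `g T^n g⁻¹` of `±Γ₁(M)`): the `hcusp` hypothesis of `ConverseGen` / `ConverseData`. -/
theorem hcusp1_Gamma1pm (ι : Qb →+* ℂ) {M : ℕ} (hM : 2 ≤ M) (jF : F1 M)
    (hjF : ((jF : F1 M) : LaurentSeries Qb) = coeffEmb Qb jq)
    {m : ℕ} (hm : 0 < m) {a b : A01 M} (ha : a ≠ 0) (hb : b ≠ 0) {H : HolH}
    (h : H ^ m = theta1 ι M hM a * theta1 ι M hM b ^ (m - 1))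
    (hpar : ∀ γ ∈ Gamma1pm M, ∀ (g : SL(2, ℤ)) (n : ℤ),
      γ = g * ModularGroup.T ^ n * g⁻¹ → mult γ H = 1) :
    ∀ v : Place Qb (F1 M), v.ord jF < 0 →
      (m : ℤ) ∣ v.ord (a : F1 M) - v.ord (b : F1 M) := by
  intro v hv
  haveI : NeZero M := ⟨by omega⟩
  haveI := PlaceFin.essFiniteType_F1 M
  exact PlaceCuspGen.dvd_ord_sub_of_cusp (Gamma1pm M) jF (PlaceFin1.htr1 hM)
    (PlaceFin1.hx1 jF hjF) (PlaceFin1.hdeg1 hM jF hjF)
    (PlaceFin1.thetaData1' ι M hM jF hjF).F₀ (PlaceFin1.thetaData1' ι M hM jF hjF).hF₀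
    (PlaceFin1.thetaData1' ι M hM jF hjF).hj (PlaceFin1.thetaData1' ι M hM jF hjF).emb
    (PlaceFin1.thetaData1' ι M hM jF hjF).θ (PlaceFin1.thetaData1' ι M hM jF hjF).θ_inj
    (PlaceFin1.thetaData1' ι M hM jF hjF).θ_const (PlaceFin1.thetaData1' ι M hM jF hjF).θ_j
    (PlaceFin1.thetaData1' ι M hM jF hjF).θ_inv (PlaceFin1.thetaData1' ι M hM jF hjF).θ_stab
    (N := M) (conj_T_zpow_mem_Gamma1pm M) hm (a := a) (b := b) ha hb h hpar v hv

/-- **The cusp half of the Kummer converse for `F1 M`, `parEll` form**: if the multiplier of the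
root is trivial on the elements of `Γ₁(M)` with `tr² ≤ 4`, then `m ∣ ord_v a - ord_v b` at every
pole `v` of `j`.  (The irregular cusps, `-g T^n g⁻¹ ∈ Γ₁(M)`, are covered: `tr² = 4`.) -/
theorem hcusp1_of_trace (ι : Qb →+* ℂ) {M : ℕ} (hM : 2 ≤ M) (jF : F1 M)
    (hjF : ((jF : F1 M) : LaurentSeries Qb) = coeffEmb Qb jq)
    {m : ℕ} (hm : 0 < m) {a b : A01 M} (ha : a ≠ 0) (hb : b ≠ 0) {H : HolH}
    (h : H ^ m = theta1 ι M hM a * theta1 ι M hM b ^ (m - 1))
    (hpe : ∀ γ ∈ Gamma1 M,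
      ((γ : SL(2, ℤ)) : Matrix (Fin 2) (Fin 2) ℤ).trace ^ 2 ≤ 4 → mult γ H = 1) :
    ∀ v : Place Qb (F1 M), v.ord jF < 0 →
      (m : ℤ) ∣ v.ord (a : F1 M) - v.ord (b : F1 M) := by
  refine hcusp1_Gamma1pm ι hM jF hjF hm ha hb h ?_
  have hθa : theta1 ι M hM a ≠ 0 := (map_ne_zero_iff _ (theta1_injective (ι := ι) hM)).mpr ha
  have hθb : theta1 ι M hM b ≠ 0 := (map_ne_zero_iff _ (theta1_injective (ι := ι) hM)).mpr hb
  have hH0 : H ≠ 0 := by
    rintro rfl
    rw [zero_pow hm.ne'] at h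
    exact mul_ne_zero hθa (pow_ne_zero _ hθb) h.symm
  rintro γ (hγ | hγ) g n rfl
  · refine hpe _ hγ ?_
    rw [trace_conj_T_zpow_eq]
    norm_num
  · have h1 : mult (-(g * ModularGroup.T ^ n * g⁻¹)) H = 1 := by
      refine hpe _ hγ ?_
      rw [Matrix.SpecialLinearGroup.coe_neg, Matrix.trace_neg, trace_conj_T_zpow_eq]
      norm_num
    have heig : IsEig (-(g * ModularGroup.T ^ n * g⁻¹)) H := by
      refine isEig_of_pow hm ?_
      rw [h, map_mul, map_pow, compSL_theta1_of_mem_Gamma1 (ι := ι) hM hγ,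
        compSL_theta1_of_mem_Gamma1 (ι := ι) hM hγ]
    have h2 := heig.compSL_eq
    rw [h1, map_one, one_mul, compSL_neg_eq] at h2
    exact mult_eq_one_of_compSL_eq hH0 h2

/-- The elliptic hypothesis of the Kummer converse from the `parEll` hypothesis: an element with
a fixed point in `ℍ` has `tr² ≤ 4`. -/
theorem hell1_of_trace {M : ℕ} {H : HolH}
    (hpe : ∀ γ ∈ Gamma1 M,
      ((γ : SL(2, ℤ)) : Matrix (Fin 2) (Fin 2) ℤ).trace ^ 2 ≤ 4 → mult γ H = 1) :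
    ∀ γ ∈ Gamma1 M, (∃ τ : ℍ, γ • τ = τ) → mult γ H = 1 := by
  rintro γ hγ ⟨τ, hτ⟩
  exact hpe γ hγ (trace_sq_le_of_fixed_pt γ hτ)

end Fermat.Agent.S48.G1.F1.PlaceCusp1
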