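import Fermat.Agent.S48.G1.F1.PlaceFin
import Fermat.Agent.S48.G1.F1.Degree1

set_option autoImplicit false
set_option linter.dupNamespace false
set_option linter.style.haveILetI false

/-!
# DS / G1, area F, row F.5 (a′), HYPOTHESIS-FREE: finite places of `F1 M` are points of `Γ₁(M) \ ℍ`

`PlaceFin.exists_point_of_place` with its two remaining hypotheses (`htr`, `hdeg`) discharged by
the degree row `Degree1` (`trdeg_F1`, `finrank_F1`).  `jF` is ANY element of `F1 M` with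
`q`-expansion `j` (`Degree1.jF1 M`, `FieldFin.jF1 M`, `genJ M 1 _`, ...).

* `exists_point_of_place1` : place → point, `σ ∈ Γ₁(M)`;
* `hfin1_Gamma1`, `hfin1_Gamma1pm` : the `hfin` argument of
  `ConverseGen.dvd_ord_sub_of_root` / `divBy_of_root` (for `Γ := Gamma1 M`, resp. `Gamma1pm M`);
* `thetaData1'`, `hdeg1`, `htr1`, `hx1` : the arguments `D htr hx0 hdeg` of
  `ConverseData.hfin_of_data` / `dvd_ord_sub_of_data` / `divBy_of_data` at `Γ := Gamma1pm M`.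
-/

noncomputable section

namespace Fermat.Agent.S48.G1.F1.PlaceFin1

open AlgebraicCurve IntermediateField UpperHalfPlane ModularCurve CongruenceSubgroup
open Fermat.Agent.S24 Fermat.Agent.S24.HolH Fermat.Agent.S24.JHol Fermat.Agent.S24.JFun
open Fermat.Agent.S48.G1.F1 Fermat.Agent.S48.G1.F1.Theta1 Fermat.Agent.S48.G1.PlaceFinGen
open scoped MatrixGroups

/-- The uniformisation datum of `F1 M` (no `NeZero` instance needed: `2 ≤ M`). -/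
def thetaData1' (ι : Qb →+* ℂ) (M : ℕ) (hM : 2 ≤ M) (jF : F1 M)
    (hjF : ((jF : F1 M) : LaurentSeries Qb) = coeffEmb Qb jq) :
    ThetaDataG Qb (Gamma1pm M) (F1 M) jF :=
  haveI : NeZero M := ⟨by omega⟩
  PlaceFin.thetaData1 ι M hM jF hjF

@[simp] theorem thetaData1'_F₀ (ι : Qb →+* ℂ) (M : ℕ) (hM : 2 ≤ M) (jF : F1 M)
    (hjF : ((jF : F1 M) : LaurentSeries Qb) = coeffEmb Qb jq) :
    (thetaData1' ι M hM jF hjF).F₀ = A01 M := rfl

@[simp] theorem thetaData1'_θ (ι : Qb →+* ℂ) (M : ℕ) (hM : 2 ≤ M) (jF : F1 M)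
    (hjF : ((jF : F1 M) : LaurentSeries Qb) = coeffEmb Qb jq) :
    (thetaData1' ι M hM jF hjF).θ = theta1 ι M hM := rfl

@[simp] theorem thetaData1'_emb (ι : Qb →+* ℂ) (M : ℕ) (hM : 2 ≤ M) (jF : F1 M)
    (hjF : ((jF : F1 M) : LaurentSeries Qb) = coeffEmb Qb jq) :
    (thetaData1' ι M hM jF hjF).emb = ι := rfl

/-- `htr` for `F1 M`. -/
theorem htr1 {M : ℕ} (hM : 2 ≤ M) : Algebra.trdeg Qb (F1 M) = 1 := Degree1.trdeg_F1 hM

/-- `hx0` for `F1 M`. -/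
theorem hx1 {M : ℕ} (jF : F1 M) (hjF : ((jF : F1 M) : LaurentSeries Qb) = coeffEmb Qb jq) :
    Transcendental Qb jF := PlaceFin.transcendental_of_coe_eq jF hjF

/-- `hdeg` for `F1 M`. -/
theorem hdeg1 {M : ℕ} (hM : 2 ≤ M) (jF : F1 M)
    (hjF : ((jF : F1 M) : LaurentSeries Qb) = coeffEmb Qb jq) :
    Module.finrank Qb⟮jF⟯ (F1 M) = Nat.card (SL(2, ℤ) ⧸ Gamma1pm M) :=
  Degree1.finrank_F1 hM jF hjF

/-- **Place → point for `F1 M`, hypothesis-free.**  Every place `v` of `F1 M` at which `j` is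
regular is the place of a point `τ ∈ ℍ`: with `a = j(τ)`, there are `κ > 0` and `σ ∈ Γ₁(M)`
fixing `τ` such that `ord_τ (theta1 f) = κ · ord_v f` for all `f ∈ A01 M`, every `σ`-invariant
holomorphic function has order divisible by `κ` at `τ`, and
`κ · ord_v (j - a) = ord_τ (j - a)`. -/
theorem exists_point_of_place1 (ι : Qb →+* ℂ) {M : ℕ} (hM : 2 ≤ M) (jF : F1 M)
    (hjF : ((jF : F1 M) : LaurentSeries Qb) = coeffEmb Qb jq)
    (v : Place Qb (F1 M)) (hv : 0 ≤ v.ord jF) :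
    ∃ (a : Qb) (τ : ℍ) (κ : ℕ) (σ : SL(2, ℤ)),
      0 < v.ord (jF - algebraMap Qb (F1 M) a) ∧ jFun τ = ι a ∧
      0 < κ ∧ σ ∈ Gamma1 M ∧ σ • τ = τ ∧
      (∀ f : A01 M, f ≠ 0 → ordZ τ (theta1 ι M hM f) = κ * v.ord (f : F1 M)) ∧
      (∀ H : HolH, H ≠ 0 → compSL σ H = H → (κ : ℤ) ∣ ordZ τ H) ∧
      (κ : ℤ) * v.ord (jF - algebraMap Qb (F1 M) a)
        = ordZ τ (jHol - algebraMap ℂ HolH (ι a)) := by
  haveI : NeZero M := ⟨by omega⟩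
  exact PlaceFin.exists_point_of_place ι hM jF hjF (htr1 hM) (hdeg1 hM jF hjF) v hv

/-- The `hfin` hypothesis of `ConverseGen.dvd_ord_sub_of_root` / `divBy_of_root` for
`Γ := Gamma1 M`, `F₀ := A01 M`, `θ := theta1 ι M hM`: a THEOREM. -/
theorem hfin1_Gamma1 (ι : Qb →+* ℂ) {M : ℕ} (hM : 2 ≤ M) (jF : F1 M)
    (hjF : ((jF : F1 M) : LaurentSeries Qb) = coeffEmb Qb jq) :
    ∀ v : Place Qb (F1 M), 0 ≤ v.ord jF →
      ∃ (τ : ℍ) (κ : ℕ) (σ : SL(2, ℤ)), 0 < κ ∧ σ ∈ Gamma1 M ∧ σ • τ = τ ∧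
        (∀ f : A01 M, f ≠ 0 → ordZ τ (theta1 ι M hM f) = κ * v.ord (f : F1 M)) ∧
        (∀ H : HolH, H ≠ 0 → compSL σ H = H → (κ : ℤ) ∣ ordZ τ H) := by
  haveI : NeZero M := ⟨by omega⟩
  exact PlaceFin.hfin_Gamma1 ι hM jF hjF (htr1 hM) (hdeg1 hM jF hjF)

/-- The same with `Γ := Gamma1pm M`. -/
theorem hfin1_Gamma1pm (ι : Qb →+* ℂ) {M : ℕ} (hM : 2 ≤ M) (jF : F1 M)
    (hjF : ((jF : F1 M) : LaurentSeries Qb) = coeffEmb Qb jq) :
    ∀ v : Place Qb (F1 M), 0 ≤ v.ord jF →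
      ∃ (τ : ℍ) (κ : ℕ) (σ : SL(2, ℤ)), 0 < κ ∧ σ ∈ Gamma1pm M ∧ σ • τ = τ ∧
        (∀ f : A01 M, f ≠ 0 → ordZ τ (theta1 ι M hM f) = κ * v.ord (f : F1 M)) ∧
        (∀ H : HolH, H ≠ 0 → compSL σ H = H → (κ : ℤ) ∣ ordZ τ H) := by
  haveI : NeZero M := ⟨by omega⟩
  exact PlaceFin.hfin_Gamma1pm ι hM jF hjF (htr1 hM) (hdeg1 hM jF hjF)

/-- Every place of `F1 M` is either a pole of `j` (a cusp) or the place of a point of `ℍ`
at which all `theta1 f` have order `κ · ord_v f`. -/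
theorem pole_or_point (ι : Qb →+* ℂ) {M : ℕ} (hM : 2 ≤ M) (jF : F1 M)
    (hjF : ((jF : F1 M) : LaurentSeries Qb) = coeffEmb Qb jq) (v : Place Qb (F1 M)) :
    v.ord jF < 0 ∨
      ∃ (τ : ℍ) (κ : ℕ), 0 < κ ∧
        ∀ f : A01 M, f ≠ 0 → ordZ τ (theta1 ι M hM f) = κ * v.ord (f : F1 M) := by
  rcases lt_or_ge (v.ord jF) 0 with h | h
  · exact Or.inl h
  · obtain ⟨τ, κ, σ, hκ, -, -, hf, -⟩ := hfin1_Gamma1 ι hM jF hjF v h
    exact Or.inr ⟨τ, κ, hκ, hf⟩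

end Fermat.Agent.S48.G1.F1.PlaceFin1
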