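/-
PROGRAM DS (S48), part G1, AREA F, row F.4 (`Closed1`) — the GENERIC half (helper272).

`T_ℓ` preserves `m ∣ div`, by the norm route of `S30/E4/HeckeNorm`, for an ARBITRARY subfield
`k ⊆ Ω` (think `k = F1 M ⊆ Ω = ℚ̄((q))`) and an arbitrary second embedding `β : k → Ω`
(think `β f = (⟨ℓ⟩ f)(q^ℓ)`).  No modular input, no dictionary for the intermediate group
`Γ₁(M) ∩ Γ₀(ℓ)`: the upper field is simply `upper k β = k · β(k) ⊆ Ω`.

Input `(hT)`: a ring hom `V : Ω → Ω` (think `q ↦ q^ℓ`), ring homs `c i : Ω → Ω` (think
`q ↦ zⁱ q`), and a map `T : k → k` with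

  `V (T b) = V (β b) · ∏ᵢ c i b`        for all `b ∈ k`

(i.e. the product of the *virtual conjugates* `V ∘ β`, `c i` of `β` lies in `V k`: membership of
`T_ℓ b` in `k` + the formal identity of `q`-series).

Output:
* `finiteAlong_alphaU`, `finrankAlong_alphaU_le` : `[k · β(k) : k] ≤ card ι + 1`, finite;
* `card_le_finrankAlong_alphaU` : a lower bound for the degree from distinct "analytic" roots;
* `norm_betaU_eq` : if `[k · β(k) : k] = card ι + 1` then `N_{k·β(k)/k} (β b) = T b`;
* `dvd_ord_T` : then `T` preserves `m ∣ div` (places of `k / K`), provided `trdeg K k = 1`.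
-/
import Mathlib
import Fermat.Prelude.Def_AlgebraicCurve_Correspondence
import Fermat.Agent.S30.E4.NormVirt
import Fermat.Agent.S30.E4.NormDiv

set_option autoImplicit false
set_option linter.unusedSectionVars false
set_option linter.style.haveILetI false

noncomputable section

open AlgebraicCurve Polynomial

namespace Fermat.Agent.S48.G1.ClosedGen

open Fermat.Agent.S30.E4

/-! ### Embeddings and virtual conjugates, without any finiteness assumption -/

section Emb

variable {k F B E : Type*} [Field k] [Field F] [Field B] [Field E] [Algebra k F]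
  [CharZero k] [CharZero B]
variable {ι : Type*} [Fintype ι]

/-- If `F` is generated over `k` by the image of `V : B → F` and `V` has `card ι` virtual
conjugates `c x : B → E` (one of them being `φ ∘ V`) whose elementary symmetric functions lie in
`φ k`, then `F / k` is finite of degree at most `card ι`. -/
theorem finite_and_finrank_le (φ : F →+* E) (V : B →+* F) (c : ι → B →+* E) (x₀ : ι)
    (hx₀ : ∀ b, c x₀ b = φ (V b))
    (hgen : IntermediateField.adjoin k (Set.range V) = ⊤)
    (hsym : ∀ b : B, ∃ P : k[X], P.map (φ.comp (algebraMap k F)) = ∏ x, (X - C (c x b))) :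
    FiniteDimensional k F ∧ Module.finrank k F ≤ Fintype.card ι := by
  classical
  set φ₀ : k →+* E := φ.comp (algebraMap k F) with hφ₀
  letI : Algebra k E := φ₀.toAlgebra
  let Ω := AlgebraicClosure E
  have halg : ∀ r : k, algebraMap k Ω r = algebraMap E Ω (φ₀ r) := fun r => by
    rw [IsScalarTower.algebraMap_apply k E Ω, RingHom.algebraMap_toAlgebra]
  -- `V b` is a root of `P`
  have hzero : ∀ (b : B) (P : k[X]), P.map φ₀ = ∏ x, (X - C (c x b)) → aeval (V b) P = 0 := by
    intro b P hP
    apply φ.injective
    rw [map_zero]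
    have h1 : φ (aeval (V b) P) = (P.map φ₀).eval (φ (V b)) := by
      rw [aeval_def, hom_eval₂, eval_map]
    rw [h1, hP, eval_prod]
    apply Finset.prod_eq_zero (Finset.mem_univ x₀)
    rw [eval_sub, eval_X, eval_C, hx₀, sub_self]
  -- every embedding sends `V b` to one of the virtual conjugates
  have hroot : ∀ (σ : F →ₐ[k] Ω) (b : B), ∃ x, σ (V b) = algebraMap E Ω (c x b) := by
    intro σ b
    obtain ⟨P, hP⟩ := hsym b
    have h0 : aeval (V b) P = 0 := hzero b P hP
    have h2 : (P.map (algebraMap k Ω)).eval (σ (V b)) = 0 := by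
      rw [eval_map, ← aeval_def, aeval_algHom_apply, h0, map_zero]
    have h3 : P.map (algebraMap k Ω) = ∏ x, (X - C (algebraMap E Ω (c x b))) := by
      have h4 : algebraMap k Ω = (algebraMap E Ω).comp φ₀ := RingHom.ext halg
      rw [h4, ← Polynomial.map_map, hP, Polynomial.map_prod]
      simp
    rw [h3, eval_prod, Finset.prod_eq_zero_iff] at h2
    obtain ⟨x, -, hx⟩ := h2
    rw [eval_sub, eval_X, eval_C, sub_eq_zero] at hx
    exact ⟨x, hx⟩
  -- the index can be chosen uniformly in `b`
  have huni : ∀ σ : F →ₐ[k] Ω, ∃ x, ∀ b, σ (V b) = algebraMap E Ω (c x b) := by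
    intro σ
    let p : ι → Subspace ℚ B := fun x =>
      { carrier := {b | σ (V b) = algebraMap E Ω (c x b)}
        add_mem' := by
          intro a b ha hb
          simp only [Set.mem_ofPred_eq] at ha hb ⊢
          rw [map_add, map_add, ha, hb, map_add, map_add]
        zero_mem' := by
          simp only [Set.mem_ofPred_eq, map_zero]
        smul_mem' := by
          intro q b hb
          simp only [Set.mem_ofPred_eq] at hb ⊢
          rw [Rat.smul_def, map_mul, map_mul, map_mul, map_mul, hb, map_ratCast, map_ratCast,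
            map_ratCast, map_ratCast] }
    have hcov : ⋃ x, (p x : Set B) = Set.univ := by
      rw [Set.iUnion_eq_univ_iff]
      intro b
      obtain ⟨x, hx⟩ := hroot σ b
      exact ⟨x, hx⟩
    obtain ⟨x, hx⟩ := Subspace.exists_eq_top_of_iUnion_eq_univ hcov
    refine ⟨x, fun b => ?_⟩
    have hb : b ∈ p x := by
      rw [hx]
      exact Submodule.mem_top
    exact hb
  choose xσ hxσ using huni
  have hinj : Function.Injective xσ := by
    intro σ τ h
    refine NormVirt.algHom_ext_of_adjoin_eq_top hgen σ τ ?_
    rintro y ⟨b, rfl⟩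
    rw [hxσ σ b, hxσ τ b, h]
  -- `F / k` is algebraic
  have hint : ∀ y ∈ Set.range V, IsIntegral k y := by
    rintro _ ⟨b, rfl⟩
    obtain ⟨P, hP⟩ := hsym b
    have hP0 : P ≠ 0 := by
      rintro rfl
      rw [Polynomial.map_zero] at hP
      have hmonic : (∏ x : ι, (X - C (c x b))).Monic :=
        monic_prod_of_monic _ _ fun x _ => monic_X_sub_C _
      exact hmonic.ne_zero hP.symm
    exact isAlgebraic_iff_isIntegral.mp ⟨P, hP0, hzero b P hP⟩
  have halgF : Algebra.IsAlgebraic k F := by
    have h1 : Algebra.IsAlgebraic k (IntermediateField.adjoin k (Set.range V)) :=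
      IntermediateField.isAlgebraic_adjoin hint
    refine ⟨fun y => ?_⟩
    have hy : y ∈ IntermediateField.adjoin k (Set.range V) := by
      rw [hgen]
      exact IntermediateField.mem_top
    have h2 := h1.isAlgebraic ⟨y, hy⟩
    exact IntermediateField.isAlgebraic_iff.mp h2
  have hsepdeg : Field.finSepDegree k F = Nat.card (F →ₐ[k] Ω) :=
    Field.finSepDegree_eq_of_isAlgClosed k F Ω
  haveI : Finite (F →ₐ[k] Ω) := Finite.of_injective xσ hinj
  haveI : Nonempty (F →ₐ[k] Ω) := ⟨IsAlgClosed.lift⟩
  have hpos : 0 < Nat.card (F →ₐ[k] Ω) := Nat.card_pos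
  have hle : Nat.card (F →ₐ[k] Ω) ≤ Fintype.card ι := by
    rw [← Nat.card_eq_fintype_card]
    exact Nat.card_le_card_of_injective xσ hinj
  have hsep : Field.finSepDegree k F = Module.finrank k F :=
    Field.finSepDegree_eq_finrank_of_isSeparable k F
  have hfr : 0 < Module.finrank k F := by
    rw [← hsep, hsepdeg]
    exact hpos
  refine ⟨Module.finite_of_finrank_pos hfr, ?_⟩
  rw [← hsep, hsepdeg]
  exact hle

end Emb

/-! ### The upper field `k · β(k)` -/

section Main

variable {K Ω : Type*} [Field K] [CharZero K] [Field Ω] [Algebra K Ω]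
variable (k : IntermediateField K Ω) (β : k →ₐ[K] Ω)

/-- The upper field `k · β(k)` inside `Ω`. -/
def upper : IntermediateField K Ω := k ⊔ β.fieldRange

theorem le_upper : k ≤ upper k β := le_sup_left

theorem range_le_upper : β.fieldRange ≤ upper k β := le_sup_right

/-- The inclusion `k → k · β(k)`. -/
def alphaU : k →ₐ[K] upper k β := IntermediateField.inclusion (le_upper k β)

/-- `β` with values in the upper field. -/
def betaU : k →ₐ[K] upper k β where
  toFun x := ⟨β x, range_le_upper k β ⟨x, rfl⟩⟩
  map_one' := Subtype.ext (map_one β)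
  map_mul' x y := Subtype.ext (map_mul β x y)
  map_zero' := Subtype.ext (map_zero β)
  map_add' x y := Subtype.ext (map_add β x y)
  commutes' r := Subtype.ext (β.commutes r)

@[simp] theorem coe_alphaU (x : k) : ((alphaU k β x : upper k β) : Ω) = x := rfl

@[simp] theorem coe_betaU (x : k) : ((betaU k β x : upper k β) : Ω) = β x := rfl

/-- The upper field is generated over `k` by `β(k)`. -/
theorem adjoin_range_betaU :
    letI := algebraAlong (alphaU k β)
    IntermediateField.adjoin k (Set.range (betaU k β)) = ⊤ := by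
  letI : Algebra k (upper k β) := algebraAlong (alphaU k β)
  haveI := isScalarTower_along (alphaU k β)
  set M := IntermediateField.adjoin k (Set.range (betaU k β)) with hM
  rw [eq_top_iff]
  let M' : IntermediateField K Ω := (M.restrictScalars K).map (upper k β).val
  have hM' : ∀ y : upper k β, y ∈ M → (y : Ω) ∈ M' := fun y hy =>
    (IntermediateField.mem_map (f := (upper k β).val) (M.restrictScalars K)).mpr
      ⟨y, (IntermediateField.mem_restrictScalars K).mpr hy, rfl⟩
  have hle : upper k β ≤ M' := by
    refine sup_le ?_ ?_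
    · intro x hx
      exact hM' (alphaU k β ⟨x, hx⟩) (M.algebraMap_mem ⟨x, hx⟩)
    · rintro _ ⟨x, rfl⟩
      exact hM' (betaU k β x) (IntermediateField.subset_adjoin _ _ ⟨x, rfl⟩)
  intro x _
  obtain ⟨y, hy, hxy⟩ :=
    (IntermediateField.mem_map (f := (upper k β).val) (M.restrictScalars K)).mp (hle x.2)
  have hyx : y = x := Subtype.ext hxy
  rw [← hyx]
  exact (IntermediateField.mem_restrictScalars K).mp hy

variable {ι : Type*} [Fintype ι]

/-- The embedding `V` restricted to the upper field. -/
def phiU (V : Ω →+* Ω) : upper k β →+* Ω := V.comp (upper k β).val.toRingHom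

/-- The virtual conjugates of `β`: `V ∘ β` and the `c i`. -/
def conj (V : Ω →+* Ω) (c : ι → Ω →+* Ω) : Option ι → k →+* Ω
  | none => (phiU k β V).comp (betaU k β).toRingHom
  | some i => (c i).comp k.val.toRingHom

theorem prod_conj (V : Ω →+* Ω) (c : ι → Ω →+* Ω) (b : k) :
    ∏ x, conj k β V c x b = V (β b) * ∏ i, c i (b : Ω) := by
  rw [Fintype.prod_option]
  rfl

theorem exists_poly (V : Ω →+* Ω) (c : ι → Ω →+* Ω) (T : k → k)
    (hT : ∀ b : k, V (T b : Ω) = V (β b) * ∏ i, c i (b : Ω)) (b : k) :
    letI := algebraAlong (alphaU k β)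
    ∃ P : Polynomial k, P.map ((phiU k β V).comp (algebraMap k (upper k β)))
      = ∏ x, (X - C (conj k β V c x b)) := by
  letI : Algebra k (upper k β) := algebraAlong (alphaU k β)
  haveI : CharZero k := charZero_of_injective_algebraMap (algebraMap K k).injective
  refine NormVirt.exists_poly_of_mul ((phiU k β V).comp (algebraMap k (upper k β)))
    (conj k β V c) T (fun b' => ?_) b
  rw [prod_conj]
  exact hT b'

/-- **Finiteness and the upper bound for the degree** of `k · β(k)` over `k`. -/
theorem finiteAlong_and_le (V : Ω →+* Ω) (c : ι → Ω →+* Ω) (T : k → k)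
    (hT : ∀ b : k, V (T b : Ω) = V (β b) * ∏ i, c i (b : Ω)) :
    FiniteAlong K (alphaU k β) ∧ finrankAlong K (alphaU k β) ≤ Fintype.card ι + 1 := by
  letI : Algebra k (upper k β) := algebraAlong (alphaU k β)
  haveI : CharZero k := charZero_of_injective_algebraMap (algebraMap K k).injective
  have h := finite_and_finrank_le (k := k) (F := upper k β) (B := k) (E := Ω) (phiU k β V)
    (betaU k β).toRingHom (conj k β V c) none (fun b => rfl) (adjoin_range_betaU k β)
    (fun b => exists_poly k β V c T hT b)
  rw [Fintype.card_option] at h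
  exact h

theorem finiteAlong_alphaU (V : Ω →+* Ω) (c : ι → Ω →+* Ω) (T : k → k)
    (hT : ∀ b : k, V (T b : Ω) = V (β b) * ∏ i, c i (b : Ω)) :
    FiniteAlong K (alphaU k β) :=
  (finiteAlong_and_le k β V c T hT).1

theorem finrankAlong_alphaU_le (V : Ω →+* Ω) (c : ι → Ω →+* Ω) (T : k → k)
    (hT : ∀ b : k, V (T b : Ω) = V (β b) * ∏ i, c i (b : Ω)) :
    finrankAlong K (alphaU k β) ≤ Fintype.card ι + 1 :=
  (finiteAlong_and_le k β V c T hT).2

/-- **`T` is the norm of `β`** along the inclusion, once the degree is `card ι + 1`. -/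
theorem norm_betaU_eq (V : Ω →+* Ω) (c : ι → Ω →+* Ω) (T : k → k)
    (hT : ∀ b : k, V (T b : Ω) = V (β b) * ∏ i, c i (b : Ω))
    (hdeg : Fintype.card ι + 1 ≤ finrankAlong K (alphaU k β)) (b : k) :
    letI := algebraAlong (alphaU k β)
    Algebra.norm k (betaU k β b) = T b := by
  letI : Algebra k (upper k β) := algebraAlong (alphaU k β)
  haveI : CharZero k := charZero_of_injective_algebraMap (algebraMap K k).injective
  haveI : FiniteDimensional k (upper k β) := finiteAlong_alphaU k β V c T hT
  have hfd : Module.finrank k (upper k β) = Fintype.card ι + 1 :=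
    le_antisymm (finrankAlong_alphaU_le k β V c T hT) hdeg
  refine NormVirt.norm_eq_of_mul (phiU k β V) (betaU k β).toRingHom (conj k β V c) none
    (fun b => rfl) (adjoin_range_betaU k β) ?_ T (fun b' => ?_) b
  · rw [hfd, Fintype.card_option]
  · rw [prod_conj]
    exact hT b'

/-! ### `T` preserves `m ∣ div` -/

theorem trdeg_upper (hfin : FiniteAlong K (alphaU k β)) (htr : Algebra.trdeg K k = 1) :
    Algebra.trdeg K (upper k β) = 1 := by
  letI : Algebra k (upper k β) := algebraAlong (alphaU k β)
  haveI := isScalarTower_along (alphaU k β)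
  haveI : FiniteDimensional k (upper k β) := hfin
  have h3 := _root_.trdeg_add_eq K k (A := upper k β)
  have h0 : Algebra.trdeg k (upper k β) = 0 := _root_.trdeg_eq_zero
  rw [htr, h0, add_zero] at h3
  exact h3.symm

/-- The upper field is integral over `β(k)`. -/
theorem isIntegral_betaU (hfin : FiniteAlong K (alphaU k β)) (htr : Algebra.trdeg K k = 1) :
    letI := algebraAlong (betaU k β)
    Algebra.IsIntegral k (upper k β) := by
  have h2 := trdeg_upper k β hfin htr
  letI : Algebra k (upper k β) := algebraAlong (betaU k β)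
  haveI := isScalarTower_along (betaU k β)
  have h3 := _root_.trdeg_add_eq K k (A := upper k β)
  rw [htr, h2] at h3
  have h4 : Algebra.trdeg k (upper k β) = 0 := by
    have h5 : (1 : Cardinal) + Algebra.trdeg k (upper k β) = 1 + 0 := by
      rw [h3, add_zero]
    exact Cardinal.eq_of_add_eq_add_left h5 Cardinal.one_lt_aleph0
  haveI : Algebra.IsAlgebraic k (upper k β) := _root_.trdeg_eq_zero_iff.mp h4
  exact Algebra.IsAlgebraic.isIntegral

/-- If `m ∣ div f` on `k` then `m ∣ div (β f)` on the upper field. -/
theorem dvd_ord_betaU (hfin : FiniteAlong K (alphaU k β)) (htr : Algebra.trdeg K k = 1)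
    (m : ℕ) (f : k) (hdiv : ∀ P : Place K k, (m : ℤ) ∣ P.ord f) (w : Place K (upper k β)) :
    (m : ℤ) ∣ w.ord (betaU k β f) := by
  letI : Algebra k (upper k β) := algebraAlong (betaU k β)
  haveI := isScalarTower_along (betaU k β)
  haveI : Algebra.IsIntegral k (upper k β) := isIntegral_betaU k β hfin htr
  have h : w.ord (betaU k β f)
      = Place.ramificationIndex (F := k) w * (w.restrict k).ord f :=
    w.ord_restrict (F := k) f
  rw [h]
  exact Dvd.dvd.mul_left (hdiv _) _

/-- **`T` preserves `m ∣ div`.** -/
theorem dvd_ord_T (V : Ω →+* Ω) (c : ι → Ω →+* Ω) (T : k → k)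
    (hT : ∀ b : k, V (T b : Ω) = V (β b) * ∏ i, c i (b : Ω))
    (hdeg : Fintype.card ι + 1 ≤ finrankAlong K (alphaU k β))
    (htr : Algebra.trdeg K k = 1)
    (m : ℕ) (f : k) (hf : f ≠ 0) (hdiv : ∀ P : Place K k, (m : ℤ) ∣ P.ord f)
    (P : Place K k) : (m : ℤ) ∣ P.ord (T f) := by
  have hfin : FiniteAlong K (alphaU k β) := finiteAlong_alphaU k β V c T hT
  letI : Algebra k (upper k β) := algebraAlong (alphaU k β)
  haveI := isScalarTower_along (alphaU k β)
  haveI : CharZero k := charZero_of_injective_algebraMap (algebraMap K k).injective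
  haveI : FiniteDimensional k (upper k β) := hfin
  rw [← norm_betaU_eq k β V c T hT hdeg f]
  refine NormDiv.dvd_ord_norm m (betaU k β f) ?_
    (fun w => dvd_ord_betaU k β hfin htr m f hdiv w) P
  exact (_root_.map_ne_zero _).mpr hf

/-! ### A lower bound for the degree from distinct "analytic" roots -/

/-- If `A ⊆ k` is a subring with fraction field `k`, `θ : A → H` an injective ring hom into a
domain, and every polynomial over `A` killing `β b` also kills (through `θ`) the pairwise distinct
elements `h x` of `H`, then `[k · β(k) : k] ≥ card ι'`. -/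
theorem card_le_finrankAlong_alphaU {A H : Type*} [CommRing A] [CommRing H] [IsDomain H]
    [Algebra A k] [IsFractionRing A k] (θ : A →+* H) (hθ : Function.Injective θ)
    {ι' : Type*} [Fintype ι'] (h : ι' → H) (hh : Function.Injective h) (b : k)
    (hroot : ∀ Q : Polynomial A,
      (Q.map (algebraMap A k)).eval₂ (k.val : k →+* Ω) (β b) = 0 → ∀ x, Q.eval₂ θ (h x) = 0)
    (hfin : FiniteAlong K (alphaU k β)) :
    Fintype.card ι' ≤ finrankAlong K (alphaU k β) := by
  classical
  letI : Algebra k (upper k β) := algebraAlong (alphaU k β)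
  haveI : FiniteDimensional k (upper k β) := hfin
  set y : upper k β := betaU k β b with hy
  set P : Polynomial k := minpoly k y with hPdef
  have hyint : IsIntegral k y := Algebra.IsIntegral.isIntegral y
  have hP0 : P ≠ 0 := minpoly.ne_zero hyint
  have hPy : aeval y P = 0 := minpoly.aeval k y
  obtain ⟨a, ha, hQ⟩ := IsLocalization.integerNormalization_spec (nonZeroDivisors A) P
  set Q : Polynomial A := IsLocalization.integerNormalization (nonZeroDivisors A) P with hQdef
  haveI : Nontrivial A := (algebraMap A k).domain_nontrivial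
  have ha0 : algebraMap A k a ≠ 0 := by
    intro h0
    exact nonZeroDivisors.ne_zero ha ((IsFractionRing.injective A k) (by rw [h0, map_zero]))
  have hmap : Q.map (algebraMap A k) = C (algebraMap A k a) * P := by
    rw [hQ, Algebra.smul_def]
    rfl
  have hdegQ : (Q.map (algebraMap A k)).natDegree = P.natDegree := by
    rw [hmap, natDegree_C_mul ha0]
  have hQ0 : Q ≠ 0 := by
    rintro h0
    rw [h0, Polynomial.map_zero] at hmap
    exact (mul_ne_zero (C_ne_zero.mpr ha0) hP0) hmap.symm
  -- `Q` kills `β b`
  have hev : (Q.map (algebraMap A k)).eval₂ (k.val : k →+* Ω) (β b) = 0 := by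
    have h1 : (upper k β).val (P.eval₂ (algebraMap k (upper k β)) y)
        = P.eval₂ (((upper k β).val : upper k β →+* Ω).comp (algebraMap k (upper k β)))
            ((upper k β).val y) := Polynomial.hom_eval₂ P _ _ y
    have h2 : P.eval₂ (algebraMap k (upper k β)) y = 0 := by
      rw [← aeval_def]
      exact hPy
    rw [h2, map_zero] at h1
    have h3 : (((upper k β).val : upper k β →+* Ω).comp (algebraMap k (upper k β)))
        = (k.val : k →+* Ω) := RingHom.ext fun _ => rfl
    rw [h3] at h1
    rw [hmap, eval₂_mul, eval₂_C]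
    have h4 : (upper k β).val y = β b := rfl
    rw [h4] at h1
    rw [← h1, mul_zero]
  have hroots := hroot Q hev
  have hQθ : Q.map θ ≠ 0 := (Polynomial.map_ne_zero_iff hθ).mpr hQ0
  have hsub : (Finset.univ.image h).val ⊆ (Q.map θ).roots := by
    intro z hz
    rw [Finset.mem_val, Finset.mem_image] at hz
    obtain ⟨x, -, rfl⟩ := hz
    rw [mem_roots hQθ, IsRoot.def, eval_map]
    exact hroots x
  have hcard := Polynomial.card_le_degree_of_subset_roots hsub
  rw [Finset.card_image_of_injective _ hh, Finset.card_univ] at hcard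
  have h5 : (Q.map θ).natDegree ≤ Q.natDegree := natDegree_map_le
  have h6 : Q.natDegree = (Q.map (algebraMap A k)).natDegree :=
    (natDegree_map_eq_of_injective (IsFractionRing.injective A k) Q).symm
  have h7 : P.natDegree ≤ Module.finrank k (upper k β) := minpoly.natDegree_le y
  show Fintype.card ι' ≤ Module.finrank k (upper k β)
  omega

end Main

end Fermat.Agent.S48.G1.ClosedGen
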