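/-
PROGRAM DS (S48) / G1, AREA F, row F.4 (`Closed1`) — second hand (helper272), G1 DEAL #3a (1).

THE SEPARATION INPUT `hsep` of `VirtNormDiv.dvd_ord_T_of_sep` (helper130), at `b₀ = j`.

For the multiplicative Hecke operator with diamond the virtual conjugates of
`β b = (⟨ℓ⟩ b)(q ^ ℓ)` are `(⟨ℓ⟩ b)(q ^ (ℓ²))` and `b (zⁱ q)`, `i < ℓ` (`z` a primitive `ℓ`-th root
of unity).  They are separated by ANY series `b₀` with nonzero coefficient at `q⁻¹`: that
coefficient is `0` for `(qExpand ℓ ∘ qExpand ℓ) y` and `z⁻ⁱ · b₀₋₁` for `scale (zⁱ) b₀`.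

* `sep_of_coeff_neg_one` : the formal statement (any field, any `x` with `x₋₁ ≠ 0`, any `y`);
* `exists_sep`           : the instance for `F1 M` (`b₀ = j(q)`), in the literal shape of the
                           hypothesis `hsep` of `VirtNormDiv.dvd_ord_T_of_sep` for
                           `V = qExpand ℚ̄ ℓ`, `β b = qExpand ℚ̄ ℓ (δ b)`, `c i = scale (z ^ i)`,
                           `ι = Fin ℓ`, and ANY map `δ : F1 M → F1 M`;
* `qExpand_heckeMul2_fin`: the identity `(hT)` with the product over `Fin ℓ`;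
* `qExpand_algebraMap'`, `scale_algebraMap'` : `(hV)`, `(hc)`.

The transcendence degree input is `Degree1.trdeg_F1 (hM : 2 ≤ M) : Algebra.trdeg ℚ̄ (F1 M) = 1`
(helper145, landed).
-/
import Mathlib
import Fermat.Agent.S24.Puiseux.Formal
import Fermat.Agent.S48.G1.F1.FieldFin
import Fermat.Agent.S48.G1.Avatar2

set_option autoImplicit false

noncomputable section

open HahnSeries ModularCurve

namespace Fermat.Agent.S48.G1.F1.ClosedSep

open Fermat.Agent.S24.Puiseux Fermat.Agent.S48.G1.F1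

/-! ### Formal part -/

section Formal

variable {L : Type*} [Field L]

/-- The coefficient of `q⁻¹` of `f (q ^ ℓ)` vanishes for `ℓ ≥ 2`. -/
theorem coeff_neg_one_qExpand {ℓ : ℕ} [NeZero ℓ] (hℓ : 2 ≤ ℓ) (w : LaurentSeries L) :
    (qExpand L ℓ w).coeff (-1) = 0 := by
  apply qExpand_coeff_of_not_dvd
  intro h
  have h1 : (ℓ : ℤ) ∣ 1 := (dvd_neg).mp h
  have h2 : ℓ ∣ 1 := by exact_mod_cast h1
  have h3 : ℓ = 1 := Nat.dvd_one.mp h2
  omega

/-- The coefficient of `q⁻¹` of `x (ζ q)`. -/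
theorem coeff_neg_one_scale (ζ : Lˣ) (x : LaurentSeries L) :
    (scale ζ x).coeff (-1) = ((ζ⁻¹ : Lˣ) : L) * x.coeff (-1) := by
  rw [scale_coeff, zpow_neg_one]

/-- **Separation of the virtual conjugates.**  If `x₋₁ ≠ 0` then `y (q ^ (ℓ²))` differs from all
`x (zⁱ q)`, and the `x (zⁱ q)`, `i < ℓ`, are pairwise distinct. -/
theorem sep_of_coeff_neg_one {ℓ : ℕ} [NeZero ℓ] (hℓ : 2 ≤ ℓ) {z : Lˣ} (hz : IsPrimitiveRoot z ℓ)
    (x y : LaurentSeries L) (hx : x.coeff (-1) ≠ 0) :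
    (∀ i : Fin ℓ, qExpand L ℓ (qExpand L ℓ y) ≠ scale (z ^ (i : ℕ)) x) ∧
      Function.Injective fun i : Fin ℓ => scale (z ^ (i : ℕ)) x := by
  refine ⟨fun i h => ?_, fun i j h => ?_⟩
  · have h1 := congrArg (fun s : LaurentSeries L => s.coeff (-1)) h
    simp only [coeff_neg_one_qExpand hℓ, coeff_neg_one_scale] at h1
    exact mul_ne_zero (Units.ne_zero _) hx h1.symm
  · have h1 := congrArg (fun s : LaurentSeries L => s.coeff (-1)) h
    simp only [coeff_neg_one_scale] at h1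
    have h2 : (((z ^ (i : ℕ))⁻¹ : Lˣ) : L) = (((z ^ (j : ℕ))⁻¹ : Lˣ) : L) :=
      mul_right_cancel₀ hx h1
    have h3 : (z ^ (i : ℕ))⁻¹ = (z ^ (j : ℕ))⁻¹ := Units.ext h2
    have h4 : z ^ (i : ℕ) = z ^ (j : ℕ) := inv_injective h3
    exact Fin.ext (hz.pow_inj i.2 j.2 h4)

/-- The defining relation `(hT)` of `heckeMul2` with the product over `Fin ℓ`. -/
theorem qExpand_heckeMul2_fin {ℓ : ℕ} [NeZero ℓ] (hℓ : 0 < ℓ) {z : Lˣ} (hz : IsPrimitiveRoot z ℓ)
    (x y : LaurentSeries L) :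
    qExpand L ℓ (Fermat.Agent.S48.CongrD.heckeMul2 ℓ hℓ z x y)
      = qExpand L ℓ (qExpand L ℓ y) * ∏ i : Fin ℓ, scale (z ^ (i : ℕ)) x := by
  rw [Fermat.Agent.S48.G1.Avatar2.qExpand_heckeMul2 hℓ hz,
    Finset.prod_range (fun i => scale (z ^ i) x)]

/-- `(hV)`: `q ↦ q ^ ℓ` fixes the constants. -/
theorem qExpand_algebraMap' {ℓ : ℕ} [NeZero ℓ] (a : L) :
    qExpand L ℓ (algebraMap L (LaurentSeries L) a) = algebraMap L (LaurentSeries L) a := by
  have h1 : algebraMap L (PowerSeries L) a = PowerSeries.C a := by simp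
  have h : algebraMap L (LaurentSeries L) a = HahnSeries.single 0 a := by
    rw [HahnSeries.algebraMap_apply', h1, HahnSeries.ofPowerSeries_C]
    rfl
  rw [h, qExpand_single, mul_zero]

/-- `(hc)`: `q ↦ ζ q` fixes the constants. -/
theorem scale_algebraMap' (ζ : Lˣ) (a : L) :
    scale ζ (algebraMap L (LaurentSeries L) a) = algebraMap L (LaurentSeries L) a :=
  scale_algebraMap ζ a

end Formal

/-! ### The instance `F1 M` -/

/-- The coefficient of `q⁻¹` of `j ∈ F1 M` is `1`. -/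
theorem coeff_jF1_neg_one (M : ℕ) :
    ((Fermat.Agent.S48.G1.FieldFin.jF1 M : F1 M) : LaurentSeries Qb).coeff (-1) = 1 := by
  rw [Fermat.Agent.S48.G1.FieldFin.coe_jF1, coeffEmb_coeff, coeff_jq_neg_one, map_one]

/-- **`hsep` for `F1 M`**, in the literal shape of `VirtNormDiv.dvd_ord_T_of_sep`
(`V = qExpand ℚ̄ ℓ`, `β b = qExpand ℚ̄ ℓ (δ b)`, `c i = scale (z ^ i)`, `ι = Fin ℓ`), for ANY map
`δ : F1 M → F1 M`; `b₀ = j`. -/
theorem exists_sep (M : ℕ) {ℓ : ℕ} [NeZero ℓ] (hℓ : 2 ≤ ℓ) {z : Qbˣ} (hz : IsPrimitiveRoot z ℓ)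
    (δ : F1 M → F1 M) :
    ∃ b₀ : F1 M,
      (∀ i : Fin ℓ, qExpand Qb ℓ (qExpand Qb ℓ ((δ b₀ : F1 M) : LaurentSeries Qb))
          ≠ scale (z ^ (i : ℕ)) ((b₀ : F1 M) : LaurentSeries Qb)) ∧
        Function.Injective fun i : Fin ℓ =>
          scale (z ^ (i : ℕ)) ((b₀ : F1 M) : LaurentSeries Qb) := by
  refine ⟨Fermat.Agent.S48.G1.FieldFin.jF1 M, ?_⟩
  exact sep_of_coeff_neg_one hℓ hz _ _ (by rw [coeff_jF1_neg_one]; exact one_ne_zero)

end Fermat.Agent.S48.G1.F1.ClosedSep
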