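/-
PROGRAM DS (S48), part G1, AREA F, row F.3 (c) (helper216): brick `Cont1`.

Every function of `F1 M` is fixed by an open subgroup of `G_ℚ` (the Galois action `galF1` is
coefficientwise on `q`-expansions).  Instance of the level-free
`S30.Producer.ContBrick.exists_fixing_field` for `F₀ := F1Q M`.
-/
import Mathlib
import Fermat.Agent.S48.G1.F1.Defs
import Fermat.Agent.S30.Producer.Cont

set_option autoImplicit false

open ModularCurve

namespace Fermat.Agent.S48.G1.F1

/-- **Brick `Cont1`**: every function of `F1 M` is fixed by an open subgroup of `G_ℚ`. -/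
theorem cont1 (M : ℕ) (f : F1 M) :
    ∃ L : IntermediateField ℚ Qb, FiniteDimensional ℚ L ∧
      ∀ σ : Qb ≃ₐ[ℚ] Qb, (∀ x ∈ L, σ x = x) → galF1 M σ f = f := by
  obtain ⟨L, hL, h⟩ :=
    Fermat.Agent.S30.Producer.ContBrick.exists_fixing_field (F1Q M) f.2
  exact ⟨L, hL, fun σ hσ => Subtype.ext (by rw [coe_galF1]; exact h σ hσ)⟩

/-- Finitely many functions of `F1 M` are fixed by a common open subgroup of `G_ℚ`. -/
theorem cont1_finset (M : ℕ) (s : Finset (F1 M)) :
    ∃ L : IntermediateField ℚ Qb, FiniteDimensional ℚ L ∧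
      ∀ σ : Qb ≃ₐ[ℚ] Qb, (∀ x ∈ L, σ x = x) → ∀ f ∈ s, galF1 M σ f = f := by
  classical
  induction s using Finset.induction_on with
  | empty => exact ⟨⊥, inferInstance, fun σ _ f hf => absurd hf (Finset.notMem_empty f)⟩
  | insert a s _ ih =>
    obtain ⟨L1, hL1, h1⟩ := ih
    obtain ⟨L2, hL2, h2⟩ := cont1 M a
    refine ⟨L1 ⊔ L2, IntermediateField.finiteDimensional_sup L1 L2, fun σ hσ f hf => ?_⟩
    rcases Finset.mem_insert.mp hf with rfl | hf
    · exact h2 σ fun y hy => hσ y ((le_sup_right : L2 ≤ L1 ⊔ L2) hy)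
    · exact h1 σ (fun y hy => hσ y ((le_sup_left : L1 ≤ L1 ⊔ L2) hy)) f hf

end Fermat.Agent.S48.G1.F1
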