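import Fermat.Agent.S48.G1.F1.PlaceFinGen
import Fermat.Agent.S48.G1.F1.ConverseGen

/-!
# G1 (S48), AREA F, row F.5 (d'): the Kummer converse from a `ThetaDataG` (helper250)

The compiled seam between `PlaceFinGen.exists_point_of_place` (helper86) and
`ConverseGen.divBy_of_root`: for a theta datum `D : ThetaDataG K Γ F jF` with
`[F : K(jF)] = [SL(2, ℤ) : Γ]`, a holomorphic `m`-th root `H` of `θ a * θ b ^ (m - 1)` whose
multipliers are trivial on the elements of `Γ` having a fixed point in `ℍ` forces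
`m ∣ ord_v a - ord_v b` at every place `v` where `jF` is regular
(`dvd_ord_sub_of_data_fin`).  With the cusp half as a hypothesis `hcusp`
(= `PlaceCuspGen.dvd_ord_sub_of_cusp`, helper147) this gives `m ∣ div (a / b)`
(`dvd_ord_sub_of_data`, `divBy_of_data`).

Generic in `K`, `Γ`, `F`: no level, no `Γ₁(M)`, no `F1 M` in the types.
-/

set_option autoImplicit false

noncomputable section

open scoped MatrixGroups
open AlgebraicCurve UpperHalfPlane IntermediateField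
open Fermat.Agent.S24.HolH Fermat.Agent.S30.KummerChar
open Fermat.Agent.S48.G1.PlaceFinGen Fermat.Agent.S48.G1.ConverseGen

namespace Fermat.Agent.S48.G1.ConverseData

variable {K : Type} [Field K] [IsAlgClosed K] {Γ : Subgroup SL(2, ℤ)} [Finite (SL(2, ℤ) ⧸ Γ)]
  {F : Type} [Field F] [Algebra K F] [Algebra.EssFiniteType K F] {jF : F}

/-- The point dictionary of `PlaceFinGen.exists_point_of_place` in the shape consumed by
`ConverseGen` (the hypothesis `hfin`). -/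
theorem hfin_of_data (D : ThetaDataG K Γ F jF) (htr : Algebra.trdeg K F = 1)
    (hx0 : Transcendental K jF)
    (hdeg : Module.finrank K⟮jF⟯ F = Nat.card (SL(2, ℤ) ⧸ Γ))
    (v : Place K F) (hv : 0 ≤ v.ord jF) :
    ∃ (τ : ℍ) (κ : ℕ) (σ : SL(2, ℤ)), 0 < κ ∧ σ ∈ Γ ∧ σ • τ = τ ∧
      (∀ f : D.F₀, f ≠ 0 → ordZ τ (D.θ f) = κ * v.ord (f : F)) ∧
      (∀ H : HolH, H ≠ 0 → compSL σ H = H → (κ : ℤ) ∣ ordZ τ H) := by
  obtain ⟨_, τ, κ, σ, -, -, hκ, hσ, hστ, hf, hH, -⟩ := exists_point_of_place D htr hx0 hdeg v hv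
  exact ⟨τ, κ, σ, hκ, hσ, hστ, hf, hH⟩

/-- **Finite places.**  `m ∣ ord_v a - ord_v b` at every place where `jF` is regular. -/
theorem dvd_ord_sub_of_data_fin (D : ThetaDataG K Γ F jF) (htr : Algebra.trdeg K F = 1)
    (hx0 : Transcendental K jF)
    (hdeg : Module.finrank K⟮jF⟯ F = Nat.card (SL(2, ℤ) ⧸ Γ))
    {m : ℕ} (hm : 0 < m) {a b : D.F₀} (ha : a ≠ 0) (hb : b ≠ 0) {H : HolH}
    (h : H ^ m = D.θ a * D.θ b ^ (m - 1))
    (hell : ∀ γ ∈ Γ, (∃ τ : ℍ, γ • τ = τ) → mult γ H = 1)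
    (v : Place K F) (hv : 0 ≤ v.ord jF) : (m : ℤ) ∣ v.ord (a : F) - v.ord (b : F) :=
  dvd_ord_sub_of_point Γ D.F₀ D.θ D.θ_inj D.θ_inv hm ha hb h hell v
    (hfin_of_data D htr hx0 hdeg v hv)

/-- **Kummer converse from a theta datum**, the cusp half being a hypothesis. -/
theorem dvd_ord_sub_of_data (D : ThetaDataG K Γ F jF) (htr : Algebra.trdeg K F = 1)
    (hx0 : Transcendental K jF)
    (hdeg : Module.finrank K⟮jF⟯ F = Nat.card (SL(2, ℤ) ⧸ Γ))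
    {m : ℕ} (hm : 0 < m) {a b : D.F₀} (ha : a ≠ 0) (hb : b ≠ 0) {H : HolH}
    (h : H ^ m = D.θ a * D.θ b ^ (m - 1))
    (hell : ∀ γ ∈ Γ, (∃ τ : ℍ, γ • τ = τ) → mult γ H = 1)
    (hcusp : ∀ v : Place K F, v.ord jF < 0 → (m : ℤ) ∣ v.ord (a : F) - v.ord (b : F))
    (v : Place K F) : (m : ℤ) ∣ v.ord (a : F) - v.ord (b : F) :=
  dvd_ord_sub_of_root Γ D.F₀ D.θ jF D.θ_inj D.θ_inv hm ha hb h hell
    (hfin_of_data D htr hx0 hdeg) hcusp v

/-- **`DivBy` form**, for `f = a / b`. -/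
theorem divBy_of_data (D : ThetaDataG K Γ F jF) (htr : Algebra.trdeg K F = 1)
    (hx0 : Transcendental K jF)
    (hdeg : Module.finrank K⟮jF⟯ F = Nat.card (SL(2, ℤ) ⧸ Γ))
    {m : ℕ} (hm : 0 < m) {a b : D.F₀} (ha : a ≠ 0) (hb : b ≠ 0) {H : HolH}
    (h : H ^ m = D.θ a * D.θ b ^ (m - 1))
    (hell : ∀ γ ∈ Γ, (∃ τ : ℍ, γ • τ = τ) → mult γ H = 1)
    (hcusp : ∀ v : Place K F, v.ord jF < 0 → (m : ℤ) ∣ v.ord (a : F) - v.ord (b : F))
    (f : F) (hab : f * (b : F) = (a : F)) (v : Place K F) : (m : ℤ) ∣ v.ord f :=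
  divBy_of_root Γ D.F₀ D.θ jF D.θ_inj D.θ_inv hm ha hb h hell
    (hfin_of_data D htr hx0 hdeg) hcusp f hab v

end Fermat.Agent.S48.G1.ConverseData
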