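/-
PROGRAM DS (S48), part G1, AREA F, row F.1 — SUPPLEMENT to `F1/GHol.lean` / `F1/GHasQ.lean`
(the canonical avatar `GHol.gHol M b` of `gq M b`, its `q`-expansion for `b ≠ 0` and the
`Γ₀(M)`-law are there; nothing of that is repeated here).

* `hasQ_uHat`, `hasQ_e4sq_div_delta`: the two factors `EE_b = Sep1.uHat M b` (`b ≠ 0`) and
  `E₄²/Δ` of `g_b` have the `q`-expansions `plainQ K (eeSeries M b)` and
  `shiftQ K (E₄² · (Δ/q)⁻¹)`; `coeffEmb_gq_eq_mul`: `gq M b` is their product;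
* `exists_hol_gq`: for EVERY `M` and EVERY `b` (no `NeZero`, `M = 1`, `b = 0` included) the series
  `gq M b` is the `q`-expansion of a holomorphic function on `ℍ` (polynomial growth of the
  coefficients of `eeSeries`);
* the formal bookkeeping `coeffEmb K (gq M b) = shiftQ K (gNum M b)` (`shiftQ K P = q⁻¹ · P(q)`,
  `plainQ K P = P(q)` for `P ∈ ℤ[[q]]`), with `hasQ_plainQ`, `hasQ_shiftQ` (from `HasSum` over `ℕ`
  to the S24 predicate `HasQ`).
-/
import Mathlib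
import Fermat.Agent.S48.G1.F1.GHol

set_option autoImplicit false

noncomputable section

open ModularCurve UpperHalfPlane ModularForm EisensteinSeries
open scoped MatrixGroups Manifold

namespace Fermat.Agent.S48.G1.F1.GFun

open Fermat.Agent.S24.HolH Fermat.Agent.S24.Theta Fermat.Agent.S24.QBridge
open Fermat.Agent.S48.G1.F1

local notation "𝕢" => Function.Periodic.qParam

/-! ### Laurent series of the shape `q⁻¹ · P(q)`, `P ∈ ℤ[[q]]` -/

section Shift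

variable (K : Type*) [CommRing K]

/-- The Laurent series `q⁻¹ · P(q)` with coefficients in `K`, for an integral power series `P`. -/
def shiftQ (P : PowerSeries ℤ) : LaurentSeries K :=
  HahnSeries.single (-1 : ℤ) 1 * HahnSeries.ofPowerSeries ℤ K (P.map (Int.castRingHom K))

/-- The Laurent series `P(q)` with coefficients in `K`, for an integral power series `P`. -/
def plainQ (P : PowerSeries ℤ) : LaurentSeries K :=
  HahnSeries.ofPowerSeries ℤ K (P.map (Int.castRingHom K))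

variable {K}

theorem plainQ_coeff_natCast (P : PowerSeries ℤ) (n : ℕ) :
    (plainQ K P).coeff (n : ℤ) = ((PowerSeries.coeff n P : ℤ) : K) := by
  rw [plainQ, HahnSeries.ofPowerSeries_apply_coeff, PowerSeries.coeff_map]
  rfl

theorem plainQ_coeff_of_neg (P : PowerSeries ℤ) {k : ℤ} (hk : k < 0) :
    (plainQ K P).coeff k = 0 := by
  rw [plainQ, ofPowerSeries_coeff_of_neg _ hk]

theorem shiftQ_coeff (P : PowerSeries ℤ) (k : ℤ) :
    (shiftQ K P).coeff k = (plainQ K P).coeff (k + 1) := by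
  rw [shiftQ, HahnSeries.coeff_single_mul, one_mul, sub_neg_eq_add, plainQ]

theorem shiftQ_coeff_natCast_sub_one (P : PowerSeries ℤ) (n : ℕ) :
    (shiftQ K P).coeff ((n : ℤ) - 1) = ((PowerSeries.coeff n P : ℤ) : K) := by
  rw [shiftQ_coeff, sub_add_cancel, plainQ_coeff_natCast]

theorem shiftQ_coeff_of_lt (P : PowerSeries ℤ) {k : ℤ} (hk : k < -1) :
    (shiftQ K P).coeff k = 0 := by
  rw [shiftQ_coeff, plainQ_coeff_of_neg P (by omega)]

theorem plainQ_mul (P Q : PowerSeries ℤ) : plainQ K (P * Q) = plainQ K P * plainQ K Q := by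
  rw [plainQ, plainQ, plainQ, map_mul, map_mul]

theorem shiftQ_mul (P Q : PowerSeries ℤ) : shiftQ K (P * Q) = plainQ K P * shiftQ K Q := by
  rw [shiftQ, shiftQ, ← plainQ, ← plainQ, plainQ_mul]
  ring

theorem coeffMap_plainQ {K' : Type*} [CommRing K'] (f : K →+* K') (P : PowerSeries ℤ) :
    coeffMap f (plainQ K P) = plainQ K' P := by
  ext k
  rw [coeffMap_coeff]
  rcases le_or_gt 0 k with hk | hk
  · lift k to ℕ using hk
    rw [plainQ_coeff_natCast, plainQ_coeff_natCast, map_intCast]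
  · rw [plainQ_coeff_of_neg P hk, plainQ_coeff_of_neg P hk, map_zero]

theorem coeffMap_shiftQ {K' : Type*} [CommRing K'] (f : K →+* K') (P : PowerSeries ℤ) :
    coeffMap f (shiftQ K P) = shiftQ K' P := by
  ext k
  rw [coeffMap_coeff, shiftQ_coeff, shiftQ_coeff, ← coeffMap_coeff f, coeffMap_plainQ]

end Shift

theorem gq_eq_shiftQ (M : ℕ) (b : ZMod M) : gq M b = shiftQ ℚ (gNum M b) := rfl

theorem coeffEmb_gq (K : Type*) [Field K] [Algebra ℚ K] (M : ℕ) (b : ZMod M) :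
    coeffEmb K (gq M b) = shiftQ K (gNum M b) := by
  rw [gq_eq_shiftQ, coeffEmb, coeffMap_shiftQ]

/-! ### From `HasSum` to `HasQ` -/

section HasQ

variable {K : Type*} [Field K] (ι : K →+* ℂ)

theorem hasQ_plainQ (P : PowerSeries ℤ) (φ : ℍ → ℂ)
    (h : ∀ τ : ℍ, HasSum (fun n : ℕ => ((PowerSeries.coeff n P : ℤ) : ℂ) * 𝕢 1 τ ^ n) (φ τ)) :
    HasQ ι (plainQ K P) φ := by
  intro τ
  have he : Function.Injective (fun n : ℕ => (n : ℤ)) := Nat.cast_injective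
  refine (he.hasSum_iff ?_).mp ?_
  · intro n hn
    have hlt : n < 0 := by
      by_contra hcon
      rw [not_lt] at hcon
      exact hn ⟨n.toNat, by simp; omega⟩
    rw [plainQ_coeff_of_neg P hlt, map_zero, zero_mul]
  · have hfun : ((fun n : ℤ => ι ((plainQ K P).coeff n) * 𝕢 1 τ ^ n) ∘ fun n : ℕ => (n : ℤ)) =
        fun n : ℕ => ((PowerSeries.coeff n P : ℤ) : ℂ) * 𝕢 1 τ ^ n := by
      funext n
      simp only [Function.comp_apply]
      rw [plainQ_coeff_natCast, map_intCast, zpow_natCast]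
    rw [hfun]
    exact h τ

theorem hasQ_shiftQ (P : PowerSeries ℤ) (φ : ℍ → ℂ)
    (h : ∀ τ : ℍ, HasSum (fun n : ℕ => ((PowerSeries.coeff n P : ℤ) : ℂ) * 𝕢 1 τ ^ n)
      (𝕢 1 τ * φ τ)) :
    HasQ ι (shiftQ K P) φ := by
  intro τ
  have hq : 𝕢 1 (τ : ℂ) ≠ 0 := Function.Periodic.qParam_ne_zero _
  have h' := (h τ).mul_left (𝕢 1 (τ : ℂ))⁻¹
  rw [← mul_assoc, inv_mul_cancel₀ hq, one_mul] at h'
  have he : Function.Injective (fun n : ℕ => (n : ℤ) - 1) := by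
    intro a b hab
    simpa using hab
  refine (he.hasSum_iff ?_).mp ?_
  · intro n hn
    have hlt : n < -1 := by
      by_contra hcon
      rw [not_lt] at hcon
      exact hn ⟨(n + 1).toNat, by simp; omega⟩
    rw [shiftQ_coeff_of_lt P hlt, map_zero, zero_mul]
  · have hfun : ((fun n : ℤ => ι ((shiftQ K P).coeff n) * 𝕢 1 τ ^ n) ∘ fun n : ℕ => (n : ℤ) - 1) =
        fun n : ℕ => (𝕢 1 (τ : ℂ))⁻¹ * (((PowerSeries.coeff n P : ℤ) : ℂ) * 𝕢 1 τ ^ n) := by
      funext n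
      simp only [Function.comp_apply]
      rw [shiftQ_coeff_natCast_sub_one, map_intCast, zpow_sub₀ hq, zpow_natCast, zpow_one]
      field_simp
    rw [hfun]
    exact h'

end HasQ

/-! ### Convergence: integral power series with polynomially bounded coefficients -/

theorem hasQExp_of_bound (P : PowerSeries ℤ) (k : ℕ)
    (hP : ∀ n : ℕ, |PowerSeries.coeff n P| ≤ (n : ℤ) ^ k) :
    HasQExp (P.map (Int.castRingHom ℂ))
      (fun q => ∑' n : ℕ, ((PowerSeries.coeff n P : ℤ) : ℂ) * q ^ n) := by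
  intro q hq
  have hs : Summable (fun n : ℕ => ((PowerSeries.coeff n P : ℤ) : ℂ) * q ^ n) := by
    have h1 : Summable (fun n : ℕ => ((n : ℝ) ^ k * ‖q‖ ^ n)) :=
      summable_pow_mul_geometric_of_norm_lt_one (R := ℝ) k (r := ‖q‖) (by simpa using hq)
    refine Summable.of_norm_bounded h1 fun n => ?_
    rw [norm_mul, norm_pow]
    refine mul_le_mul_of_nonneg_right ?_ (pow_nonneg (norm_nonneg _) _)
    rw [Complex.norm_intCast, ← Int.cast_abs]
    exact_mod_cast hP n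
  have hfun : (fun n : ℕ => PowerSeries.coeff n (P.map (Int.castRingHom ℂ)) * q ^ n) =
      fun n : ℕ => ((PowerSeries.coeff n P : ℤ) : ℂ) * q ^ n := by
    funext n
    rw [PowerSeries.coeff_map]
    rfl
  rw [hfun]
  exact hs.hasSum

theorem abs_coeff_eeSeries_le (M : ℕ) (b : ZMod M) (n : ℕ) :
    |PowerSeries.coeff n (eeSeries M b)| ≤ (n : ℤ) ^ 4 := by
  rw [coeff_eeSeries]
  have hterm : ∀ c ∈ n.divisors,
      |(if ((c : ℕ) : ZMod M) = b ∨ ((c : ℕ) : ZMod M) = -b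
        then (((n / c : ℕ) : ℤ)) ^ 3 else 0)| ≤ (n : ℤ) ^ 3 := by
    intro c _
    split_ifs
    · rw [abs_of_nonneg (by positivity)]
      have h1 : ((n / c : ℕ) : ℤ) ≤ (n : ℤ) := by exact_mod_cast Nat.div_le_self n c
      exact pow_le_pow_left₀ (by positivity) h1 3
    · rw [abs_zero]
      positivity
  calc |∑ c ∈ n.divisors, if ((c : ℕ) : ZMod M) = b ∨ ((c : ℕ) : ZMod M) = -b
          then (((n / c : ℕ) : ℤ)) ^ 3 else 0|
      ≤ ∑ c ∈ n.divisors, |(if ((c : ℕ) : ZMod M) = b ∨ ((c : ℕ) : ZMod M) = -b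
          then (((n / c : ℕ) : ℤ)) ^ 3 else 0)| := Finset.abs_sum_le_sum_abs _ _
    _ ≤ ∑ _c ∈ n.divisors, (n : ℤ) ^ 3 := Finset.sum_le_sum hterm
    _ = (n.divisors.card : ℤ) * (n : ℤ) ^ 3 := by rw [Finset.sum_const, nsmul_eq_mul]
    _ ≤ (n : ℤ) * (n : ℤ) ^ 3 := by
        refine mul_le_mul_of_nonneg_right ?_ (by positivity)
        exact_mod_cast Nat.card_divisors_le_self n
    _ = (n : ℤ) ^ 4 := by ring

/-! ### The functions `EE_b` and `g_b` -/

/-- The value at `τ` of the `q`-series `eeSeries M b` (the normalised partial Eisenstein series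
`EE_b = Sep1.uHat M b` when `b ≠ 0`, see `eeVal_eq_uHat`). -/
def eeVal (M : ℕ) (b : ZMod M) (τ : ℍ) : ℂ :=
  ∑' n : ℕ, ((PowerSeries.coeff n (eeSeries M b) : ℤ) : ℂ) * 𝕢 1 τ ^ n

theorem hasQExp_eeSeries (M : ℕ) (b : ZMod M) :
    HasQExp ((eeSeries M b).map (Int.castRingHom ℂ))
      (fun q => ∑' n : ℕ, ((PowerSeries.coeff n (eeSeries M b) : ℤ) : ℂ) * q ^ n) :=
  hasQExp_of_bound _ 4 (abs_coeff_eeSeries_le M b)

theorem norm_qParam_lt_one (τ : ℍ) : ‖𝕢 1 (τ : ℂ)‖ < 1 :=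
  Function.Periodic.norm_qParam_lt_one one_pos τ.im_pos

theorem hasSum_eeVal (M : ℕ) (b : ZMod M) (τ : ℍ) :
    HasSum (fun n : ℕ => ((PowerSeries.coeff n (eeSeries M b) : ℤ) : ℂ) * 𝕢 1 τ ^ n)
      (eeVal M b τ) := by
  have h := hasQExp_eeSeries M b _ (norm_qParam_lt_one τ)
  have hfun : (fun n : ℕ => PowerSeries.coeff n ((eeSeries M b).map (Int.castRingHom ℂ))
        * 𝕢 1 (τ : ℂ) ^ n) =
      fun n : ℕ => ((PowerSeries.coeff n (eeSeries M b) : ℤ) : ℂ) * 𝕢 1 τ ^ n := by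
    funext n
    rw [PowerSeries.coeff_map]
    rfl
  rw [hfun] at h
  exact h

/-- `q · (g(q) · E₄² / Δ) = ∑ₙ (P · E₄² · (Δ/q)⁻¹)ₙ qⁿ` for an integral power series `P` converging
to `g` on the unit disc. -/
theorem hasSum_mul_e4sq (P : PowerSeries ℤ) (g : ℂ → ℂ)
    (hP : HasQExp (P.map (Int.castRingHom ℂ)) g) (τ : ℍ) :
    HasSum (fun n : ℕ =>
        ((PowerSeries.coeff n (P * eisenstein4 ^ 2 * dedekindEtaUnitInv) : ℤ) : ℂ) * 𝕢 1 τ ^ n)
      (𝕢 1 τ * (g (𝕢 1 τ) * E₄ τ ^ 2 / discriminant τ)) := by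
  have hq : ‖𝕢 1 (τ : ℂ)‖ < 1 := norm_qParam_lt_one τ
  have h0 := (hP.mul (hasQExp_E4.pow 2)).mul hasQExp_etaUnitInvC
  have he : (P * eisenstein4 ^ 2 * dedekindEtaUnitInv).map (Int.castRingHom ℂ)
      = P.map (Int.castRingHom ℂ) * e4C ^ 2 * etaUnitInvC := by
    rw [map_mul, map_mul, map_pow, e4C, etaUnitInvC]
  rw [← he] at h0
  have h := h0 _ hq
  have hE : cuspFunction 1 E₄ (𝕢 1 τ) = E₄ τ :=
    eq_cuspFunction τ one_ne_zero
      (SlashInvariantFormClass.periodic_comp_ofComplex E₄ one_mem_strictPeriods_SL)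
  have hΔ : discriminant τ = 𝕢 1 τ * (∏' n : ℕ, (1 - 𝕢 1 (τ : ℂ) ^ (n + 1))) ^ 24 := by
    rw [discriminant_eq_q_prod, (multipliable_one_sub_pow hq).tprod_pow 24]
  have hq0 : 𝕢 1 (τ : ℂ) ≠ 0 := Function.Periodic.qParam_ne_zero _
  have hP' : (∏' n : ℕ, (1 - 𝕢 1 (τ : ℂ) ^ (n + 1))) ^ 24 ≠ 0 :=
    pow_ne_zero 24 (tprod_one_sub_pow_ne_zero hq)
  have hval : g (𝕢 1 τ) * cuspFunction 1 E₄ (𝕢 1 τ) ^ 2
      * ((∏' n : ℕ, (1 - 𝕢 1 (τ : ℂ) ^ (n + 1))) ^ 24)⁻¹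
      = 𝕢 1 τ * (g (𝕢 1 τ) * E₄ τ ^ 2 / discriminant τ) := by
    rw [hE, hΔ]
    field_simp
  rw [← hval]
  have hfun : (fun n : ℕ =>
        ((PowerSeries.coeff n (P * eisenstein4 ^ 2 * dedekindEtaUnitInv) : ℤ) : ℂ) * 𝕢 1 τ ^ n) =
      fun n : ℕ => PowerSeries.coeff n
        ((P * eisenstein4 ^ 2 * dedekindEtaUnitInv).map (Int.castRingHom ℂ)) * 𝕢 1 (τ : ℂ) ^ n := by
    funext n
    rw [PowerSeries.coeff_map]
    rfl
  rw [hfun]
  exact h

/-- `q · (EE_b · E₄² / Δ)(τ) = ∑ₙ (gNum M b)ₙ qⁿ`, with `EE_b` the sum of the `q`-series. -/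
theorem hasSum_gNum_eeVal (M : ℕ) (b : ZMod M) (τ : ℍ) :
    HasSum (fun n : ℕ => ((PowerSeries.coeff n (gNum M b) : ℤ) : ℂ) * 𝕢 1 τ ^ n)
      (𝕢 1 τ * (eeVal M b τ * E₄ τ ^ 2 / discriminant τ)) :=
  hasSum_mul_e4sq (eeSeries M b) _ (hasQExp_eeSeries M b) τ

section HasQG

variable {K : Type*} [Field K] (ι : K →+* ℂ)

/-- The sum of the `q`-series `eeSeries M b` has the `q`-expansion `eeSeries M b`. -/
theorem hasQ_eeVal (M : ℕ) (b : ZMod M) : HasQ ι (plainQ K (eeSeries M b)) (eeVal M b) :=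
  hasQ_plainQ ι _ _ (hasSum_eeVal M b)

end HasQG

theorem eeVal_mdiff (M : ℕ) (b : ZMod M) : MDifferentiable 𝓘(ℂ) 𝓘(ℂ) (eeVal M b) :=
  (hasQ_eeVal (RingHom.id ℂ) M b).mdiff

theorem gVal_mdiff (M : ℕ) (b : ZMod M) :
    MDifferentiable 𝓘(ℂ) 𝓘(ℂ) (fun τ : ℍ => eeVal M b τ * E₄ τ ^ 2 / discriminant τ) :=
  ((eeVal_mdiff M b).mul (E₄.holo'.pow 2)).div CuspForm.discriminant.holo' discriminant_ne_zero

/-- **Every `gq M b` is the `q`-expansion of a holomorphic function on `ℍ`** (every `M`, every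
`b`; for `b ≠ 0` the function is `GHol.gHol M b`, by `eeVal_eq_uHat`). -/
theorem exists_hol_gq {K : Type*} [Field K] [Algebra ℚ K] (ι : K →+* ℂ) (M : ℕ) (b : ZMod M) :
    ∃ φ : HolH, HasQ ι (coeffEmb K (gq M b)) (φ : ℍ → ℂ) := by
  refine ⟨⟨fun τ => eeVal M b τ * E₄ τ ^ 2 / discriminant τ, gVal_mdiff M b⟩, ?_⟩
  rw [coeffEmb_gq]
  exact hasQ_shiftQ ι _ _ (hasSum_gNum_eeVal M b)

/-! ### The two factors of the canonical avatar `GHol.gFun M b = uHat M b · E₄² / Δ` -/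

open Fermat.Agent.S48.Sep1 in
/-- For `b ≠ 0` the sum of the `q`-series `eeSeries M b` is the normalised lattice sum `uHat`. -/
theorem eeVal_eq_uHat {M : ℕ} {b : ZMod M} (hb : b ≠ 0) (τ : ℍ) : eeVal M b τ = uHat M b τ := by
  have h := hasSum_uHat hb τ
  simp only [smul_eq_mul, ← GHol.coeff_eeSeries_eq_aSep] at h
  exact (hasSum_eeVal M b τ).unique h

section Factors

variable {K : Type*} [Field K] (ι : K →+* ℂ)

open Fermat.Agent.S48.Sep1 in
/-- `EE_b = uHat M b` has the `q`-expansion `eeSeries M b` (`b ≠ 0`). -/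
theorem hasQ_uHat {M : ℕ} {b : ZMod M} (hb : b ≠ 0) :
    HasQ ι (plainQ K (eeSeries M b)) (uHat M b) := by
  have h := hasQ_eeVal ι M b
  have hfun : eeVal M b = uHat M b := funext fun τ => eeVal_eq_uHat hb τ
  rwa [hfun] at h

/-- `E₄² / Δ` has the `q`-expansion `q⁻¹ · E₄(q)² · (Δ(q)/q)⁻¹`. -/
theorem hasQ_e4sq_div_delta :
    HasQ ι (shiftQ K (eisenstein4 ^ 2 * dedekindEtaUnitInv))
      (fun τ : ℍ => E₄ τ ^ 2 / discriminant τ) := by
  refine hasQ_shiftQ ι _ _ fun τ => ?_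
  have h := hasSum_mul_e4sq 1 (fun _ => 1) (by simpa using hasQExp_one) τ
  simpa using h

end Factors

/-- The formal factorisation `gq M b = EE_b(q) · (q⁻¹ E₄(q)² (Δ(q)/q)⁻¹)` over any field. -/
theorem coeffEmb_gq_eq_mul (K : Type*) [Field K] [Algebra ℚ K] (M : ℕ) (b : ZMod M) :
    coeffEmb K (gq M b) =
      plainQ K (eeSeries M b) * shiftQ K (eisenstein4 ^ 2 * dedekindEtaUnitInv) := by
  rw [coeffEmb_gq, gNum, mul_assoc, shiftQ_mul]

end Fermat.Agent.S48.G1.F1.GFun
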