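import Mathlib
import Fermat.Agent.S48.G1.F1.GHol
import Fermat.Agent.S48.G1.DescentGen
import Fermat.Agent.Lib.EisLevelQ

/-!
# The generators `g_b` of `F1(M)` are good series (G1, area F, row F.2 leaf (c2))

`gq M b` (with complex coefficients) is a good series for `(Γ₁(M), M)` in the sense of
`DescentGen`: its analytic avatar is `gHol M b = EE_b · E₄² / Δ`, which is `Γ₁(M)`-invariant, has
the `q`-expansion `gq M b`, and **all** of whose `SL(2, ℤ)`-translates have expansions in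
`exp (2 π i τ / M)` (level-`M` Lipschitz expansion of the full-lattice Eisenstein series,
`Lib/EisLevel` + `Lib/EisLevelQ`).
-/

set_option autoImplicit false
set_option linter.dupNamespace false

noncomputable section

open UpperHalfPlane ModularCurve HahnSeries ModularForm CongruenceSubgroup Matrix
open scoped MatrixGroups Manifold

namespace Fermat.Agent.S48.G1.F1.GGood

open Fermat.Agent.S48.Sep1 Fermat.Agent.S24.QBridge Fermat.Agent.S24.Theta Fermat.Agent.S24.HolH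
open Fermat.Agent.S48.G1.F1 Fermat.Agent.S48.G1.F1.GHol Fermat.Agent.S48.G1
open Fermat.Agent.S24 Fermat.Agent.Lib.EisLevel Fermat.Agent.Lib.EisLevelQ
open Fermat.Agent.Lib.EisCharGen Fermat.Agent.S30.EisChar

local notation "𝕢" => Function.Periodic.qParam

/-! ### The level one factor `E₄² / Δ` -/

/-- The level one factor `E₄² / Δ` of `g_b`. -/
def tFun : ℍ → ℂ := fun τ => E₄ τ ^ 2 / ModularForm.discriminant τ

/-- The formal `q`-expansion of `E₄² / Δ`. -/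
def tSeries : LaurentSeries ℂ :=
  HahnSeries.single (-((1 : ℕ) : ℤ)) (1 : ℂ) *
    HahnSeries.ofPowerSeries ℤ ℂ (e4C ^ 2 * etaUnitInvC)

theorem hasSum_tNum (τ : ℍ) :
    HasSum (fun n : ℕ => PowerSeries.coeff n (e4C ^ 2 * etaUnitInvC) * 𝕢 1 (τ : ℂ) ^ n)
      (𝕢 1 τ * tFun τ) := by
  have hq : ‖𝕢 1 (τ : ℂ)‖ < 1 := Function.Periodic.norm_qParam_lt_one one_pos τ.im_pos
  have h := ((hasQExp_E4.pow 2).mul hasQExp_etaUnitInvC) _ hq
  have hE : cuspFunction 1 E₄ (𝕢 1 τ) = E₄ τ :=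
    eq_cuspFunction τ one_ne_zero
      (SlashInvariantFormClass.periodic_comp_ofComplex E₄ one_mem_strictPeriods_SL)
  have hΔ : ModularForm.discriminant τ = 𝕢 1 τ * (∏' n : ℕ, (1 - 𝕢 1 (τ : ℂ) ^ (n + 1))) ^ 24 := by
    rw [discriminant_eq_q_prod, (multipliable_one_sub_pow hq).tprod_pow 24]
  have hq0 : 𝕢 1 (τ : ℂ) ≠ 0 := Function.Periodic.qParam_ne_zero _
  have hP : (∏' n : ℕ, (1 - 𝕢 1 (τ : ℂ) ^ (n + 1))) ^ 24 ≠ 0 :=
    pow_ne_zero 24 (tprod_one_sub_pow_ne_zero hq)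
  have hval : cuspFunction 1 E₄ (𝕢 1 τ) ^ 2 *
      ((∏' n : ℕ, (1 - 𝕢 1 (τ : ℂ) ^ (n + 1))) ^ 24)⁻¹ = 𝕢 1 τ * tFun τ := by
    rw [hE, tFun, hΔ]
    field_simp
  rw [← hval]
  exact h

/-- `E₄² / Δ` has the level one expansion `tSeries`. -/
theorem hasQExpK_one_tFun : QB.HasQExpK (RingHom.id ℂ) 1 tSeries tFun := by
  intro τ
  have hx : Complex.exp (2 * Real.pi * Complex.I * (τ : ℂ) / ((1 : ℕ) : ℂ)) = 𝕢 1 (τ : ℂ) := by
    rw [QB.exp_eq_qParam, Nat.cast_one]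
  rw [hx]
  have hq0 : 𝕢 1 (τ : ℂ) ≠ 0 := Function.Periodic.qParam_ne_zero _
  have hm : ∀ k : ℤ, k < -((1 : ℕ) : ℤ) → tSeries.coeff k = 0 := fun k hk =>
    QB.coeff_single_mul_ofPowerSeries_of_lt 1 _ hk
  refine (QB.hasLExp_iff (RingHom.id ℂ) hq0 tSeries 1 hm (tFun τ)).mpr ?_
  rw [tSeries, QB.psPart_single_mul, pow_one]
  exact hasSum_tNum τ

/-- `E₄² / Δ` has the `q^(1/M)`-expansion `qExpand ℂ M tSeries`. -/
theorem hasQExpK_tFun (M : ℕ) [NeZero M] :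
    QB.HasQExpK (RingHom.id ℂ) M (qExpand ℂ M tSeries) tFun :=
  hasQExpK_one_tFun.qExpand_one M

/-! ### The translates of `g_b` -/

/-- `g_b ∘ γ = (EE_b ∣[4] γ) · E₄² / Δ` for every `γ ∈ SL(2, ℤ)`. -/
theorem gFun_smul_eq (M : ℕ) (b : ZMod M) (γ : SL(2, ℤ)) (τ : ℍ) :
    gFun M b (γ • τ) = (uHat M b ∣[(4 : ℤ)] γ) τ * tFun τ := by
  have hd : denom γ τ ≠ 0 := denom_ne_zero _ τ
  have hΔ : ModularForm.discriminant τ ≠ 0 := discriminant_ne_zero τ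
  rw [gFun_apply, ModularForm.SL_slash_apply, E₄_smul, disc_smul, tFun]
  have h12 : denom γ τ ^ (12 : ℤ) = denom γ τ ^ (4 : ℤ) * (denom γ τ ^ (4 : ℤ)) ^ 2 := by
    rw [← zpow_natCast (denom γ τ ^ (4 : ℤ)) 2, ← _root_.zpow_mul, ← zpow_add₀ hd]
    norm_num
  rw [h12, _root_.zpow_neg]
  have hd4 : denom γ τ ^ (4 : ℤ) ≠ 0 := zpow_ne_zero _ hd
  field_simp

/-- The weight function of `EE_b` is periodic modulo `M`. -/
theorem periodicW_cSep (M : ℕ) (b : ZMod M) : PeriodicW M (cSep M b) := by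
  intro v v' h
  have h0 : ((v 0 : ℤ) : ZMod M) = ((v' 0 : ℤ) : ZMod M) := congrFun h 0
  unfold cSep Fermat.Agent.S48.Sep1.ind
  rw [h0]

/-- The weight function of the translate `EE_b ∣[4] γ`. -/
def cTrans (M : ℕ) (b : ZMod M) (γ : SL(2, ℤ)) : (Fin 2 → ℤ) → ℂ :=
  fun v => cSep M b (v ᵥ* ((γ⁻¹ : SL(2, ℤ)) : Matrix (Fin 2) (Fin 2) ℤ))

theorem uHat_slash_eq (M : ℕ) (b : ZMod M) (γ : SL(2, ℤ)) (τ : ℍ) :
    (uHat M b ∣[(4 : ℤ)] γ) τ = cSepConst⁻¹ * eisW (cTrans M b γ) ((4 : ℕ) : ℤ) τ := by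
  rw [uHat_slash, uSep, eisC_slash]
  rfl

/-- The formal `q^(1/M)`-expansion of the translate `g_b ∘ γ`. -/
def transSeries (M : ℕ) [NeZero M] (b : ZMod M) (γ : SL(2, ℤ)) : LaurentSeries ℂ :=
  HahnSeries.C cSepConst⁻¹ * eisSeries M (cTrans M b γ) 4 * qExpand ℂ M tSeries

/-- **Every `SL(2, ℤ)`-translate of `g_b` has a `q^(1/M)`-expansion.** -/
theorem hasQExpK_compSL_gHol (M : ℕ) [NeZero M] (b : ZMod M) (γ : SL(2, ℤ)) :
    QB.HasQExpK (RingHom.id ℂ) M (transSeries M b γ)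
      ((compSL γ (gHol M b) : HolH) : ℍ → ℂ) := by
  have h1 : QB.HasQExpK (RingHom.id ℂ) M (eisSeries M (cTrans M b γ) 4)
      (eisW (cTrans M b γ) ((4 : ℕ) : ℤ)) :=
    hasQExpK_eisW ((periodicW_cSep M b).vecMul γ⁻¹) 4 (by norm_num)
  have h2 := (hasQExpK_const_mul M cSepConst⁻¹ h1).mul (hasQExpK_tFun M)
  refine h2.congr fun τ => ?_
  rw [compSL_apply, gHol_apply, gFun_smul_eq, uHat_slash_eq]
  rfl

theorem exists_hasQExpK_compSL_gHol (M : ℕ) [NeZero M] (b : ZMod M) (γ : SL(2, ℤ)) :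
    ∃ B : LaurentSeries ℂ, QB.HasQExpK (RingHom.id ℂ) M B
      ((compSL γ (gHol M b) : HolH) : ℍ → ℂ) :=
  ⟨_, hasQExpK_compSL_gHol M b γ⟩

/-! ### `g_b` is good -/

/-- `g_b` has the `q^(1/M)`-expansion `qExpand ℂ M (gq M b)`. -/
theorem hasQExpK_gHol {M : ℕ} [NeZero M] {b : ZMod M} (hb : b ≠ 0) :
    QB.HasQExpK (RingHom.id ℂ) M (qExpand ℂ M (coeffEmb ℂ (gq M b)))
      ((gHol M b : HolH) : ℍ → ℂ) :=
  (hasQ_iff_hasQExpK.mp (hasQ_gq (RingHom.id ℂ) hb)).qExpand_one M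

/-- `g_b` is invariant under every subgroup of `Γ₁(M)`. -/
theorem compSL_gHol_of_mem_Gamma1 {M : ℕ} (b : ZMod M) {γ : SL(2, ℤ)} (hγ : γ ∈ Gamma1 M) :
    compSL γ (gHol M b) = gHol M b := by
  apply Subtype.ext
  funext τ
  exact gFun_smul_Gamma1 b hγ τ

/-- **`gHol M b` is the analytic avatar of `gq M b`**, for every subgroup `G ≤ Γ₁(M)`. -/
theorem isAvatar_gHol_of_le {M : ℕ} [NeZero M] {b : ZMod M} (hb : b ≠ 0)
    {G : Subgroup SL(2, ℤ)} (hG : G ≤ Gamma1 M) :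
    DescentGen.IsAvatar G M (coeffEmb ℂ (gq M b)) (gHol M b) :=
  ⟨hasQExpK_gHol hb, fun _ hγ => compSL_gHol_of_mem_Gamma1 b (hG hγ),
    fun γ => exists_hasQExpK_compSL_gHol M b γ⟩

/-- **`gHol M b` is the analytic avatar of `gq M b` for `(Γ₁(M), M)`.** -/
theorem isAvatar_gHol {M : ℕ} [NeZero M] {b : ZMod M} (hb : b ≠ 0) :
    DescentGen.IsAvatar (Gamma1 M) M (coeffEmb ℂ (gq M b)) (gHol M b) :=
  isAvatar_gHol_of_le hb le_rfl

/-- **Leaf (c2): the generators `g_b` are good series for `(Γ₁(M), M)`.** -/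
theorem gq_mem_goodG {M : ℕ} [NeZero M] {b : ZMod M} (hb : b ≠ 0) :
    coeffEmb ℂ (gq M b) ∈ DescentGen.GoodG (Gamma1 M) M :=
  ⟨gHol M b, isAvatar_gHol hb⟩

/-- The avatar map sends `gq M b` to `gHol M b`. -/
theorem thetaG_gq {M : ℕ} [NeZero M] {b : ZMod M} (hb : b ≠ 0) :
    DescentGen.thetaG (Gamma1 M) M ⟨coeffEmb ℂ (gq M b), gq_mem_goodG hb⟩ = gHol M b :=
  DescentGen.thetaG_eq (isAvatar_gHol hb)

end Fermat.Agent.S48.G1.F1.GGood
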