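import Fermat.Agent.S48.G1.F1.GHol
import Fermat.Agent.S24.Theta
import Fermat.Agent.S24.QBridge

set_option autoImplicit false

/-!
# G1 (S48), area F, row F.1 (b): the `q`-expansion of the generators `g_b` of `F1(M)`

For `b ≠ 0` in `ZMod M` (in particular for a unit `b` when `2 ≤ M`) the holomorphic function
`g_b = EE_b · E₄² / Δ` (`GHol.gFun M b`) has the formal `q`-expansion `gq M b` of `F1/Defs.lean`:

* `aSep_eq_coeff`: the coefficients `Sep1.aSep` of `EE_b` are those of the formal `eeSeries`;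
* `hasSum_gNum`: `q · g_b(τ) = ∑ₙ (gNum M b)ₙ qⁿ` (the `hasSum_jNum` pattern of `S24/QBridge`);
* `hasQ_gq`: `S24.Theta.HasQ ι (coeffEmb K (gq M b)) (gHol M b)`;
* `hasQ_gq_unit`, `gHyp`: the unit forms for `2 ≤ M` (for `M = 1` the statement is false: the
  class `b = 0` has a constant row which `eeSeries` does not contain).
-/

noncomputable section

open UpperHalfPlane ModularForm EisensteinSeries ModularCurve
open scoped MatrixGroups Manifold

namespace Fermat.Agent.S48.G1.F1.GHasQ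

open Fermat.Agent.S24.HolH Fermat.Agent.S24.QBridge Fermat.Agent.S24.Theta
open Fermat.Agent.S48 Fermat.Agent.S48.G1.F1 Fermat.Agent.S48.G1.F1.GHol

local notation "𝕢" => Function.Periodic.qParam

/-! ### The formal coefficients -/

/-- The analytic coefficients `Sep1.aSep` of `EE_b` are the coefficients of `eeSeries`. -/
theorem aSep_eq_coeff (M : ℕ) (b : ZMod M) (n : ℕ) :
    Sep1.aSep M b n = ((PowerSeries.coeff n (eeSeries M b) : ℤ) : ℂ) := by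
  rw [coeff_eeSeries, Int.cast_sum]
  refine Eq.trans (Nat.sum_divisorsAntidiagonal
    (f := fun c d : ℕ => Sep1.ind M b (c : ℤ) * (d : ℂ) ^ 3)) ?_
  refine Finset.sum_congr rfl fun c _ => ?_
  unfold Sep1.ind
  rw [Int.cast_natCast]
  by_cases h : ((c : ℕ) : ZMod M) = b ∨ ((c : ℕ) : ZMod M) = -b
  · rw [if_pos h, if_pos h, one_mul]
    push_cast
    rfl
  · rw [if_neg h, if_neg h, zero_mul, Int.cast_zero]

/-- The formal `EE_b` with complex coefficients. -/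
def eeC (M : ℕ) (b : ZMod M) : PowerSeries ℂ :=
  PowerSeries.map (Int.castRingHom ℂ) (eeSeries M b)

/-- The formal `q · g_b` with complex coefficients. -/
def gNumC (M : ℕ) (b : ZMod M) : PowerSeries ℂ :=
  PowerSeries.map (Int.castRingHom ℂ) (gNum M b)

theorem gNumC_eq (M : ℕ) (b : ZMod M) : gNumC M b = eeC M b * e4C ^ 2 * etaUnitInvC := by
  rw [gNumC, gNum, map_mul, map_mul, map_pow, eeC, e4C, etaUnitInvC]

/-! ### The expansions on the unit disc -/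

theorem periodic_uHat {M : ℕ} {b : ZMod M} (hb : b ≠ 0) :
    Function.Periodic (Sep1.uHat M b ∘ ofComplex) (1 : ℝ) := by
  have h := Sep1.periodic_of_vadd_one (Sep1.uHat_vadd_one hb)
  simpa using h

theorem hasQExp_ee {M : ℕ} {b : ZMod M} (hb : b ≠ 0) :
    HasQExp (eeC M b) (cuspFunction 1 (Sep1.uHat M b)) := by
  intro q hq
  have h := UpperHalfPlane.hasSum_qExpansion_of_norm_lt (h := 1) (f := Sep1.uHat M b) one_pos
    (periodic_uHat hb) (Sep1.uHat_mdifferentiable M b) (Sep1.isBoundedAtImInfty_uHat M b) hq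
  have hfun : (fun n : ℕ => PowerSeries.coeff n (eeC M b) * q ^ n) =
      fun m : ℕ => (qExpansion 1 (Sep1.uHat M b)).coeff m • q ^ m := by
    funext n
    rw [Sep1.qExpansion_uHat_coeff hb, aSep_eq_coeff, eeC, PowerSeries.coeff_map, smul_eq_mul]
    rfl
  rw [hfun]
  exact h

theorem hasQExp_gNumC {M : ℕ} {b : ZMod M} (hb : b ≠ 0) :
    HasQExp (gNumC M b) (fun q => cuspFunction 1 (Sep1.uHat M b) q * cuspFunction 1 E₄ q ^ 2 *
      ((∏' n : ℕ, (1 - q ^ (n + 1))) ^ 24)⁻¹) := by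
  have h := ((hasQExp_ee hb).mul (hasQExp_E4.pow 2)).mul hasQExp_etaUnitInvC
  rw [gNumC_eq]
  exact h

/-- **`q`-expansion of `g_b`**: `q · g_b(τ) = ∑ₙ (gNum M b)ₙ qⁿ`. -/
theorem hasSum_gNum {M : ℕ} {b : ZMod M} (hb : b ≠ 0) (τ : ℍ) :
    HasSum (fun n : ℕ => ((PowerSeries.coeff n (gNum M b) : ℤ) : ℂ) * 𝕢 1 τ ^ n)
      (𝕢 1 τ * gFun M b τ) := by
  have hq : ‖𝕢 1 (τ : ℂ)‖ < 1 := Function.Periodic.norm_qParam_lt_one one_pos τ.im_pos
  have h := hasQExp_gNumC hb _ hq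
  have hU : cuspFunction 1 (Sep1.uHat M b) (𝕢 1 τ) = Sep1.uHat M b τ :=
    eq_cuspFunction τ one_ne_zero (periodic_uHat hb)
  have hE : cuspFunction 1 E₄ (𝕢 1 τ) = E₄ τ :=
    eq_cuspFunction τ one_ne_zero
      (SlashInvariantFormClass.periodic_comp_ofComplex E₄ one_mem_strictPeriods_SL)
  have hΔ : discriminant τ = 𝕢 1 τ * (∏' n : ℕ, (1 - 𝕢 1 (τ : ℂ) ^ (n + 1))) ^ 24 := by
    rw [discriminant_eq_q_prod, (multipliable_one_sub_pow hq).tprod_pow 24]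
  have hq0 : 𝕢 1 (τ : ℂ) ≠ 0 := Function.Periodic.qParam_ne_zero _
  have hP : (∏' n : ℕ, (1 - 𝕢 1 (τ : ℂ) ^ (n + 1))) ^ 24 ≠ 0 :=
    pow_ne_zero 24 (tprod_one_sub_pow_ne_zero hq)
  have hval : cuspFunction 1 (Sep1.uHat M b) (𝕢 1 τ) * cuspFunction 1 E₄ (𝕢 1 τ) ^ 2 *
      ((∏' n : ℕ, (1 - 𝕢 1 (τ : ℂ) ^ (n + 1))) ^ 24)⁻¹ = 𝕢 1 τ * gFun M b τ := by
    rw [hU, hE, gFun, hΔ]
    field_simp
  rw [← hval]
  have hfun : (fun n : ℕ => ((PowerSeries.coeff n (gNum M b) : ℤ) : ℂ) * 𝕢 1 τ ^ n) =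
      fun n : ℕ => PowerSeries.coeff n (gNumC M b) * 𝕢 1 (τ : ℂ) ^ n := by
    funext n
    rw [gNumC, PowerSeries.coeff_map]
    rfl
  rw [hfun]
  exact h

/-! ### The Laurent series `gq M b` -/

section Coeff

variable (K : Type*) [Field K] [Algebra ℚ K]

theorem gq_coeff (M : ℕ) (b : ZMod M) (k : ℤ) :
    (gq M b).coeff k =
      (HahnSeries.ofPowerSeries ℤ ℚ ((gNum M b).map (Int.castRingHom ℚ))).coeff (k + 1) := by
  rw [gq, HahnSeries.coeff_single_mul, one_mul, sub_neg_eq_add]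

theorem coeffEmb_gq_coeff (M : ℕ) (b : ZMod M) (n : ℕ) :
    (coeffEmb K (gq M b)).coeff ((n : ℤ) - 1) = ((PowerSeries.coeff n (gNum M b) : ℤ) : K) := by
  rw [coeffEmb_coeff, gq_coeff, sub_add_cancel, HahnSeries.ofPowerSeries_apply_coeff,
    PowerSeries.coeff_map, eq_intCast, map_intCast]

theorem coeffEmb_gq_coeff_of_lt (M : ℕ) (b : ZMod M) {k : ℤ} (hk : k < -1) :
    (coeffEmb K (gq M b)).coeff k = 0 := by
  rw [coeffEmb_coeff, gq_coeff, ofPowerSeries_coeff_of_neg _ (by omega), map_zero]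

end Coeff

/-- **F.1 (b)**: `g_b` has the `q`-expansion `gq M b` (`b ≠ 0`). -/
theorem hasQ_gq {K : Type*} [Field K] [Algebra ℚ K] (ι : K →+* ℂ) {M : ℕ} {b : ZMod M}
    (hb : b ≠ 0) : HasQ ι (coeffEmb K (gq M b)) (gHol M b : ℍ → ℂ) := by
  intro τ
  show HasSum (fun n : ℤ => ι ((coeffEmb K (gq M b)).coeff n) * 𝕢 1 τ ^ n) (gFun M b τ)
  have hq : 𝕢 1 (τ : ℂ) ≠ 0 := Function.Periodic.qParam_ne_zero _
  have h := (hasSum_gNum hb τ).mul_left (𝕢 1 (τ : ℂ))⁻¹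
  have hval : (𝕢 1 (τ : ℂ))⁻¹ * (𝕢 1 τ * gFun M b τ) = gFun M b τ := by
    field_simp
  rw [hval] at h
  have he : Function.Injective (fun n : ℕ => (n : ℤ) - 1) := by
    intro a b hab
    simpa using hab
  refine (he.hasSum_iff ?_).mp ?_
  · intro n hn
    have hlt : n < -1 := by
      by_contra hcon
      rw [not_lt] at hcon
      exact hn ⟨(n + 1).toNat, by simp; omega⟩
    rw [coeffEmb_gq_coeff_of_lt K M b hlt, map_zero, zero_mul]
  · have hfun : ((fun n : ℤ => ι ((coeffEmb K (gq M b)).coeff n) * 𝕢 1 τ ^ n) ∘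
          fun n : ℕ => (n : ℤ) - 1) =
        fun n : ℕ => (𝕢 1 (τ : ℂ))⁻¹ *
          (((PowerSeries.coeff n (gNum M b) : ℤ) : ℂ) * 𝕢 1 τ ^ n) := by
      funext n
      simp only [Function.comp_apply]
      rw [coeffEmb_gq_coeff, map_intCast, zpow_sub₀ hq, zpow_natCast, zpow_one]
      field_simp
    rw [hfun]
    exact h

theorem unit_ne_zero {M : ℕ} (hM : 2 ≤ M) (b : (ZMod M)ˣ) : (b : ZMod M) ≠ 0 := by
  have : Fact (1 < M) := ⟨hM⟩
  exact b.ne_zero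

/-- **F.1 (b), unit form** (`2 ≤ M`). -/
theorem hasQ_gq_unit {K : Type*} [Field K] [Algebra ℚ K] (ι : K →+* ℂ) {M : ℕ} (hM : 2 ≤ M)
    (b : (ZMod M)ˣ) :
    HasQ ι (coeffEmb K (gq M (b : ZMod M))) (gHol M (b : ZMod M) : ℍ → ℂ) :=
  hasQ_gq ι (unit_ne_zero hM b)

/-- The hypothesis `GHyp ι M` of `F1/Theta1.lean`, for `2 ≤ M`. -/
theorem gHyp (ι : Qb →+* ℂ) {M : ℕ} (hM : 2 ≤ M) :
    ∀ b : (ZMod M)ˣ, ∃ φ : HolH, HasQ ι (coeffEmb Qb (gq M (b : ZMod M))) (φ : ℍ → ℂ) :=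
  fun b => ⟨gHol M (b : ZMod M), hasQ_gq_unit ι hM b⟩

end Fermat.Agent.S48.G1.F1.GHasQ
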