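import Mathlib
import Fermat.Agent.S24.QB.Conv

set_option autoImplicit false

/-!
# `q^(1/M)`-expansions of all `SL₂(ℤ)`-translates of a `Γ(M)`-invariant bounded function

If `f : ℍ → ℂ` is holomorphic, weight-`k` invariant under `Γ(M)` and all its slash translates are
bounded at `i∞`, then every translate `f ∣[k] γ` has a power series expansion in
`exp(2πiτ/M)`.  (Function-level; no `ModularForm` structure is needed.)
-/

open UpperHalfPlane ModularForm CongruenceSubgroup Function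
open scoped MatrixGroups Manifold ModularForm

namespace Fermat.Agent.S48.G1.F1.TranslQ

open Fermat.Agent.S24

/-- A function on `ℍ` invariant under `τ ↦ τ + M` gives an `M`-periodic function on `ℂ`. -/
theorem periodic_of_vadd {f : ℍ → ℂ} (M : ℕ) (h : ∀ τ : ℍ, f ((M : ℝ) +ᵥ τ) = f τ) :
    Function.Periodic (f ∘ ofComplex) ((M : ℝ) : ℂ) := by
  intro w
  simp only [Function.comp]
  by_cases hw : 0 < w.im
  · have hw' : 0 < (w + ((M : ℝ) : ℂ)).im := by simpa using hw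
    rw [ofComplex_apply_of_im_pos hw, ofComplex_apply_of_im_pos hw', ← h ⟨w, hw⟩]
    congr 1
    ext
    simp [add_comm]
  · have hw' : (w + ((M : ℝ) : ℂ)).im ≤ 0 := by simpa using not_lt.mp hw
    rw [ofComplex_apply_eq_of_im_nonpos hw' (not_lt.mp hw)]

/-- Weight-`k` invariance under `T ^ M` is invariance under `τ ↦ τ + M`. -/
theorem vadd_of_slash_T_zpow {f : ℍ → ℂ} {k : ℤ} (M : ℕ)
    (h : f ∣[k] (ModularGroup.T ^ (M : ℤ)) = f) (τ : ℍ) : f ((M : ℝ) +ᵥ τ) = f τ := by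
  have h1 := congrFun h τ
  rw [ModularForm.SL_slash_apply, UpperHalfPlane.modular_T_zpow_smul] at h1
  have hd : ∀ g : SL(2, ℤ), g = ModularGroup.T ^ (M : ℤ) → denom g τ = 1 := by
    intro g hg
    have e := ModularGroup.coe_T_zpow (M : ℤ)
    have e10 : g 1 0 = 0 := by
      rw [hg]
      have := congrFun (congrFun e 1) 0
      simpa using this
    have e11 : g 1 1 = 1 := by
      rw [hg]
      have := congrFun (congrFun e 1) 1
      simpa using this
    rw [ModularGroup.denom_apply, e10, e11]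
    simp
  rw [hd _ rfl, one_zpow, mul_one] at h1
  simpa using h1

/-- A power-series expansion in `𝕢 M` is a `HasQExpK` expansion. -/
theorem hasQExpK_of_hasSum {M : ℕ} (P : PowerSeries ℂ) (W : ℍ → ℂ)
    (h : ∀ τ : ℍ, HasSum (fun m : ℕ => PowerSeries.coeff m P •
      Function.Periodic.qParam (M : ℝ) (τ : ℂ) ^ m) (W τ)) :
    QB.HasQExpK (RingHom.id ℂ) M (HahnSeries.ofPowerSeries ℤ ℂ P) W := by
  intro τ
  have hm : ∀ k : ℤ, k < -((0 : ℕ) : ℤ) → (HahnSeries.ofPowerSeries ℤ ℂ P).coeff k = 0 := by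
    intro k hk
    exact ModularCurve.ofPowerSeries_coeff_of_neg _ (by simpa using hk)
  show QB.HasLExp (RingHom.id ℂ) _ (HahnSeries.ofPowerSeries ℤ ℂ P) (W τ)
  rw [QB.hasLExp_iff _ (Complex.exp_ne_zero _) _ 0 hm]
  unfold QB.HasPExp
  have h1 := h τ
  rw [← QB.exp_eq_qParam] at h1
  simp only [pow_zero, one_mul, QB.coeff_psPart, Nat.cast_zero, sub_zero,
    HahnSeries.ofPowerSeries_apply_coeff, RingHom.id_apply]
  simpa [smul_eq_mul] using h1

/-- **All translates have `q^(1/M)`-expansions.** -/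
theorem exists_hasQExpK_slash {f : ℍ → ℂ} {k : ℤ} (M : ℕ) [NeZero M]
    (hf : MDifferentiable 𝓘(ℂ) 𝓘(ℂ) f)
    (hinv : ∀ A ∈ Gamma M, f ∣[k] A = f)
    (hbdd : ∀ A : SL(2, ℤ), IsBoundedAtImInfty (f ∣[k] A)) (γ : SL(2, ℤ)) :
    ∃ P : PowerSeries ℂ,
      QB.HasQExpK (RingHom.id ℂ) M (HahnSeries.ofPowerSeries ℤ ℂ P) (f ∣[k] γ) := by
  have hT : ModularGroup.T ^ (M : ℤ) ∈ Gamma M := by
    have h := ModularGroup_T_pow_mem_Gamma (M : ℤ) (M : ℤ) dvd_rfl
    simpa using h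
  have hconj : γ * ModularGroup.T ^ (M : ℤ) * γ⁻¹ ∈ Gamma M :=
    (Gamma_normal M).conj_mem _ hT γ
  have hWT : (f ∣[k] γ) ∣[k] (ModularGroup.T ^ (M : ℤ)) = f ∣[k] γ := by
    rw [← SlashAction.slash_mul]
    have e : γ * ModularGroup.T ^ (M : ℤ) = (γ * ModularGroup.T ^ (M : ℤ) * γ⁻¹) * γ := by
      group
    rw [e, SlashAction.slash_mul, hinv _ hconj]
  have hper := periodic_of_vadd M (vadd_of_slash_T_zpow M hWT)
  have hhol : MDifferentiable 𝓘(ℂ) 𝓘(ℂ) (f ∣[k] γ) := hf.slash k γ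
  have hM : (0 : ℝ) < (M : ℝ) := Nat.cast_pos.mpr (NeZero.pos M)
  exact ⟨qExpansion (M : ℝ) (f ∣[k] γ),
    hasQExpK_of_hasSum _ _ (fun τ => UpperHalfPlane.hasSum_qExpansion hM hper hhol (hbdd γ) τ)⟩

end Fermat.Agent.S48.G1.F1.TranslQ
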