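import Mathlib
import Fermat.Agent.S48.G1.F1.GHol
import Fermat.Agent.S48.G1.F1.TranslQ
import Fermat.Agent.S48.G1.DescentGen

/-!
# The generators `g_b` of `F1(M)` are good series (G1, area F, row F.1 (I1), `g`-half)

`gHol M b = EE_b · E₄² / Δ` is an analytic avatar of the formal series `gq M b` for every subgroup
`G ≤ Γ₁(M)`: it has the expansion `gq M b` at `i∞`, it is `Γ₁(M)`-invariant, and every
`SL₂(ℤ)`-translate has a `q^(1/M)`-expansion (existence only; from the generic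
`TranslQ.exists_hasQExpK_slash` applied to the weight-4 form `EE_b`, times the level-one
expansion of `E₄² / Δ`).
-/

set_option autoImplicit false

noncomputable section

open UpperHalfPlane ModularCurve HahnSeries ModularForm CongruenceSubgroup
open scoped MatrixGroups Manifold ModularForm

namespace Fermat.Agent.S48.G1.F1.Good1

open Fermat.Agent.S48.Sep1 Fermat.Agent.S24.QBridge Fermat.Agent.S24.Theta Fermat.Agent.S24.HolH
open Fermat.Agent.S24 Fermat.Agent.S48.G1 Fermat.Agent.S48.G1.F1 Fermat.Agent.S48.G1.F1.GHol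

local notation "𝕢" => Function.Periodic.qParam

/-! ### The level-one factor `E₄² / Δ` -/

/-- The level-one factor `E₄² / Δ` of the generators. -/
def e4sqDivDelta : ℍ → ℂ := fun τ => E₄ τ ^ 2 / ModularForm.discriminant τ

/-- The power series of `q · E₄² / Δ`. -/
def ratC : PowerSeries ℂ := e4C ^ 2 * etaUnitInvC

theorem hasQExp_ratC : HasQExp ratC
    (fun q => cuspFunction 1 E₄ q ^ 2 * ((∏' n : ℕ, (1 - q ^ (n + 1))) ^ 24)⁻¹) :=
  (hasQExp_E4.pow 2).mul hasQExp_etaUnitInvC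

theorem hasSum_ratC (τ : ℍ) :
    HasSum (fun n : ℕ => PowerSeries.coeff n ratC * 𝕢 1 τ ^ n) (𝕢 1 τ * e4sqDivDelta τ) := by
  have hq : ‖𝕢 1 (τ : ℂ)‖ < 1 := Function.Periodic.norm_qParam_lt_one one_pos τ.im_pos
  have h := hasQExp_ratC _ hq
  have hE : cuspFunction 1 E₄ (𝕢 1 τ) = E₄ τ :=
    eq_cuspFunction τ one_ne_zero
      (SlashInvariantFormClass.periodic_comp_ofComplex E₄ one_mem_strictPeriods_SL)
  have hΔ : ModularForm.discriminant τ = 𝕢 1 τ * (∏' n : ℕ, (1 - 𝕢 1 (τ : ℂ) ^ (n + 1))) ^ 24 := by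
    rw [discriminant_eq_q_prod, (multipliable_one_sub_pow hq).tprod_pow 24]
  have hq0 : 𝕢 1 (τ : ℂ) ≠ 0 := Function.Periodic.qParam_ne_zero _
  have hP : (∏' n : ℕ, (1 - 𝕢 1 (τ : ℂ) ^ (n + 1))) ^ 24 ≠ 0 :=
    pow_ne_zero 24 (tprod_one_sub_pow_ne_zero hq)
  have hval : cuspFunction 1 E₄ (𝕢 1 τ) ^ 2 *
      ((∏' n : ℕ, (1 - 𝕢 1 (τ : ℂ) ^ (n + 1))) ^ 24)⁻¹ = 𝕢 1 τ * e4sqDivDelta τ := by
    rw [hE, e4sqDivDelta, hΔ]
    field_simp
  rw [← hval]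
  exact h

/-- The Laurent series of `E₄² / Δ`. -/
def ratL : LaurentSeries ℂ :=
  HahnSeries.single (-((1 : ℕ) : ℤ)) (1 : ℂ) * HahnSeries.ofPowerSeries ℤ ℂ ratC

/-- The level-one expansion of `E₄² / Δ`. -/
theorem hasQExpK_e4sqDivDelta_one : QB.HasQExpK (RingHom.id ℂ) 1 ratL e4sqDivDelta := by
  intro τ
  show QB.HasLExp (RingHom.id ℂ) _
    (HahnSeries.single (-((1 : ℕ) : ℤ)) (1 : ℂ) * HahnSeries.ofPowerSeries ℤ ℂ ratC)
    (e4sqDivDelta τ)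
  rw [QB.hasLExp_iff _ (Complex.exp_ne_zero _) _ 1
    (fun k hk => QB.coeff_single_mul_ofPowerSeries_of_lt 1 ratC hk), QB.psPart_single_mul]
  unfold QB.HasPExp
  have h1 := hasSum_ratC τ
  rw [QB.exp_eq_qParam, pow_one]
  simpa using h1

/-- The level-`M` expansion of `E₄² / Δ`. -/
theorem hasQExpK_e4sqDivDelta (M : ℕ) [NeZero M] :
    QB.HasQExpK (RingHom.id ℂ) M (qExpand ℂ M ratL) e4sqDivDelta :=
  hasQExpK_e4sqDivDelta_one.qExpand_one M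

/-! ### All translates of `g_b` -/

theorem Gamma_le_Gamma1' (M : ℕ) : Gamma M ≤ Gamma1 M := by
  intro A hA
  rw [Gamma_mem] at hA
  rw [Gamma1_mem]
  exact ⟨hA.1, hA.2.2.2, hA.2.2.1⟩

/-- Every `SL₂(ℤ)`-translate of the weight-4 form `EE_b` has a `q^(1/M)`-power series. -/
theorem exists_hasQExpK_uHat_slash (M : ℕ) [NeZero M] (b : ZMod M) (γ : SL(2, ℤ)) :
    ∃ P : PowerSeries ℂ, QB.HasQExpK (RingHom.id ℂ) M (HahnSeries.ofPowerSeries ℤ ℂ P)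
      (uHat M b ∣[(4 : ℤ)] γ) :=
  TranslQ.exists_hasQExpK_slash M (uHat_mdifferentiable M b)
    (fun _ hA => uHat_slash_Gamma1 b (Gamma_le_Gamma1' M hA))
    (isBoundedAtImInfty_uHat_slash M b) γ

/-- A translate of `g_b` is the translate of `EE_b` times `E₄² / Δ`. -/
theorem gFun_smul_eq (M : ℕ) (b : ZMod M) (γ : SL(2, ℤ)) (τ : ℍ) :
    gFun M b (γ • τ) = (uHat M b ∣[(4 : ℤ)] γ) τ * e4sqDivDelta τ := by
  have hd : denom γ τ ≠ 0 := denom_ne_zero _ τ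
  have hΔ : ModularForm.discriminant τ ≠ 0 := discriminant_ne_zero τ
  have hu : uHat M b (γ • τ) = denom γ τ ^ (4 : ℤ) * (uHat M b ∣[(4 : ℤ)] γ) τ := by
    rw [ModularForm.SL_slash_apply, ← mul_assoc, mul_comm (denom γ τ ^ (4 : ℤ)), mul_assoc,
      ← zpow_add₀ hd]
    simp
  rw [gFun_apply, hu, E₄_smul, disc_smul, e4sqDivDelta]
  have h12 : denom γ τ ^ (12 : ℤ) = denom γ τ ^ (4 : ℤ) * (denom γ τ ^ (4 : ℤ)) ^ 2 := by
    rw [← zpow_natCast (denom γ τ ^ (4 : ℤ)) 2, ← zpow_mul, ← zpow_add₀ hd]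
    norm_num
  rw [h12]
  have hd4 : denom γ τ ^ (4 : ℤ) ≠ 0 := zpow_ne_zero _ hd
  field_simp

/-- **Every `SL₂(ℤ)`-translate of `g_b` has a `q^(1/M)`-expansion** (every `b`). -/
theorem exists_hasQExpK_compSL_gHol (M : ℕ) [NeZero M] (b : ZMod M) (γ : SL(2, ℤ)) :
    ∃ B : LaurentSeries ℂ,
      QB.HasQExpK (RingHom.id ℂ) M B ((compSL γ (gHol M b) : HolH) : ℍ → ℂ) := by
  obtain ⟨P, hP⟩ := exists_hasQExpK_uHat_slash M b γ
  refine ⟨HahnSeries.ofPowerSeries ℤ ℂ P * qExpand ℂ M ratL, ?_⟩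
  refine (hP.mul (hasQExpK_e4sqDivDelta M)).congr fun τ => ?_
  rw [compSL_apply, gHol_apply, gFun_smul_eq]
  rfl

/-! ### The avatar statements -/

/-- The expansion of `g_b` at `i∞`, at level `M`. -/
theorem hasQExpK_gHol (M : ℕ) [NeZero M] {b : ZMod M} (hb : b ≠ 0) :
    QB.HasQExpK (RingHom.id ℂ) M (qExpand ℂ M (coeffEmb ℂ (gq M b))) (gHol M b : ℍ → ℂ) := by
  have h1 : QB.HasQExpK (RingHom.id ℂ) 1 (coeffEmb ℂ (gq M b)) (gHol M b : ℍ → ℂ) := by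
    rw [QB.hasQExpK_one_iff]
    exact hasQ_gq (RingHom.id ℂ) hb
  exact h1.qExpand_one M

/-- **`g_b` is an avatar of `gq M b`** for every `G ≤ Γ₁(M)`. -/
theorem isAvatar_gHol (M : ℕ) [NeZero M] {G : Subgroup SL(2, ℤ)} (hG : G ≤ Gamma1 M)
    {b : ZMod M} (hb : b ≠ 0) :
    DescentGen.IsAvatar G M (coeffEmb ℂ (gq M b)) (gHol M b) :=
  ⟨hasQExpK_gHol M hb, fun _ hγ => compSL_gHol_Gamma1 b (hG hγ),
    fun γ => exists_hasQExpK_compSL_gHol M b γ⟩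

/-- **(I1), `g`-half**: for `2 ≤ M` and a unit `b`, `g_b` is the `Γ₁(M)`-avatar of `gq M b`. -/
theorem isAvatar_gq (M : ℕ) [NeZero M] (hM : 2 ≤ M) (b : (ZMod M)ˣ) :
    DescentGen.IsAvatar (Gamma1 M) M (coeffEmb ℂ (gq M (b : ZMod M))) (gHol M (b : ZMod M)) :=
  isAvatar_gHol M le_rfl (unit_ne_zero hM b)

theorem gq_mem_goodG (M : ℕ) [NeZero M] {G : Subgroup SL(2, ℤ)} (hG : G ≤ Gamma1 M)
    {b : ZMod M} (hb : b ≠ 0) : coeffEmb ℂ (gq M b) ∈ DescentGen.GoodG G M :=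
  ⟨gHol M b, isAvatar_gHol M hG hb⟩

theorem thetaG_gq (M : ℕ) [NeZero M] {G : Subgroup SL(2, ℤ)} (hG : G ≤ Gamma1 M)
    {b : ZMod M} (hb : b ≠ 0) :
    DescentGen.thetaG G M ⟨coeffEmb ℂ (gq M b), gq_mem_goodG M hG hb⟩ = gHol M b :=
  DescentGen.thetaG_eq (isAvatar_gHol M hG hb)

theorem gq_unit_mem_goodG (M : ℕ) [NeZero M] (hM : 2 ≤ M) (b : (ZMod M)ˣ) :
    coeffEmb ℂ (gq M (b : ZMod M)) ∈ DescentGen.GoodG (Gamma1 M) M :=
  gq_mem_goodG M le_rfl (unit_ne_zero hM b)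

theorem thetaG_gq_unit (M : ℕ) [NeZero M] (hM : 2 ≤ M) (b : (ZMod M)ˣ) :
    DescentGen.thetaG (Gamma1 M) M ⟨coeffEmb ℂ (gq M (b : ZMod M)), gq_unit_mem_goodG M hM b⟩
      = gHol M (b : ZMod M) :=
  thetaG_gq M le_rfl (unit_ne_zero hM b)

end Fermat.Agent.S48.G1.F1.Good1
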