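/-
PROGRAM DS (S48), part G1, AREA F — THE `j`-GENERATORS ARE GOOD FOR EVERY `G ≤ Γ₀(M)` (helper108).

`DescentGen.GoodG G M` is the algebra of `q`-series over `ℂ` having an analytic avatar that is
`G`-invariant and all of whose `SL(2, ℤ)`-translates have `q^(1/M)`-expansions.  The landed
`S30/DescentInst` proves this for `Γ₀(M)` (`GoodC M`, avatar `thetaC M`), in particular for the
generators `j(q^d)`, `d ∣ M`.  Invariance under `Γ₀(M)` is stronger than invariance under a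
subgroup `G ≤ Γ₀(M)` (e.g. `G = Γ₁(M)`), so every `Γ₀(M)`-good series is `G`-good, with the same
avatar.  In particular `j(q^d)` has the avatar `τ ↦ j(dτ)` (`Theta.jScale d`) for `Γ₁(M)`.
-/
import Mathlib
import Fermat.Agent.S48.G1.DescentGen
import Fermat.Agent.S30.DescentInst.Defs
import Fermat.Agent.S24.Theta

set_option autoImplicit false
set_option linter.dupNamespace false

noncomputable section

open UpperHalfPlane ModularCurve HahnSeries CongruenceSubgroup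
open Fermat.Agent.S24.HolH Fermat.Agent.S24
open scoped MatrixGroups Manifold

namespace Fermat.Agent.S48.G1.F1.Good1J

open Fermat.Agent.S48.G1.DescentGen Fermat.Agent.S30.DescentInst Fermat.Agent.S24.Theta

variable (M : ℕ) [NeZero M] {G : Subgroup SL(2, ℤ)}

/-- A `Γ₀(M)`-good series is `G`-good for every `G ≤ Γ₀(M)`, with the same avatar. -/
theorem isAvatar_of_goodC (hG : G ≤ Gamma0 M) (f : GoodC M) :
    IsAvatar G M (f : LaurentSeries ℂ) (thetaC M f) :=
  ⟨hasQExpK_thetaC M f, fun _ hγ => compSL_thetaC M (hG hγ) f,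
    fun γ => exists_has_compSL_thetaC M γ f⟩

theorem goodC_le_goodG (hG : G ≤ Gamma0 M) : GoodC M ≤ GoodG G M :=
  fun f hf => ⟨thetaC M ⟨f, hf⟩, isAvatar_of_goodC M hG ⟨f, hf⟩⟩

theorem thetaG_of_goodC (hG : G ≤ Gamma0 M) (f : GoodC M) :
    thetaG G M ⟨(f : LaurentSeries ℂ), goodC_le_goodG M hG f.2⟩ = thetaC M f :=
  avatar_eq (f := ⟨(f : LaurentSeries ℂ), goodC_le_goodG M hG f.2⟩) (isAvatar_of_goodC M hG f)

/-- The avatar of the generator `j(q^d)` for `Γ₀(M)` is `τ ↦ j(dτ)`. -/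
theorem thetaC_jG {d : ℕ} [NeZero d] (hd : d ∣ M) :
    thetaC M ((sysC M).jG d hd) = jScale d := by
  apply Subtype.ext
  rw [coe_thetaC, (sysC M).funOf_jG d hd]
  funext τ
  rw [jScale_apply, Cusp.scaleH_eq_mob]
  rfl

/-- **The `j`-half of the instance input**: `j(q^d)`, `d ∣ M`, has the avatar `τ ↦ j(dτ)` for
every `G ≤ Γ₀(M)`. -/
theorem isAvatar_jq (hG : G ≤ Gamma0 M) {d : ℕ} [NeZero d] (hd : d ∣ M) :
    IsAvatar G M (coeffEmb ℂ (qExpand ℚ d jq)) (jScale d) := by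
  have h := isAvatar_of_goodC M hG ((sysC M).jG d hd)
  rw [thetaC_jG M hd] at h
  exact h

theorem isAvatar_jq_Gamma1 {d : ℕ} [NeZero d] (hd : d ∣ M) :
    IsAvatar (Gamma1 M) M (coeffEmb ℂ (qExpand ℚ d jq)) (jScale d) :=
  isAvatar_jq M (Gamma1_in_Gamma0 M) hd

theorem jq_mem_goodG (hG : G ≤ Gamma0 M) {d : ℕ} [NeZero d] (hd : d ∣ M) :
    coeffEmb ℂ (qExpand ℚ d jq) ∈ GoodG G M :=
  ⟨jScale d, isAvatar_jq M hG hd⟩

theorem thetaG_jq (hG : G ≤ Gamma0 M) {d : ℕ} [NeZero d] (hd : d ∣ M) :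
    thetaG G M ⟨coeffEmb ℂ (qExpand ℚ d jq), jq_mem_goodG M hG hd⟩ = jScale d :=
  avatar_eq (f := ⟨coeffEmb ℂ (qExpand ℚ d jq), jq_mem_goodG M hG hd⟩) (isAvatar_jq M hG hd)

/-- The `j`-generators of the function field of `Γ₁(M)` (Prelude `divisorExpansions M`), read over
`ℂ`, are `G`-good. -/
theorem divisorExpansions_subset_goodG (hG : G ≤ Gamma0 M) :
    ⇑(coeffEmb ℂ) '' divisorExpansions M ⊆ (GoodG G M : Set (LaurentSeries ℂ)) := by
  rintro _ ⟨y, ⟨d, hd0, hd, rfl⟩, rfl⟩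
  have : NeZero d := hd0
  exact jq_mem_goodG M hG hd

theorem divisorExpansions_subset_goodG_Gamma1 :
    ⇑(coeffEmb ℂ) '' divisorExpansions M ⊆ (GoodG (Gamma1 M) M : Set (LaurentSeries ℂ)) :=
  divisorExpansions_subset_goodG M (Gamma1_in_Gamma0 M)

end Fermat.Agent.S48.G1.F1.Good1J
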