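/-
PROGRAM DS (S48) / G1 / AREA F, row F.3 (b) (helper124): the LEVEL-FREE core of `HeckeGal1`.

The formal multiplicative Hecke operator with diamond
  `CongrD.heckeMul2 ℓ hℓ z x y = y(q ^ ℓ) · ∏_{i < ℓ} x(zⁱ q^{1/ℓ})`
commutes with the coefficientwise action of an injective ring endomorphism `φ` of the
coefficient domain: `coeffMap φ` moves inside at the price of replacing the primitive root `z`
by `φ z`, and the norm part does not depend on the choice of the primitive `ℓ`-th root of unity.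

This is the `heckeMul2`-twin of `S30/Producer/HeckeGal.lean` (helper110), stated for an arbitrary
primitive root so that it does not depend on the producer objects; the two auxiliary lemmas on
`conjProd` are re-proved here under this namespace to keep the import closure small
(`Mathlib` + `S48/CongrD` only).
-/
import Mathlib
import Fermat.Agent.S48.CongrD

set_option autoImplicit false

noncomputable section

open HahnSeries ModularCurve

namespace Fermat.Agent.S48.G1.F1.HeckeGalCore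

open Fermat.Agent.S30 Fermat.Agent.S48

variable {R : Type*} [CommRing R]

/-- `∏_{i<ℓ} f (z^{k i} q) = ∏_{i<ℓ} f (zⁱ q)` when `z ^ ℓ = 1` and `k` is prime to `ℓ`. -/
theorem conjProd_pow_of_coprime (ℓ : ℕ) (hℓ : 1 < ℓ) (z : Rˣ) (hz : z ^ ℓ = 1) (k : ℕ)
    (hk : k.Coprime ℓ) (f : LaurentSeries R) :
    Congr.conjProd ℓ (z ^ k) f = Congr.conjProd ℓ z f := by
  unfold Congr.conjProd
  obtain ⟨k', -, hk'⟩ := Nat.exists_mul_mod_eq_one_of_coprime hk hℓ
  have hℓ0 : 0 < ℓ := by omega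
  have hpow : ∀ m : ℕ, z ^ m = z ^ (m % ℓ) := fun m => by
    conv_lhs => rw [← Nat.div_add_mod m ℓ, _root_.pow_add, _root_.pow_mul, hz, one_pow, one_mul]
  have hkk : k * k' ≡ 1 [MOD ℓ] := by
    unfold Nat.ModEq
    rw [hk', Nat.mod_eq_of_lt hℓ]
  have hkk' : k' * k ≡ 1 [MOD ℓ] := by rwa [mul_comm] at hkk
  refine Finset.prod_nbij' (fun i => (k * i) % ℓ) (fun j => (k' * j) % ℓ) ?_ ?_ ?_ ?_ ?_
  · intro i _
    exact Finset.mem_range.2 (Nat.mod_lt _ hℓ0)
  · intro j _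
    exact Finset.mem_range.2 (Nat.mod_lt _ hℓ0)
  · intro i hi
    have hi' : i < ℓ := Finset.mem_range.1 hi
    have h1 : k' * ((k * i) % ℓ) ≡ i [MOD ℓ] := by
      calc k' * ((k * i) % ℓ) ≡ k' * (k * i) [MOD ℓ] := (Nat.mod_modEq _ _).mul_left _
        _ = (k' * k) * i := by ring
        _ ≡ 1 * i [MOD ℓ] := hkk'.mul_right _
        _ = i := one_mul i
    show (k' * ((k * i) % ℓ)) % ℓ = i
    rw [h1, Nat.mod_eq_of_lt hi']
  · intro j hj
    have hj' : j < ℓ := Finset.mem_range.1 hj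
    have h1 : k * ((k' * j) % ℓ) ≡ j [MOD ℓ] := by
      calc k * ((k' * j) % ℓ) ≡ k * (k' * j) [MOD ℓ] := (Nat.mod_modEq _ _).mul_left _
        _ = (k * k') * j := by ring
        _ ≡ 1 * j [MOD ℓ] := hkk.mul_right _
        _ = j := one_mul j
    show (k * ((k' * j) % ℓ)) % ℓ = j
    rw [h1, Nat.mod_eq_of_lt hj']
  · intro i _
    show Congr.rescale ((z ^ k) ^ i) f = Congr.rescale (z ^ ((k * i) % ℓ)) f
    rw [← _root_.pow_mul, hpow (k * i)]

/-- In a domain, `∏_{i<ℓ} f (zⁱ q)` does not depend on the primitive `ℓ`-th root of unity `z`. -/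
theorem conjProd_eq_of_isPrimitiveRoot [IsDomain R] (ℓ : ℕ) (hℓ : 1 < ℓ) (z z' : Rˣ)
    (hz : IsPrimitiveRoot z ℓ) (hz' : IsPrimitiveRoot z' ℓ) (f : LaurentSeries R) :
    Congr.conjProd ℓ z' f = Congr.conjProd ℓ z f := by
  have hℓ0 : 0 < ℓ := by omega
  have : NeZero ℓ := ⟨hℓ0.ne'⟩
  have hzR : IsPrimitiveRoot (z : R) ℓ := IsPrimitiveRoot.coe_units_iff.mpr hz
  have hz'1 : (z' : R) ^ ℓ = 1 := by
    have := congrArg Units.val hz'.pow_eq_one
    simpa using this
  obtain ⟨k, -, hk⟩ := hzR.eq_pow_of_pow_eq_one hz'1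
  have hk' : z ^ k = z' := Units.ext (by simpa using hk)
  have hcop : k.Coprime ℓ := (hz.pow_iff_coprime hℓ0 k).mp (hk' ▸ hz')
  rw [← hk']
  exact conjProd_pow_of_coprime ℓ hℓ z hz.pow_eq_one k hcop f

/-- In a domain, the norm part does not depend on the primitive `ℓ`-th root of unity. -/
theorem normL_eq_of_isPrimitiveRoot [IsDomain R] (ℓ : ℕ) (hℓ : 1 < ℓ) (z z' : Rˣ)
    (hz : IsPrimitiveRoot z ℓ) (hz' : IsPrimitiveRoot z' ℓ) (f : LaurentSeries R) :
    Congr.normL ℓ (by omega) z' f = Congr.normL ℓ (by omega) z f := by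
  unfold Congr.normL
  rw [conjProd_eq_of_isPrimitiveRoot ℓ hℓ z z' hz hz' f]

/-- In a domain, the multiplicative Hecke operator with diamond does not depend on the primitive
`ℓ`-th root of unity. -/
theorem heckeMul2_eq_of_isPrimitiveRoot [IsDomain R] (ℓ : ℕ) (hℓ : 1 < ℓ) (z z' : Rˣ)
    (hz : IsPrimitiveRoot z ℓ) (hz' : IsPrimitiveRoot z' ℓ) (x y : LaurentSeries R) :
    CongrD.heckeMul2 ℓ (by omega) z' x y = CongrD.heckeMul2 ℓ (by omega) z x y := by
  unfold CongrD.heckeMul2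
  rw [normL_eq_of_isPrimitiveRoot ℓ hℓ z z' hz hz' x]

/-- **Level-free `HeckeGal` with diamond.**  For an injective ring endomorphism `φ` of a domain
`R` and a primitive `ℓ`-th root of unity `z`, the operator `heckeMul2 ℓ z` commutes with the
coefficientwise action of `φ`. -/
theorem heckeMul2_coeffMap [IsDomain R] (φ : R →+* R) (hφ : Function.Injective φ) (ℓ : ℕ)
    (hℓ : 1 < ℓ) (z : Rˣ) (hz : IsPrimitiveRoot z ℓ) (x y : LaurentSeries R) :
    CongrD.heckeMul2 ℓ (by omega) z (coeffMap φ x) (coeffMap φ y) =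
      coeffMap φ (CongrD.heckeMul2 ℓ (by omega) z x y) := by
  rw [CongrD.coeffMap_heckeMul2]
  have hinj : Function.Injective (Units.map (φ : R →* R)) :=
    Units.map_injective (f := (φ : R →* R)) hφ
  exact heckeMul2_eq_of_isPrimitiveRoot ℓ hℓ _ _ (hz.map_of_injective hinj) hz _ _

/-- The same for the Galois action on `ℚ̄((q))`: for `σ ∈ Gal(ℚ̄/ℚ)` and any primitive `ℓ`-th
root of unity `z` of `ℚ̄`. -/
theorem heckeMul2_gal (ℓ : ℕ) (hℓ : 1 < ℓ) (z : (AlgebraicClosure ℚ)ˣ) (hz : IsPrimitiveRoot z ℓ)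
    (σ : AlgebraicClosure ℚ ≃ₐ[ℚ] AlgebraicClosure ℚ)
    (x y : LaurentSeries (AlgebraicClosure ℚ)) :
    CongrD.heckeMul2 ℓ (by omega) z
        (coeffMap (σ : AlgebraicClosure ℚ →+* AlgebraicClosure ℚ) x)
        (coeffMap (σ : AlgebraicClosure ℚ →+* AlgebraicClosure ℚ) y) =
      coeffMap (σ : AlgebraicClosure ℚ →+* AlgebraicClosure ℚ)
        (CongrD.heckeMul2 ℓ (by omega) z x y) :=
  heckeMul2_coeffMap (σ : AlgebraicClosure ℚ →+* AlgebraicClosure ℚ) σ.injective ℓ hℓ z hz x y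

/-- Membership transfer: if `T_ℓ(x, y)` lies in a set `F` of Laurent series stable under
`coeffMap σ`, so does `T_ℓ(σ x, σ y)`. -/
theorem heckeMul2_gal_mem (ℓ : ℕ) (hℓ : 1 < ℓ) (z : (AlgebraicClosure ℚ)ˣ)
    (hz : IsPrimitiveRoot z ℓ) (σ : AlgebraicClosure ℚ ≃ₐ[ℚ] AlgebraicClosure ℚ)
    (F : Set (LaurentSeries (AlgebraicClosure ℚ)))
    (hF : ∀ w ∈ F, coeffMap (σ : AlgebraicClosure ℚ →+* AlgebraicClosure ℚ) w ∈ F)
    {x y : LaurentSeries (AlgebraicClosure ℚ)}
    (h : CongrD.heckeMul2 ℓ (by omega) z x y ∈ F) :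
    CongrD.heckeMul2 ℓ (by omega) z
        (coeffMap (σ : AlgebraicClosure ℚ →+* AlgebraicClosure ℚ) x)
        (coeffMap (σ : AlgebraicClosure ℚ →+* AlgebraicClosure ℚ) y) ∈ F := by
  rw [heckeMul2_gal ℓ hℓ z hz σ x y]
  exact hF _ h

end Fermat.Agent.S48.G1.F1.HeckeGalCore
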