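/-
PROGRAM DS (S48) / G1 / AREA F, row F.3 (b) (helper124): the bricks `HeckeGal`.

* `heckeGal2 : Bricks1.HeckeGal2` — the formal Hecke series with diamond commutes with the
  coefficientwise Galois action (from the level-free `HeckeGalCore.heckeMul2_gal`);
* `heckeSeries1_galF1` — the Hecke series of `σ f` is `σ` applied to the Hecke series of `f`
  (uses the field `dia_gal` of `Objs M`);
* `heckeF1_galF1` — **the field `hecke_gal` of the producer**, UNCONDITIONALLY (every `ℓ`, every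
  `f`; in the junk branch of `heckeF1` both sides are `1`):
  `heckeF1 O ℓ (galF1 M σ f) = galF1 M σ (heckeF1 O ℓ f)`.
-/
import Mathlib
import Fermat.Agent.S48.G1.Producer1.Bricks1
import Fermat.Agent.S48.G1.F1.HeckeGalCore

set_option autoImplicit false

noncomputable section

open ModularCurve
open Fermat.Agent.S48.G1.F1

namespace Fermat.Agent.S48.G1.Producer1

/-- **Brick `HeckeGal2`**: the formal Hecke series with diamond commutes with the coefficientwise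
Galois action. -/
theorem heckeGal2 : Bricks1.HeckeGal2 := fun ℓ hℓ σ x y =>
  HeckeGalCore.heckeMul2_gal ℓ hℓ.one_lt (zetaL ℓ)
    (Fermat.Agent.S30.Producer.zeta_spec hℓ.pos) σ x y

/-- The Hecke series of `σ f` is `σ` applied to the Hecke series of `f`. -/
theorem heckeSeries1_galF1 {M : ℕ} (O : Objs M) {ℓ : ℕ} (hℓ : ℓ.Prime) (hℓM : ¬ ℓ ∣ M)
    (σ : GQ1) (f : F1 M) :
    heckeSeries1 O hℓ hℓM (galF1 M σ f) =
      coeffMap (σ : Qb →+* Qb) (heckeSeries1 O hℓ hℓM f) := by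
  unfold heckeSeries1
  rw [O.dia_gal (unitL hℓ hℓM) σ f, coe_galF1, coe_galF1]
  exact heckeGal2 ℓ hℓ σ _ _

/-- The Hecke series of `f` lies in `F1 M` iff the Hecke series of `σ f` does. -/
theorem heckeSeries1_galF1_mem_iff {M : ℕ} (O : Objs M) {ℓ : ℕ} (hℓ : ℓ.Prime) (hℓM : ¬ ℓ ∣ M)
    (σ : GQ1) (f : F1 M) :
    heckeSeries1 O hℓ hℓM (galF1 M σ f) ∈ F1 M ↔ heckeSeries1 O hℓ hℓM f ∈ F1 M := by
  constructor
  · intro h
    -- apply `σ⁻¹` to the element `T(σ f)` of `F1 M`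
    have h1 := heckeSeries1_galF1 O hℓ hℓM σ⁻¹ (galF1 M σ f)
    have h2 : galF1 M σ⁻¹ (galF1 M σ f) = f := by
      apply Subtype.ext
      rw [coe_galF1, coe_galF1]
      ext n
      simp only [coeffMap_coeff]
      exact σ.symm_apply_apply _
    rw [h2] at h1
    rw [h1]
    have h3 : ((galF1 M σ⁻¹ ⟨_, h⟩ : F1 M) : LaurentSeries Qb) =
        coeffMap ((σ⁻¹ : GQ1) : Qb →+* Qb) (heckeSeries1 O hℓ hℓM (galF1 M σ f)) := coe_galF1 M _ _
    rw [← h3]
    exact (galF1 M σ⁻¹ ⟨_, h⟩).2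
  · intro h
    rw [heckeSeries1_galF1 O hℓ hℓM σ f]
    have h3 : ((galF1 M σ ⟨_, h⟩ : F1 M) : LaurentSeries Qb) =
        coeffMap (σ : Qb →+* Qb) (heckeSeries1 O hℓ hℓM f) := coe_galF1 M _ _
    rw [← h3]
    exact (galF1 M σ ⟨_, h⟩).2

/-- **The field `hecke_gal` of the producer at level `Γ₁(M)`**: the multiplicative Hecke operator
with diamond commutes with the coefficientwise Galois action (unconditionally). -/
theorem heckeF1_galF1 {M : ℕ} (O : Objs M) (ℓ : ℕ) (σ : GQ1) (f : F1 M) :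
    heckeF1 O ℓ (galF1 M σ f) = galF1 M σ (heckeF1 O ℓ f) := by
  classical
  by_cases h : ∃ (hℓ : ℓ.Prime) (hℓM : ¬ ℓ ∣ M), heckeSeries1 O hℓ hℓM f ∈ F1 M
  · obtain ⟨hℓ, hℓM, hmem⟩ := h
    have hmem' : heckeSeries1 O hℓ hℓM (galF1 M σ f) ∈ F1 M :=
      (heckeSeries1_galF1_mem_iff O hℓ hℓM σ f).2 hmem
    apply Subtype.ext
    rw [coe_heckeF1 O hℓ hℓM _ hmem', coe_galF1, coe_heckeF1 O hℓ hℓM _ hmem,
      heckeSeries1_galF1 O hℓ hℓM σ f]
  · have h' : ¬ ∃ (hℓ : ℓ.Prime) (hℓM : ¬ ℓ ∣ M),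
        heckeSeries1 O hℓ hℓM (galF1 M σ f) ∈ F1 M := by
      rintro ⟨hℓ, hℓM, hmem⟩
      exact h ⟨hℓ, hℓM, (heckeSeries1_galF1_mem_iff O hℓ hℓM σ f).1 hmem⟩
    unfold heckeF1
    rw [dif_neg h, dif_neg h', map_one]

end Fermat.Agent.S48.G1.Producer1
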