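import Fermat.Agent.S48.G1.F1.CosetG
import Fermat.Agent.S24.Degree.Descent
import Fermat.Agent.S24.Theta
import Fermat.Agent.S24.JHol

set_option autoImplicit false
set_option linter.dupNamespace false

/-!
# Invariant ⇒ rational, for an arbitrary finite-index subgroup `Γ ≤ SL(2,ℤ)`

* `exists_interp` (LAG): Lagrange interpolation over `SL(2,ℤ) ⧸ Γ`.  A `Γ`-invariant holomorphic
  function `φ` of moderate growth at all cusps satisfies
  `φ · D(j) = ∑_{k < n} P_k(j) · t^k` with `D ≠ 0`, `D, P_k ∈ ℂ[X]`, `n = [SL(2,ℤ) : Γ]`, for any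
  `Γ`-invariant `t` of moderate growth whose `SL(2,ℤ)`-translates are pairwise distinct.
* `descent_interp`: descent of such a relation from `ℂ` to the field of coefficients of the
  `q`-expansions (retraction argument of `S24/Degree/Descent`).
* `exists_rational_of_invariant`, `mem_of_invariant`: the combination.  The only input at the
  cusps is moderate growth (`S24.Degree.cuspMod`): no expansion at any cusp other than `∞`.
-/

open scoped Manifold MatrixGroups Topology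
open UpperHalfPlane Filter Polynomial
open Fermat.Agent.S24.HolH Fermat.Agent.S24.JFun Fermat.Agent.S24.Degree
open Fermat.Agent.S24.Theta

noncomputable section

namespace Fermat.Agent.S48.G1.CosetG

local notation "𝕢" => Function.Periodic.qParam

/-! ### Translates of a single function along cosets -/

section Conj

variable (Γ : Subgroup SL(2, ℤ))

/-- the translate `f ∘ (g⁻¹ • ·)` of a function along the coset `x = g Γ` (meaningful for
`Γ`-invariant `f`). -/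
def conjG (x : SL(2, ℤ) ⧸ Γ) (f : HolH) : HolH := compSL (Quotient.out x)⁻¹ f

variable {Γ}

theorem conjG_mk {f : HolH} (hf : ∀ γ ∈ Γ, compSL γ f = f) (g : SL(2, ℤ)) :
    conjG Γ (g : SL(2, ℤ) ⧸ Γ) f = compSL g⁻¹ f := by
  obtain ⟨γ, hγ⟩ := QuotientGroup.mk_out_eq_mul Γ g
  rw [conjG, hγ, mul_inv_rev, compSL_mul, hf _ (inv_mem γ.2)]

theorem conjG_one {f : HolH} (hf : ∀ γ ∈ Γ, compSL γ f = f) :
    conjG Γ ((1 : SL(2, ℤ)) : SL(2, ℤ) ⧸ Γ) f = f := by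
  rw [conjG_mk hf, inv_one, compSL_one]

theorem compSL_conjG {f : HolH} (hf : ∀ γ ∈ Γ, compSL γ f = f) (γ : SL(2, ℤ))
    (x : SL(2, ℤ) ⧸ Γ) : compSL γ (conjG Γ x f) = conjG Γ (γ⁻¹ • x) f := by
  obtain ⟨g, rfl⟩ := QuotientGroup.mk_surjective x
  rw [MulAction.Quotient.smul_mk, smul_eq_mul, conjG_mk hf, conjG_mk hf, mul_inv_rev, inv_inv,
    compSL_mul]

theorem conjG_mem_cuspMod (x : SL(2, ℤ) ⧸ Γ) {f : HolH} (hf : f ∈ cuspMod) :
    conjG Γ x f ∈ cuspMod :=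
  compSL_mem_cuspMod _ hf

theorem smul_one_coset {γ : SL(2, ℤ)} (hγ : γ ∈ Γ) :
    γ⁻¹ • ((1 : SL(2, ℤ)) : SL(2, ℤ) ⧸ Γ) = ((1 : SL(2, ℤ)) : SL(2, ℤ) ⧸ Γ) := by
  rw [MulAction.Quotient.smul_mk, smul_eq_mul, mul_one]
  apply QuotientGroup.eq.mpr
  rw [inv_inv, mul_one]
  exact hγ

/-- a general translate `θ a ∘ g⁻¹` as a `conjG`. -/
theorem cosetHomG_eq_conjG {A : Type*} [CommRing A] (θ : A →+* HolH)
    (x : SL(2, ℤ) ⧸ Γ) (a : A) : cosetHomG Γ θ x a = conjG Γ x (θ a) := rfl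

end Conj

/-! ### Lagrange interpolation -/

section Lagrange

variable {Γ : Subgroup SL(2, ℤ)} [Fintype (SL(2, ℤ) ⧸ Γ)] [DecidableEq (SL(2, ℤ) ⧸ Γ)]

variable (Γ) in
/-- The Lagrange interpolation numerator `∑_x φ_x ∏_{y ≠ x} (X - t_y)`. -/
def lagPoly (t φ : HolH) : HolH[X] :=
  ∑ x : SL(2, ℤ) ⧸ Γ, C (conjG Γ x φ) * ∏ y ∈ Finset.univ.erase x, (X - C (conjG Γ y t))

theorem lagPoly_map_compSL {t φ : HolH} (ht : ∀ γ ∈ Γ, compSL γ t = t)
    (hφ : ∀ γ ∈ Γ, compSL γ φ = φ) (γ : SL(2, ℤ)) :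
    (lagPoly Γ t φ).map ((compSL γ : HolH →ₐ[ℂ] HolH) : HolH →+* HolH) = lagPoly Γ t φ := by
  set F : HolH →+* HolH := ((compSL γ : HolH →ₐ[ℂ] HolH) : HolH →+* HolH) with hF
  have h1 : ∀ x : SL(2, ℤ) ⧸ Γ, F (conjG Γ x φ) = conjG Γ (γ⁻¹ • x) φ :=
    fun x => compSL_conjG hφ γ x
  have h2 : ∀ x : SL(2, ℤ) ⧸ Γ, F (conjG Γ x t) = conjG Γ (γ⁻¹ • x) t :=
    fun x => compSL_conjG ht γ x
  let G : SL(2, ℤ) ⧸ Γ → HolH[X] := fun x =>
    C (conjG Γ x φ) * ∏ y ∈ Finset.univ.erase x, (X - C (conjG Γ y t))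
  have hterm : ∀ x : SL(2, ℤ) ⧸ Γ, (G x).map F = G (γ⁻¹ • x) := by
    intro x
    show (C (conjG Γ x φ) * ∏ y ∈ Finset.univ.erase x, (X - C (conjG Γ y t))).map F
      = C (conjG Γ (γ⁻¹ • x) φ) * ∏ y ∈ Finset.univ.erase (γ⁻¹ • x), (X - C (conjG Γ y t))
    rw [Polynomial.map_mul, Polynomial.map_C, h1, Polynomial.map_prod]
    congr 1
    have h3 : ∀ y : SL(2, ℤ) ⧸ Γ, (X - C (conjG Γ y t)).map F = X - C (conjG Γ (γ⁻¹ • y) t) :=
      fun y => by rw [Polynomial.map_sub, Polynomial.map_X, Polynomial.map_C, h2]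
    rw [Finset.prod_congr rfl fun y _ => h3 y]
    refine Finset.prod_equiv (MulAction.toPerm (γ⁻¹ : SL(2, ℤ))) (fun y => ?_) (fun y _ => rfl)
    simp only [Finset.mem_erase, Finset.mem_univ, and_true, ne_eq, MulAction.toPerm_apply,
      smul_left_cancel_iff]
  have hsum : lagPoly Γ t φ = ∑ x : SL(2, ℤ) ⧸ Γ, G x := rfl
  rw [hsum, Polynomial.map_sum, Finset.sum_congr rfl fun x _ => hterm x]
  exact Equiv.sum_comp (MulAction.toPerm (γ⁻¹ : SL(2, ℤ))) G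

theorem lagPoly_natDegree_lt (t φ : HolH) :
    (lagPoly Γ t φ).natDegree < Fintype.card (SL(2, ℤ) ⧸ Γ) := by
  have hpos : 0 < Fintype.card (SL(2, ℤ) ⧸ Γ) :=
    Fintype.card_pos_iff.mpr ⟨((1 : SL(2, ℤ)) : SL(2, ℤ) ⧸ Γ)⟩
  have hle : (lagPoly Γ t φ).natDegree ≤ Fintype.card (SL(2, ℤ) ⧸ Γ) - 1 := by
    refine Polynomial.natDegree_sum_le_of_forall_le _ _ fun x _ => ?_
    refine (Polynomial.natDegree_C_mul_le _ _).trans ?_
    rw [Polynomial.natDegree_finsetProd_X_sub_C_eq_card, Finset.card_erase_of_mem (Finset.mem_univ x),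
      Finset.card_univ]
  omega

/-- the "different" `∏_{y ≠ 1} (t - t_y)`. -/
def diffG (Γ : Subgroup SL(2, ℤ)) [Fintype (SL(2, ℤ) ⧸ Γ)] [DecidableEq (SL(2, ℤ) ⧸ Γ)]
    (t : HolH) : HolH :=
  ∏ y ∈ Finset.univ.erase ((1 : SL(2, ℤ)) : SL(2, ℤ) ⧸ Γ), (t - conjG Γ y t)

theorem lagPoly_eval {t φ : HolH} (ht : ∀ γ ∈ Γ, compSL γ t = t)
    (hφ : ∀ γ ∈ Γ, compSL γ φ = φ) :
    (lagPoly Γ t φ).eval t = φ * diffG Γ t := by
  rw [lagPoly, Polynomial.eval_finsetSum]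
  rw [Finset.sum_eq_single ((1 : SL(2, ℤ)) : SL(2, ℤ) ⧸ Γ)]
  · rw [Polynomial.eval_mul, Polynomial.eval_C, Polynomial.eval_prod, conjG_one hφ, diffG]
    simp only [Polynomial.eval_sub, Polynomial.eval_X, Polynomial.eval_C]
  · intro x _ hx
    rw [Polynomial.eval_mul, Polynomial.eval_prod]
    have hmem : ((1 : SL(2, ℤ)) : SL(2, ℤ) ⧸ Γ) ∈ Finset.univ.erase x :=
      Finset.mem_erase.mpr ⟨fun h => hx h.symm, Finset.mem_univ _⟩
    rw [Finset.prod_eq_zero hmem, mul_zero]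
    rw [Polynomial.eval_sub, Polynomial.eval_X, Polynomial.eval_C, conjG_one ht, sub_self]
  · intro h
    exact absurd (Finset.mem_univ _) h

theorem lagPoly_coeff_mem {t φ : HolH} (ht : t ∈ cuspMod) (hφ : φ ∈ cuspMod) (k : ℕ) :
    (lagPoly Γ t φ).coeff k ∈ cuspMod := by
  rw [lagPoly, Polynomial.finsetSum_coeff]
  refine Subalgebra.sum_mem _ fun x _ => ?_
  rw [Polynomial.coeff_C_mul]
  exact mul_mem (conjG_mem_cuspMod x hφ)
    (coeff_prod_X_sub_C_mem cuspMod _ (fun y => conjG Γ y t) (fun y _ => conjG_mem_cuspMod y ht) k)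

/-- the coefficients of the Lagrange numerator are polynomials in `j`. -/
theorem exists_lagPoly_coeff {t φ : HolH} (ht : ∀ γ ∈ Γ, compSL γ t = t)
    (hφ : ∀ γ ∈ Γ, compSL γ φ = φ) (htm : t ∈ cuspMod) (hφm : φ ∈ cuspMod) (k : ℕ) :
    ∃ P : ℂ[X], ∀ τ : ℍ, ((lagPoly Γ t φ).coeff k : ℍ → ℂ) τ = P.eval (jFun τ) := by
  refine exists_polynomial_of_invariant _ (lagPoly_coeff_mem htm hφm k) fun γ => ?_
  have h := congrArg (fun p : HolH[X] => p.coeff k) (lagPoly_map_compSL ht hφ γ)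
  simp only [Polynomial.coeff_map] at h
  exact h

/-- **Lagrange, first form**: `φ · ∏_{y ≠ 1} (t - t_y) = ∑_{k < n} P_k(j) t^k`. -/
theorem exists_lag {t φ : HolH} (ht : ∀ γ ∈ Γ, compSL γ t = t)
    (hφ : ∀ γ ∈ Γ, compSL γ φ = φ) (htm : t ∈ cuspMod) (hφm : φ ∈ cuspMod) :
    ∃ P : ℕ → ℂ[X], ∀ τ : ℍ,
      (φ : ℍ → ℂ) τ * (diffG Γ t : ℍ → ℂ) τ
        = ∑ k ∈ Finset.range (Fintype.card (SL(2, ℤ) ⧸ Γ)),
            (P k).eval (jFun τ) * (t : ℍ → ℂ) τ ^ k := by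
  choose P hP using exists_lagPoly_coeff (Γ := Γ) ht hφ htm hφm
  refine ⟨P, fun τ => ?_⟩
  have h1 := eval_apply_of_natDegree_lt (lagPoly Γ t φ) t _ (lagPoly_natDegree_lt t φ) τ
  rw [lagPoly_eval ht hφ] at h1
  have h2 : ((φ * diffG Γ t : HolH) : ℍ → ℂ) τ = (φ : ℍ → ℂ) τ * (diffG Γ t : ℍ → ℂ) τ := rfl
  rw [h2] at h1
  rw [h1]
  exact Finset.sum_congr rfl fun k _ => by rw [hP k τ]

/-- the complementary factor of the discriminant, `∏_{x ≠ 1} ∏_{y ≠ x} (t_x - t_y)`. -/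
def codiffG (Γ : Subgroup SL(2, ℤ)) [Fintype (SL(2, ℤ) ⧸ Γ)] [DecidableEq (SL(2, ℤ) ⧸ Γ)]
    (t : HolH) : HolH :=
  ∏ x ∈ Finset.univ.erase ((1 : SL(2, ℤ)) : SL(2, ℤ) ⧸ Γ),
    ∏ y ∈ Finset.univ.erase x, (conjG Γ x t - conjG Γ y t)

/-- the discriminant `∏_{x} ∏_{y ≠ x} (t_x - t_y)`. -/
def discG (Γ : Subgroup SL(2, ℤ)) [Fintype (SL(2, ℤ) ⧸ Γ)] [DecidableEq (SL(2, ℤ) ⧸ Γ)]
    (t : HolH) : HolH :=
  ∏ x : SL(2, ℤ) ⧸ Γ, ∏ y ∈ Finset.univ.erase x, (conjG Γ x t - conjG Γ y t)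

theorem diffG_mul_codiffG {t : HolH} (ht : ∀ γ ∈ Γ, compSL γ t = t) :
    diffG Γ t * codiffG Γ t = discG Γ t := by
  rw [diffG, codiffG, discG]
  have h := Finset.mul_prod_erase Finset.univ
    (fun x : SL(2, ℤ) ⧸ Γ => ∏ y ∈ Finset.univ.erase x, (conjG Γ x t - conjG Γ y t))
    (Finset.mem_univ ((1 : SL(2, ℤ)) : SL(2, ℤ) ⧸ Γ))
  rw [← h]
  simp only [conjG_one ht]

theorem compSL_prod_diff {t : HolH} (ht : ∀ γ ∈ Γ, compSL γ t = t) (γ : SL(2, ℤ))
    (x : SL(2, ℤ) ⧸ Γ) :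
    compSL γ (∏ y ∈ Finset.univ.erase x, (conjG Γ x t - conjG Γ y t))
      = ∏ y ∈ Finset.univ.erase (γ⁻¹ • x), (conjG Γ (γ⁻¹ • x) t - conjG Γ y t) := by
  rw [map_prod]
  simp only [map_sub, compSL_conjG ht]
  refine Finset.prod_equiv (MulAction.toPerm (γ⁻¹ : SL(2, ℤ))) (fun y => ?_) (fun y _ => rfl)
  simp only [Finset.mem_erase, Finset.mem_univ, and_true, ne_eq, MulAction.toPerm_apply,
    smul_left_cancel_iff]

theorem compSL_discG {t : HolH} (ht : ∀ γ ∈ Γ, compSL γ t = t) (γ : SL(2, ℤ)) :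
    compSL γ (discG Γ t) = discG Γ t := by
  rw [discG, map_prod]
  simp only [compSL_prod_diff ht]
  exact Fintype.prod_equiv (MulAction.toPerm (γ⁻¹ : SL(2, ℤ))) _
    (fun x => ∏ y ∈ Finset.univ.erase x, (conjG Γ x t - conjG Γ y t)) (fun x => rfl)

theorem compSL_codiffG {t : HolH} (ht : ∀ γ ∈ Γ, compSL γ t = t) {γ : SL(2, ℤ)} (hγ : γ ∈ Γ) :
    compSL γ (codiffG Γ t) = codiffG Γ t := by
  rw [codiffG, map_prod]
  simp only [compSL_prod_diff ht]
  refine Finset.prod_equiv (MulAction.toPerm (γ⁻¹ : SL(2, ℤ))) (fun x => ?_) (fun x _ => rfl)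
  simp only [Finset.mem_erase, Finset.mem_univ, and_true, ne_eq, MulAction.toPerm_apply]
  have h1 : γ⁻¹ • x = ((1 : SL(2, ℤ)) : SL(2, ℤ) ⧸ Γ)
      ↔ x = ((1 : SL(2, ℤ)) : SL(2, ℤ) ⧸ Γ) := by
    conv_lhs => rw [← smul_one_coset hγ]
    exact smul_left_cancel_iff _
  rw [h1]

theorem codiffG_mem_cuspMod {t : HolH} (ht : t ∈ cuspMod) : codiffG Γ t ∈ cuspMod :=
  Subalgebra.prod_mem _ fun x _ => Subalgebra.prod_mem _ fun y _ =>
    sub_mem (conjG_mem_cuspMod x ht) (conjG_mem_cuspMod y ht)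

theorem discG_mem_cuspMod {t : HolH} (ht : t ∈ cuspMod) : discG Γ t ∈ cuspMod :=
  Subalgebra.prod_mem _ fun x _ => Subalgebra.prod_mem _ fun y _ =>
    sub_mem (conjG_mem_cuspMod x ht) (conjG_mem_cuspMod y ht)

theorem discG_ne_zero {t : HolH}
    (hsep : Function.Injective fun x : SL(2, ℤ) ⧸ Γ => conjG Γ x t) : discG Γ t ≠ 0 := by
  rw [discG, Finset.prod_ne_zero_iff]
  intro x _
  rw [Finset.prod_ne_zero_iff]
  intro y hy
  rw [sub_ne_zero]
  intro h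
  exact (Finset.mem_erase.mp hy).1 (hsep h).symm

/-- **LAG**, Fintype form. -/
theorem exists_interp_fintype {t φ : HolH} (ht : ∀ γ ∈ Γ, compSL γ t = t)
    (hφ : ∀ γ ∈ Γ, compSL γ φ = φ) (htm : t ∈ cuspMod) (hφm : φ ∈ cuspMod)
    (hsep : Function.Injective fun x : SL(2, ℤ) ⧸ Γ => conjG Γ x t) :
    ∃ (D : ℂ[X]) (P : ℕ → ℂ[X]), D ≠ 0 ∧ ∀ τ : ℍ,
      (φ : ℍ → ℂ) τ * D.eval (jFun τ)
        = ∑ k ∈ Finset.range (Fintype.card (SL(2, ℤ) ⧸ Γ)),
            (P k).eval (jFun τ) * (t : ℍ → ℂ) τ ^ k := by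
  obtain ⟨D, hD⟩ := exists_polynomial_of_invariant (discG Γ t) (discG_mem_cuspMod htm)
    (compSL_discG ht)
  have hD0 : D ≠ 0 := by
    rintro rfl
    apply discG_ne_zero (Γ := Γ) hsep
    apply Subtype.ext
    funext τ
    rw [hD τ, Polynomial.eval_zero]
    rfl
  have hc : ∀ γ ∈ Γ, compSL γ (φ * codiffG Γ t) = φ * codiffG Γ t := fun γ hγ => by
    rw [map_mul, hφ γ hγ, compSL_codiffG ht hγ]
  obtain ⟨P, hP⟩ := exists_lag (Γ := Γ) ht hc htm (mul_mem hφm (codiffG_mem_cuspMod htm))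
  refine ⟨D, P, hD0, fun τ => ?_⟩
  rw [← hP τ, ← hD τ, ← diffG_mul_codiffG ht]
  have h1 : ((φ * codiffG Γ t : HolH) : ℍ → ℂ) τ
      = (φ : ℍ → ℂ) τ * (codiffG Γ t : ℍ → ℂ) τ := rfl
  have h2 : ((diffG Γ t * codiffG Γ t : HolH) : ℍ → ℂ) τ
      = (diffG Γ t : ℍ → ℂ) τ * (codiffG Γ t : ℍ → ℂ) τ := rfl
  rw [h1, h2]
  ring

end Lagrange

/-- **LAG**: a `Γ`-invariant holomorphic function `φ` of moderate growth at all cusps is a
rational function of `j` and any separating element `θ a`, with denominator in `ℂ[j]`. -/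
theorem exists_interp {Γ : Subgroup SL(2, ℤ)} [Finite (SL(2, ℤ) ⧸ Γ)] {A : Type*} [CommRing A]
    (θ : A →+* HolH) (hθ : ∀ γ ∈ Γ, ∀ a, compSL γ (θ a) = θ a) (a : A)
    (hsep : Function.Injective fun x : SL(2, ℤ) ⧸ Γ => cosetHomG Γ θ x a)
    (ha : θ a ∈ cuspMod) (φ : HolH) (hφ : ∀ γ ∈ Γ, compSL γ φ = φ) (hφm : φ ∈ cuspMod) :
    ∃ (D : ℂ[X]) (P : ℕ → ℂ[X]), D ≠ 0 ∧ ∀ τ : ℍ,
      (φ : ℍ → ℂ) τ * D.eval (jFun τ)
        = ∑ k ∈ Finset.range (Nat.card (SL(2, ℤ) ⧸ Γ)),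
            (P k).eval (jFun τ) * (θ a : ℍ → ℂ) τ ^ k := by
  classical
  let _ : Fintype (SL(2, ℤ) ⧸ Γ) := Fintype.ofFinite _
  rw [Nat.card_eq_fintype_card]
  exact exists_interp_fintype (Γ := Γ) (fun γ hγ => hθ γ hγ a) hφ ha hφm hsep

/-! ### Descent from `ℂ` to the field of coefficients -/

section Descent

variable {K : Type*} [Field K]

/-- **Descent of a rational relation.**  If `φ · D(φj) = ∑_{k < n} P_k(φj) φa^k` with
`D ≠ 0`, `D, P_k ∈ ℂ[X]`, and the functions `φ`, `φj`, `φa` have `q`-expansions `f`, `j`, `a`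
with coefficients in `K` (compatibly with products), then `f · D'(j) = ∑_{k < n} P'_k(j) a^k`
with `D' ≠ 0`, `D', P'_k ∈ K[X]`. -/
theorem descent_interp (ι : K →+* ℂ)
    (f a j : LaurentSeries K) (φ φa φj : ℍ → ℂ)
    (hexp : ∀ (e k : ℕ) (τ : ℍ),
      HasSum (fun m : ℤ => ι ((j ^ e * a ^ k).coeff m) * 𝕢 1 (τ : ℂ) ^ m) (φj τ ^ e * φa τ ^ k))
    (hexpf : ∀ (e : ℕ) (τ : ℍ),
      HasSum (fun m : ℤ => ι ((f * j ^ e).coeff m) * 𝕢 1 (τ : ℂ) ^ m) (φ τ * φj τ ^ e))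
    (n : ℕ) (D : ℂ[X]) (P : ℕ → ℂ[X]) (hD : D ≠ 0)
    (hrel : ∀ τ : ℍ, φ τ * D.eval (φj τ) = ∑ k ∈ Finset.range n, (P k).eval (φj τ) * φa τ ^ k) :
    ∃ (D' : K[X]) (P' : ℕ → K[X]), D' ≠ 0 ∧
      f * Polynomial.aeval j D' = ∑ k ∈ Finset.range n, Polynomial.aeval j (P' k) * a ^ k := by
  classical
  obtain ⟨π, hπ, hπι⟩ := exists_retraction ι
  obtain ⟨e0, he0⟩ : ∃ e0, D.coeff e0 ≠ 0 := by
    by_contra h
    simp only [not_exists, not_not] at h
    exact hD (Polynomial.ext fun e => by rw [h e, Polynomial.coeff_zero])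
  set u : ℂ := (D.coeff e0)⁻¹ with hu
  set B : ℕ := max D.natDegree ((Finset.range n).sup fun k => (P k).natDegree) + 1 with hB
  have hDdeg : D.natDegree < B := by
    have := le_max_left D.natDegree ((Finset.range n).sup fun k => (P k).natDegree)
    omega
  have hPdeg : ∀ k ∈ Finset.range n, (P k).natDegree < B := by
    intro k hk
    have h1 := Finset.le_sup (f := fun k => (P k).natDegree) hk
    have h2 := le_max_right D.natDegree ((Finset.range n).sup fun k => (P k).natDegree)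
    have h3 : (P k).natDegree ≤ (Finset.range n).sup fun k => (P k).natDegree := h1
    omega
  have he0B : e0 ∈ Finset.range B := by
    rw [Finset.mem_range]
    have := Polynomial.le_natDegree_of_ne_zero he0
    omega
  let s : Finset ((ℕ × ℕ) ⊕ ℕ) := (Finset.range n ×ˢ Finset.range B).disjSum (Finset.range B)
  let F : (ℕ × ℕ) ⊕ ℕ → LaurentSeries K :=
    Sum.elim (fun i => j ^ i.2 * a ^ i.1) (fun e => f * j ^ e)
  let Φ : (ℕ × ℕ) ⊕ ℕ → ℍ → ℂ :=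
    Sum.elim (fun i τ => φj τ ^ i.2 * φa τ ^ i.1) (fun e τ => φ τ * φj τ ^ e)
  let c : (ℕ × ℕ) ⊕ ℕ → ℂ :=
    Sum.elim (fun i => u * (P i.1).coeff i.2) (fun e => -(u * D.coeff e))
  have hexpF : ∀ i ∈ s, ∀ τ : ℍ,
      HasSum (fun m : ℤ => ι ((F i).coeff m) * 𝕢 1 (τ : ℂ) ^ m) (Φ i τ) := by
    rintro (i | e) _ τ
    · exact hexp i.2 i.1 τ
    · exact hexpf e τ
  have hrelF : ∀ τ : ℍ, ∑ i ∈ s, c i * Φ i τ = 0 := by
    intro τ
    have h1 : ∑ i ∈ Finset.range n ×ˢ Finset.range B,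
        u * (P i.1).coeff i.2 * (φj τ ^ i.2 * φa τ ^ i.1)
        = u * ∑ k ∈ Finset.range n, (P k).eval (φj τ) * φa τ ^ k := by
      rw [Finset.sum_product, Finset.mul_sum]
      refine Finset.sum_congr rfl fun k hk => ?_
      rw [Polynomial.eval_eq_sum_range' (hPdeg k hk), Finset.sum_mul, Finset.mul_sum]
      refine Finset.sum_congr rfl fun e _ => ?_
      ring
    have h2 : ∑ e ∈ Finset.range B, -(u * D.coeff e) * (φ τ * φj τ ^ e)
        = -(u * (φ τ * D.eval (φj τ))) := by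
      rw [Polynomial.eval_eq_sum_range' hDdeg, Finset.mul_sum, Finset.mul_sum,
        ← Finset.sum_neg_distrib]
      refine Finset.sum_congr rfl fun e _ => ?_
      ring
    have h3 : ∑ i ∈ s, c i * Φ i τ
        = ∑ i ∈ Finset.range n ×ˢ Finset.range B,
            u * (P i.1).coeff i.2 * (φj τ ^ i.2 * φa τ ^ i.1)
          + ∑ e ∈ Finset.range B, -(u * D.coeff e) * (φ τ * φj τ ^ e) :=
      Finset.sum_disjSum _ _ _
    rw [h3, h1, h2, hrel τ]
    ring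
  have key := descent_coeff ι π hπ s F Φ c hexpF hrelF
  have hkey : ∀ m : ℤ,
      ∑ i ∈ Finset.range n ×ˢ Finset.range B,
          π (u * (P i.1).coeff i.2) * (j ^ i.2 * a ^ i.1).coeff m
        = ∑ e ∈ Finset.range B, π (u * D.coeff e) * (f * j ^ e).coeff m := by
    intro m
    have h1 : ∑ i ∈ s, π (c i) * (F i).coeff m
        = ∑ i ∈ Finset.range n ×ˢ Finset.range B,
            π (u * (P i.1).coeff i.2) * (j ^ i.2 * a ^ i.1).coeff m
          + ∑ e ∈ Finset.range B, π (-(u * D.coeff e)) * (f * j ^ e).coeff m :=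
      Finset.sum_disjSum _ _ _
    have h2 := key m
    rw [h1] at h2
    have h3 : ∑ e ∈ Finset.range B, π (-(u * D.coeff e)) * (f * j ^ e).coeff m
        = -∑ e ∈ Finset.range B, π (u * D.coeff e) * (f * j ^ e).coeff m := by
      rw [← Finset.sum_neg_distrib]
      refine Finset.sum_congr rfl fun e _ => ?_
      rw [map_neg, neg_mul]
    rw [h3] at h2
    exact eq_of_sub_eq_zero (by rw [sub_eq_add_neg]; exact h2)
  refine ⟨∑ e ∈ Finset.range B, Polynomial.C (π (u * D.coeff e)) * Polynomial.X ^ e,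
    fun k => ∑ e ∈ Finset.range B, Polynomial.C (π (u * (P k).coeff e)) * Polynomial.X ^ e,
    ?_, ?_⟩
  · intro h0
    have h1 := congrArg (fun p : K[X] => p.coeff e0) h0
    simp only [Polynomial.finsetSum_coeff, Polynomial.coeff_C_mul, Polynomial.coeff_X_pow,
      Polynomial.coeff_zero] at h1
    rw [Finset.sum_eq_single e0 (fun e _ he => by rw [if_neg (Ne.symm he), mul_zero])
      (fun h => absurd he0B h)] at h1
    rw [if_pos rfl, mul_one, hu, inv_mul_cancel₀ he0] at h1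
    have h2 := hπι 1
    rw [map_one] at h2
    rw [h2] at h1
    exact one_ne_zero h1
  · have hL : f * Polynomial.aeval j
          (∑ e ∈ Finset.range B, Polynomial.C (π (u * D.coeff e)) * Polynomial.X ^ e)
        = ∑ e ∈ Finset.range B,
            algebraMap K (LaurentSeries K) (π (u * D.coeff e)) * (f * j ^ e) := by
      rw [map_sum, Finset.mul_sum]
      refine Finset.sum_congr rfl fun e _ => ?_
      rw [map_mul, Polynomial.aeval_C, map_pow, Polynomial.aeval_X]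
      ring
    have hR : ∑ k ∈ Finset.range n, Polynomial.aeval j
          (∑ e ∈ Finset.range B, Polynomial.C (π (u * (P k).coeff e)) * Polynomial.X ^ e) * a ^ k
        = ∑ k ∈ Finset.range n, ∑ e ∈ Finset.range B,
            algebraMap K (LaurentSeries K) (π (u * (P k).coeff e)) * (j ^ e * a ^ k) := by
      refine Finset.sum_congr rfl fun k _ => ?_
      rw [map_sum, Finset.sum_mul]
      refine Finset.sum_congr rfl fun e _ => ?_
      rw [map_mul, Polynomial.aeval_C, map_pow, Polynomial.aeval_X]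
      ring
    rw [hL, hR]
    ext m
    simp only [HahnSeries.coeff_sum, coeff_algebraMap_mul_laurent]
    rw [← hkey m, Finset.sum_product]

end Descent

/-! ### Invariant ⇒ rational -/

section Main

variable {Γ : Subgroup SL(2, ℤ)} [Finite (SL(2, ℤ) ⧸ Γ)] {A : Type*} [CommRing A]
  {K : Type*} [Field K]

/-- **Invariant ⇒ rational** (relation form).  `θ : A →+* HolH` a `Γ`-invariant family with
`q`-expansions `q a ∈ K((q))`, `θ jA = j`, `t` a separating element of moderate growth.  Then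
every `Γ`-invariant holomorphic `φ` of moderate growth at all cusps, with `q`-expansion
`f ∈ K((q))`, satisfies `f · D(j) = ∑_{k < n} P_k(j) t^k` with `D ≠ 0`, `D, P_k ∈ K[X]`. -/
theorem exists_rational_of_invariant (ι : K →+* ℂ)
    (θ : A →+* HolH) (q : A →+* LaurentSeries K) (hq : ∀ a, HasQ ι (q a) (θ a : ℍ → ℂ))
    (hθ : ∀ γ ∈ Γ, ∀ a, compSL γ (θ a) = θ a) (jA t : A)
    (hj : θ jA = Fermat.Agent.S24.JHol.jHol)
    (hsep : Function.Injective fun x : SL(2, ℤ) ⧸ Γ => cosetHomG Γ θ x t) (ht : θ t ∈ cuspMod)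
    (f : LaurentSeries K) (φ : HolH) (hf : HasQ ι f (φ : ℍ → ℂ))
    (hinv : ∀ γ ∈ Γ, compSL γ φ = φ) (hmod : φ ∈ cuspMod) :
    ∃ (D : K[X]) (P : ℕ → K[X]), D ≠ 0 ∧
      f * Polynomial.aeval (q jA) D
        = ∑ k ∈ Finset.range (Nat.card (SL(2, ℤ) ⧸ Γ)),
            Polynomial.aeval (q jA) (P k) * q t ^ k := by
  obtain ⟨D, P, hD, hrel⟩ := exists_interp θ hθ t hsep ht φ hinv hmod
  refine descent_interp ι f (q t) (q jA) (φ : ℍ → ℂ) (θ t : ℍ → ℂ) jFun ?_ ?_ _ D P hD hrel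
  · intro e k τ
    have h := hq (jA ^ e * t ^ k) τ
    rw [map_mul, map_pow, map_pow, map_mul, map_pow, map_pow, hj] at h
    exact h
  · intro e τ
    have h := (hf.mul (hq (jA ^ e))) τ
    rw [map_pow, map_pow, hj] at h
    exact h

/-- **Invariant ⇒ rational** (membership form): `f` lies in every subfield of `K((q))`
containing the constants and the expansions `q a`. -/
theorem mem_of_invariant (ι : K →+* ℂ)
    (θ : A →+* HolH) (q : A →+* LaurentSeries K) (hq : ∀ a, HasQ ι (q a) (θ a : ℍ → ℂ))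
    (hθ : ∀ γ ∈ Γ, ∀ a, compSL γ (θ a) = θ a) (jA t : A)
    (hj : θ jA = Fermat.Agent.S24.JHol.jHol) (hjtr : Transcendental K (q jA))
    (hsep : Function.Injective fun x : SL(2, ℤ) ⧸ Γ => cosetHomG Γ θ x t) (ht : θ t ∈ cuspMod)
    (S : Subfield (LaurentSeries K)) (hS : ∀ a, q a ∈ S)
    (hK : ∀ c : K, algebraMap K (LaurentSeries K) c ∈ S)
    (f : LaurentSeries K) (φ : HolH) (hf : HasQ ι f (φ : ℍ → ℂ))
    (hinv : ∀ γ ∈ Γ, compSL γ φ = φ) (hmod : φ ∈ cuspMod) : f ∈ S := by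
  obtain ⟨D, P, hD, h⟩ :=
    exists_rational_of_invariant ι θ q hq hθ jA t hj hsep ht f φ hf hinv hmod
  have hne : Polynomial.aeval (q jA) D ≠ 0 := fun h0 => hD ((transcendental_iff.mp hjtr) D h0)
  have hmemP : ∀ p : K[X], Polynomial.aeval (q jA) p ∈ S := by
    intro p
    rw [Polynomial.aeval_eq_sum_range]
    refine S.sum_mem fun i _ => ?_
    rw [Algebra.smul_def]
    exact S.mul_mem (hK _) (S.pow_mem (hS jA) i)
  rw [eq_div_of_mul_eq hne h]
  exact S.div_mem (S.sum_mem fun k _ => S.mul_mem (hmemP _) (S.pow_mem (hS t) k)) (hmemP D)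

end Main

end Fermat.Agent.S48.G1.CosetG

end
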