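import Mathlib
import Fermat.Agent.S48.G1.DescentGen
import Fermat.Agent.S48.G1.XRootGen
import Fermat.Agent.S24.PolyJQExpK

set_option autoImplicit false
set_option linter.dupNamespace false
set_option linter.unusedSectionVars false
set_option linter.style.haveILetI false

/-!
# PROGRAM DS (S48) / G1 / AREA F, row F.2a: "invariant ⇒ rational" for a GENERIC subgroup

Generic-`G` twin of `S30/Rational.lean` (the `Γ₀(N)` case), in the vocabulary of
`S48/G1/DescentGen.lean` (`GoodG`, `thetaG`, `FracG`).  `G ≤ SL(2, ℤ)` is any subgroup with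
`Γ(M) ≤ G`.

* `Separates G M θ` : the avatar of the good series `θ` is fixed by no element of `SL(2, ℤ)`
  outside `±G`.
* `good_mem_adjoin` (IR1) : if `θ` separates, every good series lies in `ℂ(j, θ)`.
* `fracG_eq_adjoin` (IR2) : hence `FracG G M = ℂ(S)` for every set `S` of good series with
  `j, θ ∈ ℂ(S)`.
* `exists_monic` (IR3) : every element of `FracG G M` is a root of a monic polynomial over
  `ℂ(j)` of degree at most `[SL(2, ℤ) : ±G]`.
* `exists_separates` (IR4) : a separating good series exists as soon as a finite family of good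
  series has joint stabiliser `±G`.

Proof of (IR1): Lagrange interpolation over the cosets `x ∈ SL(2, ℤ) / ±G`.  The polynomial
`R_f(X) = ∑_x f_x ∏_{y ≠ x} (X - θ_y)` over the holomorphic functions has `SL(2, ℤ)`-invariant
coefficients with `q^(1/M)`-expansions, hence coefficients in `ℂ[j]` (`PolyJQExpK`), and
`R_f(θ) = f · ∏_{y ≠ 1} (θ - θ_y)`; so `f = R_f(θ) / R_1(θ)`.
-/

noncomputable section

open UpperHalfPlane ModularCurve HahnSeries CongruenceSubgroup IntermediateField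
open Fermat.Agent.S24.HolH Fermat.Agent.S24 Fermat.Agent.Lib
open Fermat.Agent.S24.JFun Fermat.Agent.S24.JHol
open Fermat.Agent.S48.G1.DescentGen Fermat.Agent.S48.G1.XRootGen
open scoped MatrixGroups

namespace Fermat.Agent.S48.G1.InvRat

/-! ### `±G` -/

theorem compSL_neg (γ : SL(2, ℤ)) (f : HolH) : compSL (-γ) f = compSL γ f := by
  ext τ
  simp only [compSL_apply]
  rw [ModularGroup.SL_neg_smul]

section PM

variable (G : Subgroup SL(2, ℤ))

/-- The subgroup `±G` of `SL(2, ℤ)`. -/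
def pmG : Subgroup SL(2, ℤ) where
  carrier := {γ | γ ∈ G ∨ -γ ∈ G}
  mul_mem' := by
    rintro a b (ha | ha) (hb | hb)
    · exact Or.inl (G.mul_mem ha hb)
    · right
      have h := G.mul_mem ha hb
      rwa [mul_neg] at h
    · right
      have h := G.mul_mem ha hb
      rwa [neg_mul] at h
    · left
      have h := G.mul_mem ha hb
      rwa [neg_mul_neg] at h
  one_mem' := Or.inl G.one_mem
  inv_mem' := by
    rintro a (ha | ha)
    · exact Or.inl (G.inv_mem ha)
    · right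
      have h := G.inv_mem ha
      rwa [inv_neg] at h

theorem mem_pmG {γ : SL(2, ℤ)} : γ ∈ pmG G ↔ γ ∈ G ∨ -γ ∈ G := Iff.rfl

theorem le_pmG : G ≤ pmG G := fun _ h => Or.inl h

theorem pmG_eq_sup : pmG G = G ⊔ Subgroup.zpowers (-1) := by
  apply le_antisymm
  · rintro γ (h | h)
    · exact Subgroup.mem_sup_left h
    · have h1 : γ = (-γ) * (-1) := by rw [neg_mul_neg, mul_one]
      rw [h1]
      exact Subgroup.mul_mem _ (Subgroup.mem_sup_left h)
        (Subgroup.mem_sup_right (Subgroup.mem_zpowers _))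
  · refine sup_le (le_pmG G) ?_
    rw [Subgroup.zpowers_le]
    right
    rw [neg_neg]
    exact G.one_mem

theorem finite_quot {M : ℕ} [NeZero M] (hM : Gamma M ≤ G) : Finite (SL(2, ℤ) ⧸ pmG G) := by
  haveI : (pmG G).FiniteIndex := Subgroup.finiteIndex_of_le (hM.trans (le_pmG G))
  exact Subgroup.finite_quotient_of_finiteIndex

variable {G}

theorem compSL_of_mem_pmG {W : HolH} (hW : ∀ γ ∈ G, compSL γ W = W) {γ : SL(2, ℤ)}
    (hγ : γ ∈ pmG G) : compSL γ W = W := by
  rcases hγ with h | h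
  · exact hW γ h
  · rw [← compSL_neg]
    exact hW _ h

variable (G)

/-- The translate of a holomorphic function by a coset of `±G` (meaningful for `G`-invariant
functions). -/
def transl (W : HolH) (x : SL(2, ℤ) ⧸ pmG G) : HolH := compSL (Quotient.out x)⁻¹ W

variable {G}

theorem transl_mk {W : HolH} (hW : ∀ γ ∈ G, compSL γ W = W) (γ : SL(2, ℤ)) :
    transl G W (γ : SL(2, ℤ) ⧸ pmG G) = compSL γ⁻¹ W := by
  unfold transl
  set δ := Quotient.out (γ : SL(2, ℤ) ⧸ pmG G) with hδ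
  have h1 : (δ : SL(2, ℤ) ⧸ pmG G) = γ := QuotientGroup.out_eq' _
  have h2 : δ⁻¹ * γ ∈ pmG G := QuotientGroup.eq.mp h1
  have h3 : γ⁻¹ = (δ⁻¹ * γ)⁻¹ * δ⁻¹ := by group
  rw [h3, compSL_mul, compSL_of_mem_pmG hW ((pmG G).inv_mem h2)]

theorem transl_one {W : HolH} (hW : ∀ γ ∈ G, compSL γ W = W) :
    transl G W ((1 : SL(2, ℤ)) : SL(2, ℤ) ⧸ pmG G) = W := by
  rw [transl_mk hW, inv_one, compSL_one]

theorem compSL_transl {W : HolH} (hW : ∀ γ ∈ G, compSL γ W = W) (g : SL(2, ℤ))
    (x : SL(2, ℤ) ⧸ pmG G) : compSL g (transl G W x) = transl G W (g⁻¹ • x) := by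
  induction x using QuotientGroup.induction_on with
  | H γ =>
    have h : g⁻¹ • (γ : SL(2, ℤ) ⧸ pmG G) = ((g⁻¹ * γ : SL(2, ℤ)) : SL(2, ℤ) ⧸ pmG G) := rfl
    rw [transl_mk hW, h, transl_mk hW, ← compSL_mul]
    congr 1
    group

/-- A coset whose translate of a separating function is the function itself is trivial. -/
theorem eq_one_of_transl_eq {W : HolH} (hW : ∀ γ ∈ G, compSL γ W = W)
    (hsep : ∀ γ : SL(2, ℤ), compSL γ W = W → γ ∈ G ∨ -γ ∈ G) (x : SL(2, ℤ) ⧸ pmG G)
    (hx : transl G W x = W) : x = ((1 : SL(2, ℤ)) : SL(2, ℤ) ⧸ pmG G) := by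
  induction x using QuotientGroup.induction_on with
  | H γ =>
    rw [transl_mk hW] at hx
    have h1 : γ⁻¹ ∈ pmG G := hsep _ hx
    have h2 : γ ∈ pmG G := by
      have h := (pmG G).inv_mem h1
      rwa [inv_inv] at h
    symm
    rw [QuotientGroup.eq]
    rw [inv_one, one_mul]
    exact h2

end PM

/-! ### Functions all of whose translates have expansions -/

section Trans

variable (M : ℕ) [NeZero M]

/-- The subalgebra of the holomorphic functions all of whose `SL(2, ℤ)`-translates have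
`q^(1/M)`-expansions. -/
def TransExp : Subalgebra ℂ HolH where
  carrier := {W | ∀ γ : SL(2, ℤ), ∃ B : LaurentSeries ℂ,
    QB.HasQExpK (RingHom.id ℂ) M B ((compSL γ W : HolH) : ℍ → ℂ)}
  mul_mem' := by
    intro W V hW hV γ
    obtain ⟨B, hB⟩ := hW γ
    obtain ⟨C, hC⟩ := hV γ
    refine ⟨B * C, ?_⟩
    rw [map_mul]
    exact (hB.mul hC).congr fun τ => rfl
  add_mem' := by
    intro W V hW hV γ
    obtain ⟨B, hB⟩ := hW γ
    obtain ⟨C, hC⟩ := hV γ
    refine ⟨B + C, ?_⟩
    rw [map_add]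
    exact (hB.add hC).congr fun τ => rfl
  algebraMap_mem' := by
    intro c γ
    refine ⟨algebraMap ℂ (LaurentSeries ℂ) c, ?_⟩
    have hc : compSL γ (algebraMap ℂ HolH c) = algebraMap ℂ HolH c := AlgHom.commutes _ c
    rw [hc]
    exact (QB.hasQExpK_algebraMap (RingHom.id ℂ) M c).congr fun τ => rfl

variable {M}

theorem mem_transExp {W : HolH} : W ∈ TransExp M ↔ ∀ γ : SL(2, ℤ), ∃ B : LaurentSeries ℂ,
    QB.HasQExpK (RingHom.id ℂ) M B ((compSL γ W : HolH) : ℍ → ℂ) := Iff.rfl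

theorem compSL_mem_transExp {W : HolH} (hW : W ∈ TransExp M) (g : SL(2, ℤ)) :
    compSL g W ∈ TransExp M := by
  intro γ
  rw [← compSL_mul]
  exact hW (g * γ)

theorem thetaG_mem_transExp {G : Subgroup SL(2, ℤ)} (f : GoodG G M) :
    thetaG G M f ∈ TransExp M := fun γ => exists_has_compSL_thetaG G M γ f

theorem transl_mem_transExp {G : Subgroup SL(2, ℤ)} {W : HolH} (hW : W ∈ TransExp M)
    (x : SL(2, ℤ) ⧸ pmG G) : transl G W x ∈ TransExp M :=
  compSL_mem_transExp hW _

/-- Evaluation at a point, as an algebra homomorphism. -/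
def evalH (τ : ℍ) : HolH →ₐ[ℂ] ℂ := (Pi.evalAlgHom ℂ (fun _ : ℍ => ℂ) τ).comp HolH.val

theorem evalH_apply (τ : ℍ) (W : HolH) : evalH τ W = (W : ℍ → ℂ) τ := rfl

/-- **An `SL(2, ℤ)`-invariant holomorphic function with a `q^(1/M)`-expansion is a polynomial
in `j`.** -/
theorem exists_poly_j {c : HolH} (hc : c ∈ TransExp M) (hinv : ∀ γ : SL(2, ℤ), compSL γ c = c) :
    ∃ Q : Polynomial ℂ, c = Polynomial.aeval jHol Q := by
  obtain ⟨B, hB⟩ := hc 1
  rw [compSL_one] at hB
  obtain ⟨Q, hQ, -⟩ := PolyJQExpK.exists_polynomial hB (fun γ τ => by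
    have h := congrArg (fun F : HolH => (F : ℍ → ℂ) τ) (hinv γ)
    simpa using h)
  refine ⟨Q, Subtype.ext (funext fun τ => ?_)⟩
  rw [hQ τ, Polynomial.map_id]
  have h1 : ((Polynomial.aeval jHol Q : HolH) : ℍ → ℂ) τ = evalH τ (Polynomial.aeval jHol Q) := rfl
  rw [h1, ← Polynomial.aeval_algHom_apply, evalH_apply, jHol_apply, Polynomial.coe_aeval_eq_eval]

/-- The subsemiring of the polynomials over `HolH` with coefficients in `TransExp M`. -/
def polyT (M : ℕ) [NeZero M] : Subsemiring (Polynomial HolH) :=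
  Polynomial.lifts (TransExp M).val.toRingHom

theorem mem_polyT {P : Polynomial HolH} : P ∈ polyT M ↔ ∀ k, P.coeff k ∈ TransExp M := by
  unfold polyT
  rw [Polynomial.lifts_iff_coeff_lifts]
  constructor
  · intro h k
    obtain ⟨w, hw⟩ := h k
    rw [← hw]
    exact w.2
  · intro h k
    exact ⟨⟨_, h k⟩, rfl⟩

theorem C_mem_polyT {W : HolH} (hW : W ∈ TransExp M) : Polynomial.C W ∈ polyT M := by
  rw [mem_polyT]
  intro k
  rw [Polynomial.coeff_C]
  split_ifs
  · exact hW
  · exact (TransExp M).zero_mem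

theorem X_mem_polyT : (Polynomial.X : Polynomial HolH) ∈ polyT M :=
  Polynomial.X_mem_lifts _

/-- The coefficients of an invariant polynomial with coefficients in `TransExp M` are polynomials
in `j`. -/
theorem exists_coeff_poly_j {P : Polynomial HolH} (hP : P ∈ polyT M)
    (hinv : ∀ g : SL(2, ℤ), P.map (compSL g).toRingHom = P) :
    ∃ Q : ℕ → Polynomial ℂ, ∀ k, P.coeff k = Polynomial.aeval jHol (Q k) := by
  have h : ∀ k, ∃ Q : Polynomial ℂ, P.coeff k = Polynomial.aeval jHol Q := by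
    intro k
    refine exists_poly_j (mem_polyT.mp hP k) fun γ => ?_
    have h1 := congrArg (fun R : Polynomial HolH => R.coeff k) (hinv γ)
    simp only [Polynomial.coeff_map] at h1
    exact h1
  choose Q hQ using h
  exact ⟨Q, hQ⟩

end Trans

/-! ### Lagrange interpolation over the cosets -/

section Interp

variable (G : Subgroup SL(2, ℤ))
variable [Fintype (SL(2, ℤ) ⧸ pmG G)] [DecidableEq (SL(2, ℤ) ⧸ pmG G)]

/-- The Lagrange interpolation numerator `∑_x F_x ∏_{y ≠ x} (X - Θ_y)`. -/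
def interp (F Θ : HolH) : Polynomial HolH :=
  ∑ x : SL(2, ℤ) ⧸ pmG G, Polynomial.C (transl G F x) *
    ∏ y : SL(2, ℤ) ⧸ pmG G,
      (if y = x then 1 else Polynomial.X + Polynomial.C (-(transl G Θ y)))

/-- The characteristic polynomial `∏_y (X - Θ_y)`. -/
def charP (Θ : HolH) : Polynomial HolH :=
  ∏ y : SL(2, ℤ) ⧸ pmG G, (Polynomial.X + Polynomial.C (-(transl G Θ y)))

variable {G}

theorem interp_mem_polyT {M : ℕ} [NeZero M] {F Θ : HolH} (hF : F ∈ TransExp M)
    (hΘ : Θ ∈ TransExp M) : interp G F Θ ∈ polyT M := by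
  refine Subsemiring.sum_mem _ fun x _ => ?_
  refine Subsemiring.mul_mem _ (C_mem_polyT (transl_mem_transExp hF x)) ?_
  refine Subsemiring.prod_mem _ fun y _ => ?_
  split_ifs
  · exact Subsemiring.one_mem _
  · exact Subsemiring.add_mem _ X_mem_polyT
      (C_mem_polyT ((TransExp M).neg_mem (transl_mem_transExp hΘ y)))

theorem charP_mem_polyT {M : ℕ} [NeZero M] {Θ : HolH} (hΘ : Θ ∈ TransExp M) :
    charP G Θ ∈ polyT M := by
  refine Subsemiring.prod_mem _ fun y _ => ?_
  exact Subsemiring.add_mem _ X_mem_polyT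
    (C_mem_polyT ((TransExp M).neg_mem (transl_mem_transExp hΘ y)))

theorem map_charP {Θ : HolH} (hΘ : ∀ γ ∈ G, compSL γ Θ = Θ) (g : SL(2, ℤ)) :
    (charP G Θ).map (compSL g).toRingHom = charP G Θ := by
  unfold charP
  rw [Polynomial.map_prod]
  have h : ∀ y : SL(2, ℤ) ⧸ pmG G,
      (Polynomial.X + Polynomial.C (-(transl G Θ y))).map (compSL g).toRingHom
        = (fun y' : SL(2, ℤ) ⧸ pmG G => Polynomial.X + Polynomial.C (-(transl G Θ y')))
          (MulAction.toPerm (g⁻¹ : SL(2, ℤ)) y) := by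
    intro y
    simp only [MulAction.toPerm_apply]
    rw [Polynomial.map_add, Polynomial.map_X, Polynomial.map_C, ← compSL_transl hΘ g y, map_neg]
    rfl
  simp only [h]
  exact Equiv.prod_comp
    (MulAction.toPerm (g⁻¹ : SL(2, ℤ)) : Equiv.Perm (SL(2, ℤ) ⧸ pmG G))
    (fun y' : SL(2, ℤ) ⧸ pmG G => Polynomial.X + Polynomial.C (-(transl G Θ y')))

theorem map_interp {F Θ : HolH} (hF : ∀ γ ∈ G, compSL γ F = F) (hΘ : ∀ γ ∈ G, compSL γ Θ = Θ)
    (g : SL(2, ℤ)) : (interp G F Θ).map (compSL g).toRingHom = interp G F Θ := by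
  let T : (SL(2, ℤ) ⧸ pmG G) → Polynomial HolH := fun x =>
    Polynomial.C (transl G F x) * ∏ y : SL(2, ℤ) ⧸ pmG G,
      (if y = x then 1 else Polynomial.X + Polynomial.C (-(transl G Θ y)))
  have hterm : ∀ x : SL(2, ℤ) ⧸ pmG G, (T x).map (compSL g).toRingHom = T (g⁻¹ • x) := by
    intro x
    simp only [T]
    rw [Polynomial.map_mul, Polynomial.map_C, Polynomial.map_prod]
    have h1 : (compSL g).toRingHom (transl G F x) = transl G F (g⁻¹ • x) := compSL_transl hF g x
    rw [h1]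
    congr 1
    have h2 : ∀ y : SL(2, ℤ) ⧸ pmG G,
        (if y = x then (1 : Polynomial HolH)
            else Polynomial.X + Polynomial.C (-(transl G Θ y))).map (compSL g).toRingHom
          = (fun y' : SL(2, ℤ) ⧸ pmG G => if y' = g⁻¹ • x then (1 : Polynomial HolH)
              else Polynomial.X + Polynomial.C (-(transl G Θ y')))
            (MulAction.toPerm (g⁻¹ : SL(2, ℤ)) y) := by
      intro y
      simp only [MulAction.toPerm_apply]
      by_cases hyx : y = x
      · rw [if_pos hyx, if_pos (by rw [hyx]), Polynomial.map_one]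
      · rw [if_neg hyx, if_neg (fun h => hyx (smul_left_cancel _ h)), Polynomial.map_add,
          Polynomial.map_X, Polynomial.map_C, ← compSL_transl hΘ g y, map_neg]
        rfl
    simp only [h2]
    exact Equiv.prod_comp
      (MulAction.toPerm (g⁻¹ : SL(2, ℤ)) : Equiv.Perm (SL(2, ℤ) ⧸ pmG G))
      (fun y' : SL(2, ℤ) ⧸ pmG G => if y' = g⁻¹ • x then (1 : Polynomial HolH)
        else Polynomial.X + Polynomial.C (-(transl G Θ y')))
  show (∑ x : SL(2, ℤ) ⧸ pmG G, T x).map (compSL g).toRingHom = ∑ x : SL(2, ℤ) ⧸ pmG G, T x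
  rw [Polynomial.map_sum]
  simp only [hterm]
  exact Equiv.sum_comp
    (MulAction.toPerm (g⁻¹ : SL(2, ℤ)) : Equiv.Perm (SL(2, ℤ) ⧸ pmG G)) T

theorem interp_eval (F Θ : HolH) (x : SL(2, ℤ) ⧸ pmG G) :
    (interp G F Θ).eval (transl G Θ x) = transl G F x *
      ∏ y : SL(2, ℤ) ⧸ pmG G, (if y = x then 1 else transl G Θ x - transl G Θ y) := by
  rw [interp, Polynomial.eval_finsetSum]
  rw [Finset.sum_eq_single x]
  · rw [Polynomial.eval_mul, Polynomial.eval_C, Polynomial.eval_prod]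
    congr 1
    refine Finset.prod_congr rfl fun y _ => ?_
    split_ifs
    · simp
    · simp [sub_eq_add_neg]
  · intro x' _ hx'
    rw [Polynomial.eval_mul, Polynomial.eval_prod]
    have h0 : ∏ y : SL(2, ℤ) ⧸ pmG G,
        Polynomial.eval (transl G Θ x)
          (if y = x' then 1 else Polynomial.X + Polynomial.C (-(transl G Θ y))) = 0 := by
      refine Finset.prod_eq_zero (Finset.mem_univ x) ?_
      rw [if_neg (fun h => hx' h.symm)]
      simp
    rw [h0, mul_zero]
  · intro hx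
    exact absurd (Finset.mem_univ x) hx

theorem charP_eval (Θ : HolH) (x : SL(2, ℤ) ⧸ pmG G) :
    (charP G Θ).eval (transl G Θ x) = 0 := by
  rw [charP, Polynomial.eval_prod]
  refine Finset.prod_eq_zero (Finset.mem_univ x) ?_
  simp

theorem charP_monic (Θ : HolH) : (charP G Θ).Monic :=
  Polynomial.monic_prod_of_monic _ _ fun y _ => Polynomial.monic_X_add_C _

theorem charP_natDegree (Θ : HolH) :
    (charP G Θ).natDegree = Fintype.card (SL(2, ℤ) ⧸ pmG G) := by
  rw [charP, Polynomial.natDegree_prod_of_monic _ _ fun _ _ => Polynomial.monic_X_add_C _,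
    Finset.sum_congr rfl fun _ _ => Polynomial.natDegree_X_add_C _]
  simp

end Interp

/-! ### The main statements -/

section Main

variable (G : Subgroup SL(2, ℤ)) (M : ℕ) [NeZero M]

/-- The good series `θ` **separates**: its avatar is fixed by no element of `SL(2, ℤ)` outside
`±G`. -/
def Separates (θ : GoodG G M) : Prop :=
  ∀ γ : SL(2, ℤ), compSL γ (thetaG G M θ) = thetaG G M θ → γ ∈ G ∨ -γ ∈ G

variable {G M}

/-- Evaluating an invariant polynomial with coefficients in `TransExp M` at the avatar of `θ`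
gives the avatar of an element of `ℂ[j, θ]`. -/
theorem exists_good_eval {P : Polynomial HolH} (hP : P ∈ polyT M)
    (hinv : ∀ g : SL(2, ℤ), P.map (compSL g).toRingHom = P) (θ : GoodG G M) :
    ∃ a : GoodG G M,
      (a : LaurentSeries ℂ) ∈ Algebra.adjoin ℂ
        ({coeffEmb ℂ jq, (θ : LaurentSeries ℂ)} : Set (LaurentSeries ℂ)) ∧
      thetaG G M a = P.eval (thetaG G M θ) := by
  obtain ⟨Q, hQ⟩ := exists_coeff_poly_j hP hinv
  refine ⟨∑ k ∈ Finset.range (P.natDegree + 1), Polynomial.aeval (jG G M) (Q k) * θ ^ k, ?_, ?_⟩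
  · have h1 : ((∑ k ∈ Finset.range (P.natDegree + 1),
        Polynomial.aeval (jG G M) (Q k) * θ ^ k : GoodG G M) : LaurentSeries ℂ)
        = ∑ k ∈ Finset.range (P.natDegree + 1),
          Polynomial.aeval (coeffEmb ℂ jq) (Q k) * (θ : LaurentSeries ℂ) ^ k := by
      have h2 : ∀ a : GoodG G M, (a : LaurentSeries ℂ) = (GoodG G M).val a := fun a => rfl
      rw [h2, map_sum]
      refine Finset.sum_congr rfl fun k _ => ?_
      rw [map_mul, map_pow, ← Polynomial.aeval_algHom_apply]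
      rfl
    rw [h1]
    refine Subalgebra.sum_mem _ fun k _ => Subalgebra.mul_mem _ ?_ ?_
    · exact Algebra.adjoin_mono (by simp) (Polynomial.aeval_mem_adjoin_singleton ℂ _)
    · exact Subalgebra.pow_mem _ (Algebra.subset_adjoin (by simp)) k
  · rw [map_sum, Polynomial.eval_eq_sum_range]
    refine Finset.sum_congr rfl fun k _ => ?_
    rw [map_mul, map_pow, ← Polynomial.aeval_algHom_apply, thetaG_jG, hQ k]

/-- **(IR1) Invariant ⇒ rational.**  If `θ` separates, every good series lies in `ℂ(j, θ)`. -/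
theorem good_mem_adjoin (hM : Gamma M ≤ G) {θ : GoodG G M} (hθ : Separates G M θ)
    (f : GoodG G M) :
    (f : LaurentSeries ℂ) ∈ IntermediateField.adjoin ℂ
      ({coeffEmb ℂ jq, (θ : LaurentSeries ℂ)} : Set (LaurentSeries ℂ)) := by
  classical
  haveI : Finite (SL(2, ℤ) ⧸ pmG G) := finite_quot G hM
  letI : Fintype (SL(2, ℤ) ⧸ pmG G) := Fintype.ofFinite _
  have hΘinv : ∀ γ ∈ G, compSL γ (thetaG G M θ) = thetaG G M θ :=
    fun γ hγ => compSL_thetaG G M hγ θ
  set x0 : SL(2, ℤ) ⧸ pmG G := ((1 : SL(2, ℤ)) : SL(2, ℤ) ⧸ pmG G) with hx0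
  set D : HolH := ∏ y : SL(2, ℤ) ⧸ pmG G,
    (if y = x0 then 1 else thetaG G M θ - transl G (thetaG G M θ) y) with hD
  have hD0 : D ≠ 0 := by
    rw [hD, Finset.prod_ne_zero_iff]
    intro y _
    split_ifs with hy
    · exact one_ne_zero
    · intro h
      exact hy (eq_one_of_transl_eq hΘinv hθ y (sub_eq_zero.mp h).symm)
  have hkey : ∀ g : GoodG G M, ∃ a : GoodG G M,
      (a : LaurentSeries ℂ) ∈ Algebra.adjoin ℂ
        ({coeffEmb ℂ jq, (θ : LaurentSeries ℂ)} : Set (LaurentSeries ℂ)) ∧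
      thetaG G M a = thetaG G M g * D := by
    intro g
    have hginv : ∀ γ ∈ G, compSL γ (thetaG G M g) = thetaG G M g :=
      fun γ hγ => compSL_thetaG G M hγ g
    obtain ⟨a, ha, hab⟩ := exists_good_eval
      (interp_mem_polyT (G := G) (thetaG_mem_transExp g) (thetaG_mem_transExp θ))
      (map_interp hginv hΘinv) θ
    refine ⟨a, ha, ?_⟩
    have h1 := interp_eval (G := G) (thetaG G M g) (thetaG G M θ) x0
    rw [hx0, transl_one hΘinv, transl_one hginv] at h1
    rw [hab, h1]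
  obtain ⟨a, ha, hab⟩ := hkey f
  obtain ⟨b, hb, hbb⟩ := hkey 1
  rw [map_one, one_mul] at hbb
  have hb0 : b ≠ 0 := by
    intro h
    rw [h, map_zero] at hbb
    exact hD0 hbb.symm
  have hb0' : (b : LaurentSeries ℂ) ≠ 0 := fun h => hb0 (Subtype.ext h)
  have hfab : f * b = a := by
    apply thetaG_injective G M
    rw [map_mul, hbb, hab]
  have hfab' : (f : LaurentSeries ℂ) * (b : LaurentSeries ℂ) = a := by
    rw [← hfab]
    rfl
  have hfdiv : (f : LaurentSeries ℂ) = (a : LaurentSeries ℂ) / (b : LaurentSeries ℂ) := by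
    rw [eq_div_iff hb0', hfab']
  rw [hfdiv]
  have hle : Algebra.adjoin ℂ ({coeffEmb ℂ jq, (θ : LaurentSeries ℂ)} : Set (LaurentSeries ℂ))
      ≤ (IntermediateField.adjoin ℂ
        ({coeffEmb ℂ jq, (θ : LaurentSeries ℂ)} : Set (LaurentSeries ℂ))).toSubalgebra :=
    IntermediateField.algebra_adjoin_le_adjoin ℂ _
  exact div_mem (hle ha) (hle hb)

/-- **(IR1')** The function field is `ℂ(j, θ)` for a separating `θ`. -/
theorem fracG_eq_adjoin_pair (hM : Gamma M ≤ G) {θ : GoodG G M} (hθ : Separates G M θ) :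
    IntermediateField.adjoin ℂ
      ({coeffEmb ℂ jq, (θ : LaurentSeries ℂ)} : Set (LaurentSeries ℂ)) = FracG G M := by
  apply le_antisymm
  · rw [IntermediateField.adjoin_le_iff]
    rintro x (rfl | hx)
    · exact coe_mem_fracG G M (jG G M)
    · rw [Set.mem_singleton_iff] at hx
      subst hx
      exact coe_mem_fracG G M θ
  · intro z hz
    obtain ⟨a, b, hb, hab⟩ := exists_good_frac hz
    have hb0 : (b : LaurentSeries ℂ) ≠ 0 := fun h => hb (Subtype.ext h)
    have hz' : z = (a : LaurentSeries ℂ) / (b : LaurentSeries ℂ) := by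
      rw [eq_div_iff hb0, hab]
    rw [hz']
    exact div_mem (good_mem_adjoin hM hθ a) (good_mem_adjoin hM hθ b)

/-- **(IR2)** The function field is generated by any set `S` of good series such that `ℂ(S)`
contains `j` and a separating `θ`. -/
theorem fracG_eq_adjoin (hM : Gamma M ≤ G) {θ : GoodG G M} (hθ : Separates G M θ)
    (S : Set (LaurentSeries ℂ)) (hS : ∀ x ∈ S, x ∈ GoodG G M)
    (hj : coeffEmb ℂ jq ∈ IntermediateField.adjoin ℂ S)
    (hθS : (θ : LaurentSeries ℂ) ∈ IntermediateField.adjoin ℂ S) :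
    IntermediateField.adjoin ℂ S = FracG G M := by
  apply le_antisymm
  · rw [IntermediateField.adjoin_le_iff]
    intro x hx
    exact coe_mem_fracG G M ⟨x, hS x hx⟩
  · rw [← fracG_eq_adjoin_pair hM hθ, IntermediateField.adjoin_le_iff]
    rintro x (rfl | hx)
    · exact hj
    · rw [Set.mem_singleton_iff] at hx
      subst hx
      exact hθS

theorem aeval_jq_mem (Q : Polynomial ℂ) :
    Polynomial.aeval (coeffEmb ℂ jq) Q ∈ ℂ⟮coeffEmb ℂ jq⟯ :=
  IntermediateField.algebra_adjoin_le_adjoin ℂ _ (Polynomial.aeval_mem_adjoin_singleton ℂ _)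

/-- Every good series is a root of a monic polynomial of degree `[SL(2, ℤ) : ±G]` over
`ℂ(j)` (its characteristic polynomial over the cosets). -/
theorem exists_monic_root (hM : Gamma M ≤ G) (θ : GoodG G M) :
    ∃ p : Polynomial ↥(ℂ⟮coeffEmb ℂ jq⟯), p.Monic ∧
      p.natDegree = Nat.card (SL(2, ℤ) ⧸ pmG G) ∧
      Polynomial.aeval (θ : LaurentSeries ℂ) p = 0 := by
  classical
  haveI : Finite (SL(2, ℤ) ⧸ pmG G) := finite_quot G hM
  letI : Fintype (SL(2, ℤ) ⧸ pmG G) := Fintype.ofFinite _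
  have hΘinv : ∀ γ ∈ G, compSL γ (thetaG G M θ) = thetaG G M θ :=
    fun γ hγ => compSL_thetaG G M hγ θ
  obtain ⟨Q, hQ⟩ := exists_coeff_poly_j
    (charP_mem_polyT (G := G) (thetaG_mem_transExp θ)) (map_charP hΘinv)
  have hmon : (charP G (thetaG G M θ)).Monic := charP_monic _
  have hdeg : (charP G (thetaG G M θ)).natDegree = Fintype.card (SL(2, ℤ) ⧸ pmG G) :=
    charP_natDegree _
  set n := Fintype.card (SL(2, ℤ) ⧸ pmG G) with hn
  have heval : (charP G (thetaG G M θ)).eval (thetaG G M θ) = 0 := by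
    have h := charP_eval (G := G) (thetaG G M θ) ((1 : SL(2, ℤ)) : SL(2, ℤ) ⧸ pmG G)
    rwa [transl_one hΘinv] at h
  -- the good series `θ ^ n + ∑_{k < n} Q_k(j) θ ^ k` vanishes
  have hzero : θ ^ n + ∑ k : Fin n, Polynomial.aeval (jG G M) (Q k) * θ ^ (k : ℕ) = 0 := by
    apply thetaG_injective G M
    rw [map_zero, ← heval, Polynomial.eval_eq_sum_range, hdeg, Finset.sum_range_succ,
      ← hdeg, hmon.coeff_natDegree, hdeg, one_mul, map_add, map_pow, map_sum, add_comm,
      Finset.sum_range]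
    congr 1
    refine Finset.sum_congr rfl fun k _ => ?_
    rw [map_mul, map_pow, ← Polynomial.aeval_algHom_apply, thetaG_jG, hQ k]
  have hzero' : (θ : LaurentSeries ℂ) ^ n + ∑ k : Fin n,
      Polynomial.aeval (coeffEmb ℂ jq) (Q k) * (θ : LaurentSeries ℂ) ^ (k : ℕ) = 0 := by
    have h1 := congrArg (GoodG G M).val hzero
    rw [map_zero, map_add, map_pow, map_sum] at h1
    rw [← h1]
    congr 1
    refine Finset.sum_congr rfl fun k _ => ?_
    rw [map_mul, map_pow, ← Polynomial.aeval_algHom_apply]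
    rfl
  let b : Fin n → ↥(ℂ⟮coeffEmb ℂ jq⟯) := fun k =>
    ⟨Polynomial.aeval (coeffEmb ℂ jq) (Q k), aeval_jq_mem (Q k)⟩
  have hlt : (∑ k : Fin n, Polynomial.C (b k) * Polynomial.X ^ (k : ℕ)).degree < (n : WithBot ℕ) :=
    Polynomial.degree_sum_fin_lt b
  refine ⟨Polynomial.X ^ n + ∑ k : Fin n, Polynomial.C (b k) * Polynomial.X ^ (k : ℕ),
    Polynomial.monic_X_pow_add hlt, ?_, ?_⟩
  · rw [Polynomial.natDegree_add_eq_left_of_degree_lt (by rwa [Polynomial.degree_X_pow]),
      Polynomial.natDegree_X_pow, hn, Nat.card_eq_fintype_card]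
  · rw [map_add, map_pow, Polynomial.aeval_X, map_sum, ← hzero']
    congr 1
    refine Finset.sum_congr rfl fun k _ => ?_
    rw [map_mul, map_pow, Polynomial.aeval_X, Polynomial.aeval_C]
    rfl

/-- **(IR3) Finiteness over `ℂ(j)`, with the degree bound.**  If `θ` separates, every element
of the function field is a root of a monic polynomial over `ℂ(j)` of degree at most
`[SL(2, ℤ) : ±G]`. -/
theorem exists_monic (hM : Gamma M ≤ G) {θ : GoodG G M} (hθ : Separates G M θ)
    {z : LaurentSeries ℂ} (hz : z ∈ FracG G M) :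
    ∃ p : Polynomial ↥(ℂ⟮coeffEmb ℂ jq⟯), p.Monic ∧
      p.natDegree ≤ Nat.card (SL(2, ℤ) ⧸ (G ⊔ Subgroup.zpowers (-1))) ∧
      Polynomial.aeval z p = 0 := by
  obtain ⟨p0, hp0, hdeg0, hroot0⟩ := exists_monic_root hM θ
  rw [← fracG_eq_adjoin_pair hM hθ] at hz
  have hint : IsIntegral ↥(ℂ⟮coeffEmb ℂ jq⟯) (θ : LaurentSeries ℂ) := ⟨p0, hp0, hroot0⟩
  haveI hfin : FiniteDimensional ↥(ℂ⟮coeffEmb ℂ jq⟯)
      ↥((ℂ⟮coeffEmb ℂ jq⟯)⟮(θ : LaurentSeries ℂ)⟯) :=
    IntermediateField.adjoin.finiteDimensional hint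
  have hrank : Module.finrank ↥(ℂ⟮coeffEmb ℂ jq⟯)
      ↥((ℂ⟮coeffEmb ℂ jq⟯)⟮(θ : LaurentSeries ℂ)⟯) ≤ Nat.card (SL(2, ℤ) ⧸ pmG G) := by
    rw [IntermediateField.adjoin.finrank hint, ← hdeg0]
    exact Polynomial.natDegree_le_natDegree (minpoly.min _ _ hp0 hroot0)
  have hzL : z ∈ (ℂ⟮coeffEmb ℂ jq⟯)⟮(θ : LaurentSeries ℂ)⟯ := by
    have h := IntermediateField.adjoin_adjoin_left ℂ ({coeffEmb ℂ jq} : Set (LaurentSeries ℂ))
      ({(θ : LaurentSeries ℂ)} : Set (LaurentSeries ℂ))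
    have h2 : z ∈ IntermediateField.restrictScalars ℂ
        ((ℂ⟮coeffEmb ℂ jq⟯)⟮(θ : LaurentSeries ℂ)⟯) := by
      rw [h, Set.singleton_union]
      exact hz
    exact h2
  refine ⟨minpoly ↥(ℂ⟮coeffEmb ℂ jq⟯)
    (⟨z, hzL⟩ : ↥((ℂ⟮coeffEmb ℂ jq⟯)⟮(θ : LaurentSeries ℂ)⟯)),
    minpoly.monic (IsIntegral.of_finite _ _), ?_, ?_⟩
  · rw [← pmG_eq_sup]
    exact (minpoly.natDegree_le _).trans hrank
  · have h1 := minpoly.aeval ↥(ℂ⟮coeffEmb ℂ jq⟯)
      (⟨z, hzL⟩ : ↥((ℂ⟮coeffEmb ℂ jq⟯)⟮(θ : LaurentSeries ℂ)⟯))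
    have h2 := congrArg (algebraMap ↥((ℂ⟮coeffEmb ℂ jq⟯)⟮(θ : LaurentSeries ℂ)⟯)
      (LaurentSeries ℂ)) h1
    rw [← Polynomial.aeval_algebraMap_apply, map_zero] at h2
    exact h2

/-- **(IR4) Existence of a separating series.**  If a finite family of good series has joint
stabiliser `±G`, some `ℂ`-linear combination of the family separates. -/
theorem exists_separates (hM : Gamma M ≤ G) {κ : Type} [Fintype κ] (g : κ → GoodG G M)
    (hstab : ∀ γ : SL(2, ℤ),
      (∀ i, compSL γ (thetaG G M (g i)) = thetaG G M (g i)) → γ ∈ G ∨ -γ ∈ G) :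
    ∃ c : κ → ℂ, Separates G M (∑ i, c i • g i) := by
  classical
  haveI : Finite (SL(2, ℤ) ⧸ pmG G) := finite_quot G hM
  letI : Fintype (SL(2, ℤ) ⧸ pmG G) := Fintype.ofFinite _
  have hinv : ∀ i, ∀ γ ∈ G, compSL γ (thetaG G M (g i)) = thetaG G M (g i) :=
    fun i γ hγ => compSL_thetaG G M hγ (g i)
  set x0 : SL(2, ℤ) ⧸ pmG G := ((1 : SL(2, ℤ)) : SL(2, ℤ) ⧸ pmG G) with hx0
  let V : (SL(2, ℤ) ⧸ pmG G) → Submodule ℂ (κ → ℂ) := fun x =>
    LinearMap.ker (Fintype.linearCombination ℂ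
      (fun i => transl G (thetaG G M (g i)) x - thetaG G M (g i)))
  have hV : ∀ x, x ≠ x0 → V x ≠ ⊤ := by
    intro x hx htop
    apply hx
    induction x using QuotientGroup.induction_on with
    | H γ =>
      have h1 : ∀ i, compSL γ⁻¹ (thetaG G M (g i)) = thetaG G M (g i) := by
        intro i
        have h2 : Pi.single i (1 : ℂ) ∈ V (γ : SL(2, ℤ) ⧸ pmG G) := by
          rw [htop]
          exact Submodule.mem_top
        have h3 : Fintype.linearCombination ℂ
            (fun i => transl G (thetaG G M (g i)) (γ : SL(2, ℤ) ⧸ pmG G) - thetaG G M (g i))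
            (Pi.single i (1 : ℂ)) = 0 := h2
        rw [Fintype.linearCombination_apply_single, one_smul, transl_mk (hinv i),
          sub_eq_zero] at h3
        exact h3
      have h4 : γ⁻¹ ∈ pmG G := hstab _ h1
      have h5 : γ ∈ pmG G := by
        have h := (pmG G).inv_mem h4
        rwa [inv_inv] at h
      rw [hx0]
      symm
      rw [QuotientGroup.eq, inv_one, one_mul]
      exact h5
  have hs : (⊤ : Submodule ℂ (κ → ℂ)) ∉ (Finset.univ.erase x0).image V := by
    intro h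
    obtain ⟨x, hx, hxV⟩ := Finset.mem_image.mp h
    exact hV x (Finset.ne_of_mem_erase hx) hxV
  have hne := Subspace.biUnion_ne_univ_of_top_notMem hs
  obtain ⟨c, hc⟩ := (Set.ne_univ_iff_exists_notMem _).mp hne
  have hc' : ∀ x, x ≠ x0 → c ∉ V x := by
    intro x hx hcx
    apply hc
    simp only [Set.mem_iUnion]
    exact ⟨V x, Finset.mem_image.mpr ⟨x, Finset.mem_erase.mpr ⟨hx, Finset.mem_univ x⟩, rfl⟩, hcx⟩
  refine ⟨c, fun γ hγ => ?_⟩
  by_contra hγG
  have hγ' : γ ∉ pmG G := hγG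
  have hx : ((γ⁻¹ : SL(2, ℤ)) : SL(2, ℤ) ⧸ pmG G) ≠ x0 := by
    intro h
    rw [hx0, QuotientGroup.eq, inv_inv, mul_one] at h
    exact hγ' h
  apply hc' _ hx
  show Fintype.linearCombination ℂ
    (fun i => transl G (thetaG G M (g i)) ((γ⁻¹ : SL(2, ℤ)) : SL(2, ℤ) ⧸ pmG G)
      - thetaG G M (g i)) c = 0
  rw [Fintype.linearCombination_apply]
  have h6 : ∀ i, c i • (transl G (thetaG G M (g i)) ((γ⁻¹ : SL(2, ℤ)) : SL(2, ℤ) ⧸ pmG G)
      - thetaG G M (g i)) = compSL γ (c i • thetaG G M (g i)) - c i • thetaG G M (g i) := by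
    intro i
    rw [transl_mk (hinv i), inv_inv, smul_sub, map_smul]
  rw [Finset.sum_congr rfl fun i _ => h6 i, Finset.sum_sub_distrib, ← map_sum]
  have h7 : ∑ i, c i • thetaG G M (g i) = thetaG G M (∑ i, c i • g i) := by
    rw [map_sum]
    exact Finset.sum_congr rfl fun i _ => (map_smul _ _ _).symm
  rw [h7, hγ, sub_self]

end Main

end Fermat.Agent.S48.G1.InvRat

end
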