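import Mathlib
import Fermat.Agent.S48.G1.F1.InvRat
import Fermat.Agent.S48.G1.F1.Good1
import Fermat.Agent.S48.G1.F1.Good1J
import Fermat.Agent.S48.G1.F1.Stab1
import Fermat.Agent.S48.G1.F1.Gens
import Fermat.Agent.S24.Degree.Growth
import Fermat.Agent.S24.Theta
import Fermat.Agent.S30.EisGood
import Fermat.Agent.S30.KummerDescent

set_option autoImplicit false
set_option linter.dupNamespace false
set_option linter.unusedSectionVars false
set_option linter.style.haveILetI false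

/-!
# PROGRAM DS (S48) / G1 / AREA F: `mem_F1_of_invariant`, ALT route (G1 DEAL #3 (R8))

"A `Γ₁(M)`-invariant holomorphic function on `ℍ` of moderate growth at all cusps whose
`q`-expansion at `∞` has coefficients in `ℚ̄` lies in the function field `F1 M`."

Route (the `ℂ`-level dictionary of `InvRat.lean`, then descent `ℂ → ℚ̄`):

* `exists_hasQExpK_of_modAt` / `isAvatar_of_cuspMod` (generic in `Γ(M) ≤ G`): moderate growth
  of all `SL(2, ℤ)`-translates gives `q^(1/M)`-expansions of all translates, so the series is a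
  good series (`DescentGen.GoodG G M`) with the given function as avatar.
* `fracG_gamma1` : `ℂ(gens1Q M) = FracG (Γ₁(M)) M` — the instance of `InvRat.fracG_eq_adjoin`
  (generators good: `Good1J` + `Good1`; joint stabiliser `±Γ₁(M)`: `Stab1`).
* `finite_gamma1` : the instance of `InvRat.exists_monic` (binder `hfin` of
  `DescentGen.exists_descent_hasChar`).
* `mem_adjoin_of_invariant_complex` : the `ℂ`-level statement.
* `mem_F1_of_invariant` : the `ℚ̄`-level statement, by linear disjointness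
  (`S30.KummerDescent.mem_adjoin_of_coeffMap_mem`).
-/

noncomputable section

open UpperHalfPlane ModularCurve HahnSeries CongruenceSubgroup IntermediateField
open Fermat.Agent.S24.HolH Fermat.Agent.S24 Fermat.Agent.Lib
open Fermat.Agent.S24.Theta Fermat.Agent.S24.Degree
open Fermat.Agent.S48.G1.DescentGen Fermat.Agent.S48.G1.XRootGen
open Fermat.Agent.S48.G1.F1 Fermat.Agent.S48.G1.F1.GHol
open scoped MatrixGroups Manifold

namespace Fermat.Agent.S48.G1.F1.Invariant1Alt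

local notation "𝕢" => Function.Periodic.qParam

/-! ### Moderate growth gives expansions (generic) -/

/-- A holomorphic function on `ℍ` with period `M` and moderate growth at `i∞` has a Laurent
expansion in `q^(1/M)`. -/
theorem exists_hasQExpK_of_modAt {M : ℕ} [NeZero M] {W : HolH}
    (hper : ∀ τ : ℍ, (W : ℍ → ℂ) ((M : ℝ) +ᵥ τ) = (W : ℍ → ℂ) τ)
    (hmod : ModAt (W : ℍ → ℂ)) :
    ∃ B : LaurentSeries ℂ, QB.HasQExpK (RingHom.id ℂ) M B (W : ℍ → ℂ) := by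
  obtain ⟨m, hm⟩ := hmod
  have hhol : MDifferentiable 𝓘(ℂ) 𝓘(ℂ)
      (fun τ : ℍ => 𝕢 1 (τ : ℂ) ^ m * (W : ℍ → ℂ) τ) :=
    (Fermat.Agent.S30.EisGood.mdiff_qParam.pow m).mul W.2
  obtain ⟨P, hP⟩ := Fermat.Agent.S30.EisGood.exists_hasQExpK_of_bounded M hhol
    (fun τ => by rw [Fermat.Agent.S30.EisGood.qParam_vadd, hper]) hm
  refine ⟨(HahnSeries.single (-(M : ℤ)) (1 : ℂ)) ^ m * HahnSeries.ofPowerSeries ℤ ℂ P, ?_⟩
  refine (((Fermat.Agent.S30.EisGood.hasQExpK_qInv M).pow m).mul hP).congr fun τ => ?_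
  have hq : 𝕢 1 (τ : ℂ) ≠ 0 := Function.Periodic.qParam_ne_zero _
  show ((𝕢 1 (τ : ℂ))⁻¹) ^ m * (𝕢 1 (τ : ℂ) ^ m * (W : ℍ → ℂ) τ) = (W : ℍ → ℂ) τ
  rw [← mul_assoc, ← mul_pow, inv_mul_cancel₀ hq, one_pow, one_mul]

/-- **Moderate growth ⇒ good.**  A `G`-invariant holomorphic function of moderate growth at all
cusps with a `q`-expansion `f` at `i∞` is an avatar of `f` (for `Γ(M) ≤ G`). -/
theorem isAvatar_of_cuspMod {G : Subgroup SL(2, ℤ)} {M : ℕ} [NeZero M] (hM : Gamma M ≤ G)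
    {f : LaurentSeries ℂ} {φ : HolH}
    (hq : QB.HasQExpK (RingHom.id ℂ) 1 f (φ : ℍ → ℂ))
    (hinv : ∀ γ ∈ G, compSL γ φ = φ) (hmod : φ ∈ cuspMod) : IsAvatar G M f φ := by
  refine ⟨hq.qExpand_one M, hinv, fun γ => ?_⟩
  have hT : compSL (ModularGroup.T ^ (M : ℤ)) (compSL γ φ) = compSL γ φ := by
    rw [← compSL_mul]
    have e : γ * ModularGroup.T ^ (M : ℤ) = (γ * ModularGroup.T ^ (M : ℤ) * γ⁻¹) * γ := by
      group
    rw [e, compSL_mul, hinv _ (conj_T_zpow_mem hM γ)]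
  exact exists_hasQExpK_of_modAt (periodic_of_compSL_T_zpow hT) (mem_cuspMod_iff.mp hmod γ)

/-! ### The `ℂ`-level dictionary for `Γ₁(M)` -/

section Gamma1

variable (M : ℕ) [NeZero M]

theorem gamma_le_gamma1 : Gamma M ≤ Gamma1 M := Good1.Gamma_le_Gamma1' M

/-- The generators of `F1Q M`, read over `ℂ`, are good series for `Γ₁(M)`. -/
theorem gens_good (hM : 2 ≤ M) :
    ∀ x ∈ (⇑(coeffEmb ℂ) '' gens1Q M : Set (LaurentSeries ℂ)), x ∈ GoodG (Gamma1 M) M := by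
  rintro _ ⟨y, hy | ⟨b, rfl⟩, rfl⟩
  · exact Good1J.divisorExpansions_subset_goodG_Gamma1 M ⟨y, hy, rfl⟩
  · exact Good1.gq_unit_mem_goodG M hM b

theorem one_ne_zero_zmod (hM : 2 ≤ M) : (1 : ZMod M) ≠ 0 := by
  haveI : Fact (1 < M) := ⟨by omega⟩
  exact one_ne_zero

/-- The two generators `j(q^M)` and `g_1` as good series. -/
def genPair (hM : 2 ≤ M) : Fin 2 → GoodG (Gamma1 M) M :=
  ![⟨coeffEmb ℂ (qExpand ℚ M jq), Good1J.jq_mem_goodG M (Gamma1_in_Gamma0 M) dvd_rfl⟩,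
    ⟨coeffEmb ℂ (gq M (1 : ZMod M)), Good1.gq_mem_goodG M le_rfl (one_ne_zero_zmod M hM)⟩]

theorem thetaG_genPair_zero (hM : 2 ≤ M) :
    thetaG (Gamma1 M) M (genPair M hM 0) = jScale M :=
  Good1J.thetaG_jq M (Gamma1_in_Gamma0 M) dvd_rfl

theorem thetaG_genPair_one (hM : 2 ≤ M) :
    thetaG (Gamma1 M) M (genPair M hM 1) = gHol M 1 :=
  Good1.thetaG_gq M le_rfl (one_ne_zero_zmod M hM)

theorem genPair_mem (hM : 2 ≤ M) (i : Fin 2) :
    ((genPair M hM i : GoodG (Gamma1 M) M) : LaurentSeries ℂ) ∈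
      (⇑(coeffEmb ℂ) '' gens1Q M : Set (LaurentSeries ℂ)) := by
  fin_cases i
  · exact ⟨_, Or.inl (mem_divisorExpansions M dvd_rfl), rfl⟩
  · refine ⟨_, Or.inr ⟨1, ?_⟩, rfl⟩
    rw [Units.val_one]

/-- **A separating good series for `Γ₁(M)`** inside `ℂ(gens1Q M)`. -/
theorem exists_separates_gamma1 (hM : 2 ≤ M) :
    ∃ θ : GoodG (Gamma1 M) M, InvRat.Separates (Gamma1 M) M θ ∧
      (θ : LaurentSeries ℂ) ∈ IntermediateField.adjoin ℂ
        (⇑(coeffEmb ℂ) '' gens1Q M : Set (LaurentSeries ℂ)) := by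
  obtain ⟨c, hc⟩ := InvRat.exists_separates (gamma_le_gamma1 M) (genPair M hM) (fun γ h =>
    Stab1.mem_pmGamma1_of_stab M hM γ
      (by have h0 := h 0; rwa [thetaG_genPair_zero] at h0)
      (by have h1 := h 1; rwa [thetaG_genPair_one] at h1))
  refine ⟨_, hc, ?_⟩
  have h2 : ∀ a : GoodG (Gamma1 M) M, (a : LaurentSeries ℂ) = (GoodG (Gamma1 M) M).val a :=
    fun a => rfl
  rw [h2, map_sum]
  refine sum_mem fun i _ => ?_
  rw [Algebra.smul_def]
  exact mul_mem (IntermediateField.algebraMap_mem _ _)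
    (IntermediateField.subset_adjoin ℂ _ (genPair_mem M hM i))

theorem coeffEmb_jq_mem_adjoin :
    coeffEmb ℂ jq ∈ IntermediateField.adjoin ℂ
      (⇑(coeffEmb ℂ) '' gens1Q M : Set (LaurentSeries ℂ)) := by
  refine IntermediateField.subset_adjoin ℂ _ ⟨qExpand ℚ 1 jq, Or.inl ?_, ?_⟩
  · exact mem_divisorExpansions M (one_dvd M)
  · rw [qExpand_one_apply]

/-- **The function field of `Γ₁(M)` over `ℂ` is `ℂ(gens1Q M)`** (binder `hS` of
`DescentGen.exists_descent_hasChar` for `G = Γ₁(M)`, `S₀ = gens1Q M`). -/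
theorem fracG_gamma1 (hM : 2 ≤ M) :
    IntermediateField.adjoin ℂ (⇑(coeffEmb ℂ) '' gens1Q M : Set (LaurentSeries ℂ))
      = FracG (Gamma1 M) M := by
  obtain ⟨θ, hθ, hθS⟩ := exists_separates_gamma1 M hM
  exact InvRat.fracG_eq_adjoin (gamma_le_gamma1 M) hθ _ (gens_good M hM)
    (coeffEmb_jq_mem_adjoin M) hθS

/-- **Finiteness over `ℂ(j)`** (binder `hfin` of `DescentGen.exists_descent_hasChar` for
`G = Γ₁(M)`, `J₀ = jq`, `D = [SL(2, ℤ) : ±Γ₁(M)]`). -/
theorem finite_gamma1 (hM : 2 ≤ M) {z : LaurentSeries ℂ} (hz : z ∈ FracG (Gamma1 M) M) :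
    ∃ p : Polynomial ↥(ℂ⟮coeffEmb ℂ jq⟯), p.Monic ∧
      p.natDegree ≤ Nat.card (SL(2, ℤ) ⧸ (Gamma1 M ⊔ Subgroup.zpowers (-1))) ∧
      Polynomial.aeval z p = 0 := by
  obtain ⟨θ, hθ, -⟩ := exists_separates_gamma1 M hM
  exact InvRat.exists_monic (gamma_le_gamma1 M) hθ hz

/-- **Invariant ⇒ in the function field, over `ℂ`.** -/
theorem mem_adjoin_of_invariant_complex (hM : 2 ≤ M) (f : LaurentSeries ℂ) (φ : HolH)
    (hf : QB.HasQExpK (RingHom.id ℂ) 1 f (φ : ℍ → ℂ))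
    (hinv : ∀ γ ∈ Gamma1 M, compSL γ φ = φ) (hmod : φ ∈ cuspMod) :
    f ∈ IntermediateField.adjoin ℂ (⇑(coeffEmb ℂ) '' gens1Q M : Set (LaurentSeries ℂ)) := by
  rw [fracG_gamma1 M hM]
  exact coe_mem_fracG (Gamma1 M) M
    ⟨f, φ, isAvatar_of_cuspMod (gamma_le_gamma1 M) hf hinv hmod⟩

end Gamma1

/-! ### Descent to `ℚ̄` -/

/-- **(I4) Invariant ⇒ in `F1 M`.**  A `Γ₁(M)`-invariant holomorphic function on `ℍ` of moderate
growth at all cusps whose `q`-expansion at `∞` is the `ℚ̄`-series `f` has `f ∈ F1 M`. -/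
theorem mem_F1_of_invariant (ι : Qb →+* ℂ) {M : ℕ} (hM : 2 ≤ M) (f : LaurentSeries Qb)
    (φ : HolH) (hf : HasQ ι f (φ : ℍ → ℂ)) (hinv : ∀ γ ∈ Gamma1 M, compSL γ φ = φ)
    (hmod : φ ∈ cuspMod) : f ∈ F1 M := by
  haveI : NeZero M := ⟨by omega⟩
  have hq1 : QB.HasQExpK (RingHom.id ℂ) 1 (coeffMap ι f) (φ : ℍ → ℂ) := by
    rw [QB.hasQExpK_one_iff]
    intro τ
    have h := hf τ
    simpa only [coeffMap_coeff, RingHom.id_apply] using h
  have h5 := mem_adjoin_of_invariant_complex M hM (coeffMap ι f) φ hq1 hinv hmod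
  letI : Algebra Qb ℂ := ι.toAlgebra
  have hcomp : ∀ x : LaurentSeries ℚ, coeffMap ι (coeffEmb Qb x) = coeffEmb ℂ x := by
    intro x
    rw [coeffEmb, coeffEmb, coeffMap_coeffMap]
    exact coeffMap_congr (RingHom.ext_rat _ _) x
  have h6 : (⇑(coeffEmb ℂ) '' gens1Q M : Set (LaurentSeries ℂ))
      = ⇑(coeffMap (algebraMap Qb ℂ)) '' (gens1 M) := by
    rw [gens1, Set.image_image]
    exact Set.image_congr fun x _ => (hcomp x).symm
  rw [h6] at h5
  have h7 := Fermat.Agent.S30.KummerDescent.mem_adjoin_of_coeffMap_mem (Ω := ℂ) (gens1 M)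
    (z := f) h5
  rw [F1_eq_adjoin]
  exact h7

end Fermat.Agent.S48.G1.F1.Invariant1Alt

end
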