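import Fermat.Agent.S48.G1.F1.PlaceFinGen
import Fermat.Agent.S48.G1.F1.Gamma1pm
import Fermat.Agent.S48.G1.F1.Theta1
import Fermat.Agent.S48.G1.F1.Stab1

set_option autoImplicit false
set_option linter.dupNamespace false
set_option linter.style.haveILetI false

/-!
# DS / G1, area F, row F.5 (a′): finite places of `F1 M` are points of `Γ₁(M) \ ℍ`

Instance of `PlaceFinGen` (generic in the group) at `K := ℚ̄`, `Γ := ±Γ₁(M)` (`Gamma1pm M`),
`F := F1 M`, `F₀ := A01 M`, `θ := theta1 ι M hM`: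

* `gens1_finite`, `essFiniteType_F1`       : `F1 M` is essentially of finite type over `ℚ̄`;
* `mem_A01_of_coe_eq`, `transcendental_of_coe_eq`, `theta1_of_coe_eq` : the element `j` of `F1 M`
  (any `jF` whose `q`-expansion is `j`) lies in `A01 M`, is transcendental, and has avatar `j`;
* `compSL_theta1_of_mem_Gamma1pm`, `mem_Gamma1pm_of_stab` : `theta1` has exact stabiliser
  `±Γ₁(M)`;
* `thetaData1`                              : the uniformisation datum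
  `ThetaDataG ℚ̄ (Gamma1pm M) (F1 M) jF`;
* `exists_point_of_place`                   : **place → point**, with `σ ∈ Γ₁(M)`;
* `hfin_Gamma1`, `hfin_Gamma1pm`            : the same in the `hfin` shape consumed by
  `ConverseGen.dvd_ord_sub_of_root` / `divBy_of_root`.

The only inputs left as hypotheses are the two exits of the degree row F.2:
`htr : Algebra.trdeg ℚ̄ (F1 M) = 1` and
`hdeg : [F1 M : ℚ̄(j)] = [SL(2, ℤ) : ±Γ₁(M)]`.
-/

noncomputable section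

namespace Fermat.Agent.S48.G1.F1.PlaceFin

open AlgebraicCurve IntermediateField UpperHalfPlane ModularCurve CongruenceSubgroup
open Fermat.Agent.S24 Fermat.Agent.S24.HolH Fermat.Agent.S24.JHol Fermat.Agent.S24.JFun
open Fermat.Agent.S24.Theta Fermat.Agent.S24.StabAbs
open Fermat.Agent.S48.G1.F1 Fermat.Agent.S48.G1.F1.Theta1 Fermat.Agent.S48.G1.PlaceFinGen
open scoped MatrixGroups

/-! ### `±Γ₁(M)`: the two landed names agree -/

/-- `Gamma1pm M` (F1/Gamma1pm.lean) and `Stab1.pmGamma1 M` (F1/Stab1.lean) are the same group. -/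
theorem Gamma1pm_eq_pmGamma1 (M : ℕ) : Gamma1pm M = Stab1.pmGamma1 M :=
  Subgroup.ext fun _ => Iff.rfl

/-! ### `F1 M` is essentially of finite type over `ℚ̄` -/

theorem eisExpansions_finite (M : ℕ) [NeZero M] : (eisExpansions M).Finite := by
  have h : eisExpansions M = Set.range fun b : (ZMod M)ˣ => gq M (b : ZMod M) := by
    ext x
    constructor
    · rintro ⟨b, rfl⟩
      exact ⟨b, rfl⟩
    · rintro ⟨b, rfl⟩
      exact ⟨b, rfl⟩
  rw [h]
  exact Set.finite_range _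

theorem gens1_finite (M : ℕ) [NeZero M] : (gens1 M).Finite :=
  ((Fermat.Agent.S24.DegreeGen.divisorExpansions_finite M).union (eisExpansions_finite M)).image _

theorem fg_F1 (M : ℕ) [NeZero M] : (F1 M).FG := by
  rw [F1_eq_adjoin]
  have h := IntermediateField.fg_adjoin_finset (F := Qb) (gens1_finite M).toFinset
  simpa using h

theorem essFiniteType_F1 (M : ℕ) [NeZero M] : Algebra.EssFiniteType Qb (F1 M) :=
  IntermediateField.essFiniteType_iff.mpr (fg_F1 M)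

/-! ### The element `j` of `F1 M` -/

/-- An element of `F1 M` with `q`-expansion `j` lies in the coordinate ring. -/
theorem mem_A01_of_coe_eq {M : ℕ} (jF : F1 M)
    (hjF : ((jF : F1 M) : LaurentSeries Qb) = coeffEmb Qb jq) : jF ∈ A01 M := by
  rw [mem_A01, hjF]
  have h := coeffEmb_jqd_mem_gens1 M (d := 1) (one_dvd M)
  rw [qExpand_one_apply] at h
  exact Algebra.subset_adjoin h

/-- An element of `F1 M` with `q`-expansion `j` is transcendental over `ℚ̄`. -/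
theorem transcendental_of_coe_eq {M : ℕ} (jF : F1 M)
    (hjF : ((jF : F1 M) : LaurentSeries Qb) = coeffEmb Qb jq) : Transcendental Qb jF := by
  refine Fermat.Agent.S24.FF.transcendental_of_not_mem_range ?_
  rintro ⟨c, hc⟩
  apply Fermat.Agent.S24.DegreeGen.coeffEmb_jq_not_mem_range Qb
  refine ⟨c, ?_⟩
  have h := congrArg (fun x : F1 M => (x : LaurentSeries Qb)) hc
  rw [← hjF]
  exact h

/-- The avatar of `j`. -/
theorem theta1_of_coe_eq (ι : Qb →+* ℂ) {M : ℕ} (hM : 2 ≤ M) (jF : F1 M)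
    (hjF : ((jF : F1 M) : LaurentSeries Qb) = coeffEmb Qb jq) :
    theta1 ι M hM ⟨jF, mem_A01_of_coe_eq jF hjF⟩ = jHol := by
  refine theta1_eq_of_hasQ (ι := ι) hM ?_
  show HasQ ι ((jF : F1 M) : LaurentSeries Qb) (jHol : ℍ → ℂ)
  rw [hjF]
  have h := hasQ_coeffEmb_qExpand_jq (K := Qb) ι 1
  rw [qExpand_one_apply] at h
  have h2 : (fun τ : ℍ => jFun (scaleH 1 τ)) = (jHol : ℍ → ℂ) := by
    funext τ
    rw [scaleH_one]
    rfl
  rw [← h2]
  exact h

/-- The generator `genJ M 1` has `q`-expansion `j`. -/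
theorem coe_genJ_one (M : ℕ) :
    (((genJ M 1 (one_dvd M) : A01 M) : F1 M) : LaurentSeries Qb) = coeffEmb Qb jq := by
  rw [coe_genJ, qExpand_one_apply]

/-! ### The exact stabiliser of `theta1` -/

theorem compSL_neg_holH (γ : SL(2, ℤ)) (f : HolH) : compSL (-γ) f = compSL γ f := by
  apply Subtype.ext
  funext τ
  show (f : ℍ → ℂ) ((-γ) • τ) = (f : ℍ → ℂ) (γ • τ)
  rw [ModularGroup.SL_neg_smul]

/-- `theta1 x` is invariant under `±Γ₁(M)`. -/
theorem compSL_theta1_of_mem_Gamma1pm (ι : Qb →+* ℂ) {M : ℕ} (hM : 2 ≤ M) {g : SL(2, ℤ)}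
    (hg : g ∈ Gamma1pm M) (x : A01 M) : compSL g (theta1 ι M hM x) = theta1 ι M hM x := by
  rcases hg with h | h
  · exact compSL_theta1_of_mem_Gamma1 (ι := ι) hM h x
  · rw [← compSL_neg_holH]
    exact compSL_theta1_of_mem_Gamma1 (ι := ι) hM h x

/-- An element of `SL(2, ℤ)` fixing the whole image of `theta1` lies in `±Γ₁(M)`. -/
theorem mem_Gamma1pm_of_stab (ι : Qb →+* ℂ) {M : ℕ} [NeZero M] (hM : 2 ≤ M) (g : SL(2, ℤ))
    (h : ∀ x : A01 M, compSL g (theta1 ι M hM x) = theta1 ι M hM x) : g ∈ Gamma1pm M := by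
  refine Stab1.mem_pmGamma1_of_stab M hM g ?_ ?_
  · have h1 := h (genJ M M (dvd_refl M))
    rw [theta1_genJ] at h1
    exact h1
  · have h1 := h (genG M 1)
    rw [theta1_genG, Units.val_one] at h1
    exact h1

/-! ### The uniformisation datum -/

/-- **The uniformisation datum of `F1 M`**: `F₀ = A01 M`, `θ = theta1`, exact stabiliser
`±Γ₁(M)`.  `jF` is any element of `F1 M` with `q`-expansion `j` (e.g. `genJ M 1 _`). -/
def thetaData1 (ι : Qb →+* ℂ) (M : ℕ) [NeZero M] (hM : 2 ≤ M) (jF : F1 M)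
    (hjF : ((jF : F1 M) : LaurentSeries Qb) = coeffEmb Qb jq) :
    ThetaDataG Qb (Gamma1pm M) (F1 M) jF where
  F₀ := A01 M
  hF₀ := exists_mul_eq
  hj := mem_A01_of_coe_eq jF hjF
  emb := ι
  θ := theta1 ι M hM
  θ_inj := theta1_injective (ι := ι) hM
  θ_const := fun c => theta1_algebraMap (ι := ι) hM c
  θ_j := theta1_of_coe_eq ι hM jF hjF
  θ_inv := fun _ hg f => compSL_theta1_of_mem_Gamma1pm ι hM hg f
  θ_stab := fun g h => mem_Gamma1pm_of_stab ι hM g h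

@[simp] theorem thetaData1_F₀ (ι : Qb →+* ℂ) (M : ℕ) [NeZero M] (hM : 2 ≤ M) (jF : F1 M)
    (hjF : ((jF : F1 M) : LaurentSeries Qb) = coeffEmb Qb jq) :
    (thetaData1 ι M hM jF hjF).F₀ = A01 M := rfl

@[simp] theorem thetaData1_θ (ι : Qb →+* ℂ) (M : ℕ) [NeZero M] (hM : 2 ≤ M) (jF : F1 M)
    (hjF : ((jF : F1 M) : LaurentSeries Qb) = coeffEmb Qb jq) :
    (thetaData1 ι M hM jF hjF).θ = theta1 ι M hM := rfl

@[simp] theorem thetaData1_emb (ι : Qb →+* ℂ) (M : ℕ) [NeZero M] (hM : 2 ≤ M) (jF : F1 M)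
    (hjF : ((jF : F1 M) : LaurentSeries Qb) = coeffEmb Qb jq) :
    (thetaData1 ι M hM jF hjF).emb = ι := rfl

/-! ### Place → point -/

/-- **Place → point for `F1 M`** (finite places).  Every place `v` of `F1 M` at which `j` is
regular is the place of a point `τ ∈ ℍ`: with `a = j(τ)`, there are `κ > 0` and `σ ∈ Γ₁(M)`
fixing `τ` such that `ord_τ (theta1 f) = κ · ord_v f` for all `f ∈ A01 M`, every `σ`-invariant
holomorphic function has order divisible by `κ` at `τ`, and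
`κ · ord_v (j - a) = ord_τ (j - a)`. -/
theorem exists_point_of_place (ι : Qb →+* ℂ) {M : ℕ} [NeZero M] (hM : 2 ≤ M) (jF : F1 M)
    (hjF : ((jF : F1 M) : LaurentSeries Qb) = coeffEmb Qb jq)
    (htr : Algebra.trdeg Qb (F1 M) = 1)
    (hdeg : Module.finrank Qb⟮jF⟯ (F1 M) = Nat.card (SL(2, ℤ) ⧸ Gamma1pm M))
    (v : Place Qb (F1 M)) (hv : 0 ≤ v.ord jF) :
    ∃ (a : Qb) (τ : ℍ) (κ : ℕ) (σ : SL(2, ℤ)),
      0 < v.ord (jF - algebraMap Qb (F1 M) a) ∧ jFun τ = ι a ∧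
      0 < κ ∧ σ ∈ Gamma1 M ∧ σ • τ = τ ∧
      (∀ f : A01 M, f ≠ 0 → ordZ τ (theta1 ι M hM f) = κ * v.ord (f : F1 M)) ∧
      (∀ H : HolH, H ≠ 0 → compSL σ H = H → (κ : ℤ) ∣ ordZ τ H) ∧
      (κ : ℤ) * v.ord (jF - algebraMap Qb (F1 M) a)
        = ordZ τ (jHol - algebraMap ℂ HolH (ι a)) := by
  haveI := essFiniteType_F1 M
  obtain ⟨a, τ, κ, σ, hva, hjτ, hκ, hσ, hστ, hf, hH, hprod⟩ :=
    PlaceFinGen.exists_point_of_place (thetaData1 ι M hM jF hjF) htr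
      (transcendental_of_coe_eq jF hjF) hdeg v hv
  rcases hσ with hσ | hσ
  · exact ⟨a, τ, κ, σ, hva, hjτ, hκ, hσ, hστ, hf, hH, hprod⟩
  · refine ⟨a, τ, κ, -σ, hva, hjτ, hκ, hσ, ?_, hf, ?_, hprod⟩
    · rw [ModularGroup.SL_neg_smul]
      exact hστ
    · intro H hH0 hinv
      rw [compSL_neg_holH] at hinv
      exact hH H hH0 hinv

/-- The `hfin` hypothesis of `ConverseGen.dvd_ord_sub_of_root` / `divBy_of_root` for
`Γ := Gamma1 M`, `F₀ := A01 M`, `θ := theta1 ι M hM`. -/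
theorem hfin_Gamma1 (ι : Qb →+* ℂ) {M : ℕ} [NeZero M] (hM : 2 ≤ M) (jF : F1 M)
    (hjF : ((jF : F1 M) : LaurentSeries Qb) = coeffEmb Qb jq)
    (htr : Algebra.trdeg Qb (F1 M) = 1)
    (hdeg : Module.finrank Qb⟮jF⟯ (F1 M) = Nat.card (SL(2, ℤ) ⧸ Gamma1pm M)) :
    ∀ v : Place Qb (F1 M), 0 ≤ v.ord jF →
      ∃ (τ : ℍ) (κ : ℕ) (σ : SL(2, ℤ)), 0 < κ ∧ σ ∈ Gamma1 M ∧ σ • τ = τ ∧
        (∀ f : A01 M, f ≠ 0 → ordZ τ (theta1 ι M hM f) = κ * v.ord (f : F1 M)) ∧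
        (∀ H : HolH, H ≠ 0 → compSL σ H = H → (κ : ℤ) ∣ ordZ τ H) := by
  intro v hv
  obtain ⟨-, τ, κ, σ, -, -, hκ, hσ, hστ, hf, hH, -⟩ :=
    exists_point_of_place ι hM jF hjF htr hdeg v hv
  exact ⟨τ, κ, σ, hκ, hσ, hστ, hf, hH⟩

/-- The same with `Γ := Gamma1pm M`. -/
theorem hfin_Gamma1pm (ι : Qb →+* ℂ) {M : ℕ} [NeZero M] (hM : 2 ≤ M) (jF : F1 M)
    (hjF : ((jF : F1 M) : LaurentSeries Qb) = coeffEmb Qb jq)
    (htr : Algebra.trdeg Qb (F1 M) = 1)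
    (hdeg : Module.finrank Qb⟮jF⟯ (F1 M) = Nat.card (SL(2, ℤ) ⧸ Gamma1pm M)) :
    ∀ v : Place Qb (F1 M), 0 ≤ v.ord jF →
      ∃ (τ : ℍ) (κ : ℕ) (σ : SL(2, ℤ)), 0 < κ ∧ σ ∈ Gamma1pm M ∧ σ • τ = τ ∧
        (∀ f : A01 M, f ≠ 0 → ordZ τ (theta1 ι M hM f) = κ * v.ord (f : F1 M)) ∧
        (∀ H : HolH, H ≠ 0 → compSL σ H = H → (κ : ℤ) ∣ ordZ τ H) := by
  intro v hv
  obtain ⟨τ, κ, σ, hκ, hσ, hστ, hf, hH⟩ := hfin_Gamma1 ι hM jF hjF htr hdeg v hv
  exact ⟨τ, κ, σ, hκ, Gamma1_le_Gamma1pm M hσ, hστ, hf, hH⟩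

end Fermat.Agent.S48.G1.F1.PlaceFin
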