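/-
PROGRAM DS (S48), part G1, AREA F, leaf (F-2) = (I4) instance, SEAM TEST (helper9, G1 DEAL #3 (R8) /
F STATUS #1 (R-a)): the generic "invariant ⇒ rational" theorem `CosetG.mem_of_invariant`
(helper15, `F1/InterpG.lean`) instantiated at `Γ := Gamma1pm M`, `A := A01 M`, `θ := theta1 ι M hM`,
with the landed instance inputs

* `PlaceFin.compSL_theta1_of_mem_Gamma1pm` (helper86; invariance under `±Γ₁(M)`),
* `Stab1.mem_pmGamma1_of_stab` (helper1; the joint stabiliser of `j(Mτ)` and `g_1` is `±Γ₁(M)`),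
* `CosetG.exists_separating` (helper15; one separating element `j(Mτ) + c·g_1`),
* `GrowthG.theta1_mem_cuspMod` (helper205; moderate growth of `theta1 x` at all cusps),
* `PlaceFin.theta1_of_coe_eq`, `transcendental_of_coe_eq`, `coe_genJ_one` (the element `j`).

Exit: `mem_F1_of_invariant` — a holomorphic function on `ℍ`, invariant under `Γ₁(M)`, of moderate
growth at all cusps, whose `q`-expansion has coefficients in `ℚ̄`, has its `q`-expansion in
`F1 M` (`2 ≤ M`).  No literal mismatch was found between the generic core and the instance inputs.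
-/
import Fermat.Agent.S48.G1.F1.InterpG
import Fermat.Agent.S48.G1.F1.PlaceFin
import Fermat.Agent.S48.G1.F1.GrowthG

set_option autoImplicit false

open scoped MatrixGroups
open UpperHalfPlane ModularCurve CongruenceSubgroup
open Fermat.Agent.S24.HolH Fermat.Agent.S24.Theta Fermat.Agent.S24.Degree
open Fermat.Agent.S48.G1 Fermat.Agent.S48.G1.F1 Fermat.Agent.S48.G1.F1.Theta1

noncomputable section

namespace Fermat.Agent.S48.G1.F1.Invariant1Seam

/-- The `q`-expansion map `A01 M →+* ℚ̄((q))` (the coercion). -/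
def qHom (M : ℕ) : A01 M →+* LaurentSeries Qb :=
  ((F1 M).val.toRingHom).comp (A01 M).val.toRingHom

theorem qHom_apply (M : ℕ) (x : A01 M) : qHom M x = ((x : F1 M) : LaurentSeries Qb) := rfl

/-- SEAM TEST of (I4): `InterpG.mem_of_invariant` instantiated at `θ := theta1`,
`Γ := Gamma1pm M`. -/
theorem mem_F1_of_invariant (ι : Qb →+* ℂ) {M : ℕ} (hM : 2 ≤ M) (f : LaurentSeries Qb)
    (φ : HolH) (hf : HasQ ι f (φ : ℍ → ℂ)) (hinv : ∀ γ ∈ Gamma1 M, compSL γ φ = φ)
    (hmod : φ ∈ cuspMod) : f ∈ F1 M := by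
  have : NeZero M := ⟨by omega⟩
  have hθ : ∀ γ ∈ Gamma1pm M, ∀ a : A01 M, compSL γ (theta1 ι M hM a) = theta1 ι M hM a :=
    fun γ hγ a => PlaceFin.compSL_theta1_of_mem_Gamma1pm ι hM hγ a
  obtain ⟨c, hc⟩ := CosetG.exists_separating (Γ := Gamma1pm M) (theta1 ι M hM) hθ
    (genJ M M (dvd_refl M)) (genG M 1)
    (fun g h1 h2 => by
      rw [theta1_genJ] at h1
      rw [theta1_genG, Units.val_one] at h2
      exact Stab1.mem_pmGamma1_of_stab M hM g h1 h2)
  have hinv' : ∀ γ ∈ Gamma1pm M, compSL γ φ = φ := by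
    intro γ hγ
    rcases hγ with h | h
    · exact hinv γ h
    · rw [← PlaceFin.compSL_neg_holH]
      exact hinv _ h
  have hj : theta1 ι M hM (genJ M 1 (one_dvd M)) = Fermat.Agent.S24.JHol.jHol :=
    PlaceFin.theta1_of_coe_eq ι hM (genJ M 1 (one_dvd M) : F1 M) (PlaceFin.coe_genJ_one M)
  have hjtr : Transcendental Qb (qHom M (genJ M 1 (one_dvd M))) := by
    intro h
    exact PlaceFin.transcendental_of_coe_eq (genJ M 1 (one_dvd M) : F1 M)
      (PlaceFin.coe_genJ_one M)
      ((isAlgebraic_algHom_iff (F1 M).val Subtype.val_injective).mp h)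
  exact CosetG.mem_of_invariant (Γ := Gamma1pm M) ι (theta1 ι M hM) (qHom M)
    (fun a => hasQ_theta1 hM a) hθ (genJ M 1 (one_dvd M)) _ hj hjtr hc
    (GrowthG.theta1_mem_cuspMod ι hM _) (F1 M).toSubfield (fun a => (a : F1 M).2)
    (fun c => (F1 M).algebraMap_mem c) f φ hf hinv' hmod

end Fermat.Agent.S48.G1.F1.Invariant1Seam
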