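import Fermat.Agent.S48.G1.F1.Invariant1

set_option autoImplicit false
set_option linter.dupNamespace false

/-!
# PROGRAM DS (S48) / G1: level raising for the function fields `F1 M`

`F1 M ≤ F1 N` for `M ∣ N` (`2 ≤ M`, `N ≠ 0`).  This is NOT formal: the generator `gq M b` of
level `M` is not a generator of level `N`.  It holds by the dictionary (`mem_F1_of_invariant`):
`g_b` of level `M` is `Γ₁(N)`-invariant, of moderate growth at all cusps, with rational
`q`-expansion.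
-/

noncomputable section

open UpperHalfPlane ModularCurve CongruenceSubgroup IntermediateField
open scoped MatrixGroups

namespace Fermat.Agent.S48.G1.F1.LevelUp

open Fermat.Agent.S24.HolH Fermat.Agent.S24.Theta Fermat.Agent.S24.Degree
open Fermat.Agent.S48.G1.F1 Fermat.Agent.S48.G1.F1.Theta1

/-- `Γ₁(N) ≤ Γ₁(M)` for `M ∣ N`. -/
theorem Gamma1_le_of_dvd {M N : ℕ} (h : M ∣ N) : Gamma1 N ≤ Gamma1 M := by
  intro γ hγ
  rw [Gamma1_mem] at hγ ⊢
  obtain ⟨h1, h2, h3⟩ := hγ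
  have key : ∀ z : ℤ, ((z : ZMod N) = 1 → (z : ZMod M) = 1) ∧ ((z : ZMod N) = 0 → (z : ZMod M) = 0) := by
    intro z
    constructor
    · intro hz
      have h4 := congrArg (ZMod.castHom h (ZMod M)) hz
      rw [map_intCast, map_one] at h4
      exact h4
    · intro hz
      have h4 := congrArg (ZMod.castHom h (ZMod M)) hz
      rw [map_intCast, map_zero] at h4
      exact h4
  exact ⟨(key _).1 h1, (key _).1 h2, (key _).2 h3⟩

/-- The generator `gq M b` of level `M` lies in the function field of every level `N` divisible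
by `M`. -/
theorem gq_mem_F1_of_dvd (ι : Qb →+* ℂ) {M N : ℕ} (hM : 2 ≤ M) (h : M ∣ N) (hN : N ≠ 0)
    (b : (ZMod M)ˣ) : coeffEmb Qb (gq M (b : ZMod M)) ∈ F1 N := by
  have hN2 : 2 ≤ N := le_trans hM (Nat.le_of_dvd (Nat.pos_of_ne_zero hN) h)
  refine Invariant1.mem_F1_of_invariant ι hN2 _ (GHol.gHol M (b : ZMod M))
    (GHol.hasQ_gq_unit ι hM b) (fun γ hγ => ?_) (GrowthG.gHol_mem_cuspMod M (b : ZMod M))
  exact GHol.compSL_gHol_Gamma1 (b : ZMod M) (Gamma1_le_of_dvd h hγ)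

/-- **Level raising**: `F1 M ≤ F1 N` for `M ∣ N`, `2 ≤ M`, `N ≠ 0`. -/
theorem F1_le_of_dvd {M N : ℕ} (hM : 2 ≤ M) (h : M ∣ N) (hN : N ≠ 0) : F1 M ≤ F1 N := by
  rw [F1_eq_adjoin M, IntermediateField.adjoin_le_iff]
  intro y hy
  rcases mem_gens1_iff.mp hy with ⟨d, hd0, hdM, rfl⟩ | ⟨b, rfl⟩
  · have : coeffEmb Qb (qExpand ℚ d jq) ∈ gens1 N :=
      mem_gens1_iff.mpr (Or.inl ⟨d, hd0, hdM.trans h, rfl⟩)
    rw [F1_eq_adjoin N]
    exact IntermediateField.subset_adjoin Qb _ this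
  · exact gq_mem_F1_of_dvd Fermat.Agent.S24.Theta.iotaBar hM h hN b

/-- the form `F1 M ≤ F1 (M * r)`. -/
theorem F1_le_mul {M : ℕ} (hM : 2 ≤ M) {r : ℕ} (hr : r ≠ 0) : F1 M ≤ F1 (M * r) :=
  F1_le_of_dvd hM (dvd_mul_right M r) (Nat.mul_ne_zero (by omega) hr)

/-- the generators of level `M`, base-changed to `ℚ̄`, lie in `F1 (M * r)` (the `hmem` input of
the number-field form `laurentBaseChange E (F1Q M) ≤ laurentBaseChange E (F1Q (M * r))`). -/
theorem coeffEmb_gq_mem_F1_mul {M : ℕ} (hM : 2 ≤ M) {r : ℕ} (hr : r ≠ 0) (b : (ZMod M)ˣ) :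
    coeffEmb Qb (gq M (b : ZMod M)) ∈ F1 (M * r) :=
  gq_mem_F1_of_dvd Fermat.Agent.S24.Theta.iotaBar hM (dvd_mul_right M r)
    (Nat.mul_ne_zero (by omega) hr) b

end Fermat.Agent.S48.G1.F1.LevelUp

end
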