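import Fermat.Agent.S30.PlacePoint.Generic
import Fermat.Agent.S24.Generic.G3
import Fermat.Agent.S24.JHol
import Fermat.Agent.S24.HolHRot
import Fermat.Agent.S24.AdjoinShift

set_option autoImplicit false
set_option linter.dupNamespace false
set_option linter.style.haveILetI false

/-!
# DS / G1, area F, row F.5 (finite places): the place → point dictionary, GENERIC in the group

Twin of `S24/Modular/FinFibre.lean` (`ThetaData`, fibre count) and of
`S30/PlacePoint/Finite.lean` (place → point), with the congruence subgroup `Γ ≤ SL(2, ℤ)`, the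
constant field `K` (algebraically closed, embedded in `ℂ`) and the function field `F` as
PARAMETERS.  Nothing here mentions `Γ₀(N)` or a concrete function field.

* `ThetaDataG K Γ F jF` : analytic uniformisation data: a generating subalgebra `F₀ ⊆ F` with an
  injective ring hom `θ : F₀ → HolH`, `θ j = j`, invariant under `Γ`, with exact stabiliser `Γ`
  (so `-1 ∈ Γ`: for `Γ₁(M)` use `Γ := ±Γ₁(M)`).
* `card_fibre` : the number of places of `F` over `j = a` is the number of `⟨g⟩`-orbits on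
  `SL(2, ℤ) ⧸ Γ` (`g` a generator of the stabiliser of a point above `a` in `SL(2, ℤ)/±1`).
* `exists_point_of_place` : every place `v` of `F` at which `j` is regular is the place of a
  point `τ ∈ ℍ`: `ord_τ (θ f) = κ · ord_v f` for all `f ∈ F₀`, `κ` the order of the stabiliser of
  `τ` in `Γ/±1` (generated by `σ ∈ Γ`), and `κ · ord_v (j - a) = ord_τ (j - a)`.

The only non-formal inputs are `htr` (transcendence degree one), `hx0` (`j` transcendental) and
`hdeg : [F : K(j)] = [SL(2, ℤ) : Γ]`.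
-/

noncomputable section

namespace Fermat.Agent.S48.G1.PlaceFinGen

open AlgebraicCurve IntermediateField UpperHalfPlane
open Fermat.Agent.S24 Fermat.Agent.S24.HolH Fermat.Agent.S24.JHol Fermat.Agent.S24.JFun
open scoped MatrixGroups

/-! ### `-1` acts trivially -/

theorem neg_one_smul_uhp (τ : ℍ) : (-1 : SL(2, ℤ)) • τ = τ := by
  have := ModularGroup.SL_neg_smul (1 : SL(2, ℤ)) τ
  rwa [one_smul] at this

theorem compSL_neg_one_eq (φ : HolH) : compSL (-1 : SL(2, ℤ)) φ = φ := by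
  apply Subtype.ext
  funext τ
  rw [compSL_apply, neg_one_smul_uhp]

theorem neg_one_smul_quot {Γ : Subgroup SL(2, ℤ)} (hneg : (-1 : SL(2, ℤ)) ∈ Γ)
    (i : SL(2, ℤ) ⧸ Γ) : (-1 : SL(2, ℤ)) • i = i := by
  induction i using QuotientGroup.induction_on with
  | H γ =>
    rw [MulAction.Quotient.smul_mk, smul_eq_mul]
    refine QuotientGroup.eq.mpr ?_
    have h : (-1 * γ)⁻¹ * γ = (-1 : SL(2, ℤ)) := by
      rw [mul_inv_rev, mul_assoc]
      have h2 : (-1 : SL(2, ℤ))⁻¹ * γ = γ * (-1) := by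
        have h3 : (-1 : SL(2, ℤ))⁻¹ = -1 := by decide
        rw [h3]
        ext i j
        simp
      rw [h2, ← mul_assoc, inv_mul_cancel, one_mul]
    rw [h]
    exact hneg

theorem ST_pow_three_eq : (ModularGroup.S * ModularGroup.T) ^ 3 = (-1 : SL(2, ℤ)) := by decide

theorem S_pow_two_eq : ModularGroup.S ^ 2 = (-1 : SL(2, ℤ)) := by decide

/-! ### Uniformisation data -/

/-- Analytic uniformisation data for a function field `F` over `K` with a distinguished element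
`jF`: a generating subalgebra `F₀` together with an injective ring hom `θ` to holomorphic
functions on `ℍ`, sending `jF` to `j`, with exact stabiliser `Γ`. -/
structure ThetaDataG (K : Type) [Field K] (Γ : Subgroup SL(2, ℤ)) (F : Type) [Field F]
    [Algebra K F] (jF : F) where
  /-- the generating subalgebra -/
  F₀ : Subalgebra K F
  hF₀ : ∀ f : F, ∃ a b : F₀, (b : F) ≠ 0 ∧ f * b = a
  hj : jF ∈ F₀
  /-- the embedding of the constants -/
  emb : K →+* ℂ
  /-- the analytic avatar -/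
  θ : F₀ →+* HolH
  θ_inj : Function.Injective θ
  θ_const : ∀ c : K, θ (algebraMap K F₀ c) = algebraMap ℂ HolH (emb c)
  θ_j : θ ⟨jF, hj⟩ = jHol
  θ_inv : ∀ g ∈ Γ, ∀ f : F₀, compSL g (θ f) = θ f
  θ_stab : ∀ g : SL(2, ℤ), (∀ f : F₀, compSL g (θ f) = θ f) → g ∈ Γ

namespace ThetaDataG

variable {K : Type} [Field K] {Γ : Subgroup SL(2, ℤ)} {F : Type} [Field F] [Algebra K F]
  {jF : F} (D : ThetaDataG K Γ F jF)

/-- The exact stabiliser contains `-1`. -/
theorem neg_one_mem (D : ThetaDataG K Γ F jF) : (-1 : SL(2, ℤ)) ∈ Γ :=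
  D.θ_stab _ fun f => compSL_neg_one_eq (D.θ f)

/-- The embedding attached to a left coset `γ Γ`: `f ↦ θ f ∘ γ⁻¹`. -/
def ρ (i : SL(2, ℤ) ⧸ Γ) : D.F₀ →+* HolH :=
  ((compSL (Quotient.out i)⁻¹ : HolH →ₐ[ℂ] HolH) : HolH →+* HolH).comp D.θ

theorem ρ_apply (i : SL(2, ℤ) ⧸ Γ) (f : D.F₀) :
    D.ρ i f = compSL (Quotient.out i)⁻¹ (D.θ f) := rfl

theorem ρ_mk (γ : SL(2, ℤ)) (f : D.F₀) :
    D.ρ (QuotientGroup.mk γ) f = compSL γ⁻¹ (D.θ f) := by
  rw [ρ_apply]
  set γ' := Quotient.out (QuotientGroup.mk γ : SL(2, ℤ) ⧸ Γ) with hγ'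
  have h1 : (QuotientGroup.mk γ' : SL(2, ℤ) ⧸ Γ) = QuotientGroup.mk γ :=
    QuotientGroup.out_eq' _
  have h2 : γ'⁻¹ * γ ∈ Γ := QuotientGroup.eq.mp h1
  have h3 : γ'⁻¹ = (γ'⁻¹ * γ) * γ⁻¹ := by group
  rw [h3, compSL_mul, D.θ_inv _ h2]

theorem ρ_smul (g : SL(2, ℤ)) (i : SL(2, ℤ) ⧸ Γ) (f : D.F₀) :
    D.ρ (g • i) f = compSL g⁻¹ (D.ρ i f) := by
  induction i using QuotientGroup.induction_on with
  | H γ =>
    rw [MulAction.Quotient.smul_mk, ρ_mk, ρ_mk, smul_eq_mul, mul_inv_rev, compSL_mul]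

theorem ρ_injective (i : SL(2, ℤ) ⧸ Γ) : Function.Injective (D.ρ i) :=
  (compSL_injective _).comp D.θ_inj

theorem ρ_ne : Function.Injective D.ρ := by
  intro i i' h
  induction i using QuotientGroup.induction_on with
  | H γ =>
    induction i' using QuotientGroup.induction_on with
    | H γ' =>
      refine (QuotientGroup.eq.mpr ?_)
      refine D.θ_stab _ fun f => ?_
      have h1 : D.ρ (QuotientGroup.mk γ) f = D.ρ (QuotientGroup.mk γ') f := by rw [h]
      rw [ρ_mk, ρ_mk] at h1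
      have h2 := congrArg (compSL γ') h1
      rw [compSL_compSL_inv, ← compSL_mul] at h2
      exact h2

theorem ρ_const (i : SL(2, ℤ) ⧸ Γ) (c : K) :
    D.ρ i (algebraMap K D.F₀ c) = algebraMap ℂ HolH (D.emb c) := by
  rw [ρ_apply, D.θ_const, AlgHom.commutes]

/-- The element `j - a` of `F₀`. -/
def num (a : K) : D.F₀ :=
  ⟨jF - algebraMap K F a, sub_mem D.hj (Subalgebra.algebraMap_mem _ a)⟩

theorem coe_num (a : K) : ((D.num a : D.F₀) : F) = jF - algebraMap K F a := rfl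

theorem θ_num (a : K) : D.θ (D.num a) = jHol - algebraMap ℂ HolH (D.emb a) := by
  have h : D.num a = ⟨jF, D.hj⟩ - algebraMap K D.F₀ a := rfl
  rw [h, map_sub, D.θ_j, D.θ_const]

theorem ρ_num (i : SL(2, ℤ) ⧸ Γ) (a : K) :
    D.ρ i (D.num a) = jHol - algebraMap ℂ HolH (D.emb a) := by
  rw [ρ_apply, θ_num, compSL_jHol_sub]

theorem num_ne_zero (hx0 : Transcendental K jF) (a : K) : D.num a ≠ 0 := by
  intro h
  have h1 : jF - algebraMap K F a = 0 := by
    have h2 := congrArg (fun f : D.F₀ => (f : F)) h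
    simpa [coe_num] using h2
  apply hx0
  rw [sub_eq_zero.mp h1]
  exact isAlgebraic_algebraMap a

theorem charZero (D : ThetaDataG K Γ F jF) : CharZero K :=
  (RingHom.charZero_iff D.emb.injective).mpr inferInstance

end ThetaDataG

variable {K : Type} [Field K] [IsAlgClosed K] {Γ : Subgroup SL(2, ℤ)} [Finite (SL(2, ℤ) ⧸ Γ)]
  {F : Type} [Field F] [Algebra K F] [Algebra.EssFiniteType K F] {jF : F}

/-- **Generic fibre count** over a finite point `j = a`: the number of places of `F` over `a`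
equals the number of `⟨g⟩`-orbits on `SL(2,ℤ) ⧸ Γ`, where `g` fixes a point `τ0` above `a` at
which `j - a` vanishes to order `s`, `g`-invariant functions have order divisible by `s` at
`τ0`, and non-fixed cosets have period divisible by `s`. -/
theorem card_fibre (D : ThetaDataG K Γ F jF) (htr : Algebra.trdeg K F = 1)
    (hx0 : Transcendental K jF)
    (hdeg : Module.finrank K⟮jF⟯ F = Nat.card (SL(2, ℤ) ⧸ Γ))
    (a : K) (τ0 : ℍ) (g : SL(2, ℤ)) (s : ℕ) (hs : 0 < s)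
    (hord : ordZ τ0 (jHol - algebraMap ℂ HolH (D.emb a)) = s)
    (hfix : g • τ0 = τ0)
    (hrot : ∀ f : HolH, f ≠ 0 → compSL g f = f → (s : ℤ) ∣ ordZ τ0 f)
    (hper : ∀ i : SL(2, ℤ) ⧸ Γ, g • i ≠ i → s ∣ Function.minimalPeriod (g • ·) i) :
    Nat.card {v : Place K F // 0 < v.ord (jF - algebraMap K F a)}
      = Nat.card (MulAction.orbitRel.Quotient (Subgroup.zpowers g) (SL(2, ℤ) ⧸ Γ)) := by
  classical
  haveI : CharZero K := D.charZero
  letI : Fintype (SL(2, ℤ) ⧸ Γ) := Fintype.ofFinite _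
  have hx := Fermat.Agent.S24.AdjoinShift.transcendental_sub_algebraMap hx0 a
  have hfin0 : FiniteDimensional K⟮jF⟯ F := Fermat.Agent.S24.FF.finite_adjoin_simple htr hx0
  have hfin := Fermat.Agent.S24.AdjoinShift.finiteDimensional_sub_algebraMap jF a hfin0
  have hginv : g⁻¹ • τ0 = τ0 := by
    conv_lhs => rw [← hfix]
    rw [inv_smul_smul]
  refine Generic.card_zeroPlaces_eq_card_orbits htr (jF - algebraMap K F a) hx hfin
    D.F₀ D.hF₀ (D.num a) 1 one_ne_zero (by simp [ThetaDataG.coe_num]) (ordZ τ0)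
    (fun a b ha hb => ordZ_mul τ0 ha hb) (fun a b ha hb hab => min_le_ordZ_add τ0 ha hb hab)
    D.ρ D.ρ_injective D.ρ_ne ?_ ?_ ?_ ?_ ?_ s hs ?_ g ?_ ?_
  · rw [Fermat.Agent.S24.AdjoinShift.finrank_sub_algebraMap, hdeg, Nat.card_eq_fintype_card]
  · intro i j c
    rw [D.ρ_const, D.ρ_const]
  · intro i j
    rw [D.ρ_num, D.ρ_num]
  · intro i j
    rw [map_one, map_one]
  · intro i c hc
    rw [D.ρ_const]
    exact ordZ_algebraMap ((map_ne_zero_iff _ D.emb.injective).mpr hc)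
  · intro i
    rw [D.ρ_num, map_one, ordZ_one, hord, sub_zero]
  · intro i f
    rw [D.ρ_smul, ordZ_compSL, hginv]
  · intro i f hf
    have hf0 : D.ρ i f ≠ 0 := (map_ne_zero_iff _ (D.ρ_injective i)).mpr hf
    by_cases hi : g • i = i
    · have h1 : compSL g⁻¹ (D.ρ i f) = D.ρ i f := by rw [← D.ρ_smul, hi]
      have h2 : compSL g (D.ρ i f) = D.ρ i f := compSL_eq_self_of_inv h1
      exact Dvd.dvd.mul_right (hrot _ hf0 h2) _
    · have h1 : (s : ℤ) ∣ (Function.minimalPeriod (g • ·) i : ℤ) := by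
        exact_mod_cast hper i hi
      exact Dvd.dvd.mul_left h1 _

/-- Generic place → coset dictionary over a finite point `j = a`: every place over `a` is
induced by a coset embedding `ρ i`, with ramification index the size of the `⟨g⟩`-orbit of
`i`. -/
theorem exists_coset (D : ThetaDataG K Γ F jF) (htr : Algebra.trdeg K F = 1)
    (hx0 : Transcendental K jF)
    (hdeg : Module.finrank K⟮jF⟯ F = Nat.card (SL(2, ℤ) ⧸ Γ))
    (a : K) (τ0 : ℍ) (g : SL(2, ℤ)) (s : ℕ) (hs : 0 < s)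
    (hord : ordZ τ0 (jHol - algebraMap ℂ HolH (D.emb a)) = s)
    (hfix : g • τ0 = τ0)
    (hrot : ∀ f : HolH, f ≠ 0 → compSL g f = f → (s : ℤ) ∣ ordZ τ0 f)
    (hper : ∀ i : SL(2, ℤ) ⧸ Γ, g • i ≠ i → s ∣ Function.minimalPeriod (g • ·) i)
    (v : Place K F) (hv : 0 < v.ord (jF - algebraMap K F a)) :
    ∃ (i : SL(2, ℤ) ⧸ Γ) (κ : ℤ), 0 < κ ∧
      (∀ f : D.F₀, f ≠ 0 → ordZ τ0 (D.ρ i f) = κ * v.ord (f : F)) ∧
      v.ord (jF - algebraMap K F a) = (Function.minimalPeriod (g • ·) i : ℤ) := by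
  classical
  haveI : CharZero K := D.charZero
  letI : Fintype (SL(2, ℤ) ⧸ Γ) := Fintype.ofFinite _
  have hx := Fermat.Agent.S24.AdjoinShift.transcendental_sub_algebraMap hx0 a
  have hfin0 : FiniteDimensional K⟮jF⟯ F := Fermat.Agent.S24.FF.finite_adjoin_simple htr hx0
  have hfin := Fermat.Agent.S24.AdjoinShift.finiteDimensional_sub_algebraMap jF a hfin0
  have hginv : g⁻¹ • τ0 = τ0 := by
    conv_lhs => rw [← hfix]
    rw [inv_smul_smul]
  have hxnd : (jF - algebraMap K F a) * ((1 : D.F₀) : F) = (D.num a : F) := by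
    simp [ThetaDataG.coe_num]
  have hmul : ∀ a b : HolH, a ≠ 0 → b ≠ 0 → ordZ τ0 (a * b) = ordZ τ0 a + ordZ τ0 b :=
    fun a b ha hb => ordZ_mul τ0 ha hb
  have hadd : ∀ a b : HolH, a ≠ 0 → b ≠ 0 → a + b ≠ 0 →
      min (ordZ τ0 a) (ordZ τ0 b) ≤ ordZ τ0 (a + b) :=
    fun a b ha hb hab => min_le_ordZ_add τ0 ha hb hab
  have hcard : Fintype.card (SL(2, ℤ) ⧸ Γ)
      = Module.finrank K⟮jF - algebraMap K F a⟯ F := by
    rw [Fermat.Agent.S24.AdjoinShift.finrank_sub_algebraMap, hdeg, Nat.card_eq_fintype_card]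
  have hK : ∀ i j (c : K), D.ρ i (algebraMap K D.F₀ c) = D.ρ j (algebraMap K D.F₀ c) := by
    intro i j c
    rw [D.ρ_const, D.ρ_const]
  have hnum : ∀ i j, D.ρ i (D.num a) = D.ρ j (D.num a) := by
    intro i j
    rw [D.ρ_num, D.ρ_num]
  have hden' : ∀ i j, D.ρ i (1 : D.F₀) = D.ρ j 1 := by
    intro i j
    rw [map_one, map_one]
  have hconst : ∀ i (c : K), c ≠ 0 → ordZ τ0 (D.ρ i (algebraMap K D.F₀ c)) = 0 := by
    intro i c hc
    rw [D.ρ_const]
    exact ordZ_algebraMap ((map_ne_zero_iff _ D.emb.injective).mpr hc)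
  have hxs : ∀ i, ordZ τ0 (D.ρ i (D.num a)) - ordZ τ0 (D.ρ i (1 : D.F₀)) = s := by
    intro i
    rw [D.ρ_num, map_one, ordZ_one, hord, sub_zero]
  have hg : ∀ i (f : D.F₀), ordZ τ0 (D.ρ (g • i) f) = ordZ τ0 (D.ρ i f) := by
    intro i f
    rw [D.ρ_smul, ordZ_compSL, hginv]
  have hdiv : ∀ i (f : D.F₀), f ≠ 0 →
      (s : ℤ) ∣ ordZ τ0 (D.ρ i f) * (Function.minimalPeriod (g • ·) i : ℤ) := by
    intro i f hf
    have hf0 : D.ρ i f ≠ 0 := (map_ne_zero_iff _ (D.ρ_injective i)).mpr hf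
    by_cases hi : g • i = i
    · have h1 : compSL g⁻¹ (D.ρ i f) = D.ρ i f := by rw [← D.ρ_smul, hi]
      have h2 : compSL g (D.ρ i f) = D.ρ i f := compSL_eq_self_of_inv h1
      exact Dvd.dvd.mul_right (hrot _ hf0 h2) _
    · have h1 : (s : ℤ) ∣ (Function.minimalPeriod (g • ·) i : ℤ) := by
        exact_mod_cast hper i hi
      exact Dvd.dvd.mul_left h1 _
  have hxpos : ∀ i, ordZ τ0 (D.ρ i (1 : D.F₀)) < ordZ τ0 (D.ρ i (D.num a)) := by
    intro i
    have := hxs i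
    have hs' : (0 : ℤ) < s := by exact_mod_cast hs
    omega
  obtain ⟨i, κ, hκ, hi⟩ := Fermat.Agent.S30.PlacePoint.exists_emb
    (jF - algebraMap K F a) hx hfin
    D.F₀ D.hF₀ (D.num a) 1 one_ne_zero hxnd (ordZ τ0) hmul hadd
    D.ρ D.ρ_injective D.ρ_ne hcard hK hnum hden' hconst hxpos v hv
  refine ⟨i, κ, hκ, hi, ?_⟩
  exact Fermat.Agent.S30.PlacePoint.ord_eq_minimalPeriod htr (jF - algebraMap K F a) hx hfin
    D.F₀ D.hF₀ (D.num a) 1 one_ne_zero hxnd (ordZ τ0) hmul hadd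
    D.ρ D.ρ_injective D.ρ_ne hcard hK hnum hden' hconst s hs hxs g hg hdiv v i κ hκ hi

/-- Place → point over a finite point `j = a` with local data `(τ0, g, s)` where every coset has
`⟨g⟩`-period `1` or `s`. -/
theorem exists_point_of_data (D : ThetaDataG K Γ F jF) (htr : Algebra.trdeg K F = 1)
    (hx0 : Transcendental K jF)
    (hdeg : Module.finrank K⟮jF⟯ F = Nat.card (SL(2, ℤ) ⧸ Γ))
    (a : K) (τ0 : ℍ) (g : SL(2, ℤ)) (s : ℕ) (hs : 0 < s)
    (hord : ordZ τ0 (jHol - algebraMap ℂ HolH (D.emb a)) = s)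
    (hfix : g • τ0 = τ0)
    (hrot : ∀ f : HolH, f ≠ 0 → compSL g f = f → (s : ℤ) ∣ ordZ τ0 f)
    (hm : ∀ i : SL(2, ℤ) ⧸ Γ, Function.minimalPeriod (g • ·) i = 1 ∨
      Function.minimalPeriod (g • ·) i = s)
    (v : Place K F) (hv : 0 < v.ord (jF - algebraMap K F a)) :
    ∃ (τ : ℍ) (κ : ℕ) (σ : SL(2, ℤ)), jFun τ = D.emb a ∧ 0 < κ ∧ σ ∈ Γ ∧ σ • τ = τ ∧
      (∀ f : D.F₀, f ≠ 0 → ordZ τ (D.θ f) = κ * v.ord (f : F)) ∧
      (∀ H : HolH, H ≠ 0 → compSL σ H = H → (κ : ℤ) ∣ ordZ τ H) ∧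
      (κ : ℤ) * v.ord (jF - algebraMap K F a) = s := by
  have hper : ∀ i : SL(2, ℤ) ⧸ Γ, g • i ≠ i → s ∣ Function.minimalPeriod (g • ·) i := by
    intro i hi
    rcases hm i with h1 | h1
    · exact absurd (Function.minimalPeriod_eq_one_iff_isFixedPt.mp h1) hi
    · rw [h1]
  obtain ⟨i, κ, hκ, hi, hvm⟩ :=
    exists_coset D htr hx0 hdeg a τ0 g s hs hord hfix hrot hper v hv
  set γ : SL(2, ℤ) := Quotient.out i with hγ
  have hs' : (0 : ℤ) < s := by exact_mod_cast hs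
  -- the point
  have hτ : ∀ f : D.F₀, ordZ τ0 (D.ρ i f) = ordZ (γ⁻¹ • τ0) (D.θ f) := by
    intro f
    rw [D.ρ_apply, ordZ_compSL]
  have hjτ0 : jFun τ0 = D.emb a := by
    have h0 : (0 : ℤ) < ordZ τ0 (jHol - algebraMap ℂ HolH (D.emb a)) := by rw [hord]; exact hs'
    have h1 := (ordZ_pos_iff (jHol_sub_ne_zero (D.emb a))).mp h0
    rw [jHol_sub_apply] at h1
    exact sub_eq_zero.mp h1
  have hjτ : jFun (γ⁻¹ • τ0) = D.emb a := by rw [jFun_smul, hjτ0]
  -- the product formula `κ * period = s`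
  have hnum0 : D.num a ≠ 0 := D.num_ne_zero hx0 a
  have hprod : κ * v.ord (jF - algebraMap K F a) = s := by
    have h1 := hi (D.num a) hnum0
    rw [D.ρ_num, hord] at h1
    exact h1.symm
  rcases hm i with h1 | h1
  · -- fixed coset: `κ = s`, the stabiliser is generated by `γ⁻¹ g γ`
    rw [hvm, h1] at hprod
    have hκs : κ = s := by simpa using hprod
    have hgi : g • i = i := Function.minimalPeriod_eq_one_iff_isFixedPt.mp h1
    have hmem : γ⁻¹ * g * γ ∈ Γ := by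
      have h2 : (QuotientGroup.mk γ : SL(2, ℤ) ⧸ Γ) = i := QuotientGroup.out_eq' i
      have h3 : (QuotientGroup.mk (g * γ) : SL(2, ℤ) ⧸ Γ) = QuotientGroup.mk γ := by
        rw [← smul_eq_mul, ← MulAction.Quotient.smul_mk, h2, hgi]
      have h4 : (g * γ)⁻¹ * γ ∈ Γ := QuotientGroup.eq.mp h3
      have h5 : γ⁻¹ * g * γ = ((g * γ)⁻¹ * γ)⁻¹ := by group
      rw [h5]
      exact inv_mem h4
    refine ⟨γ⁻¹ • τ0, s, γ⁻¹ * g * γ, hjτ, hs, hmem, ?_, ?_, ?_, ?_⟩
    · rw [mul_smul, mul_smul, smul_inv_smul, hfix]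
    · intro f hf
      rw [← hτ f, hi f hf, hκs]
    · intro H hH hinv
      have h2 : compSL g (compSL γ⁻¹ H) = compSL γ⁻¹ H := by
        have h3 : compSL (γ⁻¹ * g * γ) H = compSL γ (compSL g (compSL γ⁻¹ H)) := by
          rw [compSL_mul, compSL_mul]
        rw [h3] at hinv
        have h4 := congrArg (compSL γ⁻¹) hinv
        rw [compSL_inv_compSL] at h4
        exact h4
      have h5 : compSL γ⁻¹ H ≠ 0 := (map_ne_zero_iff _ (compSL_injective γ⁻¹)).mpr hH
      have h6 := hrot _ h5 h2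
      rw [ordZ_compSL] at h6
      exact h6
    · rw [hvm, h1]
      simp
  · -- free orbit: `κ = 1`
    rw [hvm, h1] at hprod
    have hκ1 : κ = 1 := by
      have h2 : κ * (s : ℤ) = 1 * s := by rw [one_mul]; exact hprod
      exact mul_right_cancel₀ hs'.ne' h2
    refine ⟨γ⁻¹ • τ0, 1, 1, hjτ, one_pos, one_mem _, one_smul _ _, ?_, ?_, ?_⟩
    · intro f hf
      rw [← hτ f, hi f hf, hκ1]
      simp
    · intro H _ _
      exact one_dvd _
    · rw [hvm, h1]
      simp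

omit [IsAlgClosed K] [Finite (SL(2, ℤ) ⧸ Γ)] in
/-- Periods of an element whose `p`-th power acts trivially (`p` prime) are `1` or `p`. -/
theorem minimalPeriod_eq_one_or_of_pow_smul (g : SL(2, ℤ)) (p : ℕ) (hp : p.Prime)
    (hg : ∀ i : SL(2, ℤ) ⧸ Γ, g ^ p • i = i) (i : SL(2, ℤ) ⧸ Γ) :
    Function.minimalPeriod (g • ·) i = 1 ∨ Function.minimalPeriod (g • ·) i = p := by
  have hper : Function.IsPeriodicPt (g • ·) p i := by
    have h := hg i
    show (g • ·)^[p] i = i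
    rw [smul_iterate]
    exact h
  exact (Nat.dvd_prime hp).mp hper.minimalPeriod_dvd

/-- **Place → point dictionary (finite places), generic in the group.**  Every place `v` of `F`
at which `j` is regular is the place of a point `τ ∈ ℍ`: with `a = j(τ) ∈ K`, `κ` the order of
the stabiliser of `τ` in `Γ/±1` (generated by `σ`), the order of `θ f` at `τ` is `κ · ord_v f`
for all `f ∈ F₀`; and `κ · ord_v (j - a) = ord_τ (j - a)`. -/
theorem exists_point_of_place (D : ThetaDataG K Γ F jF) (htr : Algebra.trdeg K F = 1)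
    (hx0 : Transcendental K jF)
    (hdeg : Module.finrank K⟮jF⟯ F = Nat.card (SL(2, ℤ) ⧸ Γ))
    (v : Place K F) (hv : 0 ≤ v.ord jF) :
    ∃ (a : K) (τ : ℍ) (κ : ℕ) (σ : SL(2, ℤ)),
      0 < v.ord (jF - algebraMap K F a) ∧ jFun τ = D.emb a ∧
      0 < κ ∧ σ ∈ Γ ∧ σ • τ = τ ∧
      (∀ f : D.F₀, f ≠ 0 → ordZ τ (D.θ f) = κ * v.ord (f : F)) ∧
      (∀ H : HolH, H ≠ 0 → compSL σ H = H → (κ : ℤ) ∣ ordZ τ H) ∧
      (κ : ℤ) * v.ord (jF - algebraMap K F a)
        = ordZ τ (jHol - algebraMap ℂ HolH (D.emb a)) := by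
  have hj0 : jF ≠ 0 := fun h => hx0 (h ▸ isAlgebraic_zero)
  have hmem : jF ∈ v.toValuationSubring := (FF.ord_nonneg_iff v hj0).mp hv
  obtain ⟨a, ha⟩ := FF.exists_residue htr v hmem
  have hva : 0 < v.ord (jF - algebraMap K F a) := by
    rcases ha with ha | ha
    · exfalso
      apply hx0
      rw [ha]
      exact isAlgebraic_algebraMap a
    · exact ha
  have hneg := D.neg_one_mem
  have key : ∀ (τ0 : ℍ) (g : SL(2, ℤ)) (s : ℕ), 0 < s →
      ordZ τ0 (jHol - algebraMap ℂ HolH (D.emb a)) = s → g • τ0 = τ0 →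
      (∀ f : HolH, f ≠ 0 → compSL g f = f → (s : ℤ) ∣ ordZ τ0 f) →
      (∀ i : SL(2, ℤ) ⧸ Γ, Function.minimalPeriod (g • ·) i = 1 ∨
        Function.minimalPeriod (g • ·) i = s) →
      ∃ (a : K) (τ : ℍ) (κ : ℕ) (σ : SL(2, ℤ)),
      0 < v.ord (jF - algebraMap K F a) ∧ jFun τ = D.emb a ∧
      0 < κ ∧ σ ∈ Γ ∧ σ • τ = τ ∧
      (∀ f : D.F₀, f ≠ 0 → ordZ τ (D.θ f) = κ * v.ord (f : F)) ∧
      (∀ H : HolH, H ≠ 0 → compSL σ H = H → (κ : ℤ) ∣ ordZ τ H) ∧
      (κ : ℤ) * v.ord (jF - algebraMap K F a)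
        = ordZ τ (jHol - algebraMap ℂ HolH (D.emb a)) := by
    intro τ0 g s hs hord hfix hrot hm
    obtain ⟨τ, κ, σ, hjτ, hκ, hσ, hστ, hf, hH, hprod⟩ :=
      exists_point_of_data D htr hx0 hdeg a τ0 g s hs hord hfix hrot hm v hva
    refine ⟨a, τ, κ, σ, hva, hjτ, hκ, hσ, hστ, hf, hH, ?_⟩
    have h2 := hf (D.num a) (D.num_ne_zero hx0 a)
    rw [D.θ_num] at h2
    exact h2.symm
  by_cases h0 : a = 0
  · subst h0
    have hord : ordZ rho (jHol - algebraMap ℂ HolH (D.emb 0)) = ((3 : ℕ) : ℤ) := by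
      rw [map_zero]
      exact ordZ_jHol_sub_zero_rho
    exact key rho (ModularGroup.S * ModularGroup.T) 3 (by norm_num) hord ST_smul_rho
      (fun f hf hinv => three_dvd_ordZ_of_ST_fixed ST_smul_rho hf hinv)
      (minimalPeriod_eq_one_or_of_pow_smul _ 3 Nat.prime_three
        (fun i => by rw [ST_pow_three_eq]; exact neg_one_smul_quot hneg i))
  by_cases h1 : a = 1728
  · subst h1
    have hord : ordZ UpperHalfPlane.I (jHol - algebraMap ℂ HolH (D.emb 1728))
        = ((2 : ℕ) : ℤ) := by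
      rw [map_ofNat]
      exact ordZ_jHol_sub_I
    exact key UpperHalfPlane.I ModularGroup.S 2 (by norm_num) hord S_smul_I
      (fun f hf hinv => two_dvd_ordZ_of_S_fixed S_smul_I hf hinv)
      (minimalPeriod_eq_one_or_of_pow_smul _ 2 Nat.prime_two
        (fun i => by rw [S_pow_two_eq]; exact neg_one_smul_quot hneg i))
  · have hc0 : D.emb a ≠ 0 := (map_ne_zero D.emb).mpr h0
    have hc1 : D.emb a ≠ 1728 := by
      intro h
      apply h1
      apply D.emb.injective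
      rw [h, map_ofNat]
    obtain ⟨τ0, -, hτ0⟩ := exists_ordZ_jHol_sub_eq_one hc0 hc1
    exact key τ0 (1 : SL(2, ℤ)) 1 one_pos (by rw [hτ0]; rfl) (one_smul _ _)
      (fun f _ _ => one_dvd _)
      (fun i => Or.inl (Function.minimalPeriod_eq_one_iff_isFixedPt.mpr (one_smul _ i)))

end Fermat.Agent.S48.G1.PlaceFinGen
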